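import Fermat.Agent.TWGal.Local

/-!
# The tame relation for residually unipotent representations
-/

set_option autoImplicit false
set_option maxHeartbeats 400000

namespace Fermat.Agent.RT6

open IsLocalRing Matrix Fermat.Agent.DefRing Fermat.Agent.GalRep Fermat.Agent.TWGal

local notation "Qbar" => AlgebraicClosure ℚ

variable {A : ValuationSubring Qbar} {p q : ℕ}

/-- the tame relation on all of inertia -/
theorem conj_frob_all (hq : q.Prime) (hA : A.LiesOverPrime q) (hp : p.Prime) (hpq : p ≠ q)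
    {P : Type*} [Group P] (ρ : GQ →* P)
    (K : IntermediateField ℚ Qbar) [FiniteDimensional ℚ K]
    (hK : ∀ σ : GQ, (∀ x ∈ K, σ x = x) → ρ σ = 1)
    (hpp : ∀ σ ∈ A.inertiaSubgroupIn ℚ, ∃ k : ℕ, ρ σ ^ (p ^ k) = 1)
    {φ σ : GQ} (hφ : A.IsFrobeniusAt φ q) (hσ : σ ∈ A.inertiaSubgroupIn ℚ) :
    ρ (φ * σ * φ⁻¹) = ρ σ ^ q := by
  obtain ⟨σ₀, hσI, hσ₀⟩ := TWGal.exists_inertia_moving hq hA hp hpq
  obtain ⟨j, hj⟩ := mem_zpowers_inertia hq hA hp hpq (ρ.comp (A.inertiaSubgroupIn ℚ).subtype) K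
    (fun τ hτ => hK τ.1 hτ) (fun τ => hpp τ.1 τ.2) (σ₀ := ⟨σ₀, hσI⟩) hσ₀ ⟨σ, hσ⟩
  have hj' : ρ σ₀ ^ j = ρ σ := hj
  have h1 := conj_frob hq hA hp hpq ρ K hK hpp hφ hσI hσ₀
  have h2 : ρ (φ * σ * φ⁻¹) = (ρ (φ * σ₀ * φ⁻¹)) ^ j := by
    rw [map_mul, map_mul, map_inv, ← hj', map_mul, map_mul, map_inv, conj_zpow]
  rw [h2, h1, ← hj', ← zpow_natCast, ← zpow_natCast, ← _root_.zpow_mul, ← _root_.zpow_mul, mul_comm]

section

variable {R : Type} [CommRing R]

/-- `(1 + N)^k ≡ 1 + k N` modulo an ideal containing the entries of `N²` -/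
theorem pow_sub_mem {I : Ideal R} {M : Matrix (Fin 2) (Fin 2) R}
    (hM : ∀ i j, ((M - 1) * (M - 1)) i j ∈ I) (k : ℕ) (i j : Fin 2) :
    (M ^ k - (1 + (k : R) • (M - 1))) i j ∈ I := by
  induction k generalizing i j with
  | zero => simp
  | succ k ih =>
    have e : M ^ (k + 1) - (1 + ((k + 1 : ℕ) : R) • (M - 1)) =
        (M ^ k - (1 + (k : R) • (M - 1))) * M + (k : R) • ((M - 1) * (M - 1)) := by
      have h1 : (M - 1) * (M - 1) = M * M - M - M + 1 := by noncomm_ring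
      have h2 : (M ^ k - (1 + (k : R) • (M - 1))) * M =
          M ^ k * M - M - (k : R) • (M * M) + (k : R) • M := by
        rw [sub_mul, add_mul, one_mul, Matrix.smul_mul, sub_mul, one_mul, smul_sub]
        abel
      rw [pow_succ, h1, h2]
      push_cast
      module
    rw [e, Matrix.add_apply, Matrix.smul_apply, smul_eq_mul]
    exact add_mem (mat_mul_right_mem ih M i j) (Ideal.mul_mem_left _ _ (hM i j))

theorem pow_p_mem {I : Ideal R} (hp : (p : R) ∈ I) {M : Matrix (Fin 2) (Fin 2) R}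
    (hM : ∀ i j, ((M - 1) * (M - 1)) i j ∈ I) (i j : Fin 2) : (M ^ p - 1) i j ∈ I := by
  have h := pow_sub_mem hM p i j
  have e : M ^ p - 1 = (M ^ p - (1 + (p : R) • (M - 1))) + (p : R) • (M - 1) := by abel
  rw [e, Matrix.add_apply, Matrix.smul_apply, smul_eq_mul]
  exact add_mem h (Ideal.mul_mem_right _ _ hp)

end

variable {R : Type} [CommRing R] [IsLocalRing R] {T : GQ →* Matrix (Fin 2) (Fin 2) R}

/-- **the tame relation for residually unipotent representations** -/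
theorem tame_rel_unip [IsHausdorff (maximalIdeal R) R] (hT : MatCont T) (hq : q.Prime)
    (hA : A.LiesOverPrime q) (hp : p.Prime) (hpq : p ≠ q) (hpR : (p : R) ∈ maximalIdeal R)
    (hI : ∀ σ ∈ A.inertiaSubgroupIn ℚ, ∀ i j, ((T σ - 1) * (T σ - 1)) i j ∈ maximalIdeal R)
    {φ σ : GQ} (hφ : A.IsFrobeniusAt φ q) (hσ : σ ∈ A.inertiaSubgroupIn ℚ) :
    T (φ * σ * φ⁻¹) = T σ ^ q := by
  ext i j
  rw [← sub_eq_zero]
  refine IsHausdorff.haus (inferInstance : IsHausdorff (maximalIdeal R) R) _ fun n => ?_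
  rw [SModEq.zero, smul_eq_mul, Ideal.mul_top]
  obtain ⟨K, hK, hK2⟩ := quoRep_kernel hT n
  have hpp : ∀ σ ∈ A.inertiaSubgroupIn ℚ, ∃ k : ℕ, quoRep T n σ ^ (p ^ k) = 1 := by
    intro τ hτ
    obtain ⟨k, hk⟩ := quoRep_p_power (T := T) hpR (σ := τ ^ p) (fun i j => by
      rw [map_pow]
      exact pow_p_mem hpR (hI τ hτ) i j) n
    refine ⟨k + 1, ?_⟩
    rw [pow_succ', pow_mul, ← map_pow, hk]
  have h := conj_frob_all hq hA hp hpq (quoRep T n) K hK2 hpp hφ hσ
  rw [← map_pow] at h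
  have h2 := congrArg Units.val h
  rw [quoRep_val, quoRep_val, mapMatrix_eq_iff] at h2
  have h3 := h2 i j
  rwa [map_pow, Matrix.sub_apply] at h3

/-- trace version -/
theorem trace_tame_unip [IsHausdorff (maximalIdeal R) R] (hT : MatCont T) (hq : q.Prime)
    (hA : A.LiesOverPrime q) (hp : p.Prime) (hpq : p ≠ q) (hpR : (p : R) ∈ maximalIdeal R)
    (hI : ∀ σ ∈ A.inertiaSubgroupIn ℚ, ∀ i j, ((T σ - 1) * (T σ - 1)) i j ∈ maximalIdeal R)
    {φ σ : GQ} (hφ : A.IsFrobeniusAt φ q) (hσ : σ ∈ A.inertiaSubgroupIn ℚ) :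
    (T σ ^ q).trace = (T σ).trace := by
  rw [← tame_rel_unip hT hq hA hp hpq hpR hI hφ hσ, map_mul, map_mul, Matrix.trace_mul_comm,
    ← mul_assoc, ← map_mul, inv_mul_cancel, map_one, one_mul]

/-- the power of a matrix of determinant one: the trace -/
theorem exists_trace_pow {M : Matrix (Fin 2) (Fin 2) R} (hdet : M.det = 1) (n : ℕ) :
    ∃ c : R, (M ^ n).trace - 2 = (M.trace - 2) * (n ^ 2 + (M.trace - 2) * c) := by
  have key : ∀ n : ℕ, (M ^ (n + 2)).trace = M.trace * (M ^ (n + 1)).trace - (M ^ n).trace := by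
    intro n
    have h1 : M ^ 2 = M.trace • M - 1 := by
      have h2 := Matrix.aeval_self_charpoly M
      rw [Matrix.charpoly_fin_two, hdet] at h2
      simp only [map_add, map_sub, map_mul, Polynomial.aeval_C, Polynomial.aeval_X, map_pow,
        map_one] at h2
      have h3 : M ^ 2 - algebraMap R (Matrix (Fin 2) (Fin 2) R) M.trace * M + 1 = 0 := by
        simpa using h2
      rw [← Algebra.smul_def] at h3
      have h4 : M ^ 2 = (M ^ 2 - M.trace • M + 1) + (M.trace • M - 1) := by abel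
      rw [h3, zero_add] at h4
      exact h4
    rw [pow_add, h1, mul_sub, mul_one, Matrix.mul_smul, ← pow_succ, Matrix.trace_sub,
      Matrix.trace_smul, smul_eq_mul]
  induction n using Nat.strong_induction_on with
  | _ n ih =>
    match n, ih with
    | 0, _ => exact ⟨0, by simp⟩
    | 1, _ => exact ⟨0, by simp⟩
    | m + 2, ih =>
      obtain ⟨c₁, h₁⟩ := ih (m + 1) (by omega)
      obtain ⟨c₀, h₀⟩ := ih m (by omega)
      refine ⟨(m + 1) ^ 2 + 2 * c₁ + (M.trace - 2) * c₁ - c₀, ?_⟩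
      rw [key]
      push_cast at h₁ ⊢
      have e1 : (M ^ (m + 1)).trace = 2 + (M.trace - 2) * ((m + 1) ^ 2 + (M.trace - 2) * c₁) := by
        rw [← h₁]; ring
      have e0 : (M ^ m).trace = 2 + (M.trace - 2) * (m ^ 2 + (M.trace - 2) * c₀) := by
        rw [← h₀]; ring
      rw [e1, e0]
      ring

/-- **residually unipotent implies unipotent** when `q² - 1` is a unit -/
theorem trace_eq_two_of_unip [IsHausdorff (maximalIdeal R) R] (hT : MatCont T) (hq : q.Prime)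
    (hA : A.LiesOverPrime q) (hp : p.Prime) (hpq : p ≠ q) (hpR : (p : R) ∈ maximalIdeal R)
    (hI : ∀ σ ∈ A.inertiaSubgroupIn ℚ, ∀ i j, ((T σ - 1) * (T σ - 1)) i j ∈ maximalIdeal R)
    (hdet : ∀ σ ∈ A.inertiaSubgroupIn ℚ, (T σ).det = 1)
    (htr : ∀ σ ∈ A.inertiaSubgroupIn ℚ, (T σ).trace - 2 ∈ maximalIdeal R)
    (hq2 : IsUnit ((q : R) ^ 2 - 1))
    {φ σ : GQ} (hφ : A.IsFrobeniusAt φ q) (hσ : σ ∈ A.inertiaSubgroupIn ℚ) :
    (T σ).trace = 2 := by
  obtain ⟨c, hc⟩ := exists_trace_pow (hdet σ hσ) q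
  rw [trace_tame_unip hT hq hA hp hpq hpR hI hφ hσ] at hc
  have h1 : ((T σ).trace - 2) * (((q : R) ^ 2 - 1) + ((T σ).trace - 2) * c) = 0 := by
    linear_combination -hc
  have h2 : IsUnit (((q : R) ^ 2 - 1) + ((T σ).trace - 2) * c) := by
    by_contra h
    have h3 : ((q : R) ^ 2 - 1) + ((T σ).trace - 2) * c ∈ maximalIdeal R := h
    have h4 : (q : R) ^ 2 - 1 ∈ maximalIdeal R := by
      have := sub_mem h3 (Ideal.mul_mem_right c _ (htr σ hσ))
      rwa [add_sub_cancel_right] at this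
    exact h4 hq2
  exact sub_eq_zero.mp ((h2.mul_left_eq_zero).mp h1)

end Fermat.Agent.RT6
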