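import Fermat.Agent.RT.MkBas
import Fermat.Agent.RT.LowSt
import Fermat.Agent.TWG.NewStep
import Fermat.Agent.TWG.Raise
import Fermat.Agent.S43Glue.Point
import Fermat.Agent.CarayolX.Main
import Fermat.Agent.TWInst.Rep
import Fermat.Agent.TWDia.Point
import Fermat.Agent.RT6.TameRel

/-!
# The level at a prime with unipotent inertia, second case (by Carayol's theorem)
-/

set_option autoImplicit false
set_option maxHeartbeats 400000
set_option linter.style.haveILetI false

noncomputable section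

namespace Fermat.Agent.RT6.A3d

open IsLocalRing Matrix Fermat.Agent.DefRing Fermat.Agent.GalRep Fermat.Agent.GalRep.HData
  Fermat.Agent.TWPatch Fermat.Agent.TWGal CuspForm Fermat.Agent.HeckeQ CongruenceSubgroup
  ModularFormClass Fermat.Agent.AnJac Fermat.Agent.S43Glue Fermat.Agent.TW56
  Fermat.Agent.TWInst Fermat.Agent.TWG Fermat.Agent.RT

local notation "Qbar" => AlgebraicClosure ℚ

/-- traces of powers -/
theorem trace_pow_form {R : Type} [CommRing R] {X : Matrix (Fin 2) (Fin 2) R} (hX : X.det = 1)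
    {s : R} (hs : X.trace = 2 + s) (n : ℕ) :
    (∃ c : R, (X ^ n).trace = 2 + (n : R) ^ 2 * s + s * s * c) ∧
    (∃ c : R, (X ^ (n + 1)).trace = 2 + ((n + 1 : ℕ) : R) ^ 2 * s + s * s * c) := by
  have hrec : ∀ n : ℕ, (X ^ (n + 2)).trace = X.trace * (X ^ (n + 1)).trace - (X ^ n).trace := by
    intro n
    have hch : X ^ 2 = X.trace • X - (1 : Matrix (Fin 2) (Fin 2) R) := by
      have h1 : X * X = X.trace • X - X.det • (1 : Matrix (Fin 2) (Fin 2) R) := by
        ext i j
        rw [Matrix.det_fin_two, Matrix.trace_fin_two]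
        fin_cases i <;> fin_cases j <;>
          simp only [Matrix.mul_apply, Fin.sum_univ_two, Matrix.sub_apply, Matrix.smul_apply,
            smul_eq_mul, Matrix.one_apply, Fin.zero_eta, Fin.mk_one, Fin.isValue, if_true,
            zero_ne_one, one_ne_zero, if_false] <;> ring
      rw [pow_two, h1, hX, one_smul]
    rw [pow_add, hch, mul_sub, mul_one, Matrix.mul_smul, ← pow_succ, Matrix.trace_sub,
      Matrix.trace_smul, smul_eq_mul]
  induction n with
  | zero =>
    refine ⟨⟨0, ?_⟩, ⟨0, ?_⟩⟩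
    · rw [pow_zero, Matrix.trace_one, Fintype.card_fin]
      push_cast
      ring
    · rw [zero_add, pow_one, hs]
      push_cast
      ring
  | succ n ih =>
    obtain ⟨⟨c1, h1⟩, ⟨c2, h2⟩⟩ := ih
    refine ⟨⟨c2, h2⟩, ⟨((n : R) + 1) ^ 2 + 2 * c2 + s * c2 - c1, ?_⟩⟩
    rw [show n + 1 + 1 = n + 2 from rfl, hrec, h1, h2, hs]
    push_cast
    ring

/-- a matrix conjugate to its `q`-th power -/
theorem trace_eq_two {R : Type} [CommRing R] [IsLocalRing R] {X : Matrix (Fin 2) (Fin 2) R}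
    (hX : X.det = 1) {q : ℕ} (hq : IsUnit ((q : R) ^ 2 - 1)) (hs : X.trace - 2 ∈ maximalIdeal R)
    (h : (X ^ q).trace = X.trace) : X.trace = 2 := by
  set s := X.trace - 2 with hsd
  have h1 : X.trace = 2 + s := by rw [hsd]; ring
  obtain ⟨⟨c, hc⟩, -⟩ := trace_pow_form hX h1 q
  rw [h, h1] at hc
  have h2 : s * (((q : R) ^ 2 - 1) + s * c) = 0 := by linear_combination -hc
  have h3 : IsUnit (((q : R) ^ 2 - 1) + s * c) := by
    by_contra h4
    have h5 : ((q : R) ^ 2 - 1) + s * c ∈ maximalIdeal R := h4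
    have h6 : s * c ∈ maximalIdeal R := Ideal.mul_mem_right _ _ hs
    have h7 := Ideal.sub_mem _ h5 h6
    rw [add_sub_cancel_right] at h7
    exact h7 hq
  have h4 : s = 0 := by
    obtain ⟨u, hu⟩ := h3
    rw [← hu] at h2
    exact (Units.mul_left_eq_zero u).mp h2
  rw [h1, h4, add_zero]

variable {p : ℕ} [hpf : Fact p.Prime]

/-- the second case -/
theorem a3d
    (hp2 : p ≠ 2) (q N : ℕ) [NeZero (q ^ 2 * N)] [NeZero (q * N)] (S : Set ℕ)
    (ρ : GQ →* Matrix (Fin 2) (Fin 2) (ZMod p)) (hq : q.Prime) (hqp : q ≠ p) (hqN : ¬ q ∣ N)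
    (hdvd : ¬ p ∣ q ^ 2 - 1) (hS : S.Finite) (hpS : p ∈ S)
    (hNS : ∀ r : ℕ, r.Prime → r ∣ q * N → r ∈ S) (hfin : FinLevel ρ)
    (hdet : ∀ g, (ρ g).det = chiK p (ZMod p) g) (hspan : Submodule.span (ZMod p) (Set.range ρ) = ⊤)
    (hunip : ∀ A : ValuationSubring Qbar, A.LiesOverPrime q → ∀ σ ∈ A.inertiaSubgroupIn ℚ,
      (ρ σ - 1) * (ρ σ - 1) = 0) (hmod : HMod ρ (q ^ 2 * N) S) : HMod ρ (q * N) S := by
  classical
  have hNS' : ∀ r : ℕ, r.Prime → r ∣ q ^ 2 * N → r ∈ S := by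
    intro r hr hrN
    refine hNS r hr ?_
    rcases hr.dvd_mul.mp hrN with h | h
    · exact (hr.dvd_of_dvd_pow h).mul_right N
    · exact h.mul_left q
  obtain ⟨O, i1, i2, i3, i4, i5, i6, i7, hpO, hspl, χ, hχ⟩ := exists_coeff_mod hmod
  let x : heckeAlgebra (q ^ 2 * N) 2 S →+* O :=
    χ.comp (Subalgebra.inclusion (heckeAlgebra_mono (N := q ^ 2 * N) (k := 2)
      (Set.empty_subset S))).toRingHom
  obtain ⟨M₁, hM₁0, hM₁, g, hg, chig, iota, hchig, hiota⟩ := exists_newform_of_point hNS' x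
  have hM₁S : ∀ r : ℕ, r.Prime → r ∣ M₁ → r ∈ S := fun r hr hrM => hNS' r hr (hrM.trans hM₁)
  have hval : ∀ (ℓ : ℕ) (hℓ : ℓ.Prime) (hℓM : ¬ ℓ ∣ M₁) (hℓS : ℓ ∉ S),
      ∀ A : ValuationSubring Qbar, A.LiesOverPrime ℓ → ∀ τ : GQ, A.IsFrobeniusAt τ ℓ →
      residue O ((iota.comp chig.rangeRestrict) (heckeAlgebra.T hℓ hℓM hℓS)) =
        iot hpO (ρ τ).trace := by
    intro ℓ hℓ hℓM hℓS A hA τ hτ
    have hℓN : ¬ ℓ ∣ q ^ 2 * N := fun h => hℓS (hNS' ℓ hℓ h)
    rw [hiota ℓ hℓ hℓN hℓS]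
    exact hχ ℓ hℓ hℓN hℓS A hA τ hτ
  have hmod₁ : HMod ρ M₁ S :=
    hmod_of_hom hM₁S (iot hpO) ((residue O).comp (iota.comp chig.rangeRestrict)) hval
  -- the level
  have hlev : M₁ ∣ q * N := by
    by_contra hnd
    have hM₁ne : M₁ ≠ 0 := NeZero.ne M₁
    have hcop : Nat.Coprime (q ^ 2) N := Nat.Coprime.pow_left 2 ((Nat.Prime.coprime_iff_not_dvd hq).2 hqN)
    have hf2 : M₁.factorization q = 2 := by
      have hle : M₁.factorization q ≤ 2 := by
        have h1 : q ^ M₁.factorization q ∣ q ^ 2 * N := (Nat.ordProj_dvd M₁ q).trans hM₁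
        have h2 : q ^ M₁.factorization q ∣ q ^ 2 :=
          (Nat.Coprime.pow_left _ ((Nat.Prime.coprime_iff_not_dvd hq).2 hqN)).dvd_of_dvd_mul_right h1
        exact (Nat.pow_dvd_pow_iff_le_right hq.one_lt).mp h2
      by_contra hne
      have hle1 : M₁.factorization q ≤ 1 := by omega
      apply hnd
      have h3 : M₁ / q ^ M₁.factorization q ∣ N := by
        have h4 : Nat.Coprime (M₁ / q ^ M₁.factorization q) (q ^ 2) :=
          (Nat.Coprime.pow_left 2 (Nat.coprime_ordCompl hq hM₁ne)).symm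
        exact h4.dvd_of_dvd_mul_left ((Nat.div_dvd_of_dvd (Nat.ordProj_dvd M₁ q)).trans hM₁)
      rw [← Nat.ordProj_mul_ordCompl_eq_self M₁ q]
      refine mul_dvd_mul ?_ h3
      calc q ^ M₁.factorization q ∣ q ^ 1 := pow_dvd_pow q hle1
        _ = q := pow_one q
    obtain ⟨S', rfl⟩ := hS.exists_finset_coe
    obtain ⟨A, hA, φ, hφ⟩ := Frob.exists_place_frobenius hq
    obtain ⟨T, hT, hfr, hTdet, hTk, -, -, -⟩ := exists_rep_hecke (S := (↑S' : Set ℕ)) hS hp2 hpO
      (iota.comp chig.rangeRestrict) (residue O) residue_surjective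
      (ρb := mapT (iot hpO) ρ) (by
        obtain ⟨L, hL, h1⟩ := hfin
        exact ⟨L, hL, fun σ hσ => by
          have h2 : mapT (iot hpO) ρ σ = (iot hpO).mapMatrix (ρ σ) := rfl
          rw [h2, h1 σ hσ, map_one]⟩) (by
        intro ℓ hℓ hℓM _ hℓS A hA τ hτ
        refine ⟨?_, ?_⟩
        · rw [hval ℓ hℓ hℓM hℓS A hA τ hτ]
          exact TWDia.mapT_trace (iot hpO) ρ τ
        · have hℓp : ℓ ≠ p := fun h => hℓS (h ▸ hpS)
          rw [TWDia.mapT_det, hdet, chiK_frob p _ hℓ hA hℓp hτ, map_natCast]) (span_map_eq_top _ hspan)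
    have hres : ∀ σ ∈ A.inertiaSubgroupIn ℚ, ∀ i j,
        ((T σ - 1) * (T σ - 1)) i j ∈ maximalIdeal O := by
      intro σ hσ i j
      rw [← residue_eq_zero_iff]
      have h1 : (residue O).mapMatrix ((T σ - 1) * (T σ - 1)) = 0 := by
        have h2 : (residue O).mapMatrix (T σ) = (iot hpO).mapMatrix (ρ σ) := hTk σ
        rw [map_mul, map_sub, h2, map_one, ← map_one (iot hpO).mapMatrix, ← map_sub, ← map_mul,
          hunip A hA σ hσ, map_zero]
      exact congrFun (congrFun h1 i) j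
    have hTd : ∀ σ ∈ A.inertiaSubgroupIn ℚ, (T σ).det = 1 := by
      intro σ hσ
      have h4 := SSMod.det_of_cycP hS (NeZero.ne M₁) hpO hT hfr (σ := σ) (y := 1)
        (by rw [cycP_inertia p hq hA hqp hσ, Int.cast_one])
      rw [h4, Int.cast_one]
    refine CarayolX.not_unipotent (CarayolY.carayolCore_of Carayol.carayolK0) hg S' hpO chig hchig
      iota hT hfr hq hqp hf2 hA fun σ hσ => ?_
    refine trace_eq_two (hTd σ hσ) (q := q) ?_ ?_ (trace_tame_unip hT hq hA hpf.out hqp.symm hpO hres hφ hσ)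
    · by_contra hu
      have h5 : (q : O) ^ 2 - 1 ∈ maximalIdeal O := hu
      haveI : CharP (ResidueField O) p := charP_res hpO
      rw [← residue_eq_zero_iff, map_sub, map_pow, map_natCast, map_one] at h5
      have h6 : (((q ^ 2 - 1 : ℕ)) : ResidueField O) = 0 := by
        rw [Nat.cast_sub (Nat.one_le_pow _ _ hq.pos)]
        push_cast
        exact h5
      exact hdvd ((CharP.cast_eq_zero_iff (ResidueField O) p (q ^ 2 - 1)).mp h6)
    · -- the trace
      have h1 : ((T σ - 1) * (T σ - 1)).trace ∈ maximalIdeal O := by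
        rw [Matrix.trace_fin_two]
        exact Ideal.add_mem _ (hres σ hσ 0 0) (hres σ hσ 1 1)
      have h2 : ((T σ - 1) * (T σ - 1)).det ∈ maximalIdeal O := by
        rw [Matrix.det_fin_two]
        exact Ideal.sub_mem _ (Ideal.mul_mem_right _ _ (hres σ hσ 0 0))
          (Ideal.mul_mem_right _ _ (hres σ hσ 0 1))
      have h3 : (T σ - 1).det = 2 - (T σ).trace := by
        have h4 := hTd σ hσ
        rw [Matrix.det_fin_two] at h4
        rw [Matrix.det_fin_two, Matrix.trace_fin_two]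
        simp only [Matrix.sub_apply, Matrix.one_apply, if_true, zero_ne_one, one_ne_zero, if_false,
          Fin.isValue, sub_zero]
        linear_combination h4
      rw [Matrix.det_mul, h3] at h2
      rcases Ideal.IsPrime.mem_or_mem (inferInstanceAs (maximalIdeal O).IsPrime) h2 with h5 | h5 <;>
      · rw [← neg_sub]
        exact neg_mem h5
  haveI := hM₁0
  exact raise p ρ M₁ (q * N) S hlev hNS hmod₁

end Fermat.Agent.RT6.A3d

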