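import Fermat.Agent.RT6.Asm
import Fermat.Agent.RT6.A3d
import Fermat.Agent.RT.LowSt

/-!
# (A3): the final glue
-/

set_option autoImplicit false

noncomputable section

namespace Fermat.Agent.RT6

open OnePoint Matrix CongruenceSubgroup Fermat.Agent.RT
open Fermat.Agent.S43Glue Fermat.Agent.TWG Fermat.Agent.DefRing
open Fermat.Agent.TWCoh hiding GQ
open scoped MatrixGroups

local notation "Qbar" => AlgebraicClosure ℚ
local notation "GQ" => (AlgebraicClosure ℚ ≃ₐ[ℚ] AlgebraicClosure ℚ)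

/-- the symbol coming from the geometry -/
def L1St (p : ℕ) [Fact p.Prime] : Prop :=
  ∀ (q N : ℕ) [Fact q.Prime] [NeZero N] [NeZero (q ^ 2 * N)] (S : Set ℕ)
    (ρ : GQ →* Matrix (Fin 2) (Fin 2) (ZMod p)),
    q ≠ p → ¬ q ∣ N → S.Finite → p ∈ S → (∀ r : ℕ, r.Prime → r ∣ q * N → r ∈ S) →
    FinLevel ρ → (∀ g, (ρ g).det = chiK p (ZMod p) g) →
    Submodule.span (ZMod p) (Set.range ρ) = ⊤ →
    (∀ A : ValuationSubring Qbar, A.LiesOverPrime q → ∀ σ ∈ A.inertiaSubgroupIn ℚ,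
      (ρ σ - 1) * (ρ σ - 1) = 0) →
    S43Glue.HMod ρ (q ^ 2 * N) S →
    ∃ y ∈ SZ (ZMod p) (q ^ 2 * N), y ≠ 0 ∧
      (∀ (l : ℕ) (hl : l.Prime), l ∉ S → ∀ A : ValuationSubring Qbar, A.LiesOverPrime l →
        ∀ τ : GQ, A.IsFrobeniusAt τ l →
          Tz (ZMod p) hl y = fun a b => (ρ τ).trace * y a b) ∧
      (∀ x z : P1, y (x.map (-·)) (z.map (-·)) = y x z) ∧ Asm.CrSym (q := q) N y

/-- the case where inertia acts through a group of order prime to `p` -/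
def A3cSt (p : ℕ) [Fact p.Prime] : Prop :=
  ∀ (q N : ℕ) [NeZero (q ^ 2 * N)] [NeZero (q * N)] (S : Set ℕ)
    (ρ : GQ →* Matrix (Fin 2) (Fin 2) (ZMod p)),
    ¬ p ∣ q ^ 2 - 1 →
    q.Prime → q ≠ p → ¬ q ∣ N → S.Finite → p ∈ S → (∀ r : ℕ, r.Prime → r ∣ q * N → r ∈ S) →
    FinLevel ρ → (∀ g, (ρ g).det = chiK p (ZMod p) g) →
    Submodule.span (ZMod p) (Set.range ρ) = ⊤ →
    (∀ A : ValuationSubring Qbar, A.LiesOverPrime q → ∀ σ ∈ A.inertiaSubgroupIn ℚ,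
      (ρ σ - 1) * (ρ σ - 1) = 0) →
    S43Glue.HMod ρ (q ^ 2 * N) S → S43Glue.HMod ρ (q * N) S

theorem three_dvd {q : ℕ} (hq : q.Prime) (hq3 : q ≠ 3) : 3 ∣ q - 1 ∨ 3 ∣ q + 1 := by
  have h : ¬ 3 ∣ q := fun h =>
    hq3 ((Nat.prime_dvd_prime_iff_eq Nat.prime_three hq).1 h).symm
  have := hq.two_le
  omega

theorem dvd_sq_sub {p q : ℕ} (hp : p.Prime) (hq : q.Prime) (h : p ∣ q ^ 2 - 1) :
    p ∣ q - 1 ∨ p ∣ q + 1 := by
  have e : q ^ 2 - 1 = (q - 1) * (q + 1) := by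
    obtain ⟨k, rfl⟩ := Nat.exists_eq_add_of_le hq.one_lt.le
    have : (1 + k) ^ 2 = k * (k + 2) + 1 := by ring
    rw [this, Nat.add_sub_cancel, Nat.add_sub_cancel_left]
    ring
  rw [e] at h
  exact (Nat.Prime.dvd_mul hp).1 h

theorem a3_of (p : ℕ) [hpf : Fact p.Prime] (hp : p = 3 ∨ p = 5) (hL : L1St p)
    (hC : p = 5 → A3cSt p) : TWG.A3St p := by
  intro q N _ _ S ρ hq hqp hqN hS hpS hNS h3 hfin hdet hspan hun hmod
  haveI : Fact q.Prime := ⟨hq⟩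
  haveI : NeZero N := ⟨fun h => NeZero.ne (q * N) (by rw [h, mul_zero])⟩
  by_cases hd : p ∣ q ^ 2 - 1
  · exact Asm.asm hp hqp hqN (dvd_sq_sub hpf.out hq hd) h3 hS hpS hNS hfin hdet hspan
      (hL q N S ρ hqp hqN hS hpS hNS hfin hdet hspan hun hmod)
  · rcases hp with h | h
    · exfalso
      subst h
      apply hd
      have e : q ^ 2 - 1 = (q - 1) * (q + 1) := by
        obtain ⟨k, rfl⟩ := Nat.exists_eq_add_of_le hq.one_lt.le
        have : (1 + k) ^ 2 = k * (k + 2) + 1 := by ring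
        rw [this, Nat.add_sub_cancel, Nat.add_sub_cancel_left]
        ring
      rw [e]
      rcases three_dvd hq hqp with h' | h'
      · exact h'.mul_right _
      · exact h'.mul_left _
    · exact hC h q N S ρ hd hq hqp hqN hS hpS hNS hfin hdet hspan hun hmod

theorem a3cSt (p : ℕ) [hpf : Fact p.Prime] (hp2 : p ≠ 2) : A3cSt p := by
  intro q N _ _ S ρ hd hq hqp hqN hS hpS hNS hfin hdet hspan hun hmod
  exact A3d.a3d hp2 q N S ρ hq hqp hqN hd hS hpS hNS hfin hdet hspan hun hmod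

/-- **(A3)** from the symbol -/
theorem a3_of_l1 (p : ℕ) [hpf : Fact p.Prime] (hp : p = 3 ∨ p = 5) (hL : L1St p) :
    TWG.A3St p :=
  a3_of p hp hL fun h => a3cSt p (by rw [h]; norm_num)

end Fermat.Agent.RT6
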