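import Fermat.Agent.RT6.G5

/-!
# (A3), the case `p ∤ q² - 1`: an explicit constant
-/

set_option autoImplicit false
set_option linter.unusedSectionVars false
set_option linter.style.haveILetI false
set_option synthInstance.maxHeartbeats 400000

noncomputable section

namespace Fermat.Agent.RT6.A3c

open ModularCurve Fermat.Agent.ModFun Fermat.Agent.AnJac AlgebraicCurve
open Fermat.Agent.HeckeQ Matrix Fermat.Agent.Curves Module Fermat.Agent.Carayol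
open Fermat.Agent.CarayolX CongruenceSubgroup

local notation "Qb" => AlgebraicClosure ℚ
local notation "GQ" => Qb ≃ₐ[ℚ] Qb

/-- the constant -/
def cq (q : ℕ) : ℕ := 12 * (q - 1) * (q ^ 2 - 1) * ((q - 1) * (q ^ 2 - 1))

theorem cq_coprime {p q : ℕ} (hp : p.Prime) (hp5 : 5 ≤ p) (hq : 1 ≤ q) (h : ¬ p ∣ q ^ 2 - 1) :
    ¬ p ∣ cq q := by
  have h1 : ¬ p ∣ q - 1 := by
    intro h'
    apply h
    have e : q ^ 2 - 1 = (q - 1) * (q + 1) := by
      obtain ⟨k, rfl⟩ := Nat.exists_eq_add_of_le hq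
      have : (1 + k) ^ 2 = k * (k + 2) + 1 := by ring
      rw [this, Nat.add_sub_cancel, Nat.add_sub_cancel_left]
      ring
    rw [e]
    exact h'.mul_right _
  have h12 : ¬ p ∣ 12 := by
    intro h'
    have h2 := (Nat.Prime.dvd_mul hp).1 (show p ∣ 4 * 3 from h')
    rcases h2 with h2 | h2
    · have := Nat.le_of_dvd (by norm_num) h2
      omega
    · have := Nat.le_of_dvd (by norm_num) h2
      omega
  rw [cq]
  intro h'
  rcases (Nat.Prime.dvd_mul hp).1 h' with h' | h'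
  · rcases (Nat.Prime.dvd_mul hp).1 h' with h' | h'
    · rcases (Nat.Prime.dvd_mul hp).1 h' with h' | h'
      · exact h12 h'
      · exact h1 h'
    · exact h h'
  · rcases (Nat.Prime.dvd_mul hp).1 h' with h' | h'
    · exact h1 h'
    · exact h h'

/-- **Carayol's theorem with explicit constant.** -/
theorem core {q M' N : ℕ} [NeZero q] [NeZero M'] [NeZero N] (hq : q.Prime)
    (hcop : Nat.Coprime q M') (h4 : q ≠ 2 → 4 ∣ M') (h9 : q = 2 → 9 ∣ M') (hN : N = q ^ 2 * M')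
    (h1 : q * M' ∣ N) (h2 : q * (q * M') ∣ N) {A : ValuationSubring Qb} (hA : A.LiesOverPrime q)
    {m : ℕ} (hm : 0 < m) (hqm : Nat.Coprime q m) {u : FF Qb N} (hu : u ≠ 0)
    (hord : ∀ v : Place Qb (FF Qb N), (m : ℤ) ∣ v.ord u)
    (hinv : ∀ σ ∈ A.inertiaSubgroupIn ℚ, ∃ g : FF Qb N, g ≠ 0 ∧
      galF N (σ : Qb ≃+* Qb) u = u * g ^ m)
    (hn1 : ∃ n : FF Qb (q * M'), normAlong (inc Qb h1) u = n ^ m)
    (hn2 : ∃ n : FF Qb (q * M'), normAlong (exN Qb q h2) u = n ^ m) :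
    ∃ x : FF Qb N, x ≠ 0 ∧ u ^ cq q = x ^ m := by
  subst hN
  obtain ⟨g, w₀, hg, hw₀0, hw₀⟩ := G5.desc_K0 hm.ne' hu hord hinv
  have hord' : ∀ v : Place Qb (FF Qb (q ^ 2 * M')),
      (m : ℤ) ∣ v.ord (bc (algebraMap (K0 A) Qb) (q ^ 2 * M') w₀) := by
    intro v
    rw [hw₀, v.ord_mul hu (pow_ne_zero _ hg)]
    refine dvd_add (hord v) ?_
    rw [ord_pow]
    exact dvd_mul_right _ _
  have hN1 : ∃ n : FF Qb (q * M'),
      normAlong (inc Qb h1) (bc (algebraMap (K0 A) Qb) (q ^ 2 * M') w₀) = n ^ m := by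
    obtain ⟨n, hn⟩ := hn1
    refine ⟨n * normAlong (inc Qb h1) g, ?_⟩
    rw [hw₀, CarayolX.normAlong_mul, CarayolX.normAlong_pow, hn, mul_pow]
  have hN2 : ∃ n : FF Qb (q * M'),
      normAlong (exN Qb q h2) (bc (algebraMap (K0 A) Qb) (q ^ 2 * M') w₀) = n ^ m := by
    obtain ⟨n, hn⟩ := hn2
    refine ⟨n * normAlong (exN Qb q h2) g, ?_⟩
    rw [hw₀, CarayolX.normAlong_mul, CarayolX.normAlong_pow, hn, mul_pow]
  obtain ⟨c, hc, x, hx, hcx⟩ := (mkSit hq hA hcop h4 h9).main (mkSit_hasGal hq hA hcop h4 h9)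
      (mkSit_hasParam hq hA hcop h4 h9) hm hqm (mkSit_divBy hq hA hcop h4 h9 hqm) hw₀0
      (G5.local_K0 hw₀0 hord') hN1 hN2
  have hψc : algebraMap (K0 A) Qb c ≠ 0 := (map_ne_zero _).mpr hc
  obtain ⟨d, hd⟩ := IsAlgClosed.exists_pow_nat_eq (algebraMap (K0 A) Qb c) hm
  have hd0 : d ≠ 0 := by
    rintro rfl
    rw [zero_pow hm.ne'] at hd
    exact hψc hd.symm
  have e := congrArg (bc (algebraMap (K0 A) Qb) (q ^ 2 * M')) hcx
  rw [map_pow, map_mul, map_pow, hw₀] at e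
  have e2 : bc (algebraMap (K0 A) Qb) (q ^ 2 * M') (constF (K0 A) _ c) =
      algebraMap Qb (FF Qb (q ^ 2 * M')) d ^ m := by
    rw [← map_pow, hd]
    exact bc_const _ c
  have hd0' : algebraMap Qb (FF Qb (q ^ 2 * M')) d ≠ 0 := (map_ne_zero _).mpr hd0
  have hx0' : bc (algebraMap (K0 A) Qb) (q ^ 2 * M') x ≠ 0 := (map_ne_zero _).mpr hx
  have e2' : bc (algebraMap (K0 A) Qb) (q ^ 2 * M')
      (algebraMap (K0 A) (mkSit hq hA hcop h4 h9).F c) =
      algebraMap Qb (FF Qb (q ^ 2 * M')) d ^ m := e2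
  rw [e2'] at e
  change (u * g ^ m) ^ cq q = _ at e
  refine ⟨algebraMap Qb (FF Qb (q ^ 2 * M')) d * bc (algebraMap (K0 A) Qb) (q ^ 2 * M') x *
    (g ^ cq q)⁻¹,
    mul_ne_zero (mul_ne_zero hd0' hx0') (inv_ne_zero (pow_ne_zero _ hg)), ?_⟩
  have e3 : (g ^ m) ^ cq q = (g ^ cq q) ^ m := by rw [← pow_mul, ← pow_mul, Nat.mul_comm m]
  rw [mul_pow, e3] at e
  rw [mul_pow, mul_pow, inv_pow, ← e, mul_assoc, mul_inv_cancel₀ (pow_ne_zero _ (pow_ne_zero _ hg)),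
    mul_one]

end Fermat.Agent.RT6.A3c
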