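import Fermat.Agent.Carayol.Norm
import Fermat.Agent.CarayolX.NormOp

/-!
# (A3), the case `p ∤ q² - 1`: degrees
-/

set_option autoImplicit false
set_option linter.unusedSectionVars false
set_option linter.style.haveILetI false

noncomputable section

namespace Fermat.Agent.RT6.A3c

open ModularCurve Fermat.Agent.GoodRed Fermat.Agent.ModFun Fermat.Agent.GenusX0
open Fermat.Agent.Models IsLocalRing Polynomial IntermediateField Fermat.Agent.SSMod
open AlgebraicCurve Fermat.Agent.Curves Fermat.Agent.Carayol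

/-- degrees and indices -/
theorem finrank_psi {k : Type*} [Field k] [CharZero k] {M N : ℕ} [NeZero M] [NeZero N]
    (h : M ∣ N) :
    dedekindPsi M * @Module.finrank (FF k M) (FF k N) _ _ (inc k h).toAlgebra.toModule =
      dedekindPsi N := by
  letI := (inc k h).toAlgebra
  have hle : FF k M ≤ FF k N := FF_mono k h
  have h1 : Module.finrank (FF k M) (FF k N) = relfinrank (FF k M) (FF k N) := by
    rw [relfinrank_eq_finrank_of_le hle]
    refine Algebra.finrank_eq_of_equiv_equiv (RingEquiv.refl _)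
      { toFun := fun x => ⟨x.1, x.2⟩
        invFun := fun x => ⟨x.1, x.2⟩
        left_inv := fun _ => rfl
        right_inv := fun _ => rfl
        map_mul' := fun _ _ => rfl
        map_add' := fun _ _ => rfl } ?_
    ext x
    rfl
  have hjle : k⟮jqModC k⟯ ≤ FF k M := by
    rw [adjoin_simple_le_iff]
    exact jqModC_mem_full k M
  have h2 := relfinrank_mul_relfinrank hjle hle
  have e1 := degN_eq' (k := k) M
  have e2 := degN_eq' (k := k) N
  have n1 : ((M : ℕ) : k) ≠ 0 := by exact_mod_cast NeZero.ne M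
  have n2 : ((N : ℕ) : k) ≠ 0 := by exact_mod_cast NeZero.ne N
  rw [degN_eq_psi k _ n1] at e1
  rw [degN_eq_psi k _ n2] at e2
  change dedekindPsi M * Module.finrank (FF k M) (FF k N) = dedekindPsi N
  rw [h1, e1, e2]
  exact h2

theorem psi_mul_prime {l : ℕ} (hl : l.Prime) {N : ℕ} (hN : N ≠ 0) :
    ∃ c, (c = l ∨ c = l + 1) ∧ dedekindPsi (l * N) = dedekindPsi N * c := by
  obtain ⟨a, m, hm, rfl⟩ := Nat.exists_eq_pow_mul_and_not_dvd hN l hl.ne_one
  have h := dedekindPsi_step l hl a m hm
  refine ⟨if a = 0 then l + 1 else l, ?_, ?_⟩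
  · split_ifs
    · exact Or.inr rfl
    · exact Or.inl rfl
  · rw [← h]
    congr 1
    rw [pow_succ']
    ring

/-- the degree is prime to `p ≥ 5` -/
theorem not_dvd_finrank {p : ℕ} (hp : p.Prime) (hp5 : 5 ≤ p) {k : Type*} [Field k] [CharZero k]
    {M N l : ℕ} [NeZero M] [NeZero N] (hl : l.Prime) (hl3 : l ≤ 3) (hN : N = l * (l * M))
    (h : M ∣ N) :
    ¬ p ∣ @Module.finrank (FF k M) (FF k N) _ _ (inc k h).toAlgebra.toModule := by
  have e := finrank_psi (k := k) h
  set f := @Module.finrank (FF k M) (FF k N) _ _ (inc k h).toAlgebra.toModule with hf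
  have hM0 := NeZero.ne M
  obtain ⟨c₁, hc₁, e₁⟩ := psi_mul_prime hl hM0
  obtain ⟨c₂, hc₂, e₂⟩ := psi_mul_prime hl (mul_ne_zero hl.ne_zero hM0)
  subst hN
  rw [e₂, e₁, mul_assoc] at e
  have e3 := Nat.eq_of_mul_eq_mul_left (Nat.pos_of_ne_zero (dedekindPsi_pos hM0)) e
  rw [e3]
  intro hd
  have h4 : ∀ c, (c = l ∨ c = l + 1) → 0 < c ∧ c < 5 := by
    intro c hc
    have := hl.two_le
    rcases hc with rfl | rfl <;> omega
  rcases (Nat.Prime.dvd_mul hp).1 hd with h' | h'
  · have := Nat.le_of_dvd (h4 _ hc₁).1 h'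
    have := (h4 _ hc₁).2
    omega
  · have := Nat.le_of_dvd (h4 _ hc₂).1 h'
    have := (h4 _ hc₂).2
    omega

theorem normAlong_apply {E F : Type*} [Field E] [Field F] (f : E →+* F) (u : E) :
    normAlong f (f u) = u ^ (@Module.finrank E F _ _ f.toAlgebra.toModule) := by
  letI := f.toAlgebra
  exact Algebra.norm_algebraMap (S := F) u

end Fermat.Agent.RT6.A3c
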