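import Fermat.Agent.Carayol.Fin2
import Fermat.Agent.Carayol.Inst

/-!
# Norms commute with pull-back
-/

set_option autoImplicit false
set_option linter.unusedSectionVars false
set_option linter.style.haveILetI false

noncomputable section

namespace Fermat.Agent.RT6

open ModularCurve Fermat.Agent.GoodRed Fermat.Agent.ModFun Fermat.Agent.GenusX0
open Fermat.Agent.Models IsLocalRing Polynomial IntermediateField Fermat.Agent.SSMod
open AlgebraicCurve Fermat.Agent.Curves Fermat.Agent.Carayol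

namespace A3n

/-- norms in linearly disjoint towers -/
theorem norm_comm {E F E' F' L : Type*} [Field E] [Field F] [Field E'] [Field F'] [Field L]
    [CharZero E] [CharZero E'] (f : E →+* F) (f' : E' →+* F') (a : E →+* E') (b : F →+* F')
    {n : ℕ} (hn : 0 < n) (hf : @Module.finrank E F _ _ f.toAlgebra.toModule = n)
    (hf' : @Module.finrank E' F' _ _ f'.toAlgebra.toModule = n) (g : E' →+* L)
    (e : Fin n → (F' →+* L)) (he : ∀ i, (e i).comp f' = g) (hab : ∀ x, b (f x) = f' (a x))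
    (hinj : Function.Injective fun i => (e i).comp b) (x : F) :
    normAlong f' (b x) = a (normAlong f x) := by
  apply g.injective
  have hinj' : Function.Injective e := by
    intro i j h
    apply hinj
    change (e i).comp b = (e j).comp b
    rw [h]
  rw [norm_eq_prod f' hn hf' g e he hinj' (b x)]
  have h2 := norm_eq_prod f hn hf (g.comp a) (fun i => (e i).comp b) (fun i => by
    apply RingHom.ext
    intro y
    change e i (b (f y)) = g (a y)
    rw [hab, ← he i]; rfl) hinj x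
  exact h2.symm

section

variable {K : Type*} [Field K] [CharZero K] {q M' D : ℕ} [NeZero q] [NeZero M'] [NeZero D]

theorem coeff_tw (ζ : Kˣ) (i : ℕ) :
    (twist (ζ ^ i) (jqModC K)).coeff (-1) = (ζ : K)⁻¹ ^ i := by
  rw [twist_coeff, ModularCurve.coeff_jqModC_neg_one, mul_one, zpow_neg, zpow_one, inv_pow]
  push_cast
  rfl

theorem norm_inc (ι : K →+* ℂ) {ζ : Kˣ} (hζ : IsPrimitiveRoot (ζ : K) q) (hq : q.Prime)
    (hD : Nat.Coprime q D) (h : M' ∣ D) (h1 : q ^ 2 * M' ∣ q ^ 2 * D) (h2 : q * M' ∣ q * D)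
    (h3 : q * M' ∣ q ^ 2 * M') (h4 : q * D ∣ q ^ 2 * D) (u : FF K (q ^ 2 * M')) :
    normAlong (inc K h4) (inc K h1 u) = inc K h2 (normAlong (inc K h3) u) := by
  classical
  have hM : Nat.Coprime q M' := Nat.Coprime.coprime_dvd_right h hD
  have hex : ∀ i : Fin q, ∃ s : FF K (q ^ 2 * D) →+* LaurentSeries K,
      s.comp (inc K h4) = algebraMap (FF K (q * D)) (LaurentSeries K) ∧
      (s (inc K h1 (jel K (q ^ 2) (Dvd.intro _ rfl)))).coeff (-1) =
        if i = 0 then 0 else (ζ : K)⁻¹ ^ (i : ℕ) := by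
    intro i
    split_ifs with hi
    · refine ⟨algebraMap _ _, ?_, ?_⟩
      · apply RingHom.ext
        intro y
        exact coe_inc h4 y
      · rw [inc_jel]
        change ((jel K (q ^ 2) (Dvd.intro _ rfl) : FF K (q ^ 2 * D)) : LaurentSeries K).coeff (-1) = 0
        rw [coe_jel, qExpand_coeff_of_not_dvd]
        intro hd
        have h1 := Int.natAbs_dvd_natAbs.2 hd
        simp only [Int.natAbs_natCast, Int.natAbs_neg, Int.natAbs_one, Nat.dvd_one] at h1
        have := hq.two_le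
        have h2 : 2 ^ 2 ≤ q ^ 2 := Nat.pow_le_pow_left this 2
        omega
    · have hi' : ¬ q ∣ (i : ℕ) := fun hd => hi (by
        apply Fin.ext
        rw [fin_val_zero]
        exact Nat.eq_zero_of_dvd_of_lt hd i.2)
      have hcop : Nat.Coprime i q := ((Nat.Prime.coprime_iff_not_dvd hq).2 hi').symm
      obtain ⟨s, a1, a2, a3⟩ := exists_sig (K := K) (M' := D) ι hq hD (ζ ^ (i : ℕ)) (by
        rw [Units.val_pow_eq_pow_val]; exact hζ.pow_of_coprime i hcop)
      have hs : IsSig (ζ ^ (i : ℕ)) s := ⟨a1, a2, a3⟩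
      refine ⟨s, ?_, ?_⟩
      · apply RingHom.ext
        intro y
        exact hs.inc y _
      · haveI : NeZero (1 : ℕ) := ⟨one_ne_zero⟩
        rw [inc_jel, hs.gen2 1 (q ^ 2) _ (one_dvd _) (mul_one _).symm, qExpand_one_apply, coeff_tw]
  choose s hs1 hs2 using hex
  refine norm_comm (inc K h3) (inc K h4) (inc K h2) (inc K h1) hq.pos (finrank_inc hq hM)
    (finrank_inc hq hD) (algebraMap (FF K (q * D)) (LaurentSeries K)) s hs1 (fun x => ?_) ?_ u
  · apply Subtype.ext
    rw [coe_inc, coe_inc, coe_inc, coe_inc]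
  · intro i i' hii
    have e1 := congrArg (fun φ : FF K (q ^ 2 * M') →+* LaurentSeries K =>
      (φ (jel K (q ^ 2) (Dvd.intro _ rfl))).coeff (-1)) hii
    simp only [RingHom.comp_apply] at e1
    rw [hs2, hs2] at e1
    have hne : ∀ n : ℕ, (ζ : K)⁻¹ ^ n ≠ 0 := fun n => pow_ne_zero n (inv_ne_zero ζ.ne_zero)
    split_ifs at e1 with h3 h4 h4
    · rw [h3, h4]
    · exact absurd e1.symm (hne _)
    · exact absurd e1 (hne _)
    · exact Fin.ext (hζ.inv.pow_inj i.2 i'.2 e1)

variable [IsAlgClosed K] [Fact q.Prime]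

/-- the degree along `z ↦ qz` -/
theorem finrank_ex (ι : K →+* ℂ) (hq : q.Prime) (hM : Nat.Coprime q M')
    (h3 : q * (q * M') ∣ q ^ 2 * M') :
    @Module.finrank (FF K (q * M')) (FF K (q ^ 2 * M')) _ _
      (exN K q h3).toAlgebra.toModule = q := by
  obtain ⟨w', h1, h2⟩ := exists_w (k := K) (M' := M') ι hq hM
  have hw : IsW w' := ⟨h1, h2⟩
  let b : FF K (q ^ 2 * M') ≃+* FF K (q ^ 2 * M') :=
    { w' with
      invFun := w'
      left_inv := fun y => hw.invol hq y
      right_inv := fun y => hw.invol hq y }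
  have hb : ∀ y, b y = w' y := fun y => rfl
  refine Eq.trans ?_ (finrank_inc (k := K) hq hM)
  letI i1 := (inc K (h_inc (q := q) (M' := M'))).toAlgebra
  symm
  exact @Algebra.finrank_eq_of_equiv_equiv (FF K (q * M')) (FF K (q ^ 2 * M'))
    _ _ i1 (FF K (q * M')) (FF K (q ^ 2 * M')) _ _ (exN K q h3).toAlgebra
    (al ι hM) b (RingHom.ext fun y => (hw.inc_al ι hM y).symm)

theorem norm_ex (ι : K →+* ℂ) {ζ : Kˣ} (hζ : IsPrimitiveRoot (ζ : K) q) (hq : q.Prime)
    (hD : Nat.Coprime q D) (h : M' ∣ D) (h1 : q ^ 2 * M' ∣ q ^ 2 * D) (h2 : q * M' ∣ q * D)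
    (h3 : q * (q * M') ∣ q ^ 2 * M') (h4 : q * (q * D) ∣ q ^ 2 * D) (u : FF K (q ^ 2 * M')) :
    normAlong (exN K q h4) (inc K h1 u) = inc K h2 (normAlong (exN K q h3) u) := by
  have hM : Nat.Coprime q M' := Nat.Coprime.coprime_dvd_right h hD
  have hζq : ζ ^ q = 1 := Units.ext (by push_cast; exact hζ.pow_eq_one)
  refine norm_comm (exN K q h3) (exN K q h4) (inc K h2) (inc K h1) hq.pos
    (finrank_ex ι hq hM h3) (finrank_ex ι hq hD h4)
    ((qExpand K q).comp (algebraMap (FF K (q * D)) (LaurentSeries K)))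
    (fun i : Fin q => (twist (ζ ^ (i : ℕ))).comp (algebraMap (FF K (q ^ 2 * D)) (LaurentSeries K)))
    (fun i => ?_) (fun x => ?_) ?_ u
  · apply RingHom.ext
    intro y
    change twist (ζ ^ (i : ℕ)) ((exN K q h4 y : FF K (q ^ 2 * D)) : LaurentSeries K) =
      qExpand K q (y : LaurentSeries K)
    rw [coe_exN, twist_qExpand]
    rw [← pow_mul, mul_comm, pow_mul, hζq, one_pow]
  · apply Subtype.ext
    rw [coe_inc, coe_exN, coe_exN, coe_inc]
  · intro i i' hii
    haveI : NeZero (1 : ℕ) := ⟨one_ne_zero⟩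
    have e1 := congrArg (fun φ : FF K (q ^ 2 * M') →+* LaurentSeries K =>
      (φ (jel K 1 (one_dvd _))).coeff (-1)) hii
    have e2 : ∀ i : Fin q, ((((twist (ζ ^ (i : ℕ))).comp
        (algebraMap (FF K (q ^ 2 * D)) (LaurentSeries K))).comp (inc K h1))
        (jel K 1 (one_dvd _))).coeff (-1) = (ζ : K)⁻¹ ^ (i : ℕ) := by
      intro i
      rw [RingHom.comp_apply, RingHom.comp_apply, inc_jel]
      change (twist (ζ ^ (i : ℕ)) ((jel K 1 (one_dvd _) : FF K (q ^ 2 * D)) :
        LaurentSeries K)).coeff (-1) = _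
      rw [coe_jel, qExpand_one_apply, coeff_tw]
    have e3 := (e2 i).symm.trans (e1.trans (e2 i'))
    exact Fin.ext (hζ.inv.pow_inj i.2 i'.2 e3)

end

end A3n

end Fermat.Agent.RT6
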