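import Fermat.Agent.MazurP.Vrep
import Fermat.Agent.CarayolX.HeckeOp

/-!
# (A3c)/(v): modularity from an eigenvector modulo `p`
-/

set_option autoImplicit false
set_option linter.style.haveILetI false

noncomputable section

namespace Fermat.Agent.RT6.A3v

open ModularCurve Fermat.Agent.GoodRed Fermat.Agent.Models Fermat.Agent.ModFun
open Fermat.Agent.Curves AlgebraicCurve Fermat.Agent.HeckeQ Fermat.Agent.MazurP
open Fermat.Agent.AnJac Fermat.Agent.GalRep Fermat.Agent.S43Glue CuspForm Matrix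
open Fermat.Agent.CarayolX (rmod)

local notation "Qbar" => AlgebraicClosure ℚ
local notation "GQ" => Qbar ≃ₐ[ℚ] Qbar

variable {p : ℕ} [hp : Fact p.Prime] {L : ℕ} [NeZero L] {S : Set ℕ}

/-- an eigenvector of the generators is an eigenvector of everything -/
theorem HV_lift {t : JS S → ZMod p} {y : Fin (rk L) → ZMod p}
    (h : ∀ i : JS S, HV (N := L) p (FreeAlgebra.ι ℤ i) *ᵥ y = t i • y) (P : FreeAlgebra ℤ (JS S)) :
    HV (N := L) p P *ᵥ y = FreeAlgebra.lift ℤ t P • y := by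
  induction P using FreeAlgebra.induction with
  | grade0 c =>
    rw [HV_algebraMap, AlgHom.commutes, eq_intCast]
    ext i
    rw [Pi.smul_apply, smul_eq_mul]
    have h1 : ((c : Matrix (Fin (rk L)) (Fin (rk L)) (ZMod p))) = (c : ZMod p) • 1 := by
      rw [← Algebra.algebraMap_eq_smul_one, map_intCast]
    rw [h1, Matrix.smul_mulVec, Matrix.one_mulVec, Pi.smul_apply, smul_eq_mul]
  | grade1 i =>
    rw [FreeAlgebra.lift_ι_apply]
    exact h i
  | mul P Q hP hQ =>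
    rw [HV_mul, ← Matrix.mulVec_mulVec, hQ, Matrix.mulVec_smul, hP, smul_smul, map_mul, mul_comm]
  | add P Q hP hQ =>
    rw [HV_add, Matrix.add_mulVec, hP, hQ, ← add_smul, map_add]

theorem hmod_of_vec' (hLS : ∀ r : ℕ, r.Prime → r ∣ L → r ∈ S)
    {ρ : GQ →* Matrix (Fin 2) (Fin 2) (ZMod p)} {y : Fin (rk L) → ZMod p} (hy : y ≠ 0)
    (ht : ∀ l : ℕ, l.Prime → l ∉ S → ∀ A : ValuationSubring Qbar, A.LiesOverPrime l →
      ∀ τ : GQ, A.IsFrobeniusAt τ l →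
        (Int.castRingHom (ZMod p)).mapMatrix (KSys.tm (bL L) (LTot L l)) *ᵥ y =
          (ρ τ).trace • y) : HMod ρ L S := by
  classical
  have hSL : ∀ i : JS S, ¬ i.1 ∣ L := fun i h => i.2.2 (hLS i.1 i.2.1 h)
  obtain ⟨j, hj⟩ : ∃ j, y j ≠ 0 := by
    by_contra hcon
    push Not at hcon
    exact hy (funext hcon)
  have hex : ∀ i : JS S, ∃ t : ZMod p, ∀ A : ValuationSubring Qbar, A.LiesOverPrime i.1 →
      ∀ τ : GQ, A.IsFrobeniusAt τ i.1 → (ρ τ).trace = t := by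
    intro i
    obtain ⟨A₀, hA₀, τ₀, hτ₀⟩ := Frob.exists_place_frobenius i.2.1
    refine ⟨(ρ τ₀).trace, fun A hA τ hτ => ?_⟩
    have h1 := ht i.1 i.2.1 i.2.2 A hA τ hτ
    rw [ht i.1 i.2.1 i.2.2 A₀ hA₀ τ₀ hτ₀] at h1
    exact (mul_right_cancel₀ hj (congrFun h1 j)).symm
  choose t htt using hex
  have hgen : ∀ i : JS S, HV (N := L) p (FreeAlgebra.ι ℤ i) *ᵥ y = t i • y := by
    intro i
    obtain ⟨A₀, hA₀, τ₀, hτ₀⟩ := Frob.exists_place_frobenius i.2.1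
    rw [HV_ι, ht i.1 i.2.1 i.2.2 A₀ hA₀ τ₀ hτ₀, htt i A₀ hA₀ τ₀ hτ₀]
  obtain ⟨θ, hθ⟩ := exists_lift_theta L hSL hLS (FreeAlgebra.lift ℤ t).toRingHom (fun P hP => by
    have h1 := HV_lift hgen P
    have h2 : HV (N := L) p P = 0 := by
      rw [HV, MazurP.mt, hP, map_zero, map_zero]
    rw [h2, Matrix.zero_mulVec] at h1
    have h3 := congrFun h1 j
    rw [Pi.zero_apply, Pi.smul_apply, smul_eq_mul] at h3
    exact (mul_eq_zero.1 h3.symm).resolve_right hj)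
  refine ⟨θ, fun ℓ hℓ hℓM hℓS A hA τ hτ => ?_⟩
  have h1 := hθ (FreeAlgebra.ι ℤ ⟨ℓ, hℓ, hℓS⟩)
  rw [hkA_ι] at h1
  rw [h1, htt ⟨ℓ, hℓ, hℓS⟩ A hA τ hτ]
  exact (FreeAlgebra.lift_ι_apply _ _).symm

/-- **(v)** -/
theorem hmod_of_vec (hLS : ∀ r : ℕ, r.Prime → r ∣ L → r ∈ S)
    {ρ : GQ →* Matrix (Fin 2) (Fin 2) (ZMod p)}
    {y : Fin (Module.finrank ℤ (Lat L)) → ZMod (p ^ 1)} (hy : y ≠ 0)
    (ht : ∀ l : ℕ, l.Prime → l ∉ S → ∀ A : ValuationSubring Qbar, A.LiesOverPrime l →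
      ∀ τ : GQ, A.IsFrobeniusAt τ l →
        rmod (p ^ 1) (KSys.tm (bL L) (LTot L l)) *ᵥ y =
          (((ρ τ).trace.val : ℕ) : ZMod (p ^ 1)) • y) : HMod ρ L S := by
  set f : ZMod (p ^ 1) ≃+* ZMod p := ZMod.ringEquivCongr (pow_one p) with hf
  refine hmod_of_vec' (y := fun i => f (y i)) hLS ?_ ?_
  · intro h
    apply hy
    funext i
    have h1 := congrFun h i
    exact f.injective (h1.trans (map_zero f).symm)
  · intro l hl hlS A hA τ hτ
    have h1 := ht l hl hlS A hA τ hτ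
    funext i
    have h2 := congrArg f (congrFun h1 i)
    rw [Pi.smul_apply, smul_eq_mul, map_mul, map_natCast, ZMod.natCast_zmod_val] at h2
    rw [Pi.smul_apply, smul_eq_mul, ← h2]
    rw [Matrix.mulVec, Matrix.mulVec, dotProduct, dotProduct, map_sum]
    refine Finset.sum_congr rfl fun j _ => ?_
    rw [map_mul]
    congr 1
    show ((_ : ℤ) : ZMod p) = f ((_ : ℤ) : ZMod (p ^ 1))
    rw [map_intCast]

end Fermat.Agent.RT6.A3v
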