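import Fermat.Agent.RT6.Alg6

/-!
# (A3)/(ALG)
-/

set_option autoImplicit false

noncomputable section

namespace Fermat.Agent.RT6.Alg

open OnePoint Matrix
open scoped MatrixGroups

lemma zmod_two (x : ZMod 2) : x = 0 ∨ x = 1 := by
  revert x; decide

/-- the case `q = 2`, `p = 3` -/
lemma case3 {p : ℕ} [Fact p.Prime] [Fact (Nat.Prime 2)] {V : Type} [AddCommGroup V]
    [Module (ZMod p) V]
    {φ : Pq 2 → Pq 2 → V} (hp : p = 3) (hd : ∀ a, φ a a = 0)
    (hr : ∀ a, ∑ b, φ a b = 0) (hc : ∀ b, ∑ a, φ a b = 0) (a b c : Pq 2) :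
    φ a b + φ b c + φ c a = 0 := by
  subst hp
  have h3 : ∀ v : V, v + v + v = 0 := by
    intro v
    have h : (3 : ZMod 3) • v = 0 := by
      rw [show (3 : ZMod 3) = 0 from rfl, zero_smul]
    rw [← h]
    module
  have h3' : ∀ v : V, -v + -v + -v = 0 := by
    intro v
    exact h3 (-v)
  have hs : ∀ f : Pq 2 → V, ∑ b, f b = f ∞ + (f ((0 : ZMod 2) : Pq 2) +
      f ((1 : ZMod 2) : Pq 2)) := by
    intro f
    rw [sum_Pq]
    congr 1
    exact Fin.sum_univ_two (fun x : ZMod 2 => f (x : Pq 2))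
  have r0 := hr ((0 : ZMod 2) : Pq 2)
  have ri := hr (∞ : Pq 2)
  have r1 := hr ((1 : ZMod 2) : Pq 2)
  have c0 := hc ((0 : ZMod 2) : Pq 2)
  have ci := hc (∞ : Pq 2)
  have c1 := hc ((1 : ZMod 2) : Pq 2)
  rw [hs] at r0 ri r1
  rw [hs (fun a => φ a _)] at c0 ci c1
  simp only [hd, add_zero, zero_add] at r0 ri r1 c0 ci c1
  obtain ⟨t, ht⟩ : ∃ t, t = φ ∞ ((0 : ZMod 2) : Pq 2) := ⟨_, rfl⟩
  rw [← ht] at ri c0
  have e1 : φ ∞ ((1 : ZMod 2) : Pq 2) = -t := by
    rw [eq_neg_iff_add_eq_zero, add_comm]; exact ri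
  have e2 : φ ((0 : ZMod 2) : Pq 2) ((1 : ZMod 2) : Pq 2) = t := by
    rw [e1] at c1
    rw [← sub_eq_zero, ← c1]; abel
  have e3 : φ ((1 : ZMod 2) : Pq 2) ((0 : ZMod 2) : Pq 2) = -t := by
    rw [eq_neg_iff_add_eq_zero, add_comm]; exact c0
  have e4 : φ ((0 : ZMod 2) : Pq 2) ∞ = -t := by
    rw [e2] at r0
    rw [eq_neg_iff_add_eq_zero]; exact r0
  have e5 : φ ((1 : ZMod 2) : Pq 2) ∞ = t := by
    rw [e3] at r1
    rw [← sub_eq_zero, ← r1]; abel
  have hP : ∀ a : Pq 2, a = ∞ ∨ a = ((0 : ZMod 2) : Pq 2) ∨ a = ((1 : ZMod 2) : Pq 2) := by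
    intro a
    induction a using OnePoint.rec with
    | infty => exact Or.inl rfl
    | coe x =>
      rcases zmod_two x with rfl | rfl
      · exact Or.inr (Or.inl rfl)
      · exact Or.inr (Or.inr rfl)
  rcases hP a with rfl | rfl | rfl <;> rcases hP b with rfl | rfl | rfl <;>
    rcases hP c with rfl | rfl | rfl <;>
    simp only [hd, e1, e2, e3, e4, e5, ← ht, add_zero, zero_add, h3, h3', neg_add_cancel,
      add_neg_cancel]

/-- **(ALG)** -/
theorem algSt : AlgSt := by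
  intro p q _ _ V _ _ R φ hp hqp h1 h2 h3 h4 h5 h6
  have H : Sys p q V R φ := ⟨h1, h2, h3, h4, h5, h6⟩
  have hp2 : (2 : ZMod p) ≠ 0 := by
    intro h
    have h' : ((2 : ℕ) : ZMod p) = 0 := by exact_mod_cast h
    rw [ZMod.natCast_eq_zero_iff] at h'
    have := Nat.le_of_dvd (by norm_num) h'
    omega
  refine ⟨?_, ?_⟩
  · intro hd
    have hq2 : q ≠ 2 := by
      rintro rfl
      have := Nat.le_of_dvd (by norm_num) hd
      omega
    have hq : (q : ZMod p) = 1 := by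
      have h := (ZMod.natCast_eq_zero_iff (q - 1) p).2 hd
      rw [Nat.cast_sub (Fact.out : q.Prime).one_lt.le, Nat.cast_one] at h
      exact sub_eq_zero.1 h
    exact H.case1 hq2 hp2 hq
  · intro hd
    by_cases hq2 : q = 2
    · subst hq2
      have hp3 : p = 3 := by
        have := Nat.le_of_dvd (by norm_num) hd
        omega
      exact case3 hp3 h2 h3 h4
    · have hq : (q : ZMod p) = -1 := by
        have h := (ZMod.natCast_eq_zero_iff (q + 1) p).2 hd
        rw [Nat.cast_add, Nat.cast_one] at h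
        exact eq_neg_of_add_eq_zero_left h
      exact H.case2 hq2 hp2 hq



end Fermat.Agent.RT6.Alg
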