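import Fermat.Agent.RT6.St

/-!
# (A3)/(ALG): group elements and the Radon inversion
-/

set_option autoImplicit false

noncomputable section

namespace Fermat.Agent.RT6.Alg

open OnePoint Matrix
open scoped MatrixGroups

variable {q : ℕ} [Fact q.Prime]

/-- an explicit element of `GL₂(𝔽_q)` -/
def mk (a b c d : ZMod q) (h : a * d - b * c ≠ 0) : GL (Fin 2) (ZMod q) :=
  Matrix.GeneralLinearGroup.mkOfDetNeZero !![a, b; c, d] (by rwa [Matrix.det_fin_two_of])

lemma mk_val {a b c d : ZMod q} (h : a * d - b * c ≠ 0) :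
    ((mk a b c d h : GL (Fin 2) (ZMod q)) : Matrix (Fin 2) (Fin 2) (ZMod q)) = !![a, b; c, d] :=
  rfl

@[simp] lemma mk_00 {a b c d : ZMod q} (h : a * d - b * c ≠ 0) : (mk a b c d h) 0 0 = a := rfl
@[simp] lemma mk_01 {a b c d : ZMod q} (h : a * d - b * c ≠ 0) : (mk a b c d h) 0 1 = b := rfl
@[simp] lemma mk_10 {a b c d : ZMod q} (h : a * d - b * c ≠ 0) : (mk a b c d h) 1 0 = c := rfl
@[simp] lemma mk_11 {a b c d : ZMod q} (h : a * d - b * c ≠ 0) : (mk a b c d h) 1 1 = d := rfl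

lemma mk_det {a b c d : ZMod q} (h : a * d - b * c ≠ 0) :
    ((mk a b c d h : GL (Fin 2) (ZMod q)) : Matrix (Fin 2) (Fin 2) (ZMod q)).det =
      a * d - b * c := by
  rw [mk_val, Matrix.det_fin_two_of]

lemma ext_of {g g' : GL (Fin 2) (ZMod q)} (h00 : g 0 0 = g' 0 0) (h01 : g 0 1 = g' 0 1)
    (h10 : g 1 0 = g' 1 0) (h11 : g 1 1 = g' 1 1) : g = g' := by
  apply Matrix.GeneralLinearGroup.ext
  intro i j
  fin_cases i <;> fin_cases j
  · exact h00
  · exact h01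
  · exact h10
  · exact h11

lemma mk_mul {a b c d a' b' c' d' : ZMod q} (h : a * d - b * c ≠ 0) (h' : a' * d' - b' * c' ≠ 0) :
    mk a b c d h * mk a' b' c' d' h' =
      mk (a * a' + b * c') (a * b' + b * d') (c * a' + d * c') (c * b' + d * d')
        (by
          have := mul_ne_zero h h'
          intro h0
          apply this
          rw [← h0]; ring) := by
  apply ext_of
  all_goals simp [mk_val, Matrix.mul_apply, Fin.sum_univ_two]

/-- translation -/
def u (t : ZMod q) : GL (Fin 2) (ZMod q) := mk 1 t 0 1 (by simp)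

/-- lower unipotent -/
def l (t : ZMod q) : GL (Fin 2) (ZMod q) := mk 1 0 t 1 (by simp)

/-- homothety -/
def m (s : ZMod q) (hs : s ≠ 0) : GL (Fin 2) (ZMod q) := mk s 0 0 1 (by simpa using hs)

/-- scalar -/
def sc (s : ZMod q) (hs : s ≠ 0) : GL (Fin 2) (ZMod q) := mk s 0 0 s (by simpa using hs)

/-- inversion -/
def w : GL (Fin 2) (ZMod q) := mk 0 1 1 0 (by simp)

lemma mk_infty {a b c d : ZMod q} (h : a * d - b * c ≠ 0) :
    mk a b c d h • (∞ : Pq q) = if c = 0 then ∞ else ((a / c : ZMod q) : Pq q) := by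
  rw [smul_infty_eq_ite]; rfl

lemma mk_coe {a b c d : ZMod q} (h : a * d - b * c ≠ 0) (x : ZMod q) :
    mk a b c d h • (x : Pq q) =
      if c * x + d = 0 then ∞ else (((a * x + b) / (c * x + d) : ZMod q) : Pq q) := by
  rw [smul_some_eq_ite]; rfl

@[simp] lemma u_infty (t : ZMod q) : u t • (∞ : Pq q) = ∞ := by simp [u, mk_infty]
@[simp] lemma u_coe (t x : ZMod q) : u t • (x : Pq q) = ((x + t : ZMod q) : Pq q) := by
  simp [u, mk_coe]
@[simp] lemma m_infty (s : ZMod q) (hs : s ≠ 0) : m s hs • (∞ : Pq q) = ∞ := by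
  simp [m, mk_infty]
@[simp] lemma m_coe (s x : ZMod q) (hs : s ≠ 0) :
    m s hs • (x : Pq q) = ((s * x : ZMod q) : Pq q) := by
  simp [m, mk_coe]
@[simp] lemma w_infty : (w : GL (Fin 2) (ZMod q)) • (∞ : Pq q) = ((0 : ZMod q) : Pq q) := by
  simp [w, mk_infty]
@[simp] lemma w_zero : (w : GL (Fin 2) (ZMod q)) • ((0 : ZMod q) : Pq q) = ∞ := by
  simp [w, mk_coe]
lemma w_coe (x : ZMod q) (hx : x ≠ 0) : (w : GL (Fin 2) (ZMod q)) • (x : Pq q) = ((x⁻¹ : ZMod q) : Pq q) := by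
  simp [w, mk_coe, hx]
@[simp] lemma w_one : (w : GL (Fin 2) (ZMod q)) • ((1 : ZMod q) : Pq q) = ((1 : ZMod q) : Pq q) := by
  rw [w_coe 1 one_ne_zero, inv_one]

lemma sc_smul (s : ZMod q) (hs : s ≠ 0) (a : Pq q) : sc s hs • a = a := by
  induction a using OnePoint.rec with
  | infty => simp [sc, mk_infty]
  | coe x =>
    rw [sc, mk_coe, if_neg (by simpa using hs)]
    congr 1
    rw [zero_mul, zero_add, add_zero, mul_div_cancel_left₀ _ hs]

lemma l_eq (t : ZMod q) : l t = w * u t * w := by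
  rw [w, u, l, mk_mul, mk_mul]
  apply ext_of <;> simp

lemma sc_comm (s : ZMod q) (hs : s ≠ 0) (g : GL (Fin 2) (ZMod q)) : sc s hs * g = g * sc s hs := by
  apply ext_of
  all_goals
    simp [sc, mk_val, Matrix.mul_apply, Fin.sum_univ_two, mul_comm]

lemma m_mul (s t : ZMod q) (hs : s ≠ 0) (ht : t ≠ 0) :
    m s hs * m t ht = m (s * t) (mul_ne_zero hs ht) := by
  rw [m, m, mk_mul, m]
  apply ext_of <;> simp

lemma m_u (s t : ZMod q) (hs : s ≠ 0) : u (s * t) * m s hs = m s hs * u t := by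
  rw [m, u, u, mk_mul, mk_mul]
  apply ext_of <;> simp

lemma u_add (s t : ZMod q) : u s * u t = u (s + t) := by
  rw [u, u, mk_mul, u]
  apply ext_of <;> simp [add_comm]

lemma w_mul : (w : GL (Fin 2) (ZMod q)) * w = 1 := by
  rw [w, mk_mul]
  apply ext_of <;> simp

lemma m_one (h : (1 : ZMod q) ≠ 0) : m (1 : ZMod q) h = 1 := by
  rw [m]
  apply ext_of <;> simp

/-- the hypotheses of (ALG) -/
structure Sys (p q : ℕ) [Fact p.Prime] [Fact q.Prime] (V : Type) [AddCommGroup V]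
    [Module (ZMod p) V] (R : GL (Fin 2) (ZMod q) →* Module.End (ZMod p) V)
    (φ : Pq q → Pq q → V) : Prop where
  eqv : ∀ g a b, R g (φ a b) = φ (g • a) (g • b)
  diag : ∀ a, φ a a = 0
  row : ∀ a, ∑ b, φ a b = 0
  col : ∀ b, ∑ a, φ a b = 0
  cr : ∀ s t : ZMod q, s ≠ 0 → s ≠ 1 → t ≠ 0 → t ≠ 1 →
      ∑ c ∈ Finset.univ.erase 0, φ ((c : ZMod q) : Pq q) ((s * c : ZMod q) : Pq q) =
      ∑ c ∈ Finset.univ.erase 0, φ ((c : ZMod q) : Pq q) ((t * c : ZMod q) : Pq q)
  fx : ∀ v : V, (∀ g : GL (Fin 2) (ZMod q), g • (OnePoint.infty : Pq q) = OnePoint.infty →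
      R g v = v) → v = 0

variable {p : ℕ} [Fact p.Prime] {V : Type} [AddCommGroup V] [Module (ZMod p) V]
  {R : GL (Fin 2) (ZMod q) →* Module.End (ZMod p) V} {φ : Pq q → Pq q → V}

lemma sum_Pq {M : Type*} [AddCommMonoid M] (f : Pq q → M) :
    ∑ b, f b = f ∞ + ∑ x : ZMod q, f (x : Pq q) :=
  Fintype.sum_option f

lemma R_mul (R : GL (Fin 2) (ZMod q) →* Module.End (ZMod p) V) (g h : GL (Fin 2) (ZMod q))
    (v : V) : R (g * h) v = R g (R h v) := by
  rw [map_mul]; rfl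

lemma R_one (R : GL (Fin 2) (ZMod q) →* Module.End (ZMod p) V) (v : V) : R 1 v = v := by
  rw [map_one]; rfl

namespace Sys

variable (H : Sys p q V R φ)
include H

lemma row' (a : Pq q) : φ a ∞ + ∑ x : ZMod q, φ a (x : Pq q) = 0 := by
  rw [← sum_Pq]; exact H.row a

lemma col' (b : Pq q) : φ ∞ b + ∑ x : ZMod q, φ (x : Pq q) b = 0 := by
  rw [← sum_Pq (fun a => φ a b)]; exact H.col b

/-- fixed by scalars, translations and homotheties ⟹ zero -/
lemma fixB (v : V) (h1 : ∀ s hs, R (sc s hs) v = v) (h2 : ∀ t, R (u t) v = v)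
    (h3 : ∀ s hs, R (m s hs) v = v) : v = 0 := by
  apply H.fx
  intro g hg
  rw [smul_infty_eq_self_iff] at hg
  have hdet : g 0 0 * g 1 1 ≠ 0 := by
    have h := g.det_ne_zero
    rw [Matrix.det_fin_two] at h
    have h' : g 0 0 * g 1 1 - g 0 1 * g 1 0 ≠ 0 := h
    rwa [hg, mul_zero, sub_zero] at h'
  have h11 : g 1 1 ≠ 0 := right_ne_zero_of_mul hdet
  have h00 : g 0 0 ≠ 0 := left_ne_zero_of_mul hdet
  have e : g = sc (g 1 1) h11 * (u (g 0 1 / g 1 1) * m (g 0 0 / g 1 1) (div_ne_zero h00 h11)) := by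
    rw [sc, u, m, mk_mul, mk_mul]
    apply ext_of
    · simp only [mk_00]; field_simp; ring
    · simp only [mk_01]; field_simp; ring
    · simp only [mk_10, hg]; ring
    · simp only [mk_11]; ring
  rw [e, R_mul, R_mul, h3, h2, h1]

end Sys

end Fermat.Agent.RT6.Alg
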