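import Fermat.Agent.RT6.Alg1

/-!
# (A3)/(ALG): the Radon inversion
-/

set_option autoImplicit false

noncomputable section

namespace Fermat.Agent.RT6.Alg

open OnePoint Matrix
open scoped MatrixGroups

variable {q : ℕ} [Fact q.Prime]
variable {p : ℕ} [Fact p.Prime] {V : Type} [AddCommGroup V] [Module (ZMod p) V]
  {R : GL (Fin 2) (ZMod q) →* Module.End (ZMod p) V} {φ : Pq q → Pq q → V}

/-- the sum along the slope `-1` -/
def rho (φ : Pq q → Pq q → V) : V := ∑ t : ZMod q, φ (t : Pq q) ((-t : ZMod q) : Pq q)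

/-- translate of `rho` -/
def Rr (R : GL (Fin 2) (ZMod q) →* Module.End (ZMod p) V) (φ : Pq q → Pq q → V) (x : ZMod q) : V :=
  R (u x) (rho φ)

/-- the sums along slope `1` -/
def Dl (φ : Pq q → Pq q → V) (e : ZMod q) : V :=
  ∑ t : ZMod q, φ (t : Pq q) ((t + e : ZMod q) : Pq q)

lemma two_ne (hq2 : q ≠ 2) : (2 : ZMod q) ≠ 0 := by
  intro h
  have : ((2 : ℕ) : ZMod q) = 0 := by exact_mod_cast h
  rw [ZMod.natCast_eq_zero_iff] at this
  exact hq2 ((Nat.prime_dvd_prime_iff_eq (Fact.out : q.Prime) Nat.prime_two).1 this)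

lemma neg_one_ne_one (hq2 : q ≠ 2) : (-1 : ZMod q) ≠ 1 := by
  intro h
  apply two_ne hq2
  linear_combination -h

namespace Sys

variable (H : Sys p q V R φ)
include H

lemma sum_erase (f : ZMod q → Pq q) (g : ZMod q → Pq q) (h0 : f 0 = g 0) :
    ∑ t ∈ Finset.univ.erase (0 : ZMod q), φ (f t) (g t) = ∑ t : ZMod q, φ (f t) (g t) := by
  rw [← Finset.add_sum_erase Finset.univ (fun t => φ (f t) (g t)) (Finset.mem_univ (0 : ZMod q)),
    h0, H.diag, zero_add]

lemma rho_eq (hq2 : q ≠ 2) (s : ZMod q) (h0 : s ≠ 0) (h1 : s ≠ 1) :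
    ∑ t : ZMod q, φ (t : Pq q) ((s * t : ZMod q) : Pq q) = rho φ := by
  have h := H.cr s (-1) h0 h1 (neg_ne_zero.2 one_ne_zero) (neg_one_ne_one hq2)
  rw [H.sum_erase (fun t => (t : Pq q)) (fun t => ((s * t : ZMod q) : Pq q)) (by simp),
    H.sum_erase (fun t => (t : Pq q)) (fun t => ((-1 * t : ZMod q) : Pq q)) (by simp)] at h
  rw [h, rho]
  simp

lemma Rr_eq (hq2 : q ≠ 2) (x s : ZMod q) (h0 : s ≠ 0) (h1 : s ≠ 1) :
    ∑ t : ZMod q, φ ((x + t : ZMod q) : Pq q) ((x + s * t : ZMod q) : Pq q) = Rr R φ x := by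
  rw [Rr, ← H.rho_eq hq2 s h0 h1, map_sum]
  apply Finset.sum_congr rfl
  intro t _
  rw [H.eqv, u_coe, u_coe, add_comm t, add_comm (s * t)]

lemma m_rho (s : ZMod q) (hs : s ≠ 0) : R (m s hs) (rho φ) = rho φ := by
  rw [rho, map_sum]
  simp only [H.eqv, m_coe]
  refine Fintype.sum_equiv (Equiv.mulLeft₀ s hs) _ _ ?_
  intro t
  simp [mul_neg]

lemma w_rho (hq2 : q ≠ 2) : R w (rho φ) = rho φ := by
  rw [rho, map_sum]
  rw [← Finset.add_sum_erase Finset.univ
      (fun t : ZMod q => R w (φ (t : Pq q) ((-t : ZMod q) : Pq q)))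
      (Finset.mem_univ (0 : ZMod q)),
    ← Finset.add_sum_erase Finset.univ (fun t : ZMod q => φ (t : Pq q) ((-t : ZMod q) : Pq q))
      (Finset.mem_univ (0 : ZMod q))]
  simp only [neg_zero, H.diag, map_zero]
  congr 1
  refine Finset.sum_nbij' (fun t => t⁻¹) (fun t => t⁻¹) ?_ ?_ ?_ ?_ ?_
  · intro t ht; simpa using ht
  · intro t ht; simpa using ht
  · intro t _; simp
  · intro t _; simp
  · intro t ht
    have ht0 : t ≠ 0 := by simpa using ht
    rw [H.eqv, w_coe t ht0, w_coe (-t) (neg_ne_zero.2 ht0), inv_neg]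

lemma sc_phi (s : ZMod q) (hs : s ≠ 0) (a b : Pq q) : R (sc s hs) (φ a b) = φ a b := by
  rw [H.eqv, sc_smul, sc_smul]

lemma sc_R (s : ZMod q) (hs : s ≠ 0) (g : GL (Fin 2) (ZMod q)) (v : V)
    (h : R (sc s hs) v = v) : R (sc s hs) (R g v) = R g v := by
  rw [← R_mul, sc_comm, R_mul, h]

lemma sc_rho (s : ZMod q) (hs : s ≠ 0) : R (sc s hs) (rho φ) = rho φ := by
  rw [rho, map_sum]
  exact Finset.sum_congr rfl fun t _ => H.sc_phi s hs _ _

lemma sc_Dl (s : ZMod q) (hs : s ≠ 0) (e : ZMod q) : R (sc s hs) (Dl φ e) = Dl φ e := by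
  rw [Dl, map_sum]
  exact Finset.sum_congr rfl fun t _ => H.sc_phi s hs _ _

lemma u_Dl (x e : ZMod q) : R (u x) (Dl φ e) = Dl φ e := by
  rw [Dl, map_sum]
  simp only [H.eqv, u_coe]
  refine Fintype.sum_equiv (Equiv.addRight x) _ _ ?_
  intro t
  simp only [Equiv.coe_addRight]
  rw [add_right_comm]

lemma m_Dl (s : ZMod q) (hs : s ≠ 0) (e : ZMod q) : R (m s hs) (Dl φ e) = Dl φ (s * e) := by
  rw [Dl, map_sum]
  simp only [H.eqv, m_coe]
  refine Fintype.sum_equiv (Equiv.mulLeft₀ s hs) _ _ ?_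
  intro t
  simp [mul_add]

/-- the total sum of the translates of `rho` vanishes -/
lemma sum_Rr : ∑ x : ZMod q, Rr R φ x = 0 := by
  apply H.fixB
  · intro s hs
    rw [map_sum]
    exact Finset.sum_congr rfl fun x _ => H.sc_R s hs _ _ (H.sc_rho s hs)
  · intro t
    rw [map_sum]
    refine Fintype.sum_equiv (Equiv.addLeft t) _ _ ?_
    intro x
    rw [Rr, ← R_mul, u_add]
    rfl
  · intro s hs
    rw [map_sum]
    refine Fintype.sum_equiv (Equiv.mulLeft₀ s hs) _ _ ?_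
    intro x
    rw [Rr, ← R_mul, ← m_u, R_mul, H.m_rho]
    rfl

/-- **(I2)** -/
lemma I2 (hq2 : q ≠ 2) : ((q : ZMod p) - 2) • rho φ = φ ((0 : ZMod q) : Pq q) ∞ +
    φ ∞ ((0 : ZMod q) : Pq q) := by
  classical
  -- the double sum over all slopes and all `t ≠ 0`
  have key : ∑ s : ZMod q, ∑ t ∈ Finset.univ.erase (0 : ZMod q),
      φ (t : Pq q) ((s * t : ZMod q) : Pq q) =
      φ ((0 : ZMod q) : Pq q) ∞ := by
    rw [Finset.sum_comm]
    have h1 : ∀ t ∈ Finset.univ.erase (0 : ZMod q),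
        ∑ s : ZMod q, φ (t : Pq q) ((s * t : ZMod q) : Pq q) = - φ (t : Pq q) ∞ := by
      intro t ht
      have ht0 : t ≠ 0 := by simpa using ht
      rw [eq_neg_iff_add_eq_zero, add_comm, ← H.row' (t : Pq q)]
      congr 1
      exact Fintype.sum_equiv (Equiv.mulRight₀ t ht0) _ _ (fun s => rfl)
    rw [Finset.sum_congr rfl h1, Finset.sum_neg_distrib, neg_eq_iff_add_eq_zero, add_comm]
    have h2 := H.col' (∞ : Pq q)
    rw [H.diag, zero_add, ← Finset.add_sum_erase Finset.univ (fun t : ZMod q => φ (t : Pq q) ∞)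
      (Finset.mem_univ (0 : ZMod q))] at h2
    exact h2
  rw [← Finset.add_sum_erase Finset.univ (fun s : ZMod q =>
      ∑ t ∈ Finset.univ.erase (0 : ZMod q), φ (t : Pq q) ((s * t : ZMod q) : Pq q))
      (Finset.mem_univ (0 : ZMod q)),
    ← Finset.add_sum_erase (Finset.univ.erase (0 : ZMod q)) (fun s : ZMod q =>
      ∑ t ∈ Finset.univ.erase (0 : ZMod q), φ (t : Pq q) ((s * t : ZMod q) : Pq q))
      (Finset.mem_erase.2 ⟨one_ne_zero, Finset.mem_univ (1 : ZMod q)⟩)] at key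
  have h3 : ∀ s ∈ (Finset.univ.erase (0 : ZMod q)).erase 1,
      ∑ t ∈ Finset.univ.erase (0 : ZMod q), φ (t : Pq q) ((s * t : ZMod q) : Pq q) = rho φ := by
    intro s hs
    simp only [Finset.mem_erase, Finset.mem_univ, and_true] at hs
    rw [H.sum_erase (fun t => (t : Pq q)) (fun t => ((s * t : ZMod q) : Pq q)) (by simp)]
    exact H.rho_eq hq2 s hs.2 hs.1
  rw [Finset.sum_congr rfl h3, Finset.sum_const] at key
  have h4 : ∑ t ∈ Finset.univ.erase (0 : ZMod q), φ (t : Pq q) (((1 : ZMod q) * t : ZMod q) : Pq q)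
      = 0 := by
    apply Finset.sum_eq_zero
    intro t _
    rw [one_mul, H.diag]
  have h5 : ∑ t ∈ Finset.univ.erase (0 : ZMod q), φ (t : Pq q) (((0 : ZMod q) * t : ZMod q) : Pq q)
      = - φ ∞ ((0 : ZMod q) : Pq q) := by
    have h2 := H.col' ((0 : ZMod q) : Pq q)
    rw [← Finset.add_sum_erase Finset.univ (fun t : ZMod q => φ (t : Pq q) ((0 : ZMod q) : Pq q))
      (Finset.mem_univ (0 : ZMod q)), H.diag, zero_add] at h2
    simp only [zero_mul]
    rw [eq_neg_iff_add_eq_zero, add_comm]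
    exact h2
  have hcard : ((Finset.univ.erase (0 : ZMod q)).erase 1).card = q - 2 := by
    rw [Finset.card_erase_of_mem (Finset.mem_erase.2 ⟨one_ne_zero, Finset.mem_univ _⟩),
      Finset.card_erase_of_mem (Finset.mem_univ _), Finset.card_univ, ZMod.card]
    omega
  rw [h4, h5, hcard, zero_add] at key
  have h2le : 2 ≤ q := (Fact.out : q.Prime).two_le
  have h6 : ((q : ZMod p) - 2) • rho φ = (q - 2) • rho φ := by
    rw [← Nat.cast_smul_eq_nsmul (ZMod p) (q - 2) (rho φ), Nat.cast_sub h2le]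
    norm_num
  rw [h6, ← key]
  abel

end Sys

end Fermat.Agent.RT6.Alg
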