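import Fermat.Agent.RT6.Alg2

/-!
# (A3)/(ALG): the Radon inversion, main identity
-/

set_option autoImplicit false

noncomputable section

namespace Fermat.Agent.RT6.Alg

open OnePoint Matrix
open scoped MatrixGroups

variable {q : ℕ} [Fact q.Prime]
variable {p : ℕ} [Fact p.Prime] {V : Type} [AddCommGroup V] [Module (ZMod p) V]
  {R : GL (Fin 2) (ZMod q) →* Module.End (ZMod p) V} {φ : Pq q → Pq q → V}

namespace Sys

variable (H : Sys p q V R φ)
include H

/-- a line of slope `s ≠ 0, 1` -/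
lemma line (hq2 : q ≠ 2) (c d s : ZMod q) (h0 : s ≠ 0) (h1 : s ≠ 1) :
    ∑ t : ZMod q, φ ((c + t : ZMod q) : Pq q) ((d + s * t : ZMod q) : Pq q) =
      Rr R φ (c + (d - c) / (1 - s)) := by
  have h1' : (1 : ZMod q) - s ≠ 0 := sub_ne_zero.2 (Ne.symm h1)
  rw [← H.Rr_eq hq2 _ s h0 h1]
  refine Fintype.sum_equiv (Equiv.addRight (-((d - c) / (1 - s)))) _ _ ?_
  intro t
  simp only [Equiv.coe_addRight]
  congr 2
  · ring
  · field_simp
    ring

/-- **(I1)**: the Radon inversion -/
lemma I1 (hq2 : q ≠ 2) (c d : ZMod q) (hcd : c ≠ d) :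
    (q : ZMod p) • φ (c : Pq q) (d : Pq q) + φ (c : Pq q) ∞ + φ ∞ (d : Pq q) + Rr R φ c + Rr R φ d
      = Dl φ (d - c) := by
  classical
  have hdc : d - c ≠ 0 := sub_ne_zero.2 (Ne.symm hcd)
  -- the double sum, columnwise
  have keyA : ∑ s : ZMod q, ∑ t : ZMod q,
      φ ((c + t : ZMod q) : Pq q) ((d + s * t : ZMod q) : Pq q) =
      (q : ZMod p) • φ (c : Pq q) (d : Pq q) + φ (c : Pq q) ∞ := by
    rw [Finset.sum_comm, ← Finset.add_sum_erase Finset.univ (fun t : ZMod q =>
      ∑ s : ZMod q, φ ((c + t : ZMod q) : Pq q) ((d + s * t : ZMod q) : Pq q))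
      (Finset.mem_univ (0 : ZMod q))]
    congr 1
    · simp only [add_zero, mul_zero, Finset.sum_const, Finset.card_univ, ZMod.card]
      rw [Nat.cast_smul_eq_nsmul]
    · have h1 : ∀ t ∈ Finset.univ.erase (0 : ZMod q),
          ∑ s : ZMod q, φ ((c + t : ZMod q) : Pq q) ((d + s * t : ZMod q) : Pq q) =
          - φ ((c + t : ZMod q) : Pq q) ∞ := by
        intro t ht
        have ht0 : t ≠ 0 := by simpa using ht
        rw [eq_neg_iff_add_eq_zero, add_comm, ← H.row' ((c + t : ZMod q) : Pq q)]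
        congr 1
        exact Fintype.sum_equiv ((Equiv.mulRight₀ t ht0).trans (Equiv.addLeft d)) _ _
          (fun s => rfl)
      rw [Finset.sum_congr rfl h1, Finset.sum_neg_distrib, neg_eq_iff_add_eq_zero, add_comm]
      have h2 := H.col' (∞ : Pq q)
      rw [H.diag, zero_add] at h2
      have h3 : ∑ x : ZMod q, φ (x : Pq q) ∞ = ∑ t : ZMod q, φ ((c + t : ZMod q) : Pq q) ∞ :=
        (Fintype.sum_equiv (Equiv.addLeft c) _ _ (fun t => rfl)).symm
      rw [h3, ← Finset.add_sum_erase Finset.univ (fun t : ZMod q => φ ((c + t : ZMod q) : Pq q) ∞)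
        (Finset.mem_univ (0 : ZMod q)), add_zero] at h2
      exact h2
  -- slope `0`
  have hs0 : ∑ t : ZMod q, φ ((c + t : ZMod q) : Pq q) ((d + 0 * t : ZMod q) : Pq q) =
      - φ ∞ (d : Pq q) := by
    rw [eq_neg_iff_add_eq_zero, add_comm, ← H.col' (d : Pq q)]
    congr 1
    refine Fintype.sum_equiv (Equiv.addLeft c) _ _ ?_
    intro t
    simp
  -- slope `1`
  have hs1 : ∑ t : ZMod q, φ ((c + t : ZMod q) : Pq q) ((d + 1 * t : ZMod q) : Pq q) =
      Dl φ (d - c) := by
    rw [Dl]
    refine Fintype.sum_equiv (Equiv.addLeft c) _ _ ?_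
    intro t
    simp only [Equiv.coe_addLeft]
    congr 2
    ring
  rw [← Finset.add_sum_erase Finset.univ (fun s : ZMod q =>
      ∑ t : ZMod q, φ ((c + t : ZMod q) : Pq q) ((d + s * t : ZMod q) : Pq q))
      (Finset.mem_univ (0 : ZMod q)),
    ← Finset.add_sum_erase (Finset.univ.erase (0 : ZMod q)) (fun s : ZMod q =>
      ∑ t : ZMod q, φ ((c + t : ZMod q) : Pq q) ((d + s * t : ZMod q) : Pq q))
      (Finset.mem_erase.2 ⟨one_ne_zero, Finset.mem_univ (1 : ZMod q)⟩), hs0, hs1] at keyA
  have hs2 : ∑ s ∈ (Finset.univ.erase (0 : ZMod q)).erase 1,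
      ∑ t : ZMod q, φ ((c + t : ZMod q) : Pq q) ((d + s * t : ZMod q) : Pq q) =
      ∑ x ∈ (Finset.univ.erase c).erase d, Rr R φ x := by
    refine Finset.sum_nbij' (fun s => c + (d - c) / (1 - s)) (fun x => 1 - (d - c) / (x - c))
      ?_ ?_ ?_ ?_ ?_
    · intro s hs
      simp only [Finset.mem_erase, Finset.mem_univ, and_true] at hs ⊢
      have h1' : (1 : ZMod q) - s ≠ 0 := sub_ne_zero.2 (Ne.symm hs.1)
      refine ⟨?_, ?_⟩
      · intro h
        apply hs.2
        have h' : (d - c) / (1 - s) = d - c := by linear_combination h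
        rw [div_eq_iff h1'] at h'
        have h'' : (d - c) * s = 0 := by linear_combination h'
        exact (mul_eq_zero.1 h'').resolve_left hdc
      · intro h
        have h' : (d - c) / (1 - s) = 0 := by linear_combination h
        exact (div_ne_zero hdc h1') h'
    · intro x hx
      simp only [Finset.mem_erase, Finset.mem_univ, and_true] at hx ⊢
      have hxc : x - c ≠ 0 := sub_ne_zero.2 hx.2
      refine ⟨?_, ?_⟩
      · intro h
        have h' : (d - c) / (x - c) = 0 := by linear_combination -h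
        exact (div_ne_zero hdc hxc) h'
      · intro h
        apply hx.1
        have h' : (d - c) / (x - c) = 1 := by linear_combination -h
        rw [div_eq_iff hxc] at h'
        linear_combination -h'
    · intro s hs
      simp only [Finset.mem_erase, Finset.mem_univ, and_true] at hs
      have h1' : (1 : ZMod q) - s ≠ 0 := sub_ne_zero.2 (Ne.symm hs.1)
      have e : c + (d - c) / (1 - s) - c = (d - c) / (1 - s) := by ring
      simp only [e]
      rw [div_div_cancel₀ hdc]
      ring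
    · intro x hx
      simp only [Finset.mem_erase, Finset.mem_univ, and_true] at hx
      have hxc : x - c ≠ 0 := sub_ne_zero.2 hx.2
      have e : 1 - (1 - (d - c) / (x - c)) = (d - c) / (x - c) := by ring
      simp only [e]
      rw [div_div_cancel₀ hdc]
      ring
    · intro s hs
      simp only [Finset.mem_erase, Finset.mem_univ, and_true] at hs
      exact H.line hq2 c d s hs.2 hs.1
  have hs3 : ∑ x ∈ (Finset.univ.erase c).erase d, Rr R φ x = - Rr R φ c - Rr R φ d := by
    have h := H.sum_Rr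
    rw [← Finset.add_sum_erase Finset.univ _ (Finset.mem_univ c),
      ← Finset.add_sum_erase (Finset.univ.erase c) _
        (Finset.mem_erase.2 ⟨Ne.symm hcd, Finset.mem_univ d⟩)] at h
    rw [← sub_eq_zero, ← h]
    abel
  rw [hs2, hs3] at keyA
  have e : (q : ZMod p) • φ (c : Pq q) (d : Pq q) + φ (c : Pq q) ∞ + φ ∞ (d : Pq q) + Rr R φ c +
      Rr R φ d = ((q : ZMod p) • φ (c : Pq q) (d : Pq q) + φ (c : Pq q) ∞) + φ ∞ (d : Pq q) +
      Rr R φ c + Rr R φ d := rfl
  rw [e, ← keyA]
  abel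

end Sys

end Fermat.Agent.RT6.Alg
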