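import Fermat.Agent.RT6.Alg3

/-!
# (A3)/(ALG): the subspace fixed by the matrices of square determinant
-/

set_option autoImplicit false

noncomputable section

namespace Fermat.Agent.RT6.Alg

open OnePoint Matrix
open scoped MatrixGroups

variable {q : ℕ} [Fact q.Prime]
variable {p : ℕ} [Fact p.Prime] {V : Type} [AddCommGroup V] [Module (ZMod p) V]
  {R : GL (Fin 2) (ZMod q) →* Module.End (ZMod p) V} {φ : Pq q → Pq q → V}

/-- fixed by all matrices of square determinant -/
def InW (R : GL (Fin 2) (ZMod q) →* Module.End (ZMod p) V) (v : V) : Prop :=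
  ∀ g : GL (Fin 2) (ZMod q), IsSquare (g : Matrix (Fin 2) (Fin 2) (ZMod q)).det → R g v = v

lemma InW.add {v v' : V} (h : InW R v) (h' : InW R v') : InW R (v + v') := by
  intro g hg
  rw [map_add, h g hg, h' g hg]

lemma InW.sub {v v' : V} (h : InW R v) (h' : InW R v') : InW R (v - v') := by
  intro g hg
  rw [map_sub, h g hg, h' g hg]

lemma InW.neg {v : V} (h : InW R v) : InW R (-v) := by
  intro g hg
  rw [map_neg, h g hg]

lemma InW.smul {v : V} (h : InW R v) (a : ZMod p) : InW R (a • v) := by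
  intro g hg
  rw [_root_.map_smul, h g hg]

lemma InW.act {v : V} (h : InW R v) (g : GL (Fin 2) (ZMod q)) : InW R (R g v) := by
  intro k hk
  have e : k * g = g * (g⁻¹ * k * g) := by group
  rw [← R_mul, e, R_mul]
  congr 1
  apply h
  have e2 : ((g⁻¹ * k * g : GL (Fin 2) (ZMod q)) : Matrix (Fin 2) (Fin 2) (ZMod q)).det =
      (k : Matrix (Fin 2) (Fin 2) (ZMod q)).det := by
    rw [← Matrix.GeneralLinearGroup.val_det_apply, ← Matrix.GeneralLinearGroup.val_det_apply]
    congr 1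
    rw [map_mul, map_mul, map_inv]
    rw [mul_comm, ← mul_assoc, mul_inv_cancel, one_mul]
  rw [e2]
  exact hk

lemma memW_aux {v : V} (h1 : ∀ s hs, R (sc s hs) v = v) (h2 : ∀ t, R (u t) v = v)
    (h3 : ∀ t, R (l t) v = v) (g : GL (Fin 2) (ZMod q))
    (hg : IsSquare (g : Matrix (Fin 2) (Fin 2) (ZMod q)).det) (hc : g 1 0 ≠ 0) : R g v = v := by
  obtain ⟨r, hr⟩ := hg
  have hdet := g.det_ne_zero
  have hr0 : r ≠ 0 := by
    rintro rfl
    apply hdet
    rw [hr, mul_zero]
  have hdet' : g 0 0 * g 1 1 - g 0 1 * g 1 0 = r * r := by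
    rw [← hr, Matrix.det_fin_two]
  have e : g = sc r hr0 * (u ((g 0 0 / r - 1) / (g 1 0 / r)) * (l (g 1 0 / r) *
      u ((g 1 1 / r - 1) / (g 1 0 / r)))) := by
    rw [sc, u, l, u, mk_mul, mk_mul, mk_mul]
    apply ext_of
    · simp only [mk_00]; field_simp; ring
    · simp only [mk_01]; field_simp; linear_combination (-r) * hdet'
    · simp only [mk_10]; field_simp; ring
    · simp only [mk_11]; field_simp; ring
  rw [e, R_mul, R_mul, R_mul, h2, h3, h2, h1]

lemma memW {v : V} (h1 : ∀ s hs, R (sc s hs) v = v) (h2 : ∀ t, R (u t) v = v)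
    (h3 : ∀ t, R (l t) v = v) : InW R v := by
  intro g hg
  by_cases hc : g 1 0 = 0
  · have hdet := g.det_ne_zero
    have hd : g 1 1 ≠ 0 := by
      intro hd
      apply hdet
      rw [Matrix.det_fin_two]
      have h' : g 0 0 * g 1 1 - g 0 1 * g 1 0 = 0 := by rw [hd, hc]; ring
      exact h'
    have h4 : R (g * l 1) v = v := by
      apply memW_aux h1 h2 h3
      · have e : ((g * l 1 : GL (Fin 2) (ZMod q)) : Matrix (Fin 2) (Fin 2) (ZMod q)).det =
            (g : Matrix (Fin 2) (Fin 2) (ZMod q)).det := by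
          rw [Matrix.GeneralLinearGroup.coe_mul, Matrix.det_mul, l, mk_det]
          ring
        rw [e]
        exact hg
      · have e : ((g * l 1 : GL (Fin 2) (ZMod q)) : Matrix (Fin 2) (Fin 2) (ZMod q)) 1 0 =
            g 1 0 + g 1 1 := by
          simp [l, mk_val, Matrix.mul_apply, Fin.sum_univ_two]
        rw [e, hc, zero_add]
        exact hd
    rw [R_mul, h3] at h4
    exact h4
  · exact memW_aux h1 h2 h3 g hg hc

lemma nonsq_div {a b : ZMod q} (ha : ¬ IsSquare a) (hb : ¬ IsSquare b) : IsSquare (a / b) := by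
  have ha0 : a ≠ 0 := by rintro rfl; exact ha (IsSquare.zero)
  have hb0 : b ≠ 0 := by rintro rfl; exact hb (IsSquare.zero)
  have hq2 : ringChar (ZMod q) ≠ 2 := by
    intro h
    apply ha
    exact FiniteField.isSquare_of_char_two h a
  have e : a / b = a * b * (b⁻¹ * b⁻¹) := by
    field_simp
  have hab : IsSquare (a * b) := by
    rw [← quadraticChar_one_iff_isSquare (mul_ne_zero ha0 hb0), map_mul,
      quadraticChar_neg_one_iff_not_isSquare.2 ha, quadraticChar_neg_one_iff_not_isSquare.2 hb]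
    norm_num
  rw [e]
  exact hab.mul ⟨b⁻¹, rfl⟩

lemma exists_nonsq (hq2 : q ≠ 2) : ∃ n : ZMod q, ¬ IsSquare n := by
  apply FiniteField.exists_nonsquare
  rw [ZMod.ringChar_zmod_n]
  exact hq2

lemma InW.m {v : V} (h : InW R v) {s : ZMod q} (hs : s ≠ 0) (hs' : IsSquare s) :
    R (m s hs) v = v := by
  apply h
  rw [Alg.m, mk_det]
  simpa using hs'

lemma InW.sc {v : V} (h : InW R v) (s : ZMod q) (hs : s ≠ 0) : R (sc s hs) v = v := by
  apply h
  rw [Alg.sc, mk_det]
  exact ⟨s, by ring⟩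

lemma InW.u {v : V} (h : InW R v) (t : ZMod q) : R (u t) v = v := by
  apply h
  rw [Alg.u, mk_det]
  exact ⟨1, by ring⟩

lemma InW.m_nonsq {v : V} (h : InW R v) {s n : ZMod q} (hs : s ≠ 0) (hn : n ≠ 0)
    (hs' : ¬ IsSquare s) (hn' : ¬ IsSquare n) :
    R (Alg.m s hs) v = R (Alg.m n hn) v := by
  have e : Alg.m s hs = Alg.m n hn * Alg.m (s / n) (div_ne_zero hs hn) := by
    rw [m_mul]
    congr 1
    field_simp
  rw [e, R_mul, h.m _ (nonsq_div hs' hn')]

namespace Sys

variable (H : Sys p q V R φ)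
include H

lemma W_zero {v : V} (h : InW R v) (hm : ∀ s hs, ¬ IsSquare s → R (m s hs) v = v) : v = 0 := by
  apply H.fixB v h.sc h.u
  intro s hs
  by_cases h' : IsSquare s
  · exact h.m hs h'
  · exact hm s hs h'

lemma W_zero' {v : V} (h : InW R v) {n : ZMod q} (hn : n ≠ 0) (hn' : ¬ IsSquare n)
    (hm : R (m n hn) v = v) : v = 0 := by
  apply H.W_zero h
  intro s hs hs'
  rw [h.m_nonsq hs hn hs' hn', hm]

lemma W_neg {v : V} (h : InW R v) {n : ZMod q} (hn : n ≠ 0) (hn' : ¬ IsSquare n) :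
    R (m n hn) v = -v := by
  rw [eq_neg_iff_add_eq_zero]
  apply H.W_zero' ((h.act _).add h) hn hn'
  rw [map_add, ← R_mul, m_mul, h.m _ ⟨n, rfl⟩, add_comm]

end Sys

end Fermat.Agent.RT6.Alg
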