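import Fermat.Agent.RT6.Alg4

/-!
# (A3)/(ALG): the case `q ≡ 1`
-/

set_option autoImplicit false

noncomputable section

namespace Fermat.Agent.RT6.Alg

open OnePoint Matrix
open scoped MatrixGroups

variable {q : ℕ} [Fact q.Prime]
variable {p : ℕ} [Fact p.Prime] {V : Type} [AddCommGroup V] [Module (ZMod p) V]
  {R : GL (Fin 2) (ZMod q) →* Module.End (ZMod p) V} {φ : Pq q → Pq q → V}

/-- 2-transitivity -/
lemma trans2 (a b : Pq q) (hab : a ≠ b) :
    ∃ g : GL (Fin 2) (ZMod q), g • (∞ : Pq q) = a ∧ g • ((0 : ZMod q) : Pq q) = b := by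
  induction a using OnePoint.rec with
  | infty =>
    induction b using OnePoint.rec with
    | infty => exact absurd rfl hab
    | coe y => exact ⟨u y, by simp, by simp⟩
  | coe x =>
    induction b using OnePoint.rec with
    | infty =>
      refine ⟨u x * w, ?_, ?_⟩
      · rw [mul_smul, w_infty, u_coe, zero_add]
      · rw [mul_smul, w_zero, u_infty]
    | coe y =>
      have hxy : x ≠ y := fun h => hab (by rw [h])
      refine ⟨mk x y 1 1 (by rw [mul_one, mul_one]; exact sub_ne_zero.2 hxy), ?_, ?_⟩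
      · rw [mk_infty, if_neg one_ne_zero, div_one]
      · rw [mk_coe, if_neg (by simp)]
        congr 1
        simp

/-- 3-transitivity -/
lemma trans3 (a b c : Pq q) (hab : a ≠ b) (hac : a ≠ c) (hbc : b ≠ c) :
    ∃ g : GL (Fin 2) (ZMod q), g • (∞ : Pq q) = a ∧ g • ((0 : ZMod q) : Pq q) = b ∧
      g • ((1 : ZMod q) : Pq q) = c := by
  obtain ⟨g, h1, h2⟩ := trans2 a b hab
  obtain ⟨d, hd⟩ : ∃ d, d = g⁻¹ • c := ⟨_, rfl⟩
  have hgd : g • d = c := by rw [hd, smul_inv_smul]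
  induction d using OnePoint.rec with
  | infty => exact absurd (h1.symm.trans hgd) hac
  | coe t =>
    have ht : t ≠ 0 := by
      rintro rfl
      exact hbc (h2.symm.trans hgd)
    refine ⟨g * m t ht, ?_, ?_, ?_⟩
    · rw [mul_smul, m_infty, h1]
    · rw [mul_smul, m_coe, mul_zero, h2]
    · rw [mul_smul, m_coe, mul_one, hgd]

namespace Sys

variable (H : Sys p q V R φ)
include H

/-- **(J)** -/
lemma J (hq2 : q ≠ 2) (hq : (q : ZMod p) = 1) (c d : ZMod q) (hcd : c ≠ d) :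
    φ (c : Pq q) (d : Pq q) - φ ∞ (c : Pq q) - φ (d : Pq q) ∞ = Dl φ (d - c) := by
  have h1 := H.I1 hq2 c d hcd
  have h2 := H.I2 hq2
  have h3 : rho φ = - (φ ((0 : ZMod q) : Pq q) ∞ + φ ∞ ((0 : ZMod q) : Pq q)) := by
    rw [← h2, hq]
    module
  have h4 : ∀ x : ZMod q, Rr R φ x = -(φ (x : Pq q) ∞ + φ ∞ (x : Pq q)) := by
    intro x
    rw [Rr, h3, map_neg, map_add, H.eqv, H.eqv, u_coe, u_infty, zero_add]
  rw [← h1, h4, h4, hq]
  module

lemma Dl_sub_mem (hq2 : q ≠ 2) (hq : (q : ZMod p) = 1) (b : ZMod q) (hb : b ≠ 0) :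
    InW R (Dl φ b - Dl φ 1) ∧
      Dl φ b + R w (Dl φ (-b⁻¹)) = -((2 : ZMod p) • φ ∞ ((0 : ZMod q) : Pq q)) := by
  have J3 : ∀ b : ZMod q, b ≠ 0 →
      Dl φ b + R w (Dl φ (-b⁻¹)) = -((2 : ZMod p) • φ ∞ ((0 : ZMod q) : Pq q)) := by
    intro b hb
    have h1 := H.J hq2 hq 0 b (Ne.symm hb)
    have h2 := H.J hq2 hq b⁻¹ 0 (inv_ne_zero hb)
    rw [sub_zero] at h1
    rw [zero_sub] at h2
    rw [← h1, ← h2, map_sub, map_sub, H.eqv, H.eqv, H.eqv, w_coe _ (inv_ne_zero hb), w_zero,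
      w_infty, inv_inv]
    module
  refine ⟨?_, J3 b hb⟩
  have e : Dl φ b - Dl φ 1 = R w (Dl φ (-1⁻¹) - Dl φ (-b⁻¹)) := by
    have h1 := J3 b hb
    have h2 := J3 1 one_ne_zero
    rw [map_sub]
    rw [← h2] at h1
    rw [sub_eq_sub_iff_add_eq_add, h1, add_comm]
  apply memW
  · intro s hs
    rw [map_sub, H.sc_Dl, H.sc_Dl]
  · intro t
    rw [map_sub, H.u_Dl, H.u_Dl]
  · intro t
    rw [e, l_eq, R_mul, R_mul]
    congr 1
    rw [← R_mul R w w, w_mul, R_one, map_sub, H.u_Dl, H.u_Dl]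

lemma phi_zero (hq2 : q ≠ 2) (h2 : (2 : ZMod p) ≠ 0) (hq : (q : ZMod p) = 1) :
    φ ∞ ((0 : ZMod q) : Pq q) = 0 := by
  obtain ⟨n, hn'⟩ := exists_nonsq hq2
  have hn : n ≠ 0 := by rintro rfl; exact hn' IsSquare.zero
  -- squares
  have hsq : ∀ r : ZMod q, r ≠ 0 → IsSquare r → Dl φ r = Dl φ 1 := by
    intro r hr hr'
    have h3 := H.W_neg (H.Dl_sub_mem hq2 hq r hr).1 hn hn'
    have h4 := (H.Dl_sub_mem hq2 hq n hn).1.m hr hr'
    rw [map_sub, H.m_Dl, H.m_Dl, mul_one] at h3 h4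
    rw [mul_comm r n] at h4
    have h5 : (2 : ZMod p) • (Dl φ r - Dl φ 1) = 0 := by
      linear_combination (norm := module) h3 - h4
    exact sub_eq_zero.1 ((smul_eq_zero.1 h5).resolve_left h2)
  have hns : ∀ r : ZMod q, r ≠ 0 → ¬ IsSquare r → Dl φ r = Dl φ n := by
    intro r hr hr'
    have h3 := hsq (r / n) (div_ne_zero hr hn) (nonsq_div hr' hn')
    have h4 := congrArg (R (m n hn)) h3
    rw [H.m_Dl, H.m_Dl, mul_one, mul_div_cancel₀ _ hn] at h4
    exact h4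
  have hmul : ∀ r : ZMod q, r ≠ 0 → ¬ IsSquare r → Dl φ (r * n) = Dl φ 1 := by
    intro r hr hr'
    apply hsq _ (mul_ne_zero hr hn)
    have e : r * n = (r / n) * (n * n) := by field_simp
    rw [e]
    exact (nonsq_div hr' hn').mul ⟨n, rfl⟩
  have heta : Dl φ 1 + Dl φ n = 0 := by
    apply H.fixB
    · intro s hs
      rw [map_add, H.sc_Dl, H.sc_Dl]
    · intro t
      rw [map_add, H.u_Dl, H.u_Dl]
    · intro s hs
      rw [map_add, H.m_Dl, H.m_Dl, mul_one]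
      by_cases hs' : IsSquare s
      · rw [hsq s hs hs']
        congr 1
        apply hns _ (mul_ne_zero hs hn)
        intro h
        apply hn'
        have e : n = (s * n) * s⁻¹ := by field_simp
        rw [e]
        exact h.mul hs'.inv
      · rw [hns s hs hs', hmul s hs hs', add_comm]
  have hmem : InW R (Dl φ 1) := by
    have h3 := (H.Dl_sub_mem hq2 hq n hn).1
    have e : Dl φ 1 = (-(2 : ZMod p)⁻¹) • (Dl φ n - Dl φ 1) := by
      have h4 : Dl φ n = - Dl φ 1 := by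
        rw [eq_neg_iff_add_eq_zero, add_comm, heta]
      rw [h4]
      have h5 : -Dl φ 1 - Dl φ 1 = (-(2 : ZMod p)) • Dl φ 1 := by module
      rw [h5, smul_smul, neg_mul_neg, inv_mul_cancel₀ h2, one_smul]
    rw [e]
    exact h3.smul _
  have hmem2 : InW R (φ ∞ ((0 : ZMod q) : Pq q)) := by
    have h3 := (H.Dl_sub_mem hq2 hq 1 one_ne_zero).2
    have h4 : InW R (Dl φ 1 + R w (Dl φ (-1⁻¹))) := by
      apply hmem.add
      apply InW.act
      have e : Dl φ (-1⁻¹) = R (m (-1) (neg_ne_zero.2 one_ne_zero)) (Dl φ 1) := by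
        rw [H.m_Dl, inv_one, mul_one]
      rw [e]
      exact hmem.act _
    rw [h3] at h4
    have e : φ ∞ ((0 : ZMod q) : Pq q) =
        (-(2 : ZMod p)⁻¹) • -((2 : ZMod p) • φ ∞ ((0 : ZMod q) : Pq q)) := by
      rw [neg_smul_neg, smul_smul, inv_mul_cancel₀ h2, one_smul]
    rw [e]
    exact h4.smul _
  apply H.W_zero hmem2
  intro s hs _
  rw [H.eqv, m_infty, m_coe, mul_zero]

/-- **the case `q ≡ 1`** -/
lemma case1 (hq2 : q ≠ 2) (h2 : (2 : ZMod p) ≠ 0) (hq : (q : ZMod p) = 1) (a b : Pq q) :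
    φ a b = 0 := by
  by_cases hab : a = b
  · rw [hab, H.diag]
  · obtain ⟨g, hg1, hg2⟩ := trans2 a b hab
    rw [← hg1, ← hg2, ← H.eqv, H.phi_zero hq2 h2 hq, map_zero]

end Sys

end Fermat.Agent.RT6.Alg
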