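import Fermat.Agent.RT6.Alg5

/-!
# (A3)/(ALG): the case `q ≡ -1`
-/

set_option autoImplicit false

noncomputable section

namespace Fermat.Agent.RT6.Alg

open OnePoint Matrix
open scoped MatrixGroups

variable {q : ℕ} [Fact q.Prime]
variable {p : ℕ} [Fact p.Prime] {V : Type} [AddCommGroup V] [Module (ZMod p) V]
  {R : GL (Fin 2) (ZMod q) →* Module.End (ZMod p) V} {φ : Pq q → Pq q → V}

/-- the coboundary of the antisymmetric part -/
def tau (φ : Pq q → Pq q → V) (a b c : Pq q) : V :=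
  (φ a b - φ b a) + (φ b c - φ c b) + (φ c a - φ a c)

/-- the symmetric part -/
def sym (φ : Pq q → Pq q → V) (a b : Pq q) : V := φ a b + φ b a

/-- `-(Δ(e) - Δ(-e))` -/
def del (φ : Pq q → Pq q → V) (e : ZMod q) : V := -(Dl φ e - Dl φ (-e))

lemma del_neg (φ : Pq q → Pq q → V) (e : ZMod q) : del φ (-e) = - del φ e := by
  rw [del, del, neg_neg e]
  abel

lemma sym_comm (φ : Pq q → Pq q → V) (a b : Pq q) : sym φ a b = sym φ b a := add_comm _ _

namespace Sys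

variable (H : Sys p q V R φ)
include H

lemma eqv_tau (g : GL (Fin 2) (ZMod q)) (a b c : Pq q) :
    R g (tau φ a b c) = tau φ (g • a) (g • b) (g • c) := by
  simp only [tau, map_add, map_sub, H.eqv]

lemma eqv_sym (g : GL (Fin 2) (ZMod q)) (a b : Pq q) :
    R g (sym φ a b) = sym φ (g • a) (g • b) := by
  simp only [sym, map_add, H.eqv]

lemma m_del (s : ZMod q) (hs : s ≠ 0) (e : ZMod q) : R (m s hs) (del φ e) = del φ (s * e) := by
  rw [del, map_neg, map_sub, H.m_Dl, H.m_Dl, mul_neg, del]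

lemma tau_eq (hq2 : q ≠ 2) (hq : (q : ZMod p) = -1) (c d : ZMod q) (hcd : c ≠ d) :
    tau φ (c : Pq q) (d : Pq q) ∞ = del φ (d - c) := by
  have h1 := H.I1 hq2 c d hcd
  have h2 := H.I1 hq2 d c (Ne.symm hcd)
  rw [hq] at h1 h2
  rw [del, neg_sub d c, ← h1, ← h2, tau]
  module

lemma del_one (hq2 : q ≠ 2) (h2 : (2 : ZMod p) ≠ 0) (hq : (q : ZMod p) = -1) :
    del φ 1 = 0 := by
  classical
  have htau : tau φ ((0 : ZMod q) : Pq q) ((1 : ZMod q) : Pq q) ∞ = del φ 1 := by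
    rw [H.tau_eq hq2 hq 0 1 zero_ne_one, sub_zero]
  have hw : R w (del φ 1) = - del φ 1 := by
    rw [← htau, H.eqv_tau, w_zero, w_one, w_infty, tau, tau]
    module
  have hW : InW R (del φ 1) := by
    apply memW
    · intro s hs
      rw [del, map_neg, map_sub, H.sc_Dl, H.sc_Dl]
    · intro t
      rw [del, map_neg, map_sub, H.u_Dl, H.u_Dl]
    · intro t
      rw [l_eq, R_mul, R_mul, hw, map_neg, map_neg]
      have e : R (u t) (del φ 1) = del φ 1 := by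
        rw [del, map_neg, map_sub, H.u_Dl, H.u_Dl]
      rw [e, hw, neg_neg]
  -- the least nonsquare
  have hex : ∃ n : ℕ, ¬ IsSquare (n : ZMod q) := by
    obtain ⟨n, hn⟩ := exists_nonsq hq2
    refine ⟨n.val, ?_⟩
    rwa [ZMod.natCast_val, ZMod.cast_id', id]
  obtain ⟨k, hk1, hk2⟩ : ∃ k : ℕ, IsSquare (k : ZMod q) ∧ ¬ IsSquare ((k + 1 : ℕ) : ZMod q) := by
    have h1 := Nat.find_spec hex
    have h2 : ∀ m < Nat.find hex, IsSquare (m : ZMod q) := by
      intro m hm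
      exact not_not.1 (Nat.find_min hex hm)
    obtain ⟨n, hn⟩ : ∃ n, n = Nat.find hex := ⟨_, rfl⟩
    rw [← hn] at h1 h2
    cases n with
    | zero => exact absurd (by rw [Nat.cast_zero]; exact IsSquare.zero) h1
    | succ k => exact ⟨k, h2 k (Nat.lt_succ_self k), h1⟩
  rw [Nat.cast_add, Nat.cast_one] at hk2
  obtain ⟨b, hb⟩ : ∃ b : ZMod q, b = (k : ZMod q) := ⟨_, rfl⟩
  rw [← hb] at hk1 hk2
  obtain ⟨a, ha⟩ : ∃ a : ZMod q, a = b + 1 := ⟨_, rfl⟩
  rw [← ha] at hk2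
  have hb0 : b ≠ 0 := by
    intro h
    apply hk2
    rw [ha, h, zero_add]
    exact ⟨1, by ring⟩
  have ha0 : a ≠ 0 := by
    intro h
    apply hk2
    rw [h]
    exact IsSquare.zero
  have ha1 : a ≠ 1 := by
    intro h
    apply hb0
    linear_combination h - ha
  have hai : ¬ IsSquare a⁻¹ := by
    intro h
    apply hk2
    have := h.inv
    rwa [inv_inv] at this
  have hba : ¬ IsSquare (b / a) := by
    intro h
    apply hk2
    have e : a = b * (b / a)⁻¹ := by field_simp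
    rw [e]
    exact hk1.mul h.inv
  -- the relation
  have r1 : tau φ ((1 : ZMod q) : Pq q) (a : Pq q) ∞ = del φ 1 := by
    rw [H.tau_eq hq2 hq 1 a (Ne.symm ha1)]
    have e : a - 1 = b * 1 := by rw [ha]; ring
    rw [e, ← H.m_del b hb0, hW.m hb0 hk1]
  have r2 : tau φ ((1 : ZMod q) : Pq q) ((a⁻¹ : ZMod q) : Pq q) ((0 : ZMod q) : Pq q) =
      - del φ 1 := by
    rw [← hw, ← r1, H.eqv_tau, w_one, w_coe a ha0, w_infty]
  have r3 : tau φ ((1 : ZMod q) : Pq q) ((a⁻¹ : ZMod q) : Pq q) ∞ =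
      - R (m a ha0) (del φ 1) := by
    have hne : (1 : ZMod q) ≠ a⁻¹ := by
      intro h
      apply ha1
      rw [← inv_inv a, ← h, inv_one]
    rw [H.tau_eq hq2 hq 1 a⁻¹ hne]
    have e : a⁻¹ - 1 = -((b / a) * 1) := by
      rw [mul_one]
      field_simp
      rw [ha]; ring
    rw [e, del_neg, ← H.m_del (b / a) (div_ne_zero hb0 ha0), hW.m_nonsq _ ha0 hba hk2]
  have r4 : tau φ ((0 : ZMod q) : Pq q) ((a⁻¹ : ZMod q) : Pq q) ∞ =
      R (m a ha0) (del φ 1) := by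
    rw [H.tau_eq hq2 hq 0 a⁻¹ (Ne.symm (inv_ne_zero ha0)), sub_zero]
    have e : a⁻¹ = a⁻¹ * 1 := (mul_one _).symm
    rw [e, ← H.m_del a⁻¹ (inv_ne_zero ha0), hW.m_nonsq _ ha0 hai hk2]
  have r5 : tau φ ((1 : ZMod q) : Pq q) ((a⁻¹ : ZMod q) : Pq q) ((0 : ZMod q) : Pq q) =
      tau φ ((1 : ZMod q) : Pq q) ((a⁻¹ : ZMod q) : Pq q) ∞ -
        tau φ ((0 : ZMod q) : Pq q) ((a⁻¹ : ZMod q) : Pq q) ∞ +
        tau φ ((0 : ZMod q) : Pq q) ((1 : ZMod q) : Pq q) ∞ := by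
    simp only [tau]
    abel
  rw [r2, r3, r4, htau] at r5
  have r6 : (2 : ZMod p) • (R (m a ha0) (del φ 1) - del φ 1) = 0 := by
    linear_combination (norm := module) r5
  have r7 := sub_eq_zero.1 ((smul_eq_zero.1 r6).resolve_left h2)
  exact H.W_zero' hW ha0 hk2 r7

lemma tau_zero (hq2 : q ≠ 2) (h2 : (2 : ZMod p) ≠ 0) (hq : (q : ZMod p) = -1)
    (a b c : Pq q) : tau φ a b c = 0 := by
  have hanti : ∀ a b : Pq q, tau φ a a b = 0 := by
    intro a b
    simp only [tau]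
    abel
  have hcyc : ∀ a b c : Pq q, tau φ a b c = tau φ b c a := by
    intro a b c
    simp only [tau]
    abel
  by_cases hab : a = b
  · rw [hab, hanti]
  by_cases hac : a = c
  · rw [hac, hcyc, hcyc, hanti]
  by_cases hbc : b = c
  · rw [hbc, hcyc, hanti]
  obtain ⟨g, h3, h4, h5⟩ := trans3 a b c hab hac hbc
  rw [← h3, ← h4, ← h5, ← H.eqv_tau, hcyc]
  have h6 := H.tau_eq hq2 hq 0 1 zero_ne_one
  rw [sub_zero, H.del_one hq2 h2 hq] at h6
  rw [h6, map_zero]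

lemma K (hq2 : q ≠ 2) (hq : (q : ZMod p) = -1) (c d : ZMod q) (hcd : c ≠ d) :
    sym φ (c : Pq q) ∞ + sym φ (d : Pq q) ∞ - (3 : ZMod p) • sym φ (c : Pq q) (d : Pq q) =
      (3 : ZMod p) • (Dl φ (d - c) + Dl φ (c - d)) := by
  have h1 := H.I1 hq2 c d hcd
  have h2 := H.I1 hq2 d c (Ne.symm hcd)
  have h3 := H.I2 hq2
  rw [hq] at h1 h2 h3
  have h4 : ∀ x : ZMod q, (3 : ZMod p) • Rr R φ x = - sym φ (x : Pq q) ∞ := by
    intro x
    have h5 : (3 : ZMod p) • rho φ = - sym φ ((0 : ZMod q) : Pq q) ∞ := by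
      rw [sym, ← h3]
      module
    rw [Rr, ← _root_.map_smul, h5, map_neg, H.eqv_sym, u_coe, u_infty, zero_add]
  rw [← h1, ← h2]
  have h5 := h4 c
  have h6 := h4 d
  simp only [sym] at h5 h6 ⊢
  linear_combination (norm := module) (-2 : ZMod p) • h5 + (-2 : ZMod p) • h6

lemma sym_zero (hq2 : q ≠ 2) (h2 : (2 : ZMod p) ≠ 0) (hq : (q : ZMod p) = -1)
    (a b : Pq q) (hab : a ≠ b) : sym φ a b = 0 := by
  have hq2' := two_ne hq2
  -- the cyclic element `0 → 1 → 2 → ∞ → 0`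
  have hd : (0 : ZMod q) * 2 - 2 * (-1) ≠ 0 := by
    intro h
    apply hq2'
    linear_combination h
  obtain ⟨g, hg⟩ : ∃ g : GL (Fin 2) (ZMod q), g = Alg.mk 0 2 (-1) 2 hd := ⟨_, rfl⟩
  have g0 : g • ((0 : ZMod q) : Pq q) = ((1 : ZMod q) : Pq q) := by
    rw [hg, mk_coe, if_neg (by rw [mul_zero, zero_add]; exact hq2')]
    congr 1
    rw [mul_zero, mul_zero, zero_add, div_self hq2']
  have g1 : g • ((1 : ZMod q) : Pq q) = ((2 : ZMod q) : Pq q) := by
    rw [hg, mk_coe, if_neg (by intro h; exact one_ne_zero (by linear_combination h))]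
    congr 1
    have e : (-1 : ZMod q) * 1 + 2 = 1 := by ring
    rw [e]
    simp
  have g2 : g • ((2 : ZMod q) : Pq q) = ∞ := by
    rw [hg, mk_coe, if_pos (by ring)]
  have gi : g • (∞ : Pq q) = ((0 : ZMod q) : Pq q) := by
    rw [hg, mk_infty, if_neg (neg_ne_zero.2 one_ne_zero)]
    simp
  have h01 := H.K hq2 hq 0 1 zero_ne_one
  have h12 := H.K hq2 hq 1 2 (by intro h; exact one_ne_zero (by linear_combination -h))
  have e1 : (1 : ZMod q) - 0 = 1 := by ring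
  have e2 : (0 : ZMod q) - 1 = -1 := by ring
  have e3 : (2 : ZMod q) - 1 = 1 := by ring
  have e4 : (1 : ZMod q) - 2 = -1 := by ring
  rw [e1, e2] at h01
  rw [e3, e4, ← h01] at h12
  have k1 : sym φ ((0 : ZMod q) : Pq q) ∞ - sym φ ((2 : ZMod q) : Pq q) ∞ =
      (3 : ZMod p) • (sym φ ((0 : ZMod q) : Pq q) ((1 : ZMod q) : Pq q) -
        sym φ ((1 : ZMod q) : Pq q) ((2 : ZMod q) : Pq q)) := by
    linear_combination (norm := module) -h12
  have k2 := congrArg (R g) k1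
  rw [_root_.map_smul, map_sub, map_sub, H.eqv_sym, H.eqv_sym, H.eqv_sym, H.eqv_sym,
    g0, g1, g2, gi, sym_comm φ ((1 : ZMod q) : Pq q) ((0 : ZMod q) : Pq q),
    sym_comm φ ∞ ((0 : ZMod q) : Pq q)] at k2
  have k3 := congrArg (R g) k2
  rw [_root_.map_smul, map_sub, map_sub, H.eqv_sym, H.eqv_sym, H.eqv_sym, H.eqv_sym,
    g0, g1, g2, gi, sym_comm φ ((1 : ZMod q) : Pq q) ((0 : ZMod q) : Pq q),
    sym_comm φ ∞ ((0 : ZMod q) : Pq q)] at k3
  obtain ⟨A, hA⟩ : ∃ A, A = sym φ ((0 : ZMod q) : Pq q) ((1 : ZMod q) : Pq q) := ⟨_, rfl⟩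
  obtain ⟨B, hB⟩ : ∃ B, B = sym φ ((1 : ZMod q) : Pq q) ((2 : ZMod q) : Pq q) := ⟨_, rfl⟩
  obtain ⟨C, hC⟩ : ∃ C, C = sym φ ((2 : ZMod q) : Pq q) ∞ := ⟨_, rfl⟩
  obtain ⟨D, hD⟩ : ∃ D, D = sym φ ((0 : ZMod q) : Pq q) ∞ := ⟨_, rfl⟩
  rw [← hA, ← hB, ← hC, ← hD] at k1 k2 k3
  have hAB : A = B := by
    have h8 : (2 : ZMod p) • (2 : ZMod p) • (2 : ZMod p) • (A - B) = 0 := by
      linear_combination (norm := module) k3 - (3 : ZMod p) • k1
    have h8' := (smul_eq_zero.1 ((smul_eq_zero.1 ((smul_eq_zero.1 h8).resolve_left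
      h2)).resolve_left h2)).resolve_left h2
    exact sub_eq_zero.1 h8'
  rw [← hAB, sub_self, smul_zero, sub_eq_zero] at k1
  rw [← hAB, ← k1] at k2
  have hAD : A = D := by
    have h9 : (2 : ZMod p) • (A - D) = 0 := by
      linear_combination (norm := module) -k2
    exact sub_eq_zero.1 ((smul_eq_zero.1 h9).resolve_left h2)
  have hall : ∀ s : ZMod q, s ≠ 0 → sym φ ((0 : ZMod q) : Pq q) (s : Pq q) = D := by
    intro s hs
    have e : sym φ ((0 : ZMod q) : Pq q) (s : Pq q) = R (m s hs) A := by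
      rw [hA, H.eqv_sym, m_coe, m_coe, mul_zero, mul_one]
    rw [e, hAD, hD, H.eqv_sym, m_coe, m_infty, mul_zero]
  have hsum : ∑ y : Pq q, sym φ ((0 : ZMod q) : Pq q) y = 0 := by
    simp only [sym, Finset.sum_add_distrib, H.row, H.col, add_zero]
  rw [sum_Pq, ← hD, ← Finset.add_sum_erase Finset.univ
    (fun x : ZMod q => sym φ ((0 : ZMod q) : Pq q) (x : Pq q)) (Finset.mem_univ (0 : ZMod q)),
    Finset.sum_congr rfl (fun s hs => hall s (by simpa using hs)), Finset.sum_const,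
    Finset.card_erase_of_mem (Finset.mem_univ _), Finset.card_univ, ZMod.card] at hsum
  have h00 : sym φ ((0 : ZMod q) : Pq q) ((0 : ZMod q) : Pq q) = 0 := by
    rw [sym, H.diag, add_zero]
  rw [h00, zero_add, ← Nat.cast_smul_eq_nsmul (ZMod p) (q - 1) D,
    Nat.cast_sub (Fact.out : q.Prime).one_lt.le, hq, Nat.cast_one] at hsum
  have hD0 : D = 0 := by
    linear_combination (norm := module) -hsum
  have h0i : sym φ ∞ ((0 : ZMod q) : Pq q) = 0 := by
    rw [sym_comm, ← hD, hD0]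
  obtain ⟨g', h5, h6⟩ := trans2 a b hab
  rw [← h5, ← h6, ← H.eqv_sym, h0i, map_zero]

/-- **the case `q ≡ -1`, `q` odd** -/
lemma case2 (hq2 : q ≠ 2) (h2 : (2 : ZMod p) ≠ 0) (hq : (q : ZMod p) = -1) (a b c : Pq q) :
    φ a b + φ b c + φ c a = 0 := by
  have hanti : ∀ a b : Pq q, φ b a = - φ a b := by
    intro a b
    by_cases hab : a = b
    · rw [hab, H.diag, neg_zero]
    · rw [eq_neg_iff_add_eq_zero, add_comm]
      exact H.sym_zero hq2 h2 hq a b hab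
  have h3 := H.tau_zero hq2 h2 hq a b c
  rw [tau, hanti a b, hanti b c, hanti c a] at h3
  have h4 : (2 : ZMod p) • (φ a b + φ b c + φ c a) = 0 := by
    linear_combination (norm := module) h3
  exact (smul_eq_zero.1 h4).resolve_left h2

end Sys

end Fermat.Agent.RT6.Alg
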