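import Fermat.Agent.TWCoh.M0Hom
import Fermat.Agent.TWCoh.Package2
import Fermat.Agent.RT.OmSt
import Fermat.Agent.TWG.Res
import Fermat.Agent.TWG.Comm

/-!
# (A3), links: from eigensymbols over `𝔽_p` to homomorphisms from the Hecke algebra
-/

set_option autoImplicit false
set_option maxHeartbeats 400000

noncomputable section

namespace Fermat.Agent.RT6

open Fermat.Agent.RT MvPolynomial Fermat.Agent.S43Glue Fermat.Agent.TWG
open Fermat.Agent.TWCoh hiding GQ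
open scoped MatrixGroups
open CongruenceSubgroup

local notation "Qbar" => AlgebraicClosure ℚ
local notation "GQ" => (AlgebraicClosure ℚ ≃ₐ[ℚ] AlgebraicClosure ℚ)

section

variable {p : ℕ} [hp : Fact p.Prime]

/-- `𝔽_p` as an algebra over `ℤ_p` -/
@[reducible] def algZp (p : ℕ) [Fact p.Prime] : Algebra ℤ_[p] (ZMod p) :=
  (PadicInt.toZMod (p := p)).toAlgebra

/-- **eigensymbols lift** -/
theorem exists_theta_of_symbol (hp2 : p ≠ 2) {L : ℕ} [NeZero L]
    (h3 : p ≠ 3 ∨ ∃ r : ℕ, r.Prime ∧ r % 3 = 2 ∧ r ∣ L) {S : Set ℕ}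
    (hLS : ∀ r : ℕ, r.Prime → r ∣ L → r ∈ S) (τ : PS S → ZMod p)
    (hne : ∃ l₀ : PS S, (L : ℤ) ∣ l₀.1 - 1 ∧ τ l₀ ≠ 1 + (l₀.1 : ZMod p))
    {x : P1 → P1 → ZMod p} (hx : x ∈ SZ (ZMod p) L) (hx0 : x ≠ 0)
    (hT : ∀ l : PS S, Tz (ZMod p) l.2.1 x = fun a b => τ l * x a b) :
    ∃ θ : CuspForm.heckeAlgebra L 2 S →+* ZMod p,
      ∀ (l : ℕ) (hl : l.Prime) (hlL : ¬ l ∣ L) (hlS : l ∉ S),
        θ (CuspForm.heckeAlgebra.T hl hlL hlS) = τ ⟨l, hl, hlS⟩ := by
  letI : Algebra ℤ_[p] (ZMod p) := algZp p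
  have hOk : Function.Surjective (algebraMap ℤ_[p] (ZMod p)) := ZMod.ringHom_surjective _
  have hNS : ∀ l : PS S, ¬ l.1 ∣ L := fun l h => l.2.2 (hLS _ l.2.1 h)
  have hmax := evI_isMaximal hOk τ
  -- the symbol as an element of the module
  have hxm : x ∈ Sy (1 : DirichletCharacter ℤ_[p] 1) L (ZMod p) P1 := by
    refine ⟨hx.1, fun γ hγ a b => ?_⟩
    rw [hx.2 γ hγ a b, one_dir_apply, one_dir_apply, one_smul, one_smul]
  let y : MS (one_dvd L) (1 : DirichletCharacter ℤ_[p] 1) (ZMod p) := ⟨x, hxm⟩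
  have hX : ∀ (l : PS S), (X l : HA ℤ_[p] S) • y = (⟨fun a b => τ l * x a b, by
      refine ⟨fun a b c => ?_, fun γ hγ a b => ?_⟩
      · rw [← mul_add, hx.1]
      · change τ l * x (io γ • a) (io γ • b) = _ • (τ l * x a b)
        rw [hxm.2 γ hγ a b, one_dir_apply, one_smul, one_smul]⟩ :
      MS (one_dvd L) (1 : DirichletCharacter ℤ_[p] 1) (ZMod p)) := by
    intro l
    rw [X_smul]
    apply Subtype.ext
    change hk (1 : DirichletCharacter ℤ_[p] 1) (ZMod p) P1 L l.1 l.2.1.ne_zero x = _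
    rw [hk_of_not_dvd _ (hNS l), inv_one, one_dir_apply, one_smul]
    exact hT l
  have hsm : ∀ (t : HA ℤ_[p] S), (t • y).1 = fun a b => aeval τ t * x a b := by
    intro t
    induction t using MvPolynomial.induction_on with
    | C r =>
      rw [C_smul, aeval_C]
      funext a b
      change r • x a b = _
      rw [Algebra.smul_def]
    | add u v hu hv =>
      rw [add_smul, map_add]
      funext a b
      change (u • y).1 a b + (v • y).1 a b = _
      rw [hu, hv]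
      ring
    | mul_X u l hu =>
      have h1 : ∀ (c : ZMod p), ∃ r : ℤ_[p], algebraMap ℤ_[p] (ZMod p) r = c := hOk
      obtain ⟨r, hr⟩ := h1 (τ l)
      have h2 : (X l : HA ℤ_[p] S) • y = (C r : HA ℤ_[p] S) • y := by
        rw [hX, C_smul]
        apply Subtype.ext
        funext a b
        change τ l * x a b = r • x a b
        rw [Algebra.smul_def, hr]
      rw [mul_smul, h2, smul_comm, C_smul, map_mul, aeval_X]
      funext a b
      change r • (u • y).1 a b = _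
      rw [hu, Algebra.smul_def, hr]
      ring
  have hyl : y ∈ loc (evI ℤ_[p] τ) (MS (one_dvd L) (1 : DirichletCharacter ℤ_[p] 1) (ZMod p)) := by
    rw [mem_loc]
    intro t ht
    have h0 : aeval τ t ≠ 0 := fun h => ht (mem_evI.mpr h)
    obtain ⟨r, hr⟩ := hOk (aeval τ t)⁻¹
    refine ⟨(C r : HA ℤ_[p] S) • y, ?_⟩
    rw [← mul_smul]
    apply Subtype.ext
    rw [hsm, map_mul, aeval_C, hr, mul_inv_cancel₀ h0]
    funext a b
    exact one_mul _
  -- the lift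
  have h2u : IsUnit (2 : ℤ_[p]) := by
    rw [PadicInt.isUnit_iff]
    have h1 : ((2 : ℤ_[p])) = ((2 : ℤ) : ℤ_[p]) := by norm_num
    rw [h1, PadicInt.norm_intCast_eq_one_iff]
    rw [Int.isCoprime_iff_gcd_eq_one]
    have h3 : Nat.Coprime 2 p := (Nat.coprime_primes Nat.prime_two hp.out).mpr (Ne.symm hp2)
    exact_mod_cast h3
  have hV3 : V3 ℤ_[p] L := by
    rcases h3 with h | ⟨r, hr, hr3, hrN⟩
    · left
      rw [PadicInt.isUnit_iff]
      have h1 : ((3 : ℤ_[p])) = ((3 : ℤ) : ℤ_[p]) := by norm_num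
      rw [h1, PadicInt.norm_intCast_eq_one_iff]
      rw [Int.isCoprime_iff_gcd_eq_one]
      have h3 : Nat.Coprime 3 p := (Nat.coprime_primes Nat.prime_three hp.out).mpr (Ne.symm h)
      exact_mod_cast h3
    · exact Or.inr (noV_of_prime hr hr3 hrN)
  have hTame : Tame (1 : DirichletCharacter ℤ_[p] 1) := by
    have h1 := tame_dch (c := 1) (ψ := fun q : ℕ => (1 : DirichletCharacter ℤ_[p] q)) (s := ∅)
      squarefree_one
    rwa [dch, Finset.prod_empty] at h1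
  let pr : ℤ_[p] →ₗ[ℤ_[p]] ZMod p := Algebra.linearMap ℤ_[p] (ZMod p)
  haveI : Module.Finite ℤ_[p] (ZMod p) := Module.Finite.of_surjective pr hOk
  obtain ⟨l₀, hl₀, hl₀τ⟩ := hne
  have hne' : NonEis (evI ℤ_[p] τ) L := ⟨l₀, hl₀, by
    rw [mem_evI, map_sub, aeval_X, aeval_C, map_add, map_one, map_natCast, sub_eq_zero]
    exact hl₀τ⟩
  obtain ⟨z, hz, hzy⟩ := MS.loc_surjective (S := S) hne' hTame h2u hV3 (p := pr) hOk hyl
  haveI : Nontrivial (M0 ℤ_[p] L τ) := by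
    refine ⟨⟨⟨z, hz⟩, 0, fun h => hx0 ?_⟩⟩
    have h1 : z = 0 := congrArg Subtype.val h
    rw [h1, map_zero] at hzy
    exact (congrArg Subtype.val hzy).symm
  obtain ⟨g, hg⟩ := exists_heckeHom_M0 (N := L) (τ := τ) (PadicInt.Coe.ringHom (p := p))
    Subtype.val_injective (Set.Subset.refl S) hNS hLS ⟨l₀, hl₀, hl₀τ⟩
  obtain ⟨f, -, hf⟩ := T0_local (N := L) (τ := τ) hOk (Set.Subset.refl S)
  refine ⟨f.comp g, fun l hl hlL hlS => ?_⟩
  have h1 := hg ⟨l, hl, hlS⟩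
  rw [RingHom.comp_apply]
  refine Eq.trans (congrArg f h1) ?_
  rw [hf]
  rfl

/-- a commutator with trace `≠ 2` -/
theorem exists_comm_zmod {G : Type} [Group G] {ρ : G →* Matrix (Fin 2) (Fin 2) (ZMod p)}
    (hspan : Submodule.span (ZMod p) (Set.range ρ) = ⊤) :
    ∃ g h : G, (ρ (g * h * g⁻¹ * h⁻¹)).trace ≠ 2 := by
  let K := AlgebraicClosure (ZMod p)
  let f : ZMod p →+* K := algebraMap (ZMod p) K
  let ρK : G →* Matrix (Fin 2) (Fin 2) K := f.mapMatrix.toMonoidHom.comp ρ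
  have hmem : ∀ M : Matrix (Fin 2) (Fin 2) (ZMod p), f.mapMatrix M ∈
      Submodule.span K (Set.range ρK) := by
    intro M
    have hM : M ∈ Submodule.span (ZMod p) (Set.range ρ) := by rw [hspan]; trivial
    induction hM using Submodule.span_induction with
    | mem x hx =>
      obtain ⟨g, rfl⟩ := hx
      exact Submodule.subset_span ⟨g, rfl⟩
    | zero => rw [map_zero]; exact Submodule.zero_mem _
    | add x y _ _ hx hy => rw [map_add]; exact Submodule.add_mem _ hx hy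
    | smul a x _ hx =>
      have : f.mapMatrix (a • x) = f a • f.mapMatrix x := by
        ext i j
        simp
      rw [this]
      exact Submodule.smul_mem _ _ hx
  have hK : Submodule.span K (Set.range ρK) = ⊤ := by
    rw [eq_top_iff]
    rintro M -
    have h1 : M = ∑ i, ∑ j, M i j • f.mapMatrix (Matrix.single i j (1 : ZMod p)) := by
      conv_lhs => rw [Matrix.matrix_eq_sum_single M]
      refine Finset.sum_congr rfl fun i _ => Finset.sum_congr rfl fun j _ => ?_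
      ext a b
      simp [Matrix.single_apply]
    rw [h1]
    exact Submodule.sum_mem _ fun i _ => Submodule.sum_mem _ fun j _ =>
      Submodule.smul_mem _ _ (hmem _)
  obtain ⟨g, h, hgh⟩ := exists_comm_ne ρK hK (fun σ => by
    obtain ⟨α, hα⟩ := IsAlgClosed.exists_root
      (Polynomial.X ^ 2 - Polynomial.C (ρK σ).trace * Polynomial.X + Polynomial.C (ρK σ).det) (by
        have : (Polynomial.X ^ 2 - Polynomial.C (ρK σ).trace * Polynomial.X +
          Polynomial.C (ρK σ).det).degree = 2 := by compute_degree!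
        rw [this]; decide)
    rw [Polynomial.IsRoot.def] at hα
    simp at hα
    refine ⟨α, (ρK σ).trace - α, by ring, ?_⟩
    linear_combination hα)
  refine ⟨g, h, fun h2 => hgh ?_⟩
  have h3 := congrArg f h2
  rw [map_ofNat] at h3
  rw [← h3]
  change (f.mapMatrix (ρ (g * h * g⁻¹ * h⁻¹))).trace = _
  rw [Matrix.trace_fin_two, Matrix.trace_fin_two, map_add]
  rfl

/-- **a non-Eisenstein prime** -/
theorem exists_noneis {ρ : GQ →* Matrix (Fin 2) (Fin 2) (ZMod p)} (hfin : FinLevel ρ)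
    (hdet : ∀ g, (ρ g).det = chiK p (ZMod p) g)
    (hspan : Submodule.span (ZMod p) (Set.range ρ) = ⊤) {S : Set ℕ} (hS : S.Finite) (hpS : p ∈ S)
    {M : ℕ} (hM : M ≠ 0) :
    ∃ (l : ℕ) (_ : l.Prime) (_ : l ∉ S) (A : ValuationSubring Qbar) (_ : A.LiesOverPrime l)
      (τ : GQ) (_ : A.IsFrobeniusAt τ l), (M : ℤ) ∣ (l : ℤ) - 1 ∧
      (ρ τ).trace ≠ 1 + (l : ZMod p) := by
  obtain ⟨g, h, hgh⟩ := exists_comm_zmod hspan
  obtain ⟨L, hL, hLk⟩ := hfin
  haveI hMp : NeZero (M * p) := ⟨mul_ne_zero hM hp.out.ne_zero⟩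
  obtain ⟨ζ, hζ⟩ := HasEnoughRootsOfUnity.exists_primitiveRoot Qbar (M * p)
  haveI : FiniteDimensional ℚ L := hL
  have hζi : IsIntegral ℚ ζ := Algebra.IsIntegral.isIntegral ζ
  haveI : FiniteDimensional ℚ (IntermediateField.adjoin ℚ {ζ}) :=
    IntermediateField.adjoin.finiteDimensional hζi
  set γ := g * h * g⁻¹ * h⁻¹ with hγ
  have hact : ∀ s : GQ, ∃ u : ℕ, s ζ = ζ ^ u := by
    intro s
    have h1 : (s ζ) ^ (M * p) = 1 := by rw [← map_pow, hζ.pow_eq_one, map_one]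
    obtain ⟨i, -, hi⟩ := hζ.eq_pow_of_pow_eq_one h1
    exact ⟨i, hi.symm⟩
  have hcomm : ∀ s t : GQ, s (t ζ) = t (s ζ) := by
    intro s t
    obtain ⟨u, hu⟩ := hact s
    obtain ⟨v, hv⟩ := hact t
    rw [hv, map_pow, hu, map_pow, hv, ← pow_mul, ← pow_mul, mul_comm]
  have hfix : γ ζ = ζ := by
    rw [hγ]
    simp only [AlgEquiv.mul_apply]
    rw [hcomm g⁻¹ h⁻¹]
    have e1 : h (h⁻¹ (g⁻¹ ζ)) = g⁻¹ ζ := by
      rw [← AlgEquiv.mul_apply, mul_inv_cancel, AlgEquiv.one_apply]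
    rw [e1, ← AlgEquiv.mul_apply, mul_inv_cancel, AlgEquiv.one_apply]
  obtain ⟨ℓ, hℓ, hℓS, A, hA, τ, hτ, n, m, hn, hm⟩ :=
    FrobDens.exists_frobenius (L ⊔ IntermediateField.adjoin ℚ {ζ}) (S ∪ {l | l ∣ M * p})
      (hS.union ((Set.finite_le_nat (M * p)).subset fun l hl =>
        Nat.le_of_dvd (Nat.pos_of_ne_zero hMp.out) hl)) γ
  have hℓM : ¬ ℓ ∣ M * p := fun h => hℓS (Or.inr h)
  have hζm : ζ ∈ L ⊔ IntermediateField.adjoin ℚ {ζ} :=
    (le_sup_right : IntermediateField.adjoin ℚ {ζ} ≤ L ⊔ IntermediateField.adjoin ℚ {ζ})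
      (IntermediateField.mem_adjoin_simple_self ℚ ζ)
  have hτζ : τ ζ = ζ := by
    rw [← hm ζ hζm]
    clear hm
    induction m with
    | zero => rfl
    | succ m ih => rw [pow_succ, AlgEquiv.mul_apply, hfix, ih]
  rw [GalRep.frob_rootOfUnity hℓ hA hτ hℓM hζ.pow_eq_one] at hτζ
  have hdvd : (M * p : ℕ) ∣ ℓ - 1 := by
    have h1 : ζ ^ (ℓ - 1) = 1 := by
      have h2 : ζ ^ (ℓ - 1) * ζ = 1 * ζ := by
        rw [← pow_succ, Nat.sub_add_cancel hℓ.one_lt.le, one_mul, hτζ]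
      exact mul_right_cancel₀ (hζ.ne_zero hMp.out) h2
    exact (hζ.pow_eq_one_iff_dvd _).mp h1
  have hℓ1 : ((ℓ : ℕ) : ZMod p) = 1 := by
    obtain ⟨c, hc⟩ := (dvd_mul_left p M).trans hdvd
    have h2 : ℓ = p * c + 1 := by
      have := hℓ.one_lt
      omega
    rw [h2]
    push_cast
    rw [CharP.cast_eq_zero, zero_mul, zero_add]
  refine ⟨ℓ, hℓ, fun h => hℓS (Or.inl h), A, hA, τ, hτ, ?_, fun htr => hgh ?_⟩
  · have h1 : ((M : ℕ) : ℤ) ∣ ((ℓ - 1 : ℕ) : ℤ) :=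
      Int.natCast_dvd_natCast.mpr ((dvd_mul_right M p).trans hdvd)
    rw [Nat.cast_sub hℓ.one_lt.le] at h1
    exact_mod_cast h1
  · have h2 : (ρ τ).det = 1 := by
      rw [hdet, chiK_frob p (ZMod p) hℓ hA (fun h => hℓS (Or.inl (h ▸ hpS))) hτ, hℓ1]
    rw [hℓ1] at htr
    have h3 : ρ (τ ^ n) = ρ γ := by
      have h4 : ρ (γ⁻¹ * τ ^ n) = 1 := hLk _ fun x hx => by
        rw [AlgEquiv.mul_apply, hn x (le_sup_left (a := L) hx)]
        exact inv_smul_smul γ x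
      have h5 : τ ^ n = γ * (γ⁻¹ * τ ^ n) := by group
      rw [h5, map_mul, h4, mul_one]
    rw [← h3, map_pow, GalRep.trace_pow_two, htr, h2]
    have h6 : ∀ j, GalRep.dk (1 + 1 : ZMod p) 1 j = 2 := by
      intro j
      induction j using Nat.twoStepInduction with
      | zero => rfl
      | one => exact one_add_one_eq_two
      | more j ih1 ih2 =>
        rw [GalRep.dk, ih1, ih2]
        ring
    exact h6 n

/-- **(L2)** modularity from an eigensymbol over `𝔽_p` -/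
theorem hmod_of_symbol (hp2 : p ≠ 2) {L : ℕ} [NeZero L]
    (h3 : p ≠ 3 ∨ ∃ r : ℕ, r.Prime ∧ r % 3 = 2 ∧ r ∣ L) {S : Set ℕ} (hS : S.Finite) (hpS : p ∈ S)
    (hLS : ∀ r : ℕ, r.Prime → r ∣ L → r ∈ S)
    {ρ : GQ →* Matrix (Fin 2) (Fin 2) (ZMod p)} (hfin : FinLevel ρ)
    (hdet : ∀ g, (ρ g).det = chiK p (ZMod p) g)
    (hspan : Submodule.span (ZMod p) (Set.range ρ) = ⊤)
    {x : P1 → P1 → ZMod p} (hx : x ∈ SZ (ZMod p) L) (hx0 : x ≠ 0)
    (hT : ∀ (l : ℕ) (hl : l.Prime), l ∉ S → ∀ A : ValuationSubring Qbar, A.LiesOverPrime l →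
      ∀ τ : GQ, A.IsFrobeniusAt τ l →
        Tz (ZMod p) hl x = fun a b => (ρ τ).trace * x a b) : S43Glue.HMod ρ L S := by
  classical
  have hex : ∀ l : PS S, ∃ t : ZMod p, ∀ A : ValuationSubring Qbar, A.LiesOverPrime l.1 →
      ∀ τ : GQ, A.IsFrobeniusAt τ l.1 → (ρ τ).trace = t := by
    intro l
    obtain ⟨A₀, hA₀, τ₀, hτ₀⟩ := Frob.exists_place_frobenius l.2.1
    refine ⟨(ρ τ₀).trace, fun A hA τ hτ => ?_⟩
    have h1 := hT l.1 l.2.1 l.2.2 A hA τ hτ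
    rw [hT l.1 l.2.1 l.2.2 A₀ hA₀ τ₀ hτ₀] at h1
    obtain ⟨a, ha⟩ : ∃ a, x a ≠ 0 := by
      by_contra hcon
      push Not at hcon
      exact hx0 (funext hcon)
    obtain ⟨b, hb⟩ : ∃ b, x a b ≠ 0 := by
      by_contra hcon
      push Not at hcon
      exact ha (funext hcon)
    exact (mul_right_cancel₀ hb (congrFun (congrFun h1 a) b)).symm
  choose t ht using hex
  obtain ⟨l₀, hl₀, hl₀S, A₀, hA₀, τ₀, hτ₀, hd, hne⟩ :=
    exists_noneis hfin hdet hspan hS hpS (NeZero.ne L)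
  obtain ⟨θ, hθ⟩ := exists_theta_of_symbol hp2 h3 hLS t ⟨⟨l₀, hl₀, hl₀S⟩, hd, by
    rw [← ht ⟨l₀, hl₀, hl₀S⟩ A₀ hA₀ τ₀ hτ₀]
    exact hne⟩ hx hx0 (fun l => by
      obtain ⟨A, hA, τ, hτ⟩ := Frob.exists_place_frobenius l.2.1
      rw [hT l.1 l.2.1 l.2.2 A hA τ hτ, ht l A hA τ hτ])
  refine ⟨θ, fun ℓ hℓ hℓM hℓS A hA τ hτ => ?_⟩
  rw [hθ ℓ hℓ hℓM hℓS, ht ⟨ℓ, hℓ, hℓS⟩ A hA τ hτ]

end

end Fermat.Agent.RT6
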