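import Fermat.Agent.RT6.L4

/-!
# (A3), links: the operators `R_s` commute with the Hecke operators
-/

set_option autoImplicit false
set_option maxHeartbeats 400000

noncomputable section

namespace Fermat.Agent.RT6

open Matrix CongruenceSubgroup Fermat.Agent.AnJac Fermat.Agent.RT
open Fermat.Agent.TWCoh hiding GQ
open scoped MatrixGroups OnePoint

/-- `z ↦ z / q` -/
def Dq (q : ℕ) (hq : q ≠ 0) : GL (Fin 2) ℚ := mk 1 0 0 q (by simpa using hq)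

theorem ent_Dq (q : ℕ) (hq : q ≠ 0) : Ent (Dq q hq) 1 0 0 q := ent_mk _ _ _ _ _

theorem Dq_mul_Up {q l : ℕ} (hq : q ≠ 0) (hl : l ≠ 0) (k : ℤ) :
    Dq q hq * Up l hl (q * k) = Up l hl k * Dq q hq := by
  refine (((ent_Dq q hq).mul (ent_Up l hl _)).congr ?_ ?_ ?_ ?_).ext
    ((ent_Up l hl k).mul (ent_Dq q hq)) <;> push_cast <;> ring

theorem Dq_mul_Di {q l : ℕ} (hq : q ≠ 0) (hl : l ≠ 0) :
    Dq q hq * Di l hl = Di l hl * Dq q hq := by
  refine (((ent_Dq q hq).mul (ent_Di l hl)).congr ?_ ?_ ?_ ?_).ext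
    ((ent_Di l hl).mul (ent_Dq q hq)) <;> push_cast <;> ring

/-- conjugation by `Dq` -/
theorem exists_conj_Dq {q M : ℕ} (hq : q ≠ 0) (hqM : q ^ 2 ∣ M) {δ : SL(2, ℤ)}
    (h1 : (q : ℤ) ∣ δ 0 1) (h2 : (M : ℤ) ∣ q * δ 1 0) :
    ∃ ε ∈ Gamma0 M, Dq q hq * io δ = io ε * Dq q hq := by
  obtain ⟨b, hb⟩ := h1
  have hdet := det_SL δ
  obtain ⟨ε, e1, e2, e3, e4⟩ := exists_SL (δ 0 0) b (q * δ 1 0) (δ 1 1) (by
    rw [hb] at hdet; linear_combination hdet)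
  refine ⟨ε, mem_Gamma0.2 (by rw [e3]; exact h2), ?_⟩
  refine (((ent_Dq q hq).mul (ent_io δ))).ext (((ent_io ε).mul (ent_Dq q hq)).congr ?_ ?_ ?_ ?_)
  · rw [e1, e2]; push_cast; ring
  · rw [e1, e2, hb]; push_cast; ring
  · rw [e3, e4]; push_cast; ring
  · rw [e3, e4]; push_cast; ring

section

variable {K : Type} [Field K] {q : ℕ} (hq : q ≠ 0)

/-- the Hecke operator in conjugated coordinates -/
theorem TK_Dq {y : P1 → P1 → K} (hy : TrInv y) {l : ℕ} (hl : l.Prime)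
    (hql : (q : ℤ) ∣ (l : ℤ) - 1) (x z : P1) :
    TK K hl y (Dq q hq • x) (Dq q hq • z) =
      ∑ i : Ix l, y (Dq q hq • rq l hl.ne_zero i • x) (Dq q hq • rq l hl.ne_zero i • z) := by
  obtain ⟨t, ht⟩ := hql
  have h1 : ∑ i : Ix l, y (Dq q hq • rq l hl.ne_zero i • x) (Dq q hq • rq l hl.ne_zero i • z) =
      y (Dq q hq • Di l hl.ne_zero • x) (Dq q hq • Di l hl.ne_zero • z) +
      ∑ j : Fin l, y (Dq q hq • Up l hl.ne_zero (-((l : ℤ) - 1) * ((j : ℕ) : ℤ)) • x)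
        (Dq q hq • Up l hl.ne_zero (-((l : ℤ) - 1) * ((j : ℕ) : ℤ)) • z) :=
    Fintype.sum_option _
  rw [h1, TK, tk_apply, one_smul, one_smul, add_comm]
  show Bop K K P1 l hl.ne_zero y (Dq q hq • x) (Dq q hq • z) +
    Uop K K P1 l hl.ne_zero y (Dq q hq • x) (Dq q hq • z) = _
  rw [Bop_apply]
  congr 1
  · rw [← mul_smul, ← mul_smul, ← mul_smul, ← mul_smul, Dq_mul_Di]
  · have h2 : ∀ j : Fin l, -((l : ℤ) - 1) * ((j : ℕ) : ℤ) = q * (-t * ((j : ℕ) : ℤ)) := by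
      intro j
      rw [ht]; ring
    have h3 : ∀ (j : Fin l) (x : P1), Dq q hq • Up l hl.ne_zero (-((l : ℤ) - 1) * ((j : ℕ) : ℤ)) • x =
        Up l hl.ne_zero (-t * ((j : ℕ) : ℤ)) • Dq q hq • x := by
      intro j x
      rw [h2, ← mul_smul, Dq_mul_Up, mul_smul]
    simp only [h3]
    refine (TrInv.sum_eq (Λ := K) hy hl.ne_zero (Finset.univ : Finset (Fin l))
      (fun j => -t * ((j : ℕ) : ℤ)) ?_ (by rw [Finset.card_univ, Fintype.card_fin]) _ _).symm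
    intro i _ j _ hij
    have h4 : (l : ℤ) ∣ (i : ℕ) - ((j : ℕ) : ℤ) := by
      have h5 := Int.modEq_iff_dvd.mp hij
      obtain ⟨s, hs⟩ := h5
      refine ⟨((i : ℕ) - ((j : ℕ) : ℤ)) - q * s, ?_⟩
      linear_combination -(q : ℤ) * hs - (((i : ℕ) : ℤ) - ((j : ℕ) : ℤ)) * ht
    have hi := i.2
    have hj := j.2
    apply Fin.ext
    obtain ⟨s, hs⟩ := h4
    have hs0 : s = 0 := by
      by_contra hne
      rcases lt_or_gt_of_ne hne with h | h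
      · have : (l : ℤ) * s ≤ -l := by nlinarith [hl.pos]
        omega
      · have : (l : ℤ) ≤ l * s := by nlinarith [hl.pos]
        omega
    rw [hs0] at hs
    omega

/-- **Hecke operators commute with the operators `R_s`** -/
theorem TK_opB_comm {κ : Type*} [Fintype κ] {B : κ → GL (Fin 2) ℚ} {g : κ → SL(2, ℤ)}
    (hB : ∀ i (x : P1), B i • x = Dq q hq • (io (g i))⁻¹ • (Dq q hq)⁻¹ • x) {M : ℕ}
    (hqM : q ^ 2 ∣ M) {y : P1 → P1 → K} (hy : CK M y) (hy2 : CK M (opB B y)) {l : ℕ}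
    (hl : l.Prime) (hlM : (M : ℤ) ∣ (l : ℤ) - 1) :
    TK K hl (opB B y) = opB B (TK K hl y) := by
  have hqM' : (q : ℤ) ∣ M := by
    have : q ∣ M := (dvd_pow_self q two_ne_zero).trans hqM
    exact_mod_cast this
  have hql : (q : ℤ) ∣ (l : ℤ) - 1 := hqM'.trans hlM
  have hw : ∀ δ ∈ CongruenceSubgroup.Gamma M, ∀ x z : P1,
      y (Dq q hq • io δ • x) (Dq q hq • io δ • z) = y (Dq q hq • x) (Dq q hq • z) := by
    intro δ hδ x z
    rw [CongruenceSubgroup.Gamma_mem] at hδ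
    obtain ⟨-, h01, h10, -⟩ := hδ
    rw [ZMod.intCast_zmod_eq_zero_iff_dvd] at h01 h10
    obtain ⟨ε, hε, e⟩ := exists_conj_Dq hq hqM (hqM'.trans h01) (h10.mul_left q)
    rw [← mul_smul, ← mul_smul, e, mul_smul, mul_smul, hy.equi ε hε, one_smul]
  funext x' z'
  obtain ⟨x, rfl⟩ : ∃ x, Dq q hq • x = x' := ⟨(Dq q hq)⁻¹ • x', smul_inv_smul _ _⟩
  obtain ⟨z, rfl⟩ : ∃ z, Dq q hq • z = z' := ⟨(Dq q hq)⁻¹ • z', smul_inv_smul _ _⟩
  rw [TK_Dq hq (CK.tinv hy2) hl hql]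
  show ∑ i : Ix l, ∑ c, y (B c • Dq q hq • rq l hl.ne_zero i • x)
    (B c • Dq q hq • rq l hl.ne_zero i • z) =
    ∑ c, TK K hl y (B c • Dq q hq • x) (B c • Dq q hq • z)
  rw [Finset.sum_comm]
  refine Finset.sum_congr rfl fun c _ => ?_
  rw [hB, hB, inv_smul_smul, inv_smul_smul, TK_Dq hq (CK.tinv hy) hl hql]
  have h := sum_rq_comm (w := fun x z => y (Dq q hq • x) (Dq q hq • z)) hl hlM hw (g c)⁻¹ x z
  rw [map_inv] at h
  rw [h]
  refine Finset.sum_congr rfl fun i _ => ?_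
  rw [hB, hB, inv_smul_smul, inv_smul_smul]

end

end Fermat.Agent.RT6
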