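import Fermat.Agent.RT6.Asm6
import Fermat.Agent.RT6.L2
import Fermat.Agent.RT6.L5

/-!
# (A3)/(ASM)
-/

set_option autoImplicit false

noncomputable section

namespace Fermat.Agent.RT6.Asm

open OnePoint Matrix CongruenceSubgroup Fermat.Agent.RT Fermat.Agent.RT.Om
open Fermat.Agent.S43Glue Fermat.Agent.TWG
open Fermat.Agent.TWCoh hiding GQ
open Alg (ext_of u l m)
open scoped MatrixGroups

local notation "Qbar" => AlgebraicClosure ℚ
local notation "GQ" => (AlgebraicClosure ℚ ≃ₐ[ℚ] AlgebraicClosure ℚ)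

variable {p q : ℕ} [Fact p.Prime] [Fact q.Prime] {N : ℕ} {S : Set ℕ} {lam : ℕ → ZMod p}
  {v : P1 → P1 → ZMod p}

lemma phi_val (hqN : ¬ q ∣ N) (hNS : ∀ r : ℕ, r.Prime → r ∣ N → r ∈ S)
    (hv : v ∈ SZ (ZMod p) (q ^ 2 * N))
    (hlam : ∀ (k : ℕ) (hk : k.Prime), k ∉ S → Tz (ZMod p) hk v = fun a b => lam k * v a b)
    (a b : Pq q) (g : GL (Fin 2) (ZMod q)) :
    (phi hqN hNS hv hlam a b : GL (Fin 2) (ZMod q) → P1 → P1 → ZMod p) g =
      ff N v (g • a) (g • b) := rfl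

/-- the sums along the cross ratio for a general group element -/
lemma sum_cr (hqN : ¬ q ∣ N) (hv : v ∈ SZ (ZMod p) (q ^ 2 * N)) (s : ZMod q)
    {γ : SL(2, ℤ)} (hγ : γ ∈ Gamma0 N) (e : ZMod q) (he : e ≠ 0) (x y : P1) :
    ∑ c ∈ Finset.univ.erase (0 : ZMod q), ff N v ((red q γ * m e he) • ((c : ZMod q) : Pq q))
      ((red q γ * m e he) • ((s * c : ZMod q) : Pq q)) x y =
    ∑ c ∈ Finset.univ.erase (0 : ZMod q), ff N v ((c : ZMod q) : Pq q)
      ((s * c : ZMod q) : Pq q) ((io γ)⁻¹ • x) ((io γ)⁻¹ • y) := by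
  refine Finset.sum_nbij' (fun c => e * c) (fun c => e⁻¹ * c) ?_ ?_ ?_ ?_ ?_
  · intro c hc
    simp only [Finset.mem_erase, Finset.mem_univ, and_true] at hc ⊢
    exact mul_ne_zero he hc
  · intro c hc
    simp only [Finset.mem_erase, Finset.mem_univ, and_true] at hc ⊢
    exact mul_ne_zero (inv_ne_zero he) hc
  · intro c _
    exact inv_mul_cancel_left₀ he c
  · intro c _
    exact mul_inv_cancel_left₀ he c
  · intro c _
    rw [mul_smul, mul_smul, Alg.m_coe, Alg.m_coe]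
    have h := ff_eqv hqN hv hγ ((e * c : ZMod q) : Pq q) ((e * (s * c) : ZMod q) : Pq q)
      ((io γ)⁻¹ • x) ((io γ)⁻¹ • y)
    rw [smul_inv_smul, smul_inv_smul] at h
    rw [h, mul_left_comm]

/-- **the core of (ASM)** -/
theorem core [NeZero N] (hp : p = 3 ∨ p = 5) (hqp : q ≠ p) (hqN : ¬ q ∣ N)
    (hdvd : p ∣ q - 1 ∨ p ∣ q + 1)
    (h3 : p ≠ 3 ∨ ∃ r : ℕ, r.Prime ∧ r % 3 = 2 ∧ r ∣ N)
    (hNS : ∀ r : ℕ, r.Prime → r ∣ q * N → r ∈ S)
    (hv : v ∈ SZ (ZMod p) (q ^ 2 * N)) (hv0 : v ≠ 0)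
    (hlam : ∀ (k : ℕ) (hk : k.Prime), k ∉ S → Tz (ZMod p) hk v = fun a b => lam k * v a b)
    (hneg : ∀ x y : P1, v (x.map (fun t : ℚ => -t)) (y.map (fun t : ℚ => -t)) = v x y)
    (hR : ∀ s t : ZMod q, s ≠ 0 → s ≠ 1 → t ≠ 0 → t ≠ 1 → ∀ x y : P1,
      ∑ c ∈ Finset.univ.erase (0 : ZMod q), ff N v ((c : ZMod q) : Pq q)
        ((s * c : ZMod q) : Pq q) x y =
      ∑ c ∈ Finset.univ.erase (0 : ZMod q), ff N v ((c : ZMod q) : Pq q)
        ((t * c : ZMod q) : Pq q) x y) :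
    ∃ x ∈ SZ (ZMod p) (q * N), x ≠ 0 ∧ ∀ (k : ℕ) (hk : k.Prime), k ∉ S →
      Tz (ZMod p) hk x = fun a b => lam k * x a b := by
  have hp2 : p ≠ 2 := by
    intro h
    rcases hp with h' | h' <;> rw [h] at h' <;> norm_num at h'
  classical
  by_contra hcon
  have hno : ∀ x ∈ SZ (ZMod p) (q * N), (∀ (k : ℕ) (hk : k.Prime), k ∉ S →
      Tz (ZMod p) hk x = fun a b => lam k * x a b) → x = 0 := by
    intro x hx h
    by_contra hx0
    exact hcon ⟨x, hx, hx0, h⟩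
  have hNS' : ∀ r : ℕ, r.Prime → r ∣ N → r ∈ S := fun r hr h =>
    hNS r hr (h.trans (dvd_mul_left _ _))
  have hqS : q ∈ S := hNS q Fact.out (dvd_mul_right _ _)
  have hfix := fix_zero (p := p) (q := q) (N := N) (S := S) (lam := lam) hqN hqS hno
  have heqv : ∀ g a b, RR p q N S lam g (phi hqN hNS' hv hlam a b) =
      phi hqN hNS' hv hlam (g • a) (g • b) := by
    intro g a b
    apply Subtype.ext
    funext h
    rw [RR_apply, phi_val, phi_val, mul_smul, mul_smul]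
  have hdiag : ∀ a, phi (p := p) (q := q) hqN hNS' hv hlam a a = 0 := by
    intro a
    apply Subtype.ext
    funext h x y
    rw [phi_val]
    exact ff_self _ _ _ _
  have hrow : ∀ a, ∑ b, phi (p := p) (q := q) hqN hNS' hv hlam a b = 0 := by
    have h0 : ∑ b, phi (p := p) (q := q) hqN hNS' hv hlam ∞ b = 0 := by
      apply hfix
      intro g hg
      rw [map_sum]
      refine Fintype.sum_equiv (MulAction.toPerm g) _ _ ?_
      intro b
      rw [heqv, hg]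
      rfl
    intro a
    obtain ⟨g, hg⟩ := exists_trans a
    have h1 := congrArg (RR p q N S lam g) h0
    rw [map_sum, map_zero] at h1
    rw [← h1]
    symm
    refine Fintype.sum_equiv (MulAction.toPerm g) _ _ ?_
    intro b
    rw [heqv, hg]
    rfl
  have hcol : ∀ b, ∑ a, phi (p := p) (q := q) hqN hNS' hv hlam a b = 0 := by
    have h0 : ∑ a, phi (p := p) (q := q) hqN hNS' hv hlam a ∞ = 0 := by
      apply hfix
      intro g hg
      rw [map_sum]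
      refine Fintype.sum_equiv (MulAction.toPerm g) _ _ ?_
      intro b
      rw [heqv, hg]
      rfl
    intro a
    obtain ⟨g, hg⟩ := exists_trans a
    have h1 := congrArg (RR p q N S lam g) h0
    rw [map_sum, map_zero] at h1
    rw [← h1]
    symm
    refine Fintype.sum_equiv (MulAction.toPerm g) _ _ ?_
    intro b
    rw [heqv, hg]
    rfl
  have hsum : ∀ (s : ZMod q) (g : GL (Fin 2) (ZMod q)) (x y : P1),
      (↑(∑ c ∈ Finset.univ.erase (0 : ZMod q), phi (p := p) (q := q) hqN hNS' hv hlam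
        ((c : ZMod q) : Pq q) ((s * c : ZMod q) : Pq q)) :
        GL (Fin 2) (ZMod q) → P1 → P1 → ZMod p) g x y =
      ∑ c ∈ Finset.univ.erase (0 : ZMod q), ff N v (g • ((c : ZMod q) : Pq q))
        (g • ((s * c : ZMod q) : Pq q)) x y := by
    intro s g x y
    rw [AddSubmonoidClass.coe_finset_sum, Finset.sum_apply, Finset.sum_apply, Finset.sum_apply]
    rfl
  have hcr : ∀ s t : ZMod q, s ≠ 0 → s ≠ 1 → t ≠ 0 → t ≠ 1 →
      ∑ c ∈ Finset.univ.erase 0, phi (p := p) (q := q) hqN hNS' hv hlam ((c : ZMod q) : Pq q)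
        ((s * c : ZMod q) : Pq q) =
      ∑ c ∈ Finset.univ.erase 0, phi (p := p) (q := q) hqN hNS' hv hlam ((c : ZMod q) : Pq q)
        ((t * c : ZMod q) : Pq q) := by
    intro s t hs0 hs1 ht0 ht1
    apply Subtype.ext
    funext g x y
    rw [hsum, hsum]
    obtain ⟨γ, hγ, e, he, hg⟩ := exists_lift' hqN g
    rw [hg, sum_cr hqN hv s hγ e he, sum_cr hqN hv t hγ e he]
    exact hR s t hs0 hs1 ht0 ht1 _ _
  have hAlg := Alg.algSt p q (VV p q N S lam) (RR p q N S lam) (phi hqN hNS' hv hlam) hp hqp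
    heqv hdiag hrow hcol hcr hfix
  rcases hdvd with hd | hd
  · -- `φ = 0`
    apply hv0
    have h := hAlg.1 hd ((0 : ZMod q) : Pq q) ∞
    funext x y
    have h1 : ff N v ((0 : ZMod q) : Pq q) ∞ ((Dq q)⁻¹ • x) ((Dq q)⁻¹ • y) = 0 := by
      have h2 := congrFun (congrFun (congrFun (congrArg Subtype.val h) 1) ((Dq q)⁻¹ • x))
        ((Dq q)⁻¹ • y)
      rw [phi_val, one_smul, one_smul] at h2
      exact h2
    rw [ff_eq' hqN hv (one_mem _) (by rw [map_one, one_smul])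
      (by rw [map_one, one_smul]), map_one, inv_one, one_smul, one_smul, smul_inv_smul,
      smul_inv_smul] at h1
    exact h1
  · -- additivity, (EX)
    have h := hAlg.2 hd
    have h1 : ∀ (a b c : Pq q) (x y : P1), ff N v a b x y + ff N v b c x y + ff N v c a x y = 0 := by
      intro a b c x y
      have h2 := congrFun (congrFun (congrFun (congrArg Subtype.val (h a b c)) 1) x) y
      have h3 : ff N v ((1 : GL (Fin 2) (ZMod q)) • a) ((1 : GL (Fin 2) (ZMod q)) • b) x y +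
          ff N v ((1 : GL (Fin 2) (ZMod q)) • b) ((1 : GL (Fin 2) (ZMod q)) • c) x y +
          ff N v ((1 : GL (Fin 2) (ZMod q)) • c) ((1 : GL (Fin 2) (ZMod q)) • a) x y = 0 := h2
      rw [one_smul, one_smul, one_smul] at h3
      exact h3
    have h4 : ∀ (a b c : Pq q) (x y : P1), ff N v a b x y + ff N v b c x y = ff N v a c x y := by
      intro a b c x y
      have e1 := h1 a b c x y
      have e2 := h1 a c a x y
      rw [ff_self] at e2
      linear_combination e1 - e2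
    have k1 : ∀ (a b : Pq q) (x y z : P1), ff N v a b x y + ff N v a b y z = ff N v a b x z :=
      fun a b x y z => ff_add hqN hv a b x y z
    have k2 : ∀ γ ∈ Gamma0 N, ∀ (a b : Pq q) (x y : P1),
        ff N v (red q γ • a) (red q γ • b) (io γ • x) (io γ • y) = ff N v a b x y :=
      fun γ hγ a b x y => ff_eqv hqN hv hγ a b x y
    have k3 : ∀ (a b : Pq q) (x y : P1), ff N v (a.map (-·)) (b.map (-·)) (x.map (-·))
        (y.map (-·)) = ff N v a b x y :=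
      fun a b x y => ff_neg hqN hv hneg a b x y
    obtain ⟨z, hz1, hz2, hz3⟩ := exThm p q N hp2 h3 hqN (ff N v) h4 k1 k2 k3
    exact hcon (exists_eigen hqN hNS hv hv0 hlam z hz1 hz2 hz3)

/-- the cross-ratio condition on a symbol of level `q² N` -/
def CrSym (N : ℕ) (y : P1 → P1 → ZMod p) : Prop :=
  ∀ s t : ZMod q, s ≠ 0 → s ≠ 1 → t ≠ 0 → t ≠ 1 → ∀ γ γ' : ZMod q → SL(2, ℤ),
    (∀ c ≠ 0, γ c ∈ Gamma0 N ∧ red q (γ c) • ((0 : ZMod q) : Pq q) = ((c : ZMod q) : Pq q) ∧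
      red q (γ c) • (∞ : Pq q) = ((s * c : ZMod q) : Pq q)) →
    (∀ c ≠ 0, γ' c ∈ Gamma0 N ∧ red q (γ' c) • ((0 : ZMod q) : Pq q) = ((c : ZMod q) : Pq q) ∧
      red q (γ' c) • (∞ : Pq q) = ((t * c : ZMod q) : Pq q)) →
    ∀ x z : P1,
      ∑ c ∈ Finset.univ.erase (0 : ZMod q),
        y (RT6.Dq q (Fact.out : q.Prime).ne_zero • (io (γ c))⁻¹ •
            (RT6.Dq q (Fact.out : q.Prime).ne_zero)⁻¹ • x)
          (RT6.Dq q (Fact.out : q.Prime).ne_zero • (io (γ c))⁻¹ •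
            (RT6.Dq q (Fact.out : q.Prime).ne_zero)⁻¹ • z) =
      ∑ c ∈ Finset.univ.erase (0 : ZMod q),
        y (RT6.Dq q (Fact.out : q.Prime).ne_zero • (io (γ' c))⁻¹ •
            (RT6.Dq q (Fact.out : q.Prime).ne_zero)⁻¹ • x)
          (RT6.Dq q (Fact.out : q.Prime).ne_zero • (io (γ' c))⁻¹ •
            (RT6.Dq q (Fact.out : q.Prime).ne_zero)⁻¹ • z)

lemma hR_of_crSym (hqN : ¬ q ∣ N) (hv : v ∈ SZ (ZMod p) (q ^ 2 * N))
    (h : CrSym (q := q) N v) (s t : ZMod q) (hs0 : s ≠ 0) (hs1 : s ≠ 1) (ht0 : t ≠ 0)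
    (ht1 : t ≠ 1) (x y : P1) :
    ∑ c ∈ Finset.univ.erase (0 : ZMod q), ff N v ((c : ZMod q) : Pq q)
        ((s * c : ZMod q) : Pq q) x y =
      ∑ c ∈ Finset.univ.erase (0 : ZMod q), ff N v ((c : ZMod q) : Pq q)
        ((t * c : ZMod q) : Pq q) x y := by
  classical
  have hex : ∀ s : ZMod q, s ≠ 1 → ∀ c : ZMod q, ∃ γ : SL(2, ℤ), c ≠ 0 → γ ∈ Gamma0 N ∧
      red q γ • ((0 : ZMod q) : Pq q) = ((c : ZMod q) : Pq q) ∧
      red q γ • (∞ : Pq q) = ((s * c : ZMod q) : Pq q) := by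
    intro s hs c
    by_cases hc : c = 0
    · exact ⟨1, fun h => absurd hc h⟩
    · have hne : ((c : ZMod q) : Pq q) ≠ ((s * c : ZMod q) : Pq q) := by
        intro h
        rw [OnePoint.coe_eq_coe] at h
        apply hs
        have h2 : (s - 1) * c = 0 := by linear_combination -h
        exact sub_eq_zero.1 ((mul_eq_zero.1 h2).resolve_right hc)
      obtain ⟨γ, h1, h2, h3⟩ := exists_pair hqN _ _ hne
      exact ⟨γ, fun _ => ⟨h1, h2, h3⟩⟩
  choose γ hγ using hex s hs1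
  choose γ' hγ' using hex t ht1
  have h1 := h s t hs0 hs1 ht0 ht1 γ γ' hγ hγ' (Dq q • x) (Dq q • y)
  have e : ∀ (g : GL (Fin 2) ℚ) (x : P1), RT6.Dq q (Fact.out : q.Prime).ne_zero • g •
      (RT6.Dq q (Fact.out : q.Prime).ne_zero)⁻¹ • Dq q • x = Dq q • g • x := by
    intro g x
    have e1 : RT6.Dq q (Fact.out : q.Prime).ne_zero = Dq q := rfl
    rw [e1, inv_smul_smul]
  have h2 : ∀ (s : ZMod q) (γ : ZMod q → SL(2, ℤ)),
      (∀ c : ZMod q, c ≠ 0 → γ c ∈ Gamma0 N ∧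
        red q (γ c) • ((0 : ZMod q) : Pq q) = ((c : ZMod q) : Pq q) ∧
        red q (γ c) • (∞ : Pq q) = ((s * c : ZMod q) : Pq q)) →
      ∑ c ∈ Finset.univ.erase (0 : ZMod q), ff N v ((c : ZMod q) : Pq q)
        ((s * c : ZMod q) : Pq q) x y =
      ∑ c ∈ Finset.univ.erase (0 : ZMod q),
        v (RT6.Dq q (Fact.out : q.Prime).ne_zero • (io (γ c))⁻¹ •
            (RT6.Dq q (Fact.out : q.Prime).ne_zero)⁻¹ • Dq q • x)
          (RT6.Dq q (Fact.out : q.Prime).ne_zero • (io (γ c))⁻¹ •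
            (RT6.Dq q (Fact.out : q.Prime).ne_zero)⁻¹ • Dq q • y) := by
    intro s γ hγ
    refine Finset.sum_congr rfl fun c hc => ?_
    simp only [Finset.mem_erase, Finset.mem_univ, and_true] at hc
    obtain ⟨h3, h4, h5⟩ := hγ c hc
    rw [e, e, ff_eq' hqN hv h3 h4 h5]
  rw [h2 s γ hγ, h2 t γ' hγ']
  exact h1

/-- **(ASM)** -/
theorem asm [NeZero N] (hp : p = 3 ∨ p = 5) (hqp : q ≠ p) (hqN : ¬ q ∣ N)
    (hdvd : p ∣ q - 1 ∨ p ∣ q + 1)
    (h3 : p ≠ 3 ∨ ∃ r : ℕ, r.Prime ∧ r % 3 = 2 ∧ r ∣ N) (hS : S.Finite) (hpS : p ∈ S)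
    (hNS : ∀ r : ℕ, r.Prime → r ∣ q * N → r ∈ S)
    {ρ : GQ →* Matrix (Fin 2) (Fin 2) (ZMod p)} (hfin : FinLevel ρ)
    (hdet : ∀ g, (ρ g).det = chiK p (ZMod p) g)
    (hspan : Submodule.span (ZMod p) (Set.range ρ) = ⊤)
    (hy : ∃ y ∈ SZ (ZMod p) (q ^ 2 * N), y ≠ 0 ∧
      (∀ (l : ℕ) (hl : l.Prime), l ∉ S → ∀ A : ValuationSubring Qbar, A.LiesOverPrime l →
        ∀ τ : GQ, A.IsFrobeniusAt τ l →
          Tz (ZMod p) hl y = fun a b => (ρ τ).trace * y a b) ∧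
      (∀ x z : P1, y (x.map (-·)) (z.map (-·)) = y x z) ∧ CrSym (q := q) N y) :
    S43Glue.HMod ρ (q * N) S := by
  classical
  have hp2 : p ≠ 2 := by
    intro h
    rcases hp with h' | h' <;> rw [h] at h' <;> norm_num at h'
  haveI : NeZero (q * N) := ⟨mul_ne_zero (Fact.out : q.Prime).ne_zero (NeZero.ne N)⟩
  obtain ⟨y, hy1, hy0, hyT, hyneg, hycr⟩ := hy
  -- the eigenvalues
  have hex : ∀ l : ℕ, ∃ t : ZMod p, l.Prime → l ∉ S → ∀ A : ValuationSubring Qbar,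
      A.LiesOverPrime l → ∀ τ : GQ, A.IsFrobeniusAt τ l → (ρ τ).trace = t := by
    intro l
    by_cases hl : l.Prime ∧ l ∉ S
    · obtain ⟨A₀, hA₀, τ₀, hτ₀⟩ := Frob.exists_place_frobenius hl.1
      refine ⟨(ρ τ₀).trace, fun _ _ A hA τ hτ => ?_⟩
      have h1 := hyT l hl.1 hl.2 A hA τ hτ
      rw [hyT l hl.1 hl.2 A₀ hA₀ τ₀ hτ₀] at h1
      obtain ⟨a, ha⟩ : ∃ a, y a ≠ 0 := by
        by_contra hcon
        push Not at hcon
        exact hy0 (funext hcon)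
      obtain ⟨b, hb⟩ : ∃ b, y a b ≠ 0 := by
        by_contra hcon
        push Not at hcon
        exact ha (funext hcon)
      exact (mul_right_cancel₀ hb (congrFun (congrFun h1 a) b)).symm
    · exact ⟨0, fun h1 h2 => absurd ⟨h1, h2⟩ hl⟩
  choose lam hlam using hex
  have hlam' : ∀ (k : ℕ) (hk : k.Prime), k ∉ S →
      Tz (ZMod p) hk y = fun a b => lam k * y a b := by
    intro k hk hkS
    obtain ⟨A₀, hA₀, τ₀, hτ₀⟩ := Frob.exists_place_frobenius hk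
    rw [hyT k hk hkS A₀ hA₀ τ₀ hτ₀, hlam k hk hkS A₀ hA₀ τ₀ hτ₀]
  obtain ⟨x, hx, hx0, hxT⟩ := core hp hqp hqN hdvd h3 hNS hy1 hy0 hlam' hyneg
    (hR_of_crSym hqN hy1 hycr)
  refine hmod_of_symbol hp2 ?_ hS hpS hNS hfin hdet hspan hx hx0 ?_
  · rcases h3 with h3 | ⟨r, hr1, hr2, hr3⟩
    · exact Or.inl h3
    · exact Or.inr ⟨r, hr1, hr2, hr3.trans (dvd_mul_left _ _)⟩
  · intro l hl hlS A hA τ hτ
    rw [hxT l hl hlS, hlam l hl hlS A hA τ hτ]

end Fermat.Agent.RT6.Asm
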