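import Mathlib

/-!
# (EX): the linear algebra
-/

set_option autoImplicit false

noncomputable section

namespace Fermat.Agent.RT6

theorem exists_lam {F X : Type*} [Field F] [Fintype X] (s v i : X → X)
    (hs : ∀ x, s (s x) = x) (hv : ∀ x, v (v (v x)) = x)
    (hi : ∀ x, i (i x) = x) (hiv : ∀ x, i (v x) = v (v (i x)))
    (hconn : ∀ h : X → F, (∀ x, h (s x) = h x) → (∀ x, h (v x) = h x) → ∀ x y, h x = h y)
    (h2 : (2 : F) ≠ 0) (e : X → F) (he : ∀ x, e x + e (v x) + e (v (v x)) = 1)
    (A B : X → F) (hA : ∀ x, A (s x) = A x) (hB : ∀ x, B (v x) = B x)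
    (hAB : ∀ x, B x + B (i x) = A x + A (v x) + A (v (v x))) :
    ∃ l : X → F, (∀ x, l x + l (s x) = A x) ∧ ∀ x, l x + l (v x) + l (v (v x)) = B x := by
  classical
  -- reindexing
  have rs : ∀ f : X → F, ∑ x, f (s x) = ∑ x, f x := fun f =>
    Equiv.sum_comp (⟨s, s, hs, hs⟩ : Equiv.Perm X) f
  have rv : ∀ f : X → F, ∑ x, f (v x) = ∑ x, f x := fun f =>
    Equiv.sum_comp (⟨v, fun x => v (v x), hv, hv⟩ : Equiv.Perm X) f
  have rv2 : ∀ f : X → F, ∑ x, f (v (v x)) = ∑ x, f x := fun f =>
    (rv (fun x => f (v x))).trans (rv f)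
  have ri : ∀ f : X → F, ∑ x, f (i x) = ∑ x, f x := fun f =>
    Equiv.sum_comp (⟨i, i, hi, hi⟩ : Equiv.Perm X) f
  let L : (X → F) →ₗ[F] (X → F) × (X → F) :=
    { toFun := fun l => (fun x => l x + l (s x), fun x => l x + l (v x) + l (v (v x)))
      map_add' := by
        intro l l'
        ext x
        · change l x + l' x + (l (s x) + l' (s x)) = l x + l (s x) + (l' x + l' (s x))
          ring
        · change l x + l' x + (l (v x) + l' (v x)) + (l (v (v x)) + l' (v (v x))) =
            l x + l (v x) + l (v (v x)) + (l' x + l' (v x) + l' (v (v x)))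
          ring
      map_smul' := by
        intro c l
        ext x
        · change c * l x + c * l (s x) = c * (l x + l (s x))
          ring
        · change c * l x + c * l (v x) + c * l (v (v x)) = c * (l x + l (v x) + l (v (v x)))
          ring }
  by_contra hcon
  have hn : (A, B) ∉ LinearMap.range L := by
    rintro ⟨l, hl⟩
    refine hcon ⟨l, fun x => ?_, fun x => ?_⟩
    · exact congrFun (congrArg Prod.fst hl) x
    · exact congrFun (congrArg Prod.snd hl) x
  obtain ⟨f, hf, hf'⟩ := Submodule.exists_le_ker_of_notMem hn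
  set P : X → F := fun x => f ((fun j => if x = j then 1 else 0), 0) with hP
  set Q : X → F := fun x => f (0, (fun j => if x = j then 1 else 0)) with hQ
  have hfs : ∀ a b : X → F, f (a, b) = ∑ x, a x * P x + ∑ x, b x * Q x := by
    intro a b
    have h1 : (a, b) = LinearMap.inl F (X → F) (X → F) a + LinearMap.inr F (X → F) (X → F) b := by
      simp
    rw [h1, map_add, ← LinearMap.comp_apply, ← LinearMap.comp_apply,
      LinearMap.pi_apply_eq_sum_univ, LinearMap.pi_apply_eq_sum_univ (f ∘ₗ LinearMap.inr F _ _)]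
    rfl
  have hL : ∀ l : X → F, ∑ x, (l x + l (s x)) * P x +
      ∑ x, (l x + l (v x) + l (v (v x))) * Q x = 0 := by
    intro l
    rw [← hfs]
    exact LinearMap.mem_ker.mp (hf' ⟨l, rfl⟩)
  have hPQ : ∀ x, P x + P (s x) + (Q x + Q (v x) + Q (v (v x))) = 0 := by
    have h1 : ∀ l : X → F,
        ∑ x, l x * (P x + P (s x) + (Q x + Q (v x) + Q (v (v x)))) = 0 := by
      intro l
      have h2 := hL l
      simp only [add_mul, Finset.sum_add_distrib] at h2
      simp only [mul_add, Finset.sum_add_distrib]
      have e1 : ∑ x, l (s x) * P x = ∑ x, l x * P (s x) := by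
        rw [← rs (fun x => l x * P (s x))]
        simp only [hs]
      have e2 : ∑ x, l (v x) * Q x = ∑ x, l x * Q (v (v x)) := by
        rw [← rv (fun x => l x * Q (v (v x)))]
        simp only [hv]
      have e3 : ∑ x, l (v (v x)) * Q x = ∑ x, l x * Q (v x) := by
        rw [← rv2 (fun x => l x * Q (v x))]
        simp only [hv]
      rw [e1, e2, e3] at h2
      linear_combination h2
    intro x
    have h3 := h1 (fun y => if y = x then 1 else 0)
    simpa using h3
  -- the common value
  have hh : ∀ x y, P x + P (s x) = P y + P (s y) := by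
    refine hconn (fun x => P x + P (s x)) (fun x => ?_) (fun x => ?_)
    · change P (s x) + P (s (s x)) = P x + P (s x)
      rw [hs, add_comm]
    · have h3 := hPQ x
      have h4 := hPQ (v x)
      rw [hv] at h4
      change P (v x) + P (s (v x)) = P x + P (s x)
      linear_combination h4 - h3
  by_cases hX : Nonempty X
  swap
  · rw [not_nonempty_iff] at hX
    apply hf
    rw [hfs, Finset.univ_eq_empty, Finset.sum_empty, Finset.sum_empty, add_zero]
  obtain ⟨x₀⟩ := hX
  set c := P x₀ + P (s x₀) with hc
  have hPc : ∀ x, P x + P (s x) = c := fun x => hh x x₀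
  have hQc : ∀ x, Q x + Q (v x) + Q (v (v x)) = -c := fun x => by
    linear_combination hPQ x - hPc x
  have e1 : 2 * ∑ x, A x * P x = c * ∑ x, A x := by
    have h3 : ∑ x, A x * P x = ∑ x, A x * P (s x) := by
      rw [← rs (fun x => A x * P (s x))]
      simp only [hs, hA]
    rw [two_mul]
    nth_rewrite 2 [h3]
    rw [← Finset.sum_add_distrib, Finset.mul_sum]
    refine Finset.sum_congr rfl fun x _ => ?_
    linear_combination A x * hPc x
  have e2 : ∑ x, B x * Q x = -c * ∑ x, e x * B x := by
    have h3 : ∑ x, B x * Q x = ∑ x, (B x * Q x * e x + B x * Q x * e (v x) +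
        B x * Q x * e (v (v x))) :=
      Finset.sum_congr rfl fun x _ => by linear_combination (-(B x * Q x)) * he x
    have h4 : ∑ x, B x * Q x * e (v x) = ∑ x, B x * Q (v (v x)) * e x := by
      rw [← rv (fun x => B x * Q (v (v x)) * e x)]
      simp only [hv, hB]
    have h5 : ∑ x, B x * Q x * e (v (v x)) = ∑ x, B x * Q (v x) * e x := by
      rw [← rv2 (fun x => B x * Q (v x) * e x)]
      simp only [hv, hB]
    rw [h3, Finset.sum_add_distrib, Finset.sum_add_distrib, h4, h5, ← Finset.sum_add_distrib,
      ← Finset.sum_add_distrib, Finset.mul_sum]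
    refine Finset.sum_congr rfl fun x _ => ?_
    linear_combination (B x * e x) * hQc x
  have e3 : ∑ x, A x = ∑ x, e x * (A x + A (v x) + A (v (v x))) := by
    have h3 : ∑ x, A x = ∑ x, (A x * e x + A x * e (v x) + A x * e (v (v x))) :=
      Finset.sum_congr rfl fun x _ => by linear_combination (-A x) * he x
    have h4 : ∑ x, A x * e (v x) = ∑ x, A (v (v x)) * e x := by
      rw [← rv (fun x => A (v (v x)) * e x)]
      simp only [hv]
    have h5 : ∑ x, A x * e (v (v x)) = ∑ x, A (v x) * e x := by
      rw [← rv2 (fun x => A (v x) * e x)]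
      simp only [hv]
    rw [h3, Finset.sum_add_distrib, Finset.sum_add_distrib, h4, h5, ← Finset.sum_add_distrib,
      ← Finset.sum_add_distrib]
    refine Finset.sum_congr rfl fun x _ => ?_
    ring
  have e4 : ∑ x, e x * B (i x) = ∑ x, e x * B x := by
    have h3 : ∑ x, e x * B (i x) = ∑ x, e (i x) * B x := by
      rw [← ri (fun x => e (i x) * B x)]
      simp only [hi]
    have h4 : ∑ x, e (i x) * B x = ∑ x, (e (i x) * B x * e x + e (i x) * B x * e (v x) +
        e (i x) * B x * e (v (v x))) :=
      Finset.sum_congr rfl fun x _ => by linear_combination (-(e (i x) * B x)) * he x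
    have h5 : ∑ x, e (i x) * B x * e (v x) = ∑ x, e (i (v (v x))) * B x * e x := by
      rw [← rv (fun x => e (i (v (v x))) * B x * e x)]
      simp only [hv, hB]
    have h6 : ∑ x, e (i x) * B x * e (v (v x)) = ∑ x, e (i (v x)) * B x * e x := by
      rw [← rv2 (fun x => e (i (v x)) * B x * e x)]
      simp only [hv, hB]
    rw [h3, h4, Finset.sum_add_distrib, Finset.sum_add_distrib, h5, h6, ← Finset.sum_add_distrib,
      ← Finset.sum_add_distrib]
    refine Finset.sum_congr rfl fun x _ => ?_
    have h7 := he (i x)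
    rw [hiv, hiv, hv]
    linear_combination (B x * e x) * h7
  have e5 : 2 * ∑ x, e x * B x = ∑ x, A x := by
    rw [e3, two_mul]
    nth_rewrite 2 [← e4]
    rw [← Finset.sum_add_distrib]
    refine Finset.sum_congr rfl fun x _ => ?_
    linear_combination e x * hAB x
  apply hf
  have h3 : (2 : F) * f (A, B) = 0 := by
    rw [hfs, mul_add, e1, e2]
    linear_combination -c * e5
  exact (mul_eq_zero.mp h3).resolve_left h2

end Fermat.Agent.RT6
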