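import Fermat.Agent.RT6.St
import Fermat.Agent.RT6.Ex1
import Fermat.Agent.TWCoh.Fin

/-!
# (EX): the auxiliary function on `Γ₀(N) \ SL₂(ℤ)`
-/

set_option autoImplicit false
set_option linter.unusedSectionVars false

noncomputable section

namespace Fermat.Agent.RT6

open Fermat.Agent Fermat.Agent.TWCoh Matrix CongruenceSubgroup ModularGroup OnePoint
open scoped MatrixGroups

/-- `h ∞` -/
def X0 (h : SL(2, ℤ)) : P1 := io h • ∞

/-- `h ∞` modulo `q` -/
def r0 (q : ℕ) [Fact q.Prime] (h : SL(2, ℤ)) : Pq q := red q h • ∞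

theorem red_apply (q : ℕ) [Fact q.Prime] (h : SL(2, ℤ)) (i j : Fin 2) :
    (red q h : Matrix (Fin 2) (Fin 2) (ZMod q)) i j = ((h i j : ℤ) : ZMod q) := rfl

theorem io_apply (h : SL(2, ℤ)) (i j : Fin 2) :
    (io h : Matrix (Fin 2) (Fin 2) ℚ) i j = ((h i j : ℤ) : ℚ) := rfl

theorem X0_zero {h : SL(2, ℤ)} (hc : ((h 1 0 : ℤ) : ℚ) = 0) : X0 h = ∞ :=
  OnePoint.smul_infty_eq_self_iff.mpr hc

theorem X0_coe {h : SL(2, ℤ)} (hc : ((h 1 0 : ℤ) : ℚ) ≠ 0) :
    X0 h = (((((h 0 0 : ℤ) : ℚ) / ((h 1 0 : ℤ) : ℚ) : ℚ)) : P1) := by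
  have h1 : (io h : Matrix (Fin 2) (Fin 2) ℚ) 1 0 ≠ 0 := hc
  unfold X0
  rw [OnePoint.smul_infty_eq_ite, if_neg h1]
  rfl

theorem r0_zero {q : ℕ} [Fact q.Prime] {h : SL(2, ℤ)} (hc : ((h 1 0 : ℤ) : ZMod q) = 0) :
    r0 q h = ∞ := OnePoint.smul_infty_eq_self_iff.mpr hc

theorem r0_coe {q : ℕ} [Fact q.Prime] {h : SL(2, ℤ)} (hc : ((h 1 0 : ℤ) : ZMod q) ≠ 0) :
    r0 q h = (((((h 0 0 : ℤ) : ZMod q) / ((h 1 0 : ℤ) : ZMod q) : ZMod q)) : Pq q) := by
  have h1 : (red q h : Matrix (Fin 2) (Fin 2) (ZMod q)) 1 0 ≠ 0 := hc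
  unfold r0
  rw [OnePoint.smul_infty_eq_ite, if_neg h1]
  rfl

section basic

variable {q : ℕ} [Fact q.Prime]

theorem X0_mul (g h : SL(2, ℤ)) : X0 (g * h) = io g • X0 h := by
  unfold X0
  rw [map_mul, mul_smul]

theorem r0_mul (g h : SL(2, ℤ)) : r0 q (g * h) = red q g • r0 q h := by
  unfold r0
  rw [map_mul, mul_smul]

theorem X0_T : X0 T = ∞ := io_T_infty

theorem r0_T : r0 q T = ∞ := by
  apply r0_zero
  simp [ModularGroup.T]

theorem X0_mul_T (h : SL(2, ℤ)) : X0 (h * T) = X0 h := by rw [X0_mul, X0_T]; rfl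

theorem r0_mul_T (h : SL(2, ℤ)) : r0 q (h * T) = r0 q h := by rw [r0_mul, r0_T]; rfl

theorem neg_app (h : SL(2, ℤ)) (i j : Fin 2) : (-h) i j = -(h i j) := by
  rw [SpecialLinearGroup.coe_neg]; rfl

theorem X0_neg (h : SL(2, ℤ)) : X0 (-h) = X0 h := by
  by_cases hc : ((h 1 0 : ℤ) : ℚ) = 0
  · have hc' : (((-h) 1 0 : ℤ) : ℚ) = 0 := by rw [neg_app, Int.cast_neg, hc, neg_zero]
    rw [X0_zero hc, X0_zero hc']
  · have hc' : (((-h) 1 0 : ℤ) : ℚ) ≠ 0 := by rwa [neg_app, Int.cast_neg, neg_ne_zero]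
    rw [X0_coe hc, X0_coe hc', neg_app, neg_app, Int.cast_neg, Int.cast_neg, neg_div_neg_eq]

theorem r0_neg (h : SL(2, ℤ)) : r0 q (-h) = r0 q h := by
  by_cases hc : ((h 1 0 : ℤ) : ZMod q) = 0
  · have hc' : (((-h) 1 0 : ℤ) : ZMod q) = 0 := by rw [neg_app, Int.cast_neg, hc, neg_zero]
    rw [r0_zero hc, r0_zero hc']
  · have hc' : (((-h) 1 0 : ℤ) : ZMod q) ≠ 0 := by rwa [neg_app, Int.cast_neg, neg_ne_zero]
    rw [r0_coe hc, r0_coe hc', neg_app, neg_app, Int.cast_neg, Int.cast_neg, neg_div_neg_eq]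

/-- conjugation by `diag(1, -1)` -/
def eps (g : SL(2, ℤ)) : SL(2, ℤ) := ⟨!![g 0 0, -g 0 1; -g 1 0, g 1 1], by
  rw [Matrix.det_fin_two_of]
  linear_combination det_SL g⟩

theorem eps_00 (g : SL(2, ℤ)) : eps g 0 0 = g 0 0 := rfl
theorem eps_01 (g : SL(2, ℤ)) : eps g 0 1 = - g 0 1 := rfl
theorem eps_10 (g : SL(2, ℤ)) : eps g 1 0 = - g 1 0 := rfl
theorem eps_11 (g : SL(2, ℤ)) : eps g 1 1 = g 1 1 := rfl

theorem SL_ext {g h : SL(2, ℤ)} (h00 : g 0 0 = h 0 0) (h01 : g 0 1 = h 0 1) (h10 : g 1 0 = h 1 0)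
    (h11 : g 1 1 = h 1 1) : g = h := by
  ext i j
  fin_cases i <;> fin_cases j
  · exact h00
  · exact h01
  · exact h10
  · exact h11

theorem mul_app (g h : SL(2, ℤ)) (i j : Fin 2) : (g * h) i j = g i 0 * h 0 j + g i 1 * h 1 j := by
  simp [Matrix.mul_apply, Fin.sum_univ_two, SpecialLinearGroup.coe_mul]

theorem eps_mul (g h : SL(2, ℤ)) : eps (g * h) = eps g * eps h := by
  apply SL_ext <;>
  simp only [mul_app, eps_00, eps_01, eps_10, eps_11] <;> ring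

theorem eps_eps (g : SL(2, ℤ)) : eps (eps g) = g := by
  apply SL_ext <;>
  simp only [eps_00, eps_01, eps_10, eps_11, neg_neg]

theorem eps_neg (g : SL(2, ℤ)) : eps (-g) = - eps g := by
  apply SL_ext <;>
  simp only [eps_00, eps_01, eps_10, eps_11, neg_app, neg_neg]

theorem eps_S : eps S = -S := by decide

theorem eps_V_mul_S : eps (S * T) * S = -(S * (S * T) * (S * T)) := by decide

theorem eps_mem {N : ℕ} {g : SL(2, ℤ)} (hg : g ∈ Gamma0 N) : eps g ∈ Gamma0 N := by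
  rw [TWCoh.mem_Gamma0] at hg ⊢
  rw [eps_10]
  exact (dvd_neg).mpr hg

theorem X0_eps (h : SL(2, ℤ)) : X0 (eps h) = (X0 h).map (-·) := by
  by_cases hc : ((h 1 0 : ℤ) : ℚ) = 0
  · have hc' : (((eps h) 1 0 : ℤ) : ℚ) = 0 := by rw [eps_10, Int.cast_neg, hc, neg_zero]
    rw [X0_zero hc, X0_zero hc']
    rfl
  · have hc' : (((eps h) 1 0 : ℤ) : ℚ) ≠ 0 := by rwa [eps_10, Int.cast_neg, neg_ne_zero]
    rw [X0_coe hc, X0_coe hc', eps_10, eps_00, Int.cast_neg, div_neg]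
    rfl

theorem r0_eps (h : SL(2, ℤ)) : r0 q (eps h) = (r0 q h).map (-·) := by
  by_cases hc : ((h 1 0 : ℤ) : ZMod q) = 0
  · have hc' : (((eps h) 1 0 : ℤ) : ZMod q) = 0 := by rw [eps_10, Int.cast_neg, hc, neg_zero]
    rw [r0_zero hc, r0_zero hc']
    rfl
  · have hc' : (((eps h) 1 0 : ℤ) : ZMod q) ≠ 0 := by rwa [eps_10, Int.cast_neg, neg_ne_zero]
    rw [r0_coe hc, r0_coe hc', eps_10, eps_00, Int.cast_neg, div_neg]
    rfl

theorem X0_mul_S (h : SL(2, ℤ)) : X0 (h * S) = X0 (h * (S * T)) := by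
  rw [← mul_assoc, X0_mul_T]

theorem r0_mul_S (h : SL(2, ℤ)) : r0 q (h * S) = r0 q (h * (S * T)) := by
  rw [← mul_assoc, r0_mul_T]

theorem VVV (h : SL(2, ℤ)) : h * (S * T) * (S * T) * (S * T) = -h := by
  have : (S * T * (S * T) * (S * T) : SL(2, ℤ)) = -1 := by decide
  rw [mul_assoc, mul_assoc, ← mul_assoc (S * T), this, mul_neg, mul_one]

theorem SS (h : SL(2, ℤ)) : h * S * S = -h := by
  have : (S * S : SL(2, ℤ)) = -1 := by decide
  rw [mul_assoc, this, mul_neg, mul_one]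

end basic

section quot

variable (N : ℕ)

/-- `Γ₀(N) \ SL₂(ℤ)` -/
abbrev Xq := Quotient (QuotientGroup.rightRel (Gamma0 N))

variable {N}

/-- the class -/
def mkq (h : SL(2, ℤ)) : Xq N := Quotient.mk _ h

theorem mkq_eq {g h : SL(2, ℤ)} (H : h * g⁻¹ ∈ Gamma0 N) : (mkq g : Xq N) = mkq h :=
  Quotient.sound (QuotientGroup.rightRel_apply.mpr H)

theorem mkq_mul {γ : SL(2, ℤ)} (hγ : γ ∈ Gamma0 N) (h : SL(2, ℤ)) :
    (mkq (γ * h) : Xq N) = mkq h := (mkq_eq (by rwa [mul_inv_cancel_right])).symm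

theorem mkq_neg (h : SL(2, ℤ)) : (mkq (-h) : Xq N) = mkq h := by
  rw [← neg_one_mul]
  exact mkq_mul (neg_one_mem_Gamma0 N) h

/-- descent of functions -/
def lf {F : Type*} (f : SL(2, ℤ) → F) (hf : ∀ γ ∈ Gamma0 N, ∀ h, f (γ * h) = f h) : Xq N → F :=
  Quotient.lift f (by
    intro a b hab
    have h1 : b * a⁻¹ ∈ Gamma0 N := QuotientGroup.rightRel_apply.mp hab
    rw [← hf _ h1 a, inv_mul_cancel_right])

theorem lf_mk {F : Type*} (f : SL(2, ℤ) → F) (hf : ∀ γ ∈ Gamma0 N, ∀ h, f (γ * h) = f h)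
    (h : SL(2, ℤ)) : lf f hf (mkq h) = f h := rfl

theorem mkq_surj (x : Xq N) : ∃ h, mkq h = x := ⟨Quotient.out x, Quotient.out_eq x⟩

/-- right translation -/
def rmk (k : SL(2, ℤ)) : Xq N → Xq N := lf (fun h => mkq (h * k)) (by
  intro γ hγ h
  rw [mul_assoc]
  exact mkq_mul hγ _)

theorem rmk_mk (k h : SL(2, ℤ)) : (rmk k (mkq h) : Xq N) = mkq (h * k) := rfl

/-- the involution -/
def iq : Xq N → Xq N := lf (fun h => mkq (eps h * S)) (by
  intro γ hγ h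
  rw [eps_mul, mul_assoc]
  exact mkq_mul (eps_mem hγ) _)

theorem iq_mk (h : SL(2, ℤ)) : (iq (mkq h) : Xq N) = mkq (eps h * S) := rfl

end quot

section main

variable {p q N : ℕ} [Fact p.Prime] [Fact q.Prime] [NeZero N]

theorem exists_e (h3 : p ≠ 3 ∨ ∃ r : ℕ, r.Prime ∧ r % 3 = 2 ∧ r ∣ N) :
    ∃ e : Xq N → ZMod p, ∀ x, e x + e (rmk (S * T) x) + e (rmk (S * T) (rmk (S * T) x)) = 1 := by
  by_cases hp3 : p = 3
  · obtain ⟨r, hr, hr3, hrN⟩ := h3.resolve_left (not_not.mpr hp3)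
    obtain ⟨χ, hχ, hχ1⟩ := exists_section (noV_of_prime hr hr3 hrN)
    refine ⟨lf (fun h => ((χ h : ℤ) : ZMod p)) (fun γ hγ h => by rw [hχ γ hγ]), fun x => ?_⟩
    obtain ⟨h, rfl⟩ := mkq_surj x
    simp only [rmk_mk, lf_mk]
    have h1 := congrArg (fun n : ℤ => (n : ZMod p)) (hχ1 h)
    push_cast at h1
    rw [mul_assoc h, ← sq]
    exact h1
  · refine ⟨fun _ => (3 : ZMod p)⁻¹, fun x => ?_⟩
    have h3' : (3 : ZMod p) ≠ 0 := by
      intro h0
      have h1 : ((3 : ℕ) : ZMod p) = 0 := by exact_mod_cast h0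
      rw [ZMod.natCast_eq_zero_iff] at h1
      exact hp3 ((Nat.prime_dvd_prime_iff_eq (Fact.out) Nat.prime_three).mp h1)
    field_simp
    norm_num

theorem conn_q (h : Xq N → ZMod p) (hs : ∀ x, h (rmk S x) = h x)
    (hv : ∀ x, h (rmk (S * T) x) = h x) (x y : Xq N) : h x = h y := by
  have key : ∀ k : SL(2, ℤ), ∀ g : SL(2, ℤ), h (mkq (g * k)) = h (mkq g) := by
    intro k
    have hk : k ∈ Subgroup.closure ({S, S * T} : Set SL(2, ℤ)) := by
      rw [SL2Pres.closure_S_V]; trivial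
    induction hk using Subgroup.closure_induction with
    | mem k hk =>
      rcases hk with rfl | rfl
      · exact fun g => hs (mkq g)
      · exact fun g => hv (mkq g)
    | one => intro g; rw [mul_one]
    | mul a b _ _ ha hb => intro g; rw [← mul_assoc, hb, ha]
    | inv a _ ha =>
      intro g
      have := ha (g * a⁻¹)
      rw [inv_mul_cancel_right] at this
      exact this.symm
  obtain ⟨a, rfl⟩ := mkq_surj x
  obtain ⟨b, rfl⟩ := mkq_surj y
  have := key (b⁻¹ * a) b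
  rwa [mul_inv_cancel_left] at this

theorem exists_lambda (hp2 : p ≠ 2) (h3 : p ≠ 3 ∨ ∃ r : ℕ, r.Prime ∧ r % 3 = 2 ∧ r ∣ N)
    {φ : Pq q → Pq q → P1 → P1 → ZMod p}
    (h1 : ∀ a b c x y, φ a b x y + φ b c x y = φ a c x y)
    (h2 : ∀ a b x y z, φ a b x y + φ a b y z = φ a b x z)
    (hinv : ∀ γ ∈ Gamma0 N, ∀ a b x y,
      φ (red q γ • a) (red q γ • b) (io γ • x) (io γ • y) = φ a b x y)
    (hι : ∀ (a b : Pq q) (x y : P1), φ (a.map (-·)) (b.map (-·)) (x.map (-·)) (y.map (-·)) =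
      φ a b x y) :
    ∃ l : SL(2, ℤ) → ZMod p, (∀ γ ∈ Gamma0 N, ∀ h, l (γ * h) = l h) ∧
      (∀ h, l h + l (h * S) = φ (r0 q (h * S)) (r0 q h) (X0 h) (X0 (h * S))) ∧
      ∀ h a, l h + l (h * (S * T)) + l (h * (S * T) * (S * T)) =
        φ a (r0 q h) (X0 h) (X0 (h * (S * T))) +
        φ a (r0 q (h * (S * T))) (X0 (h * (S * T))) (X0 (h * (S * T) * (S * T))) +
        φ a (r0 q (h * (S * T) * (S * T))) (X0 (h * (S * T) * (S * T))) (X0 h) := by
  have haa : ∀ a x y, φ a a x y = 0 := fun a x y => by simpa using h1 a a a x y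
  have hxx : ∀ a b x, φ a b x x = 0 := fun a b x => by simpa using h2 a b x x x
  have hsw : ∀ a b x y, φ a b x y = - φ b a x y := fun a b x y => by
    rw [eq_neg_iff_add_eq_zero, h1, haa]
  have hsw' : ∀ a b x y, φ a b x y = - φ a b y x := fun a b x y => by
    rw [eq_neg_iff_add_eq_zero, h2, hxx]
  set A' : SL(2, ℤ) → ZMod p := fun h => φ (r0 q (h * S)) (r0 q h) (X0 h) (X0 (h * S)) with hA'
  set B' : Pq q → SL(2, ℤ) → ZMod p := fun a h =>
        φ a (r0 q h) (X0 h) (X0 (h * (S * T))) +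
        φ a (r0 q (h * (S * T))) (X0 (h * (S * T))) (X0 (h * (S * T) * (S * T))) +
        φ a (r0 q (h * (S * T) * (S * T))) (X0 (h * (S * T) * (S * T))) (X0 h) with hB'
  have hA'm : ∀ γ ∈ Gamma0 N, ∀ h, A' (γ * h) = A' h := by
    intro γ hγ h
    simp only [hA']
    rw [mul_assoc, r0_mul γ (h * S), r0_mul γ h, X0_mul γ h, X0_mul γ (h * S), hinv γ hγ]
  have hB'a : ∀ a b h, B' a h = B' b h := by
    intro a b h
    simp only [hB']
    set x := X0 h
    set y := X0 (h * (S * T))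
    set w := X0 (h * (S * T) * (S * T))
    set x' := r0 q h
    set y' := r0 q (h * (S * T))
    set w' := r0 q (h * (S * T) * (S * T))
    have e1 := h2 a b x y w
    have e2 := h2 a b x w x
    rw [hxx] at e2
    linear_combination e1 + e2 - h1 a b x' x y - h1 a b y' y w - h1 a b w' w x
  have hB'm : ∀ a, ∀ γ ∈ Gamma0 N, ∀ h, B' a (γ * h) = B' a h := by
    intro a γ hγ h
    rw [hB'a a (red q γ • a)]
    simp only [hB']
    rw [mul_assoc γ, mul_assoc γ, r0_mul γ h, X0_mul γ h, r0_mul γ (h * (S * T)),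
      X0_mul γ (h * (S * T)), r0_mul γ (h * (S * T) * (S * T)), X0_mul γ (h * (S * T) * (S * T)),
      hinv γ hγ, hinv γ hγ, hinv γ hγ]
  haveI : Fintype (Xq N) := Fintype.ofFinite _
  obtain ⟨e, he⟩ := exists_e (p := p) (N := N) h3
  have h20 : (2 : ZMod p) ≠ 0 := by
    intro h0
    have h1 : ((2 : ℕ) : ZMod p) = 0 := by exact_mod_cast h0
    rw [ZMod.natCast_eq_zero_iff] at h1
    exact hp2 ((Nat.prime_dvd_prime_iff_eq (Fact.out) Nat.prime_two).mp h1)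
  obtain ⟨l, hl1, hl2⟩ := exists_lam (F := ZMod p) (X := Xq N) (rmk S) (rmk (S * T)) iq
    (fun x => by
      obtain ⟨h, rfl⟩ := mkq_surj x
      rw [rmk_mk, rmk_mk, SS, mkq_neg])
    (fun x => by
      obtain ⟨h, rfl⟩ := mkq_surj x
      rw [rmk_mk, rmk_mk, rmk_mk, VVV, mkq_neg])
    (fun x => by
      obtain ⟨h, rfl⟩ := mkq_surj x
      rw [iq_mk, iq_mk, eps_mul, eps_eps, eps_S, mul_neg, neg_mul, SS, neg_neg])
    (fun x => by
      obtain ⟨h, rfl⟩ := mkq_surj x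
      rw [iq_mk, rmk_mk, rmk_mk, rmk_mk, iq_mk, eps_mul, mul_assoc (eps h), eps_V_mul_S, mul_neg,
        mkq_neg]
      simp only [mul_assoc])
    conn_q h20 e he (lf A' hA'm) (lf (B' ∞) (hB'm ∞))
    (fun x => by
      obtain ⟨h, rfl⟩ := mkq_surj x
      rw [rmk_mk, lf_mk, lf_mk]
      simp only [hA']
      rw [SS, X0_neg, r0_neg, hsw, hsw' _ _ (X0 (h * S)), neg_neg])
    (fun x => by
      obtain ⟨h, rfl⟩ := mkq_surj x
      rw [rmk_mk, lf_mk, lf_mk]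
      simp only [hB']
      rw [VVV, X0_neg, r0_neg]
      ring)
    (fun x => by
      obtain ⟨h, rfl⟩ := mkq_surj x
      rw [rmk_mk, rmk_mk, iq_mk, lf_mk, lf_mk, lf_mk, lf_mk, lf_mk]
      have E1 : eps h * S = - eps (h * S) := by rw [eps_mul, eps_S, mul_neg, neg_neg]
      have E2 : X0 (eps h * S) = (X0 (h * (S * T))).map (-·) := by
        rw [E1, X0_neg, X0_eps, X0_mul_S]
      have E2' : r0 q (eps h * S) = (r0 q (h * (S * T))).map (-·) := by
        rw [E1, r0_neg, r0_eps, r0_mul_S]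
      have E3 : eps h * S * (S * T) = - (eps h * T) := by
        rw [← mul_assoc, SS, neg_mul]
      have E4 : X0 (eps h * S * (S * T)) = (X0 h).map (-·) := by
        rw [E3, X0_neg, X0_mul_T, X0_eps]
      have E4' : r0 q (eps h * S * (S * T)) = (r0 q h).map (-·) := by
        rw [E3, r0_neg, r0_mul_T, r0_eps]
      have E5 : eps h * S * (S * T) * (S * T) = eps (h * (S * T) * S) := by
        have : (S * (S * T) * (S * T) : SL(2, ℤ)) = eps (S * T * S) := by decide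
        rw [mul_assoc h, eps_mul, ← this]
        simp only [mul_assoc]
      have E6 : X0 (eps h * S * (S * T) * (S * T)) = (X0 (h * (S * T) * (S * T))).map (-·) := by
        rw [E5, X0_eps, X0_mul_S]
      have E6' : r0 q (eps h * S * (S * T) * (S * T)) =
          (r0 q (h * (S * T) * (S * T))).map (-·) := by
        rw [E5, r0_eps, r0_mul_S]
      have Einf : (∞ : Pq q) = (∞ : Pq q).map (-·) := rfl
      simp only [hB', hA']
      rw [E2, E2', E4, E4', E6, E6']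
      have F1 : ∀ (b : Pq q) (x y : P1), φ ∞ (b.map (-·)) (x.map (-·)) (y.map (-·)) = φ ∞ b x y :=
        fun b x y => hι ∞ b x y
      rw [F1, F1, F1]
      rw [r0_mul_S h, X0_mul_S h, r0_mul_S (h * (S * T)), X0_mul_S (h * (S * T)),
        r0_mul_S (h * (S * T) * (S * T)), X0_mul_S (h * (S * T) * (S * T)), VVV, X0_neg, r0_neg]
      set x := X0 h
      set y := X0 (h * (S * T))
      set w := X0 (h * (S * T) * (S * T))
      set x' := r0 q h
      set y' := r0 q (h * (S * T))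
      set w' := r0 q (h * (S * T) * (S * T))
      have G1 := h1 ∞ y' x' x y
      have G2 := h1 ∞ w' y' y w
      have G3 := h1 ∞ x' w' w x
      rw [hsw' ∞ y' y x, hsw' ∞ x' x w, hsw' ∞ w' w y]
      linear_combination -G1 - G2 - G3)
  refine ⟨fun h => l (mkq h), fun γ hγ h => congrArg l (mkq_mul hγ h), fun h => hl1 (mkq h),
    fun h a => ?_⟩
  have h4 := hl2 (mkq h)
  rw [rmk_mk, rmk_mk, lf_mk] at h4
  rw [h4]
  exact hB'a ∞ a h

end main

end Fermat.Agent.RT6
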