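import Fermat.Agent.RT6.Alg
import Fermat.Agent.RT6.Ex2
import Fermat.Agent.RT.OmSt

/-!
# (A3)/(ASM) 1: reduction mod `q` of `Γ₀(N)` and of the Hecke representatives
-/

set_option autoImplicit false

noncomputable section

namespace Fermat.Agent.RT6.Asm

open OnePoint Matrix CongruenceSubgroup Fermat.Agent.TWCoh
open Alg (mk_00 mk_01 mk_10 mk_11 ext_of u l m)
open scoped MatrixGroups

variable {q : ℕ} [Fact q.Prime]

/-- a subgroup containing the unipotents contains all matrices of determinant one -/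
lemma mem_of_det_one (K : Subgroup (GL (Fin 2) (ZMod q))) (hu : ∀ t, u t ∈ K) (hl : ∀ t, l t ∈ K)
    (g : GL (Fin 2) (ZMod q)) (hg : (g : Matrix (Fin 2) (Fin 2) (ZMod q)).det = 1) : g ∈ K := by
  have aux : ∀ g : GL (Fin 2) (ZMod q), (g : Matrix (Fin 2) (Fin 2) (ZMod q)).det = 1 →
      g 1 0 ≠ 0 → g ∈ K := by
    intro g hg hc
    have hdet' : g 0 0 * g 1 1 - g 0 1 * g 1 0 = 1 := by
      rw [← hg, Matrix.det_fin_two]
    have e : g = u ((g 0 0 - 1) / g 1 0) * (l (g 1 0) * u ((g 1 1 - 1) / g 1 0)) := by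
      rw [u, l, u, Alg.mk_mul, Alg.mk_mul]
      apply ext_of
      · simp only [mk_00]; field_simp; ring
      · simp only [mk_01]; field_simp; linear_combination -hdet'
      · simp only [mk_10]; field_simp; ring
      · simp only [mk_11]; field_simp; ring
    rw [e]
    exact K.mul_mem (hu _) (K.mul_mem (hl _) (hu _))
  by_cases hc : g 1 0 = 0
  · have hd : g 1 1 ≠ 0 := by
      intro hd
      have hdet' : g 0 0 * g 1 1 - g 0 1 * g 1 0 = 1 := by
        rw [← hg, Matrix.det_fin_two]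
      rw [hd, hc] at hdet'
      simp at hdet'
    have h4 : g * l 1 ∈ K := by
      apply aux
      · rw [Matrix.GeneralLinearGroup.coe_mul, Matrix.det_mul, l, Alg.mk_det, hg]
        ring
      · have e : ((g * l 1 : GL (Fin 2) (ZMod q)) : Matrix (Fin 2) (Fin 2) (ZMod q)) 1 0 =
            g 1 0 + g 1 1 := by
          simp [l, Alg.mk_val, Matrix.mul_apply, Fin.sum_univ_two]
        rw [e, hc, zero_add]
        exact hd
    have e : g = g * l 1 * (l 1)⁻¹ := by group
    rw [e]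
    exact K.mul_mem h4 (K.inv_mem (hl 1))
  · exact aux g hg hc

/-- `Γ₀(N) → SL₂(𝔽_q)` is surjective -/
lemma exists_lift {N : ℕ} (hqN : ¬ q ∣ N) (g : GL (Fin 2) (ZMod q))
    (hg : (g : Matrix (Fin 2) (Fin 2) (ZMod q)).det = 1) : ∃ γ ∈ Gamma0 N, red q γ = g := by
  have h := mem_of_det_one ((Gamma0 N).map (red q)) ?_ ?_ g hg
  · exact Subgroup.mem_map.1 h
  · intro t
    obtain ⟨γ, h1, h2, h3, h4⟩ := exists_SL 1 (t.val : ℤ) 0 1 (by ring)
    refine Subgroup.mem_map.2 ⟨γ, mem_Gamma0.2 (by rw [h3]; exact dvd_zero _), ?_⟩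
    apply ext_of
    · rw [red_apply, h1]; simp [u]
    · rw [red_apply, h2]; simp [u]
    · rw [red_apply, h3]; simp [u]
    · rw [red_apply, h4]; simp [u]
  · intro t
    have hN : (N : ZMod q) ≠ 0 := by rwa [Ne, ZMod.natCast_eq_zero_iff]
    obtain ⟨γ, h1, h2, h3, h4⟩ := exists_SL 1 0 (N * ((t / N : ZMod q).val : ℤ)) 1 (by ring)
    refine Subgroup.mem_map.2 ⟨γ, mem_Gamma0.2 (by rw [h3]; exact dvd_mul_right _ _), ?_⟩
    apply ext_of
    · rw [red_apply, h1]; simp [l]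
    · rw [red_apply, h2]; simp [l]
    · rw [red_apply, h3]
      simp only [l, mk_10]
      push_cast
      rw [ZMod.natCast_zmod_val]
      field_simp
    · rw [red_apply, h4]; simp [l]

/-- every element is the reduction of an element of `Γ₀(N)` times a homothety -/
lemma exists_lift' {N : ℕ} (hqN : ¬ q ∣ N) (g : GL (Fin 2) (ZMod q)) :
    ∃ γ ∈ Gamma0 N, ∃ (s : ZMod q) (hs : s ≠ 0), g = red q γ * m s hs := by
  have hd := g.det_ne_zero
  obtain ⟨γ, hγ, h⟩ := exists_lift hqN (g * m _ (inv_ne_zero hd)) (by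
    rw [Matrix.GeneralLinearGroup.coe_mul, Matrix.det_mul, m, Alg.mk_det]
    field_simp
    ring)
  refine ⟨γ, hγ, _, hd, ?_⟩
  rw [h, mul_assoc, Alg.m_mul]
  have e : m ((g : Matrix (Fin 2) (Fin 2) (ZMod q)).det⁻¹ *
      (g : Matrix (Fin 2) (Fin 2) (ZMod q)).det)
      (mul_ne_zero (inv_ne_zero hd) hd) = 1 := by
    apply ext_of
    · simp [m, inv_mul_cancel₀ hd]
    · simp [m]
    · simp [m]
    · simp [m]
  rw [e, mul_one]

/-- ordered pairs -/
lemma exists_pair {N : ℕ} (hqN : ¬ q ∣ N) (a b : Pq q) (hab : a ≠ b) :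
    ∃ γ ∈ Gamma0 N, red q γ • ((0 : ZMod q) : Pq q) = a ∧ red q γ • (∞ : Pq q) = b := by
  obtain ⟨g, h1, h2⟩ := Alg.trans2 b a (Ne.symm hab)
  obtain ⟨γ, hγ, s, hs, h⟩ := exists_lift' hqN g
  refine ⟨γ, hγ, ?_, ?_⟩
  · rw [← h2, h, mul_smul, Alg.m_coe, mul_zero]
  · rw [← h1, h, mul_smul, Alg.m_infty]

/-- reduction of the representatives -/
def rq (q : ℕ) [Fact q.Prime] (k : ℕ) (hk : (k : ZMod q) ≠ 0) (i : Ix k) :
    GL (Fin 2) (ZMod q) :=
  Alg.mk (re k i : ZMod q) (rb k i) 0 (rd k i) (by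
    have h := congrArg (fun x : ℤ => (x : ZMod q)) (re_mul_rd k i)
    push_cast at h
    rw [h, mul_zero, sub_zero]
    exact hk)

lemma rq_infty (k : ℕ) (hk : (k : ZMod q) ≠ 0) (i : Ix k) : rq q k hk i • (∞ : Pq q) = ∞ := by
  rw [smul_infty_eq_self_iff]
  rfl

lemma rq_perm {k : ℕ} (hk : k ≠ 0) (hkq : (k : ZMod q) ≠ 0) {γ δ : SL(2, ℤ)} {i j : Ix k}
    (h : rp k hk i * io γ = io δ * rp k hk j) :
    rq q k hkq i * red q γ = red q δ * rq q k hkq j := by
  obtain ⟨h1, h2, h3, h4⟩ := ((ent_rp k hk i).mul (ent_io γ)).inj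
    (by rw [h]; exact (ent_io δ).mul (ent_rp k hk j))
  have e1 : re k i * γ 0 0 + rb k i * γ 1 0 = δ 0 0 * re k j + δ 0 1 * 0 := by exact_mod_cast h1
  have e2 : re k i * γ 0 1 + rb k i * γ 1 1 = δ 0 0 * rb k j + δ 0 1 * rd k j := by
    exact_mod_cast h2
  have e3 : 0 * γ 0 0 + rd k i * γ 1 0 = δ 1 0 * re k j + δ 1 1 * 0 := by exact_mod_cast h3
  have e4 : 0 * γ 0 1 + rd k i * γ 1 1 = δ 1 0 * rb k j + δ 1 1 * rd k j := by exact_mod_cast h4
  have f1 := congrArg (fun x : ℤ => (x : ZMod q)) e1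
  have f2 := congrArg (fun x : ℤ => (x : ZMod q)) e2
  have f3 := congrArg (fun x : ℤ => (x : ZMod q)) e3
  have f4 := congrArg (fun x : ℤ => (x : ZMod q)) e4
  push_cast at f1 f2 f3 f4
  apply ext_of
  · rw [Matrix.GeneralLinearGroup.coe_mul, Matrix.GeneralLinearGroup.coe_mul, Matrix.mul_apply,
      Matrix.mul_apply, Fin.sum_univ_two, Fin.sum_univ_two]
    simp only [red_apply, rq, mk_00, mk_01, mk_10, mk_11]
    exact f1
  · rw [Matrix.GeneralLinearGroup.coe_mul, Matrix.GeneralLinearGroup.coe_mul, Matrix.mul_apply,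
      Matrix.mul_apply, Fin.sum_univ_two, Fin.sum_univ_two]
    simp only [red_apply, rq, mk_00, mk_01, mk_10, mk_11]
    exact f2
  · rw [Matrix.GeneralLinearGroup.coe_mul, Matrix.GeneralLinearGroup.coe_mul, Matrix.mul_apply,
      Matrix.mul_apply, Fin.sum_univ_two, Fin.sum_univ_two]
    simp only [red_apply, rq, mk_00, mk_01, mk_10, mk_11]
    exact f3
  · rw [Matrix.GeneralLinearGroup.coe_mul, Matrix.GeneralLinearGroup.coe_mul, Matrix.mul_apply,
      Matrix.mul_apply, Fin.sum_univ_two, Fin.sum_univ_two]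
    simp only [red_apply, rq, mk_00, mk_01, mk_10, mk_11]
    exact f4

/-- negation and Möbius transformations -/
lemma neg_smul' {K : Type*} [Field K] [DecidableEq K] (g g' : GL (Fin 2) K)
    (h00 : g' 0 0 = g 0 0) (h01 : g' 0 1 = - g 0 1) (h10 : g' 1 0 = - g 1 0)
    (h11 : g' 1 1 = g 1 1) (x : OnePoint K) :
    g' • (x.map (fun t : K => -t)) = (g • x).map (fun t : K => -t) := by
  induction x using OnePoint.rec with
  | infty =>
    rw [OnePoint.map_infty, smul_infty_eq_ite, smul_infty_eq_ite, h10, h00]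
    by_cases h : g 1 0 = 0
    · rw [if_pos h, if_pos (by rw [h, neg_zero]), OnePoint.map_infty]
    · rw [if_neg h, if_neg (neg_ne_zero.2 h), OnePoint.map_some, div_neg]
  | coe t =>
    rw [OnePoint.map_some, smul_some_eq_ite, smul_some_eq_ite, h10, h00, h01, h11]
    have e : -g 1 0 * -t + g 1 1 = g 1 0 * t + g 1 1 := by ring
    rw [e]
    by_cases h : g 1 0 * t + g 1 1 = 0
    · rw [if_pos h, if_pos h, OnePoint.map_infty]
    · rw [if_neg h, if_neg h, OnePoint.map_some]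
      congr 1
      rw [← neg_div]
      congr 1
      ring

lemma eps_red (γ : SL(2, ℤ)) (a : Pq q) :
    red q (eps γ) • (a.map (fun t : ZMod q => -t)) = (red q γ • a).map (fun t : ZMod q => -t) := by
  apply neg_smul'
  · rw [red_apply, red_apply, eps_00]
  · rw [red_apply, red_apply, eps_01]; push_cast; rfl
  · rw [red_apply, red_apply, eps_10]; push_cast; rfl
  · rw [red_apply, red_apply, eps_11]

lemma eps_io (γ : SL(2, ℤ)) (a : P1) :
    io (eps γ) • (a.map (fun t : ℚ => -t)) = (io γ • a).map (fun t : ℚ => -t) := by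
  apply neg_smul'
  · rw [io_apply, io_apply, eps_00]
  · rw [io_apply, io_apply, eps_01]; push_cast; rfl
  · rw [io_apply, io_apply, eps_10]; push_cast; rfl
  · rw [io_apply, io_apply, eps_11]

end Fermat.Agent.RT6.Asm
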