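import Fermat.Agent.RT6.Asm1
import Fermat.Agent.RT.OmB

/-!
# (A3)/(ASM) 2: the functions on `P¹(𝔽_q)²` and their Hecke operators
-/

set_option autoImplicit false

noncomputable section

namespace Fermat.Agent.RT6.Asm

open OnePoint Matrix CongruenceSubgroup Fermat.Agent.TWCoh Fermat.Agent.RT Fermat.Agent.RT.Om
open Alg (ext_of u l m)
open scoped MatrixGroups

variable {q : ℕ} [Fact q.Prime] {F : Type} [CommRing F]

variable (q) in
/-- equivariance -/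
def Eqv {Y : Type*} [MulAction (GL (Fin 2) (ZMod q)) Y] (N : ℕ) (f : Y → P1 → P1 → F) : Prop :=
  ∀ γ ∈ Gamma0 N, ∀ y x x', f (red q γ • y) (io γ • x) (io γ • x') = f y x x'

/-- the Hecke operator -/
def Hq {Y : Type*} [MulAction (GL (Fin 2) (ZMod q)) Y] (k : ℕ) (hk : k ≠ 0)
    (hkq : (k : ZMod q) ≠ 0) (f : Y → P1 → P1 → F) (y : Y) (x x' : P1) : F :=
  ∑ i : Ix k, f (rq q k hkq i • y) (rp k hk i • x) (rp k hk i • x')

lemma Eqv.hq {Y : Type*} [MulAction (GL (Fin 2) (ZMod q)) Y] {N : ℕ} {f : Y → P1 → P1 → F}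
    (h : Eqv q N f) {k : ℕ} (hk : k.Prime) (hkN : ¬ k ∣ N) (hkq : (k : ZMod q) ≠ 0) :
    Eqv q N (Hq k hk.ne_zero hkq f) := by
  intro γ hγ y x x'
  obtain ⟨σ, δ, hδ, h1, -⟩ := exists_perm hk hkN hγ
  rw [Hq, Hq]
  conv_rhs => rw [← Equiv.sum_comp σ]
  refine Finset.sum_congr rfl fun i _ => ?_
  rw [← mul_smul, ← mul_smul, ← mul_smul, h1 i, rq_perm hk.ne_zero hkq (h1 i), mul_smul, mul_smul,
    mul_smul, h _ (hδ i)]

/-- the Hecke operator at `∞` -/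
lemma Hq_infty {k : ℕ} (hk : k.Prime) (hkq : (k : ZMod q) ≠ 0) (z : Pq q → P1 → P1 → F)
    (x x' : P1) : Hq k hk.ne_zero hkq z ∞ x x' = Tz F hk (z ∞) x x' := by
  rw [Hq, Fintype.sum_option, Tz, LinearMap.add_apply]
  show _ = Uop ℤ F P1 k hk.ne_zero (z ∞) x x' + Bop ℤ F P1 k hk.ne_zero (z ∞) x x'
  rw [Uop_apply, Bop_apply, add_comm, Finset.sum_range]
  simp only [rq_infty]
  rfl

section

variable (q) in
/-- `x ↦ x / q` -/
def Dq : GQ := TWCoh.mk 1 0 0 q (by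
  rw [one_mul, mul_zero, sub_zero]
  exact_mod_cast (Fact.out : q.Prime).ne_zero)

variable (q) in
lemma ent_Dq : Ent (Dq q) 1 0 0 q := ent_mk _ _ _ _ _

open Classical in
/-- the function on pairs attached to a symbol of level `q² N` -/
def ff (N : ℕ) (v : P1 → P1 → F) (a b : Pq q) (x x' : P1) : F :=
  if h : ∃ γ : SL(2, ℤ), γ ∈ Gamma0 N ∧ red q γ • ((0 : ZMod q) : Pq q) = a ∧
    red q γ • (∞ : Pq q) = b then
    v (Dq q • (io h.choose)⁻¹ • x) (Dq q • (io h.choose)⁻¹ • x')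
  else 0

/-- conjugation by `Dq` -/
lemma conj_Dq {N : ℕ} (hqN : ¬ q ∣ N) {γ : SL(2, ℤ)} (hγ : γ ∈ Gamma0 N)
    (h0 : red q γ • ((0 : ZMod q) : Pq q) = ((0 : ZMod q) : Pq q))
    (hi : red q γ • (∞ : Pq q) = ∞) :
    ∃ δ ∈ Gamma0 (q ^ 2 * N), Dq q * io γ = io δ * Dq q := by
  have hq0 : (q : ℚ) ≠ 0 := by exact_mod_cast (Fact.out : q.Prime).ne_zero
  have hc : ((γ 1 0 : ℤ) : ZMod q) = 0 := by
    rw [smul_infty_eq_self_iff] at hi
    exact hi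
  have hb : ((γ 0 1 : ℤ) : ZMod q) = 0 := by
    rw [smul_some_eq_ite, mul_zero, zero_add] at h0
    by_cases hd : (red q γ : Matrix (Fin 2) (Fin 2) (ZMod q)) 1 1 = 0
    · rw [if_pos hd] at h0
      exact absurd h0 (OnePoint.infty_ne_coe _)
    · rw [if_neg hd, mul_zero, zero_add, OnePoint.coe_eq_coe] at h0
      have h1 := (div_eq_zero_iff.1 h0).resolve_right hd
      exact h1
  obtain ⟨b', hb'⟩ := (ZMod.intCast_zmod_eq_zero_iff_dvd _ _).1 hb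
  have hc1 := (ZMod.intCast_zmod_eq_zero_iff_dvd _ _).1 hc
  have hc2 := mem_Gamma0.1 hγ
  have hcop : IsCoprime (q : ℤ) (N : ℤ) := by
    rw [Nat.isCoprime_iff_coprime]
    exact ((Fact.out : q.Prime).coprime_iff_not_dvd).2 hqN
  obtain ⟨c', hc'⟩ := hcop.mul_dvd hc1 hc2
  have hdet := det_SL γ
  obtain ⟨δ, h1, h2, h3, h4⟩ := exists_SL (γ 0 0) b' (q * γ 1 0) (γ 1 1) (by
    rw [hb'] at hdet
    linear_combination hdet)
  refine ⟨δ, mem_Gamma0.2 (by rw [h3, hc']; push_cast; exact ⟨c', by ring⟩), ?_⟩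
  refine ((ent_Dq q).mul (ent_io γ)).ext (((ent_io δ).mul (ent_Dq q)).congr ?_ ?_ ?_ ?_)
  · rw [h1, h2]; ring
  · rw [h1, h2, hb']; push_cast; ring
  · rw [h3, h4]; push_cast; ring
  · rw [h3, h4]; push_cast; ring

variable {N : ℕ} {v : P1 → P1 → F}

lemma ff_eq (hqN : ¬ q ∣ N) (hv : v ∈ SZ F (q ^ 2 * N)) {γ : SL(2, ℤ)} (hγ : γ ∈ Gamma0 N)
    (x x' : P1) : ff N v (red q γ • ((0 : ZMod q) : Pq q)) (red q γ • (∞ : Pq q)) x x' =
      v (Dq q • (io γ)⁻¹ • x) (Dq q • (io γ)⁻¹ • x') := by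
  classical
  have h : ∃ γ' : SL(2, ℤ), γ' ∈ Gamma0 N ∧ red q γ' • ((0 : ZMod q) : Pq q) =
      red q γ • ((0 : ZMod q) : Pq q) ∧ red q γ' • (∞ : Pq q) = red q γ • (∞ : Pq q) :=
    ⟨γ, hγ, rfl, rfl⟩
  rw [ff, dif_pos h]
  obtain ⟨h1, h2, h3⟩ := h.choose_spec
  set γ' := h.choose with hγ'
  obtain ⟨δ, hδ, h4⟩ := conj_Dq (γ := γ⁻¹ * γ') hqN (mul_mem (inv_mem hγ) h1)
    (by rw [map_mul, mul_smul, h2, ← mul_smul, ← map_mul, inv_mul_cancel, map_one, one_smul])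
    (by rw [map_mul, mul_smul, h3, ← mul_smul, ← map_mul, inv_mul_cancel, map_one, one_smul])
  have h5 : ∀ x : P1, Dq q • (io γ)⁻¹ • x = io δ • Dq q • (io γ')⁻¹ • x := by
    intro x
    rw [← mul_smul, ← mul_smul, ← mul_smul, ← h4, map_mul, map_inv]
    congr 1
    group
  rw [h5, h5, SZ_inv hv hδ]

lemma ff_eq' (hqN : ¬ q ∣ N) (hv : v ∈ SZ F (q ^ 2 * N)) {γ : SL(2, ℤ)} (hγ : γ ∈ Gamma0 N)
    {a b : Pq q} (ha : red q γ • ((0 : ZMod q) : Pq q) = a) (hb : red q γ • (∞ : Pq q) = b)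
    (x x' : P1) : ff N v a b x x' = v (Dq q • (io γ)⁻¹ • x) (Dq q • (io γ)⁻¹ • x') := by
  subst ha hb
  exact ff_eq hqN hv hγ x x'

lemma ff_self (v : P1 → P1 → F) (a : Pq q) (x x' : P1) : ff N v a a x x' = 0 := by
  classical
  rw [ff, dif_neg]
  rintro ⟨γ, -, h1, h2⟩
  exact OnePoint.coe_ne_infty _ (smul_left_cancel _ (h1.trans h2.symm))

lemma ff_eqv (hqN : ¬ q ∣ N) (hv : v ∈ SZ F (q ^ 2 * N)) {γ : SL(2, ℤ)} (hγ : γ ∈ Gamma0 N)
    (a b : Pq q) (x x' : P1) :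
    ff N v (red q γ • a) (red q γ • b) (io γ • x) (io γ • x') = ff N v a b x x' := by
  by_cases hab : a = b
  · rw [hab, ff_self, ff_self]
  · obtain ⟨δ, hδ, h1, h2⟩ := exists_pair hqN a b hab
    rw [ff_eq' hqN hv hδ h1 h2, ff_eq' hqN hv (mul_mem hγ hδ)
      (by rw [map_mul, mul_smul, h1]) (by rw [map_mul, mul_smul, h2])]
    rw [map_mul, _root_.mul_inv_rev, mul_smul, mul_smul, inv_smul_smul, inv_smul_smul]

lemma ff_add (hqN : ¬ q ∣ N) (hv : v ∈ SZ F (q ^ 2 * N)) (a b : Pq q) (x y z : P1) :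
    ff N v a b x y + ff N v a b y z = ff N v a b x z := by
  by_cases hab : a = b
  · rw [hab, ff_self, ff_self, ff_self, add_zero]
  · obtain ⟨δ, hδ, h1, h2⟩ := exists_pair hqN a b hab
    rw [ff_eq' hqN hv hδ h1 h2, ff_eq' hqN hv hδ h1 h2, ff_eq' hqN hv hδ h1 h2, hv.1]

/-- compatibility with the sign -/
lemma ff_neg (hqN : ¬ q ∣ N) (hv : v ∈ SZ F (q ^ 2 * N))
    (hneg : ∀ x x', v (x.map (fun t : ℚ => -t)) (x'.map (fun t : ℚ => -t)) = v x x')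
    (a b : Pq q) (x x' : P1) :
    ff N v (a.map (fun t : ZMod q => -t)) (b.map (fun t : ZMod q => -t))
      (x.map (fun t : ℚ => -t)) (x'.map (fun t : ℚ => -t)) = ff N v a b x x' := by
  by_cases hab : a = b
  · rw [hab, ff_self, ff_self]
  · obtain ⟨δ, hδ, h1, h2⟩ := exists_pair hqN a b hab
    have h3 : red q (eps δ) • ((0 : ZMod q) : Pq q) = a.map (fun t : ZMod q => -t) := by
      rw [← h1, ← eps_red, OnePoint.map_some, neg_zero]
    have h4 : red q (eps δ) • (∞ : Pq q) = b.map (fun t : ZMod q => -t) := by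
      rw [← h2, ← eps_red, OnePoint.map_infty]
    rw [ff_eq' hqN hv (eps_mem hδ) h3 h4, ff_eq' hqN hv hδ h1 h2]
    have h5 : ∀ x : P1, Dq q • (io (eps δ))⁻¹ • (x.map (fun t : ℚ => -t)) =
        (Dq q • (io δ)⁻¹ • x).map (fun t : ℚ => -t) := by
      intro x
      have e : (io (eps δ))⁻¹ • (x.map (fun t : ℚ => -t)) =
          ((io δ)⁻¹ • x).map (fun t : ℚ => -t) := by
        rw [inv_smul_eq_iff, eps_io, smul_inv_smul]
      rw [e]
      apply neg_smul'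
      · rfl
      · show (0 : ℚ) = -0
        rw [neg_zero]
      · show (0 : ℚ) = -0
        rw [neg_zero]
      · rfl
    rw [h5, h5, hneg]

end

end Fermat.Agent.RT6.Asm
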