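import Fermat.Agent.RT6.Asm2

/-!
# (A3)/(ASM) 3: the Hecke operators on the function of pairs
-/

set_option autoImplicit false

noncomputable section

namespace Fermat.Agent.RT6.Asm

open OnePoint Matrix CongruenceSubgroup Fermat.Agent.TWCoh Fermat.Agent.RT Fermat.Agent.RT.Om
open Alg (ext_of u l m)
open scoped MatrixGroups

variable {q : ℕ} [Fact q.Prime] {F : Type} [CommRing F]

lemma Dq_Di {k : ℕ} (hk : k ≠ 0) : Dq q * Di k hk = Di k hk * Dq q := by
  refine ((ent_Dq q).mul (ent_Di k hk)).ext (((ent_Di k hk).mul (ent_Dq q)).congr ?_ ?_ ?_ ?_)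
  all_goals ring

lemma Dq_Up {k : ℕ} (hk : k ≠ 0) {j t m : ℤ} (h : j - k * t = q * m) :
    Dq q * (Tr (t : ℚ))⁻¹ * Up k hk j = Up k hk m * Dq q := by
  have h1 : Up k hk j = Tr (t : ℚ) * Up k hk (j - k * t) := by
    rw [← Up_add_mul]
    congr 1
    ring
  rw [h1, ← mul_assoc, inv_mul_cancel_right, h]
  refine ((ent_Dq q).mul (ent_Up k hk _)).ext (((ent_Up k hk m).mul (ent_Dq q)).congr ?_ ?_ ?_ ?_)
  · ring
  · push_cast; ring
  · ring
  · ring

variable {N : ℕ} {v : P1 → P1 → F}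

/-- the pairs version -/
def fp (N : ℕ) (v : P1 → P1 → F) (ab : Pq q × Pq q) (x x' : P1) : F := ff N v ab.1 ab.2 x x'

lemma fp_eqv (hqN : ¬ q ∣ N) (hv : v ∈ SZ F (q ^ 2 * N)) : Eqv q N (fp (q := q) N v) := by
  intro γ hγ ab x x'
  exact ff_eqv hqN hv hγ ab.1 ab.2 x x'

lemma hq_zero (hqN : ¬ q ∣ N) (hv : v ∈ SZ F (q ^ 2 * N)) {k : ℕ} (hk : k.Prime)
    (hkq : (k : ZMod q) ≠ 0) (x x' : P1) :
    Hq k hk.ne_zero hkq (fp (q := q) N v) (((0 : ZMod q) : Pq q), ∞) x x' =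
      Tz F hk v (Dq q • x) (Dq q • x') := by
  have hq0 : q ≠ 0 := (Fact.out : q.Prime).ne_zero
  rw [Hq, Fintype.sum_option, Tz, LinearMap.add_apply]
  show _ = Uop ℤ F P1 k hk.ne_zero v (Dq q • x) (Dq q • x') +
    Bop ℤ F P1 k hk.ne_zero v (Dq q • x) (Dq q • x')
  rw [add_comm]
  congr 1
  · -- the terms `Up`
    have h1 : ∀ j : Fin k, ∃ m : ℤ, ((j : ℕ) : ℤ) - k *
        ((((j : ℕ) : ZMod q) / (k : ZMod q)).val : ℤ) = q * m := by
      intro j
      have h : (q : ℤ) ∣ ((j : ℕ) : ℤ) - k * ((((j : ℕ) : ZMod q) / (k : ZMod q)).val : ℤ) := by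
        rw [← ZMod.intCast_zmod_eq_zero_iff_dvd]
        push_cast
        rw [ZMod.natCast_zmod_val, mul_div_cancel₀ _ hkq, sub_self]
      exact h
    choose mm hmm using h1
    rw [← TrInv.sum_eq (Sy.trInv hv) hk.ne_zero Finset.univ mm ?_ (by simp)]
    · refine Finset.sum_congr rfl fun j _ => ?_
      obtain ⟨γ, g1, g2, g3, g4⟩ := exists_SL 1
        ((((j : ℕ) : ZMod q) / (k : ZMod q)).val : ℤ) 0 1 (by ring)
      have hγ : io γ = Tr (((((j : ℕ) : ZMod q) / (k : ZMod q)).val : ℤ) : ℚ) := by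
        refine (ent_io γ).ext ((ent_Tr _).congr ?_ ?_ ?_ ?_)
        · rw [g1]; norm_num
        · rw [g2]
        · rw [g3]; norm_num
        · rw [g4]; norm_num
      have hred : red q γ = u (((j : ℕ) : ZMod q) / (k : ZMod q)) := by
        apply ext_of
        · rw [red_apply, g1]; simp [u]
        · rw [red_apply, g2]; simp [u]
        · rw [red_apply, g3]; simp [u]
        · rw [red_apply, g4]; simp [u]
      have h0 : red q γ • ((0 : ZMod q) : Pq q) = rq q k hkq (Option.some j) • ((0 : ZMod q) : Pq q) := by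
        rw [hred, Alg.u_coe, zero_add, rq, Alg.mk_coe, if_neg]
        · simp [rb, TWCoh.rd]
        · simpa [TWCoh.rd] using hkq
      have hi : red q γ • (∞ : Pq q) = rq q k hkq (Option.some j) • (∞ : Pq q) := by
        rw [hred, Alg.u_infty, rq_infty]
      show ff N v (rq q k hkq (Option.some j) • ((0 : ZMod q) : Pq q)) (rq q k hkq (Option.some j) • (∞ : Pq q))
        (Up k hk.ne_zero ((j : ℕ) : ℤ) • x) (Up k hk.ne_zero ((j : ℕ) : ℤ) • x') = _
      rw [ff_eq' hqN hv (mem_Gamma0.2 (by rw [g3]; exact dvd_zero _)) h0 hi, hγ]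
      have h5 : ∀ x : P1, Dq q • (Tr (((((j : ℕ) : ZMod q) / (k : ZMod q)).val : ℤ) : ℚ))⁻¹ •
          Up k hk.ne_zero ((j : ℕ) : ℤ) • x = Up k hk.ne_zero (mm j) • Dq q • x := by
        intro x
        rw [← mul_smul, ← mul_smul, ← mul_smul, ← Dq_Up hk.ne_zero (hmm j), mul_assoc]
      rw [h5, h5]
    · intro i _ j _ hij
      have h2 : ((i : ℕ) : ℤ) ≡ ((j : ℕ) : ℤ) [ZMOD k] := by
        have e1 : ((i : ℕ) : ℤ) ≡ q * mm i [ZMOD k] := by
          rw [← hmm i]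
          exact (Int.modEq_iff_dvd.2 ⟨-((((i : ℕ) : ZMod q) / (k : ZMod q)).val : ℤ), by ring⟩)
        have e2 : ((j : ℕ) : ℤ) ≡ q * mm j [ZMOD k] := by
          rw [← hmm j]
          exact (Int.modEq_iff_dvd.2 ⟨-((((j : ℕ) : ZMod q) / (k : ZMod q)).val : ℤ), by ring⟩)
        exact e1.trans ((hij.mul_left q).trans e2.symm)
      have h3 := Nat.ModEq.eq_of_lt_of_lt (Int.natCast_modEq_iff.1 h2) i.2 j.2
      exact Fin.ext h3
  · -- the term `Di`
    have h0 : red q (1 : SL(2, ℤ)) • ((0 : ZMod q) : Pq q) =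
        rq q k hkq Option.none • ((0 : ZMod q) : Pq q) := by
      rw [map_one, one_smul, rq, Alg.mk_coe, if_neg]
      · simp [rb, TWCoh.rd]
      · simp [TWCoh.rd]
    have hi : red q (1 : SL(2, ℤ)) • (∞ : Pq q) = rq q k hkq Option.none • (∞ : Pq q) := by
      rw [map_one, one_smul, rq_infty]
    show ff N v (rq q k hkq Option.none • ((0 : ZMod q) : Pq q)) (rq q k hkq Option.none • (∞ : Pq q))
      (Di k hk.ne_zero • x) (Di k hk.ne_zero • x') = _
    rw [ff_eq' hqN hv (one_mem _) h0 hi, Bop_apply, map_one, inv_one, one_smul, one_smul,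
      ← mul_smul, ← mul_smul, ← mul_smul, ← mul_smul, Dq_Di]

/-- the Hecke operators on the function of pairs -/
lemma hq_fp (hqN : ¬ q ∣ N) (hv : v ∈ SZ F (q ^ 2 * N)) {k : ℕ} (hk : k.Prime)
    (hkN : ¬ k ∣ N) (hkq : (k : ZMod q) ≠ 0) (ab : Pq q × Pq q) (x x' : P1) :
    Hq k hk.ne_zero hkq (fp (q := q) N v) ab x x' = fp N (Tz F hk v) ab x x' := by
  have hqp : q.Prime := Fact.out
  have hkq' : ¬ k ∣ q ^ 2 * N := by
    intro h
    rcases (Nat.Prime.dvd_mul hk).1 h with h | h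
    · have h1 := (Nat.prime_dvd_prime_iff_eq hk hqp).1 (hk.dvd_of_dvd_pow h)
      apply hkq
      rw [h1, ZMod.natCast_self]
    · exact hkN h
  obtain ⟨a, b⟩ := ab
  by_cases hab : a = b
  · subst hab
    have h1 : fp N (Tz F hk v) (a, a) x x' = 0 := ff_self _ _ _ _
    rw [h1, Hq]
    apply Finset.sum_eq_zero
    intro i _
    exact ff_self _ _ _ _
  · obtain ⟨γ, hγ, h1, h2⟩ := exists_pair hqN a b hab
    have e := (fp_eqv hqN hv).hq hk hkN hkq
    have e1 := e γ hγ (((0 : ZMod q) : Pq q), ∞) ((io γ)⁻¹ • x) ((io γ)⁻¹ • x')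
    rw [smul_inv_smul, smul_inv_smul, hq_zero hqN hv hk hkq] at e1
    have h3 : red q γ • ((((0 : ZMod q) : Pq q), ∞) : Pq q × Pq q) = (a, b) := by
      rw [Prod.smul_mk, h1, h2]
    rw [h3] at e1
    rw [e1]
    exact (ff_eq' hqN (SZ_Tz hk hkq' hv) hγ h1 h2 x x').symm

end Fermat.Agent.RT6.Asm
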