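import Mathlib

/-!
# (A3)/(ASM) 4: joint kernels of commuting operators on finite groups
-/

set_option autoImplicit false

noncomputable section

namespace Fermat.Agent.RT6.Asm

/-- a natural valued sequence attains its minimum -/
lemma exists_argmin (a : ℕ → ℕ) : ∃ n, ∀ m, a n ≤ a m := by
  classical
  have h : ∃ k, ∃ n, a n = k := ⟨_, 0, rfl⟩
  obtain ⟨n, hn⟩ := Nat.find_spec h
  refine ⟨n, fun m => ?_⟩
  rw [hn]
  exact Nat.find_min' h ⟨m, rfl⟩

variable {E ι : Type*} [AddCommGroup E]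

/-- Fitting decomposition, one operator -/
lemma fitting (T : E →+ E) (K : AddSubgroup E) [Finite K] (hT : ∀ x ∈ K, T x ∈ K) :
    ∃ n, 0 < n ∧ ∀ x ∈ K, ∃ y ∈ K, (T^[n]) (x - (T^[n]) y) = 0 := by
  have hit : ∀ n, ∀ x ∈ K, (T^[n]) x ∈ K := by
    intro n
    induction n with
    | zero => intro x hx; exact hx
    | succ n ih =>
      intro x hx
      rw [Function.iterate_succ_apply]
      exact ih _ (hT x hx)
  have hKf : (K : Set E).Finite := Set.toFinite _
  have hLf : ∀ n, ((T^[n]) '' (K : Set E)).Finite := fun n => hKf.image _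
  obtain ⟨n, hn⟩ := exists_argmin (fun n => ((T^[n + 1]) '' (K : Set E)).ncard)
  have hsub : ∀ m k, (T^[m + k]) '' (K : Set E) ⊆ (T^[m]) '' (K : Set E) := by
    rintro m k _ ⟨x, hx, rfl⟩
    exact ⟨(T^[k]) x, hit k x hx, (Function.iterate_add_apply _ _ _ _).symm⟩
  refine ⟨n + 1, Nat.succ_pos _, fun x hx => ?_⟩
  have h1 : (T^[(n + 1) + (n + 1)]) '' (K : Set E) = (T^[n + 1]) '' (K : Set E) := by
    apply Set.eq_of_subset_of_ncard_le (hsub _ _) _ (hLf _)
    exact hn (n + 1 + n)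
  have h2 : (T^[n + 1]) x ∈ (T^[(n + 1) + (n + 1)]) '' (K : Set E) := by
    rw [h1]
    exact ⟨x, hx, rfl⟩
  obtain ⟨y, hy, h3⟩ := h2
  refine ⟨y, hy, ?_⟩
  rw [iterate_map_sub, ← Function.iterate_add_apply, h3, sub_self]

/-- **the joint kernel** -/
theorem exists_joint_ker (D : ι → E →+ E) (M M₀ : AddSubgroup E) (hfin : Finite M) (hM₀ : M₀ ≤ M)
    (hcomm : ∀ i j, ∀ x ∈ M, D i (D j x) = D j (D i x)) (hD : ∀ i, ∀ x ∈ M, D i x ∈ M₀)
    (hne : ¬ M ≤ M₀) : ∃ x ∈ M, x ≠ 0 ∧ ∀ i, D i x = 0 := by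
  classical
  have hfinK : ∀ K : AddSubgroup E, K ≤ M → Finite K := fun K hK =>
    Finite.of_injective (AddSubgroup.inclusion hK) (AddSubgroup.inclusion_injective hK)
  have hstrict : ∀ K K' : AddSubgroup E, K ≤ M → K' ≤ K → Nat.card K ≤ Nat.card K' → K' = K := by
    intro K K' hK hK' hc
    haveI := hfinK K hK
    exact AddSubgroup.eq_of_le_of_card_ge hK' hc
  -- a minimal stable subgroup not in `M₀`
  have hex : ∃ k, ∃ K : AddSubgroup E, K ≤ M ∧ ¬ K ≤ M₀ ∧ (∀ i, ∀ x ∈ K, D i x ∈ K) ∧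
      Nat.card K = k := ⟨_, M, le_rfl, hne, fun i x hx => hM₀ (hD i x hx), rfl⟩
  obtain ⟨K, hKM, hKne, hKst, hKc⟩ := Nat.find_spec hex
  have hKmin : ∀ K' : AddSubgroup E, K' ≤ K → ¬ K' ≤ M₀ → (∀ i, ∀ x ∈ K', D i x ∈ K') →
      K' = K := by
    intro K' h1 h2 h3
    apply hstrict K K' hKM h1
    rw [hKc]
    exact Nat.find_min' hex ⟨K', h1.trans hKM, h2, h3, rfl⟩
  haveI := hfinK K hKM
  have hit : ∀ i j, ∀ n, ∀ x ∈ K, ((D i)^[n]) (D j x) = D j (((D i)^[n]) x) := by
    intro i j n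
    induction n with
    | zero => intro x _; rfl
    | succ n ih =>
      intro x hx
      rw [Function.iterate_succ_apply, Function.iterate_succ_apply, hcomm i j x (hKM hx),
        ih _ (hKst i x hx)]
  have hitK : ∀ i, ∀ n, ∀ x ∈ K, ((D i)^[n]) x ∈ K := by
    intro i n
    induction n with
    | zero => intro x hx; exact hx
    | succ n ih =>
      intro x hx
      rw [Function.iterate_succ_apply]
      exact ih _ (hKst i x hx)
  -- nilpotence
  have hnil : ∀ i, ∃ n, ∀ x ∈ K, ((D i)^[n]) x = 0 := by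
    intro i
    obtain ⟨n, hn, h⟩ := fitting (D i) K (hKst i)
    refine ⟨n, ?_⟩
    let K' : AddSubgroup E :=
      { carrier := {x | x ∈ K ∧ ((D i)^[n]) x = 0}
        add_mem' := fun {a b} ha hb => ⟨K.add_mem ha.1 hb.1, by
          rw [iterate_map_add, ha.2, hb.2, add_zero]⟩
        zero_mem' := ⟨K.zero_mem, iterate_map_zero _ _⟩
        neg_mem' := fun {a} ha => ⟨K.neg_mem ha.1, by rw [iterate_map_neg, ha.2, neg_zero]⟩ }
    have hK' : K' = K := by
      apply hKmin
      · intro x hx; exact hx.1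
      · intro hle
        apply hKne
        intro x hx
        obtain ⟨y, hy, hxy⟩ := h x hx
        have h1 : ((D i)^[n]) y ∈ M₀ := by
          obtain ⟨k, rfl⟩ : ∃ k, n = k + 1 := ⟨n - 1, by omega⟩
          rw [Function.iterate_succ_apply']
          exact hD i _ (hKM (hitK i k y hy))
        have h2 : x - ((D i)^[n]) y ∈ K' := ⟨K.sub_mem hx (hitK i n y hy), hxy⟩
        have h3 := M₀.add_mem (hle h2) h1
        rwa [sub_add_cancel] at h3
      · intro j x hx
        refine ⟨hKst j x hx.1, ?_⟩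
        rw [hit i j n x hx.1, hx.2, map_zero]
    intro x hx
    rw [← hK'] at hx
    exact hx.2
  -- a minimal nonzero stable subgroup
  have hKbot : K ≠ ⊥ := by
    rintro rfl
    exact hKne bot_le
  have hex2 : ∃ k, ∃ L : AddSubgroup E, L ≤ K ∧ L ≠ ⊥ ∧ (∀ i, ∀ x ∈ L, D i x ∈ L) ∧
      Nat.card L = k := ⟨_, K, le_rfl, hKbot, hKst, rfl⟩
  obtain ⟨L, hLK, hLne, hLst, hLc⟩ := Nat.find_spec hex2
  have hLmin : ∀ L' : AddSubgroup E, L' ≤ L → L' ≠ ⊥ → (∀ i, ∀ x ∈ L', D i x ∈ L') → L' = L := by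
    intro L' h1 h2 h3
    apply hstrict L L' (hLK.trans hKM) h1
    rw [hLc]
    exact Nat.find_min' hex2 ⟨L', h1.trans hLK, h2, h3, rfl⟩
  have hker : ∀ i, ∀ x ∈ L, D i x = 0 := by
    intro i
    let L' : AddSubgroup E :=
      { carrier := {x | x ∈ L ∧ D i x = 0}
        add_mem' := fun {a b} ha hb => ⟨L.add_mem ha.1 hb.1, by
          rw [map_add, ha.2, hb.2, add_zero]⟩
        zero_mem' := ⟨L.zero_mem, map_zero _⟩
        neg_mem' := fun {a} ha => ⟨L.neg_mem ha.1, by rw [map_neg, ha.2, neg_zero]⟩ }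
    have hL' : L' = L := by
      apply hLmin
      · intro x hx; exact hx.1
      · intro hbot
        obtain ⟨n, hn⟩ := hnil i
        -- injective and nilpotent
        have hinj : ∀ x ∈ L, D i x = 0 → x = 0 := by
          intro x hx h0
          have : x ∈ L' := ⟨hx, h0⟩
          rw [hbot] at this
          exact AddSubgroup.mem_bot.1 this
        have hpow : ∀ k, ∀ x ∈ L, ((D i)^[k]) x = 0 → x = 0 := by
          intro k
          induction k with
          | zero => intro x _ h; exact h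
          | succ k ih =>
            intro x hx h
            rw [Function.iterate_succ_apply] at h
            exact hinj x hx (ih _ (hLst i x hx) h)
        apply hLne
        rw [eq_bot_iff]
        intro x hx
        exact AddSubgroup.mem_bot.2 (hpow n x hx (hn x (hLK hx)))
      · intro j x hx
        refine ⟨hLst j x hx.1, ?_⟩
        rw [hcomm i j x (hKM (hLK hx.1)), hx.2, map_zero]
    intro x hx
    rw [← hL'] at hx
    exact hx.2
  obtain ⟨x, hx⟩ := AddSubgroup.ne_bot_iff_exists_ne_zero.1 hLne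
  exact ⟨(x : E), hKM (hLK x.2), fun h => hx (Subtype.ext h), fun i => hker i x x.2⟩

end Fermat.Agent.RT6.Asm
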