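import Fermat.Agent.RT6.Asm3

/-!
# (A3)/(ASM) 5: the representation of `GL₂(𝔽_q)`
-/

set_option autoImplicit false

noncomputable section

namespace Fermat.Agent.RT6.Asm

open OnePoint Matrix CongruenceSubgroup Fermat.Agent.TWCoh Fermat.Agent.RT Fermat.Agent.RT.Om
open Alg (ext_of u l m)
open scoped MatrixGroups

variable (p q : ℕ) [Fact p.Prime] [Fact q.Prime] (N : ℕ) (S : Set ℕ) (lam : ℕ → ZMod p)

/-- the induced module, eigen for the Hecke operators -/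
def VV : Submodule (ZMod p) (GL (Fin 2) (ZMod q) → P1 → P1 → ZMod p) where
  carrier := {Ψ | (∀ g x y z, Ψ g x y + Ψ g y z = Ψ g x z) ∧
    (∀ γ ∈ Gamma0 N, ∀ g x y, Ψ (red q γ * g) (io γ • x) (io γ • y) = Ψ g x y) ∧
    ∀ (k : ℕ) (hk : k.Prime) (hkq : (k : ZMod q) ≠ 0), k ∉ S → ∀ g x y,
      ∑ i : Ix k, Ψ (rq q k hkq i * g) (rp k hk.ne_zero i • x) (rp k hk.ne_zero i • y) =
        lam k * Ψ g x y}
  add_mem' := by
    rintro Ψ Φ ⟨h1, h2, h3⟩ ⟨h1', h2', h3'⟩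
    refine ⟨fun g x y z => ?_, fun γ hγ g x y => ?_, fun k hk hkq hkS g x y => ?_⟩
    · simp only [Pi.add_apply]
      rw [← h1 g x y z, ← h1' g x y z]; ring
    · simp only [Pi.add_apply]
      rw [h2 γ hγ, h2' γ hγ]
    · simp only [Pi.add_apply]
      rw [Finset.sum_add_distrib, h3 k hk hkq hkS, h3' k hk hkq hkS]; ring
  zero_mem' := ⟨fun g x y z => by simp, fun γ hγ g x y => by simp, fun k hk hkq hkS g x y => by
    simp⟩
  smul_mem' := by
    rintro r Ψ ⟨h1, h2, h3⟩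
    refine ⟨fun g x y z => ?_, fun γ hγ g x y => ?_, fun k hk hkq hkS g x y => ?_⟩
    · simp only [Pi.smul_apply, smul_eq_mul]
      rw [← h1 g x y z]; ring
    · simp only [Pi.smul_apply, smul_eq_mul]
      rw [h2 γ hγ]
    · simp only [Pi.smul_apply, smul_eq_mul]
      rw [← Finset.mul_sum, h3 k hk hkq hkS]; ring

/-- right translation -/
def RR : GL (Fin 2) (ZMod q) →* Module.End (ZMod p) (VV p q N S lam) where
  toFun h :=
    { toFun := fun Ψ => ⟨fun g => (Ψ : GL (Fin 2) (ZMod q) → P1 → P1 → ZMod p) (g * h), by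
        obtain ⟨Ψ, h1, h2, h3⟩ := Ψ
        refine ⟨fun g x y z => h1 _ _ _ _, fun γ hγ g x y => ?_, fun k hk hkq hkS g x y => ?_⟩
        · show Ψ (red q γ * g * h) _ _ = Ψ (g * h) x y
          rw [mul_assoc]
          exact h2 γ hγ _ _ _
        · show ∑ i : Ix k, Ψ (rq q k hkq i * g * h) _ _ = lam k * Ψ (g * h) x y
          simp only [mul_assoc]
          exact h3 k hk hkq hkS _ _ _⟩
      map_add' := fun Ψ Φ => rfl
      map_smul' := fun r Ψ => rfl }
  map_one' := by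
    apply LinearMap.ext
    intro Ψ
    apply Subtype.ext
    funext g
    show (Ψ : GL (Fin 2) (ZMod q) → P1 → P1 → ZMod p) (g * 1) = _
    rw [mul_one]
    rfl
  map_mul' h h' := by
    apply LinearMap.ext
    intro Ψ
    apply Subtype.ext
    funext g
    show (Ψ : GL (Fin 2) (ZMod q) → P1 → P1 → ZMod p) (g * (h * h')) =
      (Ψ : GL (Fin 2) (ZMod q) → P1 → P1 → ZMod p) (g * h * h')
    rw [mul_assoc]

variable {p q N S lam}

lemma RR_apply (h : GL (Fin 2) (ZMod q)) (Ψ : VV p q N S lam) (g : GL (Fin 2) (ZMod q)) :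
    (RR p q N S lam h Ψ : GL (Fin 2) (ZMod q) → P1 → P1 → ZMod p) g =
      (Ψ : GL (Fin 2) (ZMod q) → P1 → P1 → ZMod p) (g * h) := rfl

/-- no invariants of the Borel subgroup -/
lemma fix_zero (hqN : ¬ q ∣ N) (hqS : q ∈ S)
    (hno : ∀ x ∈ SZ (ZMod p) (q * N), (∀ (k : ℕ) (hk : k.Prime), k ∉ S →
      Tz (ZMod p) hk x = fun a b => lam k * x a b) → x = 0)
    (Ψ : VV p q N S lam)
    (h : ∀ g : GL (Fin 2) (ZMod q), g • (∞ : Pq q) = ∞ → RR p q N S lam g Ψ = Ψ) : Ψ = 0 := by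
  have hq : ∀ g b : GL (Fin 2) (ZMod q), b • (∞ : Pq q) = ∞ →
      (Ψ : GL (Fin 2) (ZMod q) → P1 → P1 → ZMod p) (g * b) =
      (Ψ : GL (Fin 2) (ZMod q) → P1 → P1 → ZMod p) g := by
    intro g b hb
    exact congrFun (congrArg Subtype.val (h b hb)) g
  obtain ⟨Ψ, h1, h2, h3⟩ := Ψ
  have hred : ∀ γ : SL(2, ℤ), γ ∈ Gamma0 (q * N) → red q γ • (∞ : Pq q) = ∞ := by
    intro γ hγ
    rw [smul_infty_eq_self_iff]
    show ((γ 1 0 : ℤ) : ZMod q) = 0
    rw [ZMod.intCast_zmod_eq_zero_iff_dvd]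
    have h5 := mem_Gamma0.1 hγ
    push_cast at h5
    exact (dvd_mul_right _ _).trans h5
  have hmem : Ψ 1 ∈ SZ (ZMod p) (q * N) := by
    rw [mem_SZ]
    refine ⟨h1 1, fun γ hγ x y => ?_⟩
    have hγN : γ ∈ Gamma0 N := by
      rw [mem_Gamma0] at hγ ⊢
      push_cast at hγ
      exact (dvd_mul_left _ _).trans hγ
    have h5 := h2 γ hγN 1 x y
    have h6 := hq 1 (red q γ) (hred γ hγ)
    rw [one_mul] at h6
    rw [mul_one] at h5
    rw [← h5]
    exact (congrFun (congrFun h6 _) _).symm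
  have hzero : Ψ 1 = 0 := by
    apply hno _ hmem
    intro k hk hkS
    have hkq : (k : ZMod q) ≠ 0 := by
      intro h0
      rw [ZMod.natCast_eq_zero_iff] at h0
      have h5 := (Nat.prime_dvd_prime_iff_eq (Fact.out : q.Prime) hk).1 h0
      exact hkS (h5 ▸ hqS)
    funext x y
    have h5 := h3 k hk hkq hkS 1 x y
    rw [← h5]
    rw [← Hq_infty hk hkq (fun _ => Ψ 1) x y, Hq]
    refine Finset.sum_congr rfl fun i _ => ?_
    have h6 := hq 1 (rq q k hkq i) (rq_infty k hkq i)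
    rw [one_mul] at h6
    rw [mul_one]
    exact (congrFun (congrFun h6 _) _).symm
  apply Subtype.ext
  funext g x y
  obtain ⟨γ, hγ, s, hs, hg⟩ := exists_lift' hqN g
  show Ψ g x y = 0
  have h4 := hq (red q γ) (m s hs) (Alg.m_infty s hs)
  have h5 := h2 γ hγ 1 ((io γ)⁻¹ • x) ((io γ)⁻¹ • y)
  rw [mul_one, smul_inv_smul, smul_inv_smul] at h5
  rw [hg]
  have h6 := congrFun (congrFun h4 x) y
  have h7 : Ψ (red q γ * m s hs) x y = Ψ (red q γ) x y := h6
  rw [h7, h5, hzero]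
  rfl

end Fermat.Agent.RT6.Asm
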