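import Fermat.Agent.RT6.Ex2

/-!
# (EX): exactness
-/

set_option autoImplicit false
set_option linter.unusedSectionVars false

noncomputable section

namespace Fermat.Agent.RT6

open Fermat.Agent Fermat.Agent.TWCoh Matrix CongruenceSubgroup ModularGroup OnePoint
open scoped MatrixGroups

section coc

variable (p q N : ℕ) [Fact p.Prime] [Fact q.Prime] [NeZero N]

/-- equivariant families of functions -/
def Cq : AddSubgroup (SL(2, ℤ) → Pq q → ZMod p) where
  carrier := {f | ∀ γ ∈ Gamma0 N, ∀ h a, f (γ * h) (red q γ • a) = f h a}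
  zero_mem' := fun _ _ _ _ => rfl
  add_mem' := by
    intro f f' hf hf' γ hγ h a
    change f _ _ + f' _ _ = f _ _ + f' _ _
    rw [hf γ hγ, hf' γ hγ]
  neg_mem' := by
    intro f hf γ hγ h a
    change - f _ _ = - f _ _
    rw [hf γ hγ]

/-- the type of equivariant families -/
def CT : Type := Cq p q N

instance : AddCommGroup (CT p q N) := inferInstanceAs (AddCommGroup (Cq p q N))

variable {p q N}

/-- value -/
def CT.val (f : CT p q N) (h : SL(2, ℤ)) (a : Pq q) : ZMod p := f.1 h a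

theorem CT.inv' (f : CT p q N) {γ : SL(2, ℤ)} (hγ : γ ∈ Gamma0 N) (h : SL(2, ℤ)) (a : Pq q) :
    f.val (γ * h) (red q γ • a) = f.val h a := f.2 γ hγ h a

theorem CT.ext' {f f' : CT p q N} (h : ∀ g a, f.val g a = f'.val g a) : f = f' :=
  Subtype.ext (funext fun g => funext fun a => h g a)

theorem CT.val_add (f f' : CT p q N) (h : SL(2, ℤ)) (a : Pq q) :
    (f + f').val h a = f.val h a + f'.val h a := rfl

theorem CT.val_zero (h : SL(2, ℤ)) (a : Pq q) : (0 : CT p q N).val h a = 0 := rfl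

instance : SMul SL(2, ℤ) (CT p q N) where
  smul g f := ⟨fun h a => f.val (h * g) a, fun γ hγ h a => by
    change f.val (γ * h * g) _ = f.val (h * g) a
    rw [mul_assoc, f.inv' hγ]⟩

theorem CT.val_smul (g : SL(2, ℤ)) (f : CT p q N) (h : SL(2, ℤ)) (a : Pq q) :
    (g • f).val h a = f.val (h * g) a := rfl

instance : DistribMulAction SL(2, ℤ) (CT p q N) where
  one_smul f := CT.ext' fun g a => by rw [CT.val_smul, mul_one]
  mul_smul g h f := CT.ext' fun k a => by rw [CT.val_smul, CT.val_smul, CT.val_smul, mul_assoc]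
  smul_zero g := rfl
  smul_add g f f' := rfl

theorem red_neg_one_smul (a : Pq q) : red q (-1) • a = a := by
  have e : ∀ i j, ((red q (-1) : GL (Fin 2) (ZMod q)) : Matrix (Fin 2) (Fin 2) (ZMod q)) i j =
      (-1 : Matrix (Fin 2) (Fin 2) (ZMod q)) i j := by
    intro i j
    rw [red_apply, neg_app]
    fin_cases i <;> fin_cases j <;> simp
  have e10 := e 1 0
  have e00 := e 0 0
  have e01 := e 0 1
  have e11 := e 1 1
  simp only [Matrix.neg_apply, Matrix.one_apply_eq] at e00 e11
  have h10 : (1 : Matrix (Fin 2) (Fin 2) (ZMod q)) 1 0 = 0 := Matrix.one_apply_ne (by decide)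
  have h01 : (1 : Matrix (Fin 2) (Fin 2) (ZMod q)) 0 1 = 0 := Matrix.one_apply_ne (by decide)
  rw [Matrix.neg_apply, h10, neg_zero] at e10
  rw [Matrix.neg_apply, h01, neg_zero] at e01
  induction a using OnePoint.rec with
  | infty => exact OnePoint.smul_infty_eq_self_iff.mpr e10
  | coe x =>
    have hne : ((red q (-1) : GL (Fin 2) (ZMod q)) : Matrix (Fin 2) (Fin 2) (ZMod q)) 1 0 * x +
      ((red q (-1) : GL (Fin 2) (ZMod q)) : Matrix (Fin 2) (Fin 2) (ZMod q)) 1 1 ≠ 0 := by
      rw [e10, e11, zero_mul, zero_add]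
      exact neg_ne_zero.mpr one_ne_zero
    rw [OnePoint.smul_some_eq_ite, if_neg hne, e10, e11, e00, e01]
    congr 1
    rw [zero_mul, zero_add, add_zero, div_neg, div_one, neg_mul, one_mul, neg_neg]

theorem CT.neg_one (f : CT p q N) : (-1 : SL(2, ℤ)) • f = f := by
  apply CT.ext'
  intro h a
  rw [CT.val_smul]
  have h1 := f.inv' (neg_one_mem_Gamma0 N) h a
  rw [red_neg_one_smul, neg_one_mul] at h1
  rw [mul_neg_one]
  exact h1

/-- integration of the Manin relations -/
theorem exists_z {u : SL(2, ℤ) → Pq q → ZMod p}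
    (hu : ∀ γ ∈ Gamma0 N, ∀ h a, u (γ * h) (red q γ • a) = u h a)
    (hu2 : ∀ h a, u h a + u (h * S) a = 0)
    (hu3 : ∀ h a, u h a + u (h * (S * T)) a + u (h * (S * T) * (S * T)) a = 0) :
    ∃ z : Pq q → P1 → P1 → ZMod p,
      (∀ a x y w, z a x y + z a y w = z a x w) ∧
      (∀ γ ∈ Gamma0 N, ∀ a x y, z (red q γ • a) (io γ • x) (io γ • y) = z a x y) ∧
      ∀ (w : Pq q → P1 → P1 → ZMod p), (∀ a x y y', w a x y + w a y y' = w a x y') →
        ∀ a b, (∀ h, u h a - u h b = w a (X0 h) (X0 (h * S)) - w b (X0 h) (X0 (h * S))) →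
          ∀ x y, z a x y - z b x y = w a x y - w b x y := by
  obtain ⟨U, hU⟩ : ∃ U : CT p q N, ∀ h a, U.val h a = u h a := ⟨⟨u, hu⟩, fun _ _ => rfl⟩
  obtain ⟨δ, hδ, hδS, hδV⟩ := exists_coc (C := CT p q N) CT.neg_one U U
    (CT.ext' fun h a => by
      rw [CT.val_add, CT.val_smul, CT.val_zero, hU, hU]
      exact hu2 h a)
    (CT.ext' fun h a => by
      have e : h * (S * T) ^ 2 = h * (S * T) * (S * T) := by rw [sq]; group
      rw [CT.val_add, CT.val_add, CT.val_smul, CT.val_smul, CT.val_zero, e, hU, hU, hU]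
      exact hu3 h a)
  have hδm : ∀ g k h a, (δ (g * k)).val h a = (δ g).val h a + (δ k).val (h * g) a := by
    intro g k h a
    rw [hδ, CT.val_add, CT.val_smul]
  have hδ1 : ∀ h a, (δ 1).val h a = 0 := by
    intro h a
    have := hδm 1 1 h a
    rw [mul_one, mul_one] at this
    simpa using this
  have hδS' : ∀ h a, (δ S).val h a = u h a := by
    intro h a; rw [hδS, hU]
  have hδV' : ∀ h a, (δ (S * T)).val h a = u h a := by
    intro h a; rw [hδV, hU]
  have hδT : ∀ h a, (δ T).val h a = 0 := by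
    intro h a
    have h1 := hδm S T (h * S⁻¹) a
    rw [hδV', hδS', inv_mul_cancel_right] at h1
    simpa using h1
  have hδneg : ∀ h a, (δ (-1)).val h a = 0 := by
    intro h a
    have h1 := hδm S S h a
    have h2 : (S * S : SL(2, ℤ)) = -1 := by decide
    rw [h2, hδS', hδS', hu2] at h1
    exact h1
  have hδTinv : ∀ h a, (δ T⁻¹).val h a = 0 := by
    intro h a
    have h1 := hδm T⁻¹ T h a
    rw [inv_mul_cancel, hδ1, hδT, add_zero] at h1
    exact h1.symm
  have hδTk : ∀ k : ℤ, ∀ h a, (δ (T ^ k)).val h a = 0 := by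
    intro k
    induction k using Int.induction_on with
    | zero => intro h a; rw [zpow_zero, hδ1]
    | succ k ih => intro h a; rw [_root_.zpow_add_one, hδm, ih, hδT, add_zero]
    | pred k ih => intro h a; rw [_root_.zpow_sub_one, hδm, ih, hδTinv, add_zero]
  -- the symbol on pairs of matrices
  set ψ : SL(2, ℤ) → SL(2, ℤ) → Pq q → ZMod p := fun h k a => (δ (h⁻¹ * k)).val h a with hψ
  have ψadd : ∀ h k l a, ψ h k a + ψ k l a = ψ h l a := by
    intro h k l a
    simp only [hψ]
    have h1 := hδm (h⁻¹ * k) (k⁻¹ * l) h a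
    rw [mul_inv_cancel_left] at h1
    rw [← h1]
    congr 2
    group
  have ψinv : ∀ γ ∈ Gamma0 N, ∀ h k a, ψ (γ * h) (γ * k) (red q γ • a) = ψ h k a := by
    intro γ hγ h k a
    simp only [hψ]
    have h1 : (γ * h)⁻¹ * (γ * k) = h⁻¹ * k := by group
    rw [h1, CT.inv' _ hγ]
  have ψzero : ∀ h k a, X0 h = X0 k → ψ h k a = 0 := by
    intro h k a hhk
    simp only [hψ]
    have h1 : io (h⁻¹ * k) • (∞ : P1) = ∞ := by
      rw [map_mul, mul_smul]
      have : io k • (∞ : P1) = io h • ∞ := hhk.symm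
      rw [this, map_inv, inv_smul_smul]
    rw [OnePoint.smul_infty_eq_self_iff] at h1
    have h2 : (h⁻¹ * k) 1 0 = 0 := by
      have h3 : ((io (h⁻¹ * k) : GQ) : Matrix (Fin 2) (Fin 2) ℚ) 1 0 =
        (((h⁻¹ * k) 1 0 : ℤ) : ℚ) := rfl
      have h4 := h3.symm.trans h1
      exact_mod_cast h4
    obtain ⟨m, hm | hm⟩ := upper_eq h2
    · rw [hm, hδTk]
    · rw [hm, hδm, hδneg, hδTk, add_zero]
  have ψcongr : ∀ h h' k k' a, X0 h = X0 h' → X0 k = X0 k' → ψ h k a = ψ h' k' a := by
    intro h h' k k' a e e'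
    rw [← ψadd h h' k a, ← ψadd h' k' k a, ψzero _ _ _ e, ψzero _ _ _ e'.symm, zero_add, add_zero]
  -- representatives
  have hrep : ∀ x : P1, ∃ g : SL(2, ℤ), X0 g = x := by
    intro x
    obtain ⟨g, hg⟩ := OnePoint.exists_mem_SL2 ℤ x
    exact ⟨g, hg⟩
  choose o ho using hrep
  refine ⟨fun a x y => ψ (o x) (o y) a, fun a x y w => ψadd _ _ _ _, fun γ hγ a x y => ?_, ?_⟩
  · change ψ (o (io γ • x)) (o (io γ • y)) (red q γ • a) = ψ (o x) (o y) a
    rw [← ψinv γ hγ (o x) (o y) a]
    apply ψcongr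
    · rw [ho, X0_mul, ho]
    · rw [ho, X0_mul, ho]
  · intro w hw a b hab
    have hwxx : ∀ a x, w a x x = 0 := fun a x => by simpa using hw a x x x
    have key : ∀ g h, (δ g).val h a - (δ g).val h b =
        w a (X0 h) (X0 (h * g)) - w b (X0 h) (X0 (h * g)) := by
      intro g
      have hg : g ∈ Subgroup.closure ({S, S * T} : Set SL(2, ℤ)) := by
        rw [SL2Pres.closure_S_V]; trivial
      induction hg using Subgroup.closure_induction with
      | mem g hg =>
        rcases hg with rfl | rfl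
        · intro h
          rw [hδS', hδS', hab]
        · intro h
          rw [hδV', hδV', hab, X0_mul_S]
      | one => intro h; rw [hδ1, hδ1, mul_one, hwxx, hwxx]
      | mul g k _ _ hg hk =>
        intro h
        have e1 := hw a (X0 h) (X0 (h * g)) (X0 (h * g * k))
        have e2 := hw b (X0 h) (X0 (h * g)) (X0 (h * g * k))
        rw [hδm, hδm, ← mul_assoc]
        linear_combination hg h + hk (h * g) + e1 - e2
      | inv g _ hg =>
        intro h
        have h1 := hg (h * g⁻¹)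
        rw [inv_mul_cancel_right] at h1
        have h2 : ∀ a, (δ g⁻¹).val h a + (δ g).val (h * g⁻¹) a = 0 := fun a => by
          rw [← hδm, inv_mul_cancel, hδ1]
        have e1 := hw a (X0 h) (X0 (h * g⁻¹)) (X0 h)
        have e2 := hw b (X0 h) (X0 (h * g⁻¹)) (X0 h)
        rw [hwxx] at e1 e2
        linear_combination h2 a - h2 b - h1 - e1 + e2
    intro x y
    have h1 := key ((o x)⁻¹ * o y) (o x)
    rw [mul_inv_cancel_left, ho, ho] at h1
    exact h1

end coc

/-- **(EX)** -/
theorem exThm : ExSt := by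
  intro p q N _ _ _ hp2 h3 _ φ h1 h2 hinv hι
  obtain ⟨l, hl, hl2, hl3⟩ := exists_lambda (p := p) (q := q) (N := N) hp2 h3 h1 h2 hinv hι
  have haa : ∀ a x y, φ a a x y = 0 := fun a x y => by simpa using h1 a a a x y
  have hxx : ∀ a b x, φ a b x x = 0 := fun a b x => by simpa using h2 a b x x x
  have hsw : ∀ a b x y, φ a b x y = - φ b a x y := fun a b x y => by
    rw [eq_neg_iff_add_eq_zero, h1, haa]
  have hsw' : ∀ a b x y, φ a b x y = - φ a b y x := fun a b x y => by
    rw [eq_neg_iff_add_eq_zero, h2, hxx]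
  obtain ⟨z, hz1, hz2, hz3⟩ := exists_z (p := p) (q := q) (N := N)
    (u := fun h a => φ a (r0 q h) (X0 h) (X0 (h * S)) - l h)
    (fun γ hγ h a => by
      change φ (red q γ • a) (r0 q (γ * h)) (X0 (γ * h)) (X0 (γ * h * S)) - l (γ * h) =
        φ a (r0 q h) (X0 h) (X0 (h * S)) - l h
      rw [mul_assoc γ h S, r0_mul γ h, X0_mul γ h, X0_mul γ (h * S), hinv γ hγ, hl γ hγ])
    (fun h a => by
      change φ a (r0 q h) (X0 h) (X0 (h * S)) - l h +
        (φ a (r0 q (h * S)) (X0 (h * S)) (X0 (h * S * S)) - l (h * S)) = 0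
      have e1 := hl2 h
      have e2 := h1 a (r0 q (h * S)) (r0 q h) (X0 h) (X0 (h * S))
      rw [SS, X0_neg, hsw' a _ (X0 (h * S))]
      linear_combination -e1 - e2)
    (fun h a => by
      change φ a (r0 q h) (X0 h) (X0 (h * S)) - l h +
        (φ a (r0 q (h * (S * T))) (X0 (h * (S * T))) (X0 (h * (S * T) * S)) - l (h * (S * T))) +
        (φ a (r0 q (h * (S * T) * (S * T))) (X0 (h * (S * T) * (S * T)))
          (X0 (h * (S * T) * (S * T) * S)) - l (h * (S * T) * (S * T))) = 0
      rw [X0_mul_S h, X0_mul_S (h * (S * T)), X0_mul_S (h * (S * T) * (S * T)), VVV, X0_neg]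
      linear_combination -hl3 h a)
  refine ⟨z, hz1, hz2, fun a b x y => ?_⟩
  have h4 := hz3 (fun c x y => φ c b x y) (fun c x y y' => h2 c b x y y') a b (fun h => by
    have e1 := h1 a b (r0 q h) (X0 h) (X0 (h * S))
    rw [haa]
    linear_combination -e1) x y
  rw [h4, haa, sub_zero]

end Fermat.Agent.RT6
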