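import Fermat.Agent.RT6.Asm4
import Fermat.Agent.RT6.Asm5
import Fermat.Agent.RT6.Ex
import Fermat.Agent.TWCoh.Fin

/-!
# (A3)/(ASM) 6: from the symbol of level `q² N` to a symbol of level `q N`
-/

set_option autoImplicit false

noncomputable section

namespace Fermat.Agent.RT6.Asm

open OnePoint Matrix CongruenceSubgroup Fermat.Agent.TWCoh Fermat.Agent.RT Fermat.Agent.RT.Om
open Alg (ext_of u l m)
open scoped MatrixGroups

variable {p q : ℕ} [Fact p.Prime] [Fact q.Prime] {N : ℕ} {S : Set ℕ} {lam : ℕ → ZMod p}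
  {v : P1 → P1 → ZMod p}

lemma ff_smul (c : ZMod p) (v : P1 → P1 → ZMod p) (a b : Pq q) (x x' : P1) :
    ff N (fun x y => c * v x y) a b x x' = c * ff N v a b x x' := by
  rw [ff, ff]
  split_ifs
  · rfl
  · rw [mul_zero]

/-- the family of elements of the induced module -/
def phi (hqN : ¬ q ∣ N) (hNS : ∀ r : ℕ, r.Prime → r ∣ N → r ∈ S) (hv : v ∈ SZ (ZMod p) (q ^ 2 * N))
    (hlam : ∀ (k : ℕ) (hk : k.Prime), k ∉ S → Tz (ZMod p) hk v = fun a b => lam k * v a b)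
    (a b : Pq q) : VV p q N S lam :=
  ⟨fun g x y => ff N v (g • a) (g • b) x y, fun g x y z => ff_add hqN hv _ _ _ _ _,
    fun γ hγ g x y => by
      show ff N v ((red q γ * g) • a) ((red q γ * g) • b) (io γ • x) (io γ • y) = _
      rw [mul_smul, mul_smul, ff_eqv hqN hv hγ],
    fun k hk hkq hkS g x y => by
      have h := hq_fp hqN hv hk (fun h => hkS (hNS k hk h)) hkq (g • a, g • b) x y
      rw [hlam k hk hkS] at h
      have h2 : fp N (fun a b => lam k * v a b) (g • a, g • b) x y =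
        lam k * ff N v (g • a) (g • b) x y := ff_smul _ _ _ _ _ _
      rw [h2, Hq] at h
      rw [← h]
      refine Finset.sum_congr rfl fun i _ => ?_
      show ff N v ((rq q k hkq i * g) • a) ((rq q k hkq i * g) • b) _ _ =
        ff N v (rq q k hkq i • g • a) (rq q k hkq i • g • b) _ _
      rw [mul_smul, mul_smul]⟩

lemma exists_trans (a : Pq q) : ∃ g : GL (Fin 2) (ZMod q), g • (∞ : Pq q) = a := by
  induction a using OnePoint.rec with
  | infty => exact ⟨1, one_smul _ _⟩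
  | coe x =>
    obtain ⟨g, h, -⟩ := Alg.trans2 ((x : ZMod q) : Pq q) ∞ (OnePoint.coe_ne_infty _)
    exact ⟨g, h⟩

lemma Tz_comm {x : P1 → P1 → ZMod p} (hx : TrInv x) {k k' : ℕ} (hk : k.Prime) (hk' : k'.Prime) :
    Tz (ZMod p) hk (Tz (ZMod p) hk' x) = Tz (ZMod p) hk' (Tz (ZMod p) hk x) := by
  by_cases h : k = k'
  · subst h; rfl
  · simp only [Tz, LinearMap.add_apply, map_add]
    rw [Uz_comm hk hk', Bz_comm hk hk', Uz_Bz_comm hk hk' h hx, Uz_Bz_comm hk' hk (Ne.symm h) hx]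
    abel

lemma SZ_smul {M : ℕ} (c : ZMod p) {x : P1 → P1 → ZMod p} (hx : x ∈ SZ (ZMod p) M) :
    (fun a b => c * x a b) ∈ SZ (ZMod p) M := by
  rw [mem_SZ] at hx ⊢
  refine ⟨fun a b d => ?_, fun γ hγ a b => ?_⟩
  · rw [← hx.1 a b d]; ring
  · rw [hx.2 γ hγ]

lemma finite_SZ {M : ℕ} [NeZero M] : Finite (SZ (ZMod p) M).toAddSubgroup := by
  haveI : Finite (Sy (1 : DirichletCharacter (ZMod p) 1) M (ZMod p) P1) :=
    Module.finite_of_finite (ZMod p)
  refine Finite.of_injective (β := Sy (1 : DirichletCharacter (ZMod p) 1) M (ZMod p) P1)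
    (fun x => ⟨x.1, x.2.1, fun γ hγ a b => ?_⟩) ?_
  · rw [one_dir_apply, one_smul]
    exact SZ_inv x.2 hγ a b
  · intro x y h
    have h2 := congrArg (fun z : Sy (1 : DirichletCharacter (ZMod p) 1) M (ZMod p) P1 =>
      (z : P1 → P1 → ZMod p)) h
    exact Subtype.ext h2

/-- the operator `T_k - λ_k` -/
def DD (lam : ℕ → ZMod p) (i : {k : ℕ // k.Prime ∧ k ∉ S}) : (P1 → P1 → ZMod p) →+
    (P1 → P1 → ZMod p) :=
  (Tz (ZMod p) i.2.1).toAddMonoidHom -
    { toFun := fun x a b => lam i.1 * x a b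
      map_zero' := by funext a b; exact mul_zero _
      map_add' := fun x y => by funext a b; exact mul_add _ _ _ }

lemma DD_apply (i : {k : ℕ // k.Prime ∧ k ∉ S}) (x : P1 → P1 → ZMod p) :
    DD lam i x = Tz (ZMod p) i.2.1 x - fun a b => lam i.1 * x a b := rfl

lemma Tz_lam {k : ℕ} (hk : k.Prime) (c : ZMod p) (x : P1 → P1 → ZMod p) :
    Tz (ZMod p) hk (fun a b => c * x a b) = fun a b => c * Tz (ZMod p) hk x a b := by
  funext a b
  show Uop ℤ (ZMod p) P1 k hk.ne_zero _ a b + Bop ℤ (ZMod p) P1 k hk.ne_zero _ a b =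
    c * (Uop ℤ (ZMod p) P1 k hk.ne_zero _ a b + Bop ℤ (ZMod p) P1 k hk.ne_zero _ a b)
  rw [Uop_apply, Uop_apply, Bop_apply, Bop_apply, mul_add, Finset.mul_sum]

lemma DD_comm {x : P1 → P1 → ZMod p} (hx : TrInv x) (i j : {k : ℕ // k.Prime ∧ k ∉ S}) :
    DD lam i (DD lam j x) = DD lam j (DD lam i x) := by
  simp only [DD_apply, map_sub, Tz_lam, Tz_comm hx i.2.1 j.2.1]
  funext a b
  simp only [Pi.sub_apply]
  ring

/-- the part after (EX): an eigensymbol of level `q N` from an eigensymbol modulo level `N` -/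
lemma exists_eigen [NeZero N] (hqN : ¬ q ∣ N) (hNS : ∀ r : ℕ, r.Prime → r ∣ q * N → r ∈ S)
    (hv : v ∈ SZ (ZMod p) (q ^ 2 * N)) (hv0 : v ≠ 0)
    (hlam : ∀ (k : ℕ) (hk : k.Prime), k ∉ S → Tz (ZMod p) hk v = fun a b => lam k * v a b)
    (z : Pq q → P1 → P1 → ZMod p) (hz1 : ∀ a x y w, z a x y + z a y w = z a x w)
    (hz2 : ∀ γ ∈ Gamma0 N, ∀ a x y, z (red q γ • a) (io γ • x) (io γ • y) = z a x y)
    (hz3 : ∀ a b x y, z a x y - z b x y = ff N v a b x y) :
    ∃ x ∈ SZ (ZMod p) (q * N), x ≠ 0 ∧ ∀ (k : ℕ) (hk : k.Prime), k ∉ S →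
      Tz (ZMod p) hk x = fun a b => lam k * x a b := by
  classical
  haveI : NeZero (q * N) := ⟨mul_ne_zero (Fact.out : q.Prime).ne_zero (NeZero.ne N)⟩
  -- `z ∞` is a symbol of level `q N`
  have hzmem : z ∞ ∈ SZ (ZMod p) (q * N) := by
    rw [mem_SZ]
    refine ⟨hz1 ∞, fun γ hγ x y => ?_⟩
    rw [mem_Gamma0] at hγ
    push_cast at hγ
    have hγN : γ ∈ Gamma0 N := mem_Gamma0.2 ((dvd_mul_left _ _).trans hγ)
    have hi : red q γ • (∞ : Pq q) = ∞ := by
      rw [smul_infty_eq_self_iff]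
      show ((γ 1 0 : ℤ) : ZMod q) = 0
      rw [ZMod.intCast_zmod_eq_zero_iff_dvd]
      exact (dvd_mul_right _ _).trans hγ
    have h := hz2 γ hγN ∞ x y
    rwa [hi] at h
  have hznot : z ∞ ∉ SZ (ZMod p) N := by
    intro hmem
    apply hv0
    have hconst : ∀ (a : Pq q) (x y : P1), z a x y = z ∞ x y := by
      intro a x y
      obtain ⟨g, hg⟩ := exists_trans a
      obtain ⟨γ, hγ, s, hs, h⟩ := exists_lift' hqN g
      have ha : red q γ • (∞ : Pq q) = a := by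
        rw [← hg, h, mul_smul, Alg.m_infty]
      have h1 := hz2 γ hγ ∞ ((io γ)⁻¹ • x) ((io γ)⁻¹ • y)
      rw [ha, smul_inv_smul, smul_inv_smul] at h1
      have h2 := SZ_inv hmem hγ ((io γ)⁻¹ • x) ((io γ)⁻¹ • y)
      rw [smul_inv_smul, smul_inv_smul] at h2
      rw [h1, h2]
    funext x y
    have h1 := hz3 ((0 : ZMod q) : Pq q) ∞ ((Dq q)⁻¹ • x) ((Dq q)⁻¹ • y)
    rw [hconst, sub_self, ff_eq' hqN hv (one_mem _) (by rw [map_one, one_smul])
      (by rw [map_one, one_smul]), map_one, inv_one, one_smul, one_smul, smul_inv_smul,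
      smul_inv_smul] at h1
    exact h1.symm
  have hkq : ∀ k : ℕ, k.Prime → k ∉ S → (k : ZMod q) ≠ 0 := by
    intro k hk hkS h0
    rw [ZMod.natCast_eq_zero_iff] at h0
    have h5 := (Nat.prime_dvd_prime_iff_eq (Fact.out : q.Prime) hk).1 h0
    exact hkS (hNS k hk (h5 ▸ dvd_mul_right q N))
  have hkN : ∀ k : ℕ, k.Prime → k ∉ S → ¬ k ∣ N := fun k hk hkS h =>
    hkS (hNS k hk (h.trans (dvd_mul_left _ _)))
  -- `(T - λ) z` is of level `N`
  have hDz : ∀ i : {k : ℕ // k.Prime ∧ k ∉ S}, DD lam i (z ∞) ∈ SZ (ZMod p) N := by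
    rintro ⟨k, hk, hkS⟩
    have hq := hkq k hk hkS
    have hz2' : Eqv q N z := hz2
    have hH := hz2'.hq hk (hkN k hk hkS) hq
    have hconst : ∀ (a : Pq q) (x y : P1), Hq k hk.ne_zero hq z a x y - lam k * z a x y =
        Hq k hk.ne_zero hq z ∞ x y - lam k * z ∞ x y := by
      intro a x y
      have h := hq_fp hqN hv hk (hkN k hk hkS) hq (a, ∞) x y
      rw [hlam k hk hkS] at h
      have h2 : fp N (fun a b => lam k * v a b) (a, ∞) x y = lam k * ff N v a ∞ x y :=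
        ff_smul _ _ _ _ _ _
      rw [h2, ← hz3, Hq] at h
      have h3 : ∀ i : Ix k, fp N v (rq q k hq i • (a, (∞ : Pq q))) (rp k hk.ne_zero i • x)
          (rp k hk.ne_zero i • y) =
          z (rq q k hq i • a) (rp k hk.ne_zero i • x) (rp k hk.ne_zero i • y) -
          z (rq q k hq i • (∞ : Pq q)) (rp k hk.ne_zero i • x) (rp k hk.ne_zero i • y) := by
        intro i
        rw [hz3]
        rfl
      rw [Finset.sum_congr rfl fun i _ => h3 i, Finset.sum_sub_distrib] at h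
      rw [Hq, Hq]
      linear_combination h
    rw [DD_apply, mem_SZ]
    refine ⟨fun x y w => ?_, fun γ hγ x y => ?_⟩
    · have h1 := (hkN k hk hkS)
      have hkqN : ¬ k ∣ q * N := fun h => hkS (hNS k hk h)
      have h2 := (mem_SZ.1 (SZ_Tz hk hkqN hzmem)).1 x y w
      simp only [Pi.sub_apply]
      rw [← h2, ← hz1 ∞ x y w]
      ring
    · simp only [Pi.sub_apply]
      rw [← Hq_infty hk hq, ← Hq_infty hk hq]
      have h1 := hconst (red q γ • (∞ : Pq q)) (io γ • x) (io γ • y)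
      rw [hH γ hγ, hz2 γ hγ] at h1
      exact h1.symm
  have hDM₀ : ∀ (i : {k : ℕ // k.Prime ∧ k ∉ S}), ∀ x ∈ SZ (ZMod p) N,
      DD lam i x ∈ SZ (ZMod p) N := by
    rintro ⟨k, hk, hkS⟩ x hx
    rw [DD_apply]
    exact Submodule.sub_mem _ (SZ_Tz hk (hkN k hk hkS) hx) (SZ_smul _ hx)
  -- the joint kernel
  have hMle : (SZ (ZMod p) N).toAddSubgroup ⊔ AddSubgroup.zmultiples (z ∞) ≤
      (SZ (ZMod p) (q * N)).toAddSubgroup := by
    rw [sup_le_iff]
    refine ⟨fun x hx => SZ_mono (dvd_mul_left _ _) hx, ?_⟩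
    rw [AddSubgroup.zmultiples_le]
    exact hzmem
  haveI : Finite (SZ (ZMod p) (q * N)).toAddSubgroup := finite_SZ
  obtain ⟨x, hx, hx0, hxD⟩ := exists_joint_ker (DD (S := S) lam)
    ((SZ (ZMod p) N).toAddSubgroup ⊔ AddSubgroup.zmultiples (z ∞)) (SZ (ZMod p) N).toAddSubgroup
    (Finite.of_injective (AddSubgroup.inclusion hMle) (AddSubgroup.inclusion_injective hMle))
    le_sup_left (fun i j x hx => DD_comm (SZ_trInv (hMle hx)) i j)
    (fun i x hx => by
      obtain ⟨a, ha, b, hb, rfl⟩ := AddSubgroup.mem_sup.1 hx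
      obtain ⟨n, rfl⟩ := AddSubgroup.mem_zmultiples_iff.1 hb
      rw [map_add, map_zsmul]
      exact (SZ (ZMod p) N).toAddSubgroup.add_mem (hDM₀ i a ha)
        ((SZ (ZMod p) N).toAddSubgroup.zsmul_mem (hDz i) n))
    (fun h => hznot (h (AddSubgroup.mem_sup_right (AddSubgroup.mem_zmultiples (z ∞)))))
  refine ⟨x, hMle hx, hx0, fun k hk hkS => ?_⟩
  exact sub_eq_zero.1 (hxD ⟨k, hk, hkS⟩)

end Fermat.Agent.RT6.Asm
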