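import Fermat.Agent.MazurP.Vrep

/-!
# Inertia, products of commuting operators and complex conjugation
-/

set_option autoImplicit false

noncomputable section

namespace Fermat.Agent.RT6.B1

open Fermat.Agent.MazurP Matrix

variable {k : Type*} [Field k] {G : Type*} [Group G] {V : Type*} [AddCommGroup V] [Module k V]
  {M : G →* (V →ₗ[k] V)} {ρ : G →* Matrix (Fin 2) (Fin 2) k}

theorem exists_factor {A B C : Type*} [Ring A] [Ring B] [Ring C] (ψ : A →+* B) (φ : A →+* C)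
    (hψ : Function.Surjective ψ) (h : ∀ x, ψ x = 0 → φ x = 0) :
    ∃ Φ : B →+* C, ∀ x, Φ (ψ x) = φ x := by
  refine ⟨ψ.liftOfRightInverse (Function.surjInv hψ) (Function.rightInverse_surjInv hψ)
    ⟨φ, fun x hx => h x hx⟩, fun x => ?_⟩
  exact ψ.liftOfRightInverse_comp_apply (Function.surjInv hψ)
    (Function.rightInverse_surjInv hψ) ⟨φ, fun x hx => h x hx⟩ x

/-- the action of matrices -/
theorem exists_act (h2 : (2 : k) ≠ 0) (hspan : Submodule.span k (Set.range ρ) = ⊤) (χ : G →* k)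
    (hrel : ∀ g x, M g x + χ g • M g⁻¹ x = (ρ g).trace • x) :
    ∃ Φ : Matrix (Fin 2) (Fin 2) k →+* (V →ₗ[k] V), (∀ g, Φ (ρ g) = M g) ∧
      ∀ (a : k) (v : V), Φ (a • 1) v = a • v := by
  obtain ⟨Φ, hΦ⟩ := exists_factor
    ((MonoidAlgebra.lift k (Matrix (Fin 2) (Fin 2) k) G ρ).toRingHom)
    ((MonoidAlgebra.lift k (V →ₗ[k] V) G M).toRingHom) (lift_surjective ρ hspan)
    (fun x hx => blr_rep (M := M) h2 hspan χ hrel hx)
  refine ⟨Φ, fun g => ?_, fun a v => ?_⟩
  · have h := hΦ (MonoidAlgebra.of k G g)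
    have e1 : (MonoidAlgebra.lift k (Matrix (Fin 2) (Fin 2) k) G ρ).toRingHom
      (MonoidAlgebra.of k G g) = ρ g := MonoidAlgebra.lift_of _ _
    have e2 : (MonoidAlgebra.lift k (V →ₗ[k] V) G M).toRingHom
      (MonoidAlgebra.of k G g) = M g := MonoidAlgebra.lift_of _ _
    rw [e1, e2] at h
    exact h
  · have h := hΦ (algebraMap k _ a)
    have e1 : (MonoidAlgebra.lift k (Matrix (Fin 2) (Fin 2) k) G ρ).toRingHom
      (algebraMap k _ a) = algebraMap k _ a := AlgHom.commutes _ _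
    have e2 : (MonoidAlgebra.lift k (V →ₗ[k] V) G M).toRingHom
      (algebraMap k _ a) = algebraMap k _ a := AlgHom.commutes _ _
    rw [e1, e2] at h
    rw [← Algebra.algebraMap_eq_smul_one, h]
    rfl

/-- the matrix algebra is simple -/
theorem eq_zero_of (Φ : Matrix (Fin 2) (Fin 2) k →+* (V →ₗ[k] V))
    {Z : Matrix (Fin 2) (Fin 2) k} (hZ : Z ≠ 0) {v : V} (h : ∀ b, Φ Z (Φ b v) = 0) : v = 0 := by
  obtain ⟨i, j, hij⟩ : ∃ i j, Z i j ≠ 0 := by
    by_contra hcon
    push Not at hcon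
    exact hZ (Matrix.ext hcon)
  have h1 : ∑ a : Fin 2, Matrix.single a i (Z i j)⁻¹ * Z * Matrix.single j a (1 : k) = 1 := by
    have h2 : ∀ a : Fin 2, Matrix.single a i (Z i j)⁻¹ * Z * Matrix.single j a (1 : k) =
        Matrix.single a a 1 := by
      intro a
      rw [Matrix.single_mul_mul_single, inv_mul_cancel₀ hij, mul_one]
    rw [Finset.sum_congr rfl fun a _ => h2 a]
    ext a b
    fin_cases a <;> fin_cases b <;> simp [Matrix.single, Fin.sum_univ_two]
  calc v = Φ 1 v := by rw [map_one]; rfl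
    _ = 0 := by
      rw [← h1, map_sum, LinearMap.sum_apply]
      refine Finset.sum_eq_zero fun a _ => ?_
      rw [map_mul, map_mul]
      change Φ (Matrix.single a i (Z i j)⁻¹) (Φ Z (Φ (Matrix.single j a 1) v)) = 0
      rw [h, map_zero]

/-- a common fixed matrix -/
theorem exists_fixed (H : Subgroup G) (hH : ∀ σ ∈ H, (ρ σ - 1) * (ρ σ - 1) = 0) :
    ∃ Z : Matrix (Fin 2) (Fin 2) k, Z ≠ 0 ∧ ∀ σ ∈ H, ρ σ * Z = Z := by
  by_cases hall : ∀ σ ∈ H, ρ σ = 1
  · exact ⟨1, one_ne_zero, fun σ hσ => by rw [hall σ hσ, one_mul]⟩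
  push Not at hall
  obtain ⟨σ₀, hσ₀, hne⟩ := hall
  refine ⟨ρ σ₀ - 1, sub_ne_zero.2 hne, fun τ hτ => ?_⟩
  have tr0 : ∀ Y : Matrix (Fin 2) (Fin 2) k, Y * Y = 0 → Y.trace = 0 := by
    intro Y hY
    have := Matrix.isNilpotent_trace_of_isNilpotent (M := Y) ⟨2, by rw [pow_two, hY]⟩
    exact this.eq_zero
  have hU := hH σ₀ hσ₀
  have hT := hH τ hτ
  have hP := hH (τ * σ₀) (H.mul_mem hτ hσ₀)
  have e : ρ (τ * σ₀) - 1 = (ρ τ - 1) + (ρ σ₀ - 1) + (ρ τ - 1) * (ρ σ₀ - 1) := by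
    rw [map_mul]
    noncomm_ring
  have t3 := tr0 _ hP
  rw [e, Matrix.trace_add, Matrix.trace_add, tr0 _ hU, tr0 _ hT, zero_add, zero_add] at t3
  have tU := tr0 _ hU
  have tT := tr0 _ hT
  have key : (ρ τ - 1) * (ρ σ₀ - 1) = 0 := by
    generalize ρ τ - 1 = T at *
    generalize ρ σ₀ - 1 = U at *
    rw [Matrix.trace_fin_two] at tU tT t3
    have hU0 := congrFun (congrFun hU 0) 0
    have hT0 := congrFun (congrFun hT 0) 0
    simp only [Matrix.mul_apply, Fin.sum_univ_two, Matrix.zero_apply] at hU0 hT0 t3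
    have u11 : U 1 1 = -U 0 0 := by linear_combination tU
    have t11 : T 1 1 = -T 0 0 := by linear_combination tT
    rw [u11, t11] at t3
    ext i j
    rw [Matrix.mul_apply, Fin.sum_univ_two, Matrix.zero_apply]
    fin_cases i <;> fin_cases j
    · show T 0 0 * U 0 0 + T 0 1 * U 1 0 = 0
      apply pow_eq_zero_iff (two_ne_zero) |>.1
      linear_combination (U 0 0 ^ 2) * hT0 - T 0 1 * T 1 0 * hU0 + T 0 1 * U 1 0 * t3
    · show T 0 0 * U 0 1 + T 0 1 * U 1 1 = 0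
      rw [u11]
      apply pow_eq_zero_iff (two_ne_zero) |>.1
      linear_combination (U 0 1 ^ 2) * hT0 + T 0 1 ^ 2 * hU0 - T 0 1 * U 0 1 * t3
    · show T 1 0 * U 0 0 + T 1 1 * U 1 0 = 0
      rw [t11]
      apply pow_eq_zero_iff (two_ne_zero) |>.1
      linear_combination (T 1 0 ^ 2) * hU0 + U 1 0 ^ 2 * hT0 - T 1 0 * U 1 0 * t3
    · show T 1 0 * U 0 1 + T 1 1 * U 1 1 = 0
      rw [t11, u11]
      apply pow_eq_zero_iff (two_ne_zero) |>.1
      linear_combination (U 0 0 ^ 2) * hT0 - T 0 1 * T 1 0 * hU0 + T 1 0 * U 0 1 * t3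
  calc ρ τ * (ρ σ₀ - 1) = (ρ τ - 1) * (ρ σ₀ - 1) + (ρ σ₀ - 1) := by noncomm_ring
    _ = ρ σ₀ - 1 := by rw [key, zero_add]

/-- **a vector fixed by `H`** -/
theorem exists_fixed_vec [Nontrivial V] (h2 : (2 : k) ≠ 0)
    (hspan : Submodule.span k (Set.range ρ) = ⊤) (χ : G →* k)
    (hrel : ∀ g x, M g x + χ g • M g⁻¹ x = (ρ g).trace • x)
    (H : Subgroup G) (hH : ∀ σ ∈ H, (ρ σ - 1) * (ρ σ - 1) = 0) :
    ∃ x : V, x ≠ 0 ∧ ∀ σ ∈ H, M σ x = x := by
  obtain ⟨Φ, hΦ, hs⟩ := exists_act (M := M) h2 hspan χ hrel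
  obtain ⟨Z, hZ, hZH⟩ := exists_fixed H hH
  obtain ⟨v, hv⟩ := exists_ne (0 : V)
  by_contra hcon
  push Not at hcon
  refine hv (eq_zero_of Φ hZ fun b => ?_)
  by_contra hne
  obtain ⟨σ, hσ, h⟩ := hcon _ hne
  apply h
  rw [← hΦ]
  change (Φ (ρ σ) * Φ Z) (Φ b v) = _
  rw [← map_mul, hZH σ hσ]

/-- **the main lemma**: commuting operators whose products of two kill the vectors fixed by
inertia have a common kernel on which complex conjugation has both eigenvalues -/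
theorem exists_ker [Nontrivial V] (h2 : (2 : k) ≠ 0)
    (hspan : Submodule.span k (Set.range ρ) = ⊤) (χ : G →* k)
    (hrel : ∀ g x, M g x + χ g • M g⁻¹ x = (ρ g).trace • x)
    (H : Subgroup G) (hH : ∀ σ ∈ H, (ρ σ - 1) * (ρ σ - 1) = 0)
    {I : Type*} (D : I → V →ₗ[k] V) (hD : ∀ i g x, D i (M g x) = M g (D i x))
    (hDD : ∀ i j x, (∀ σ ∈ H, M σ x = x) → D i (D j x) = 0)
    (c : G) (hc : c * c = 1) (hdet : (ρ c).det = -1) (ε : k) (hε : ε * ε = 1) :
    ∃ x : V, x ≠ 0 ∧ (∀ i, D i x = 0) ∧ M c x = ε • x := by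
  obtain ⟨Φ, hΦ, hs⟩ := exists_act (M := M) h2 hspan χ hrel
  obtain ⟨Z, hZ, hZH⟩ := exists_fixed H hH
  -- the operators commute with all matrices
  have hcomm : ∀ (i : I) (b : Matrix (Fin 2) (Fin 2) k) (x : V), D i (Φ b x) = Φ b (D i x) := by
    intro i b x
    have hb : b ∈ Submodule.span k (Set.range ρ) := by rw [hspan]; trivial
    induction hb using Submodule.span_induction with
    | mem b hb =>
      obtain ⟨g, rfl⟩ := hb
      rw [hΦ, hD]
    | zero => rw [map_zero]; simp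
    | add b b' _ _ hb hb' =>
      rw [map_add, LinearMap.add_apply, LinearMap.add_apply, map_add, hb, hb']
    | smul a b _ hb =>
      have e : a • b = (a • (1 : Matrix (Fin 2) (Fin 2) k)) * b := by
        rw [smul_mul_assoc, one_mul]
      rw [e, map_mul]
      change D i (Φ (a • 1) (Φ b x)) = Φ (a • 1) (Φ b (D i x))
      rw [hs, hs, map_smul, hb]
  -- products vanish
  have hprod : ∀ i j x, D i (D j x) = 0 := by
    intro i j x
    refine eq_zero_of Φ hZ fun b => ?_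
    rw [← hcomm, ← hcomm, ← hcomm, ← hcomm]
    apply hDD
    intro σ hσ
    rw [← hΦ]
    change (Φ (ρ σ) * Φ Z) (Φ b x) = _
    rw [← map_mul, hZH σ hσ]
  -- a vector in the common kernel
  obtain ⟨v, hv, hvD⟩ : ∃ v : V, v ≠ 0 ∧ ∀ i, D i v = 0 := by
    by_cases hall : ∀ i x, D i x = 0
    · obtain ⟨v, hv⟩ := exists_ne (0 : V)
      exact ⟨v, hv, fun i => hall i v⟩
    · push Not at hall
      obtain ⟨j, x, hx⟩ := hall
      exact ⟨D j x, hx, fun i => hprod i j x⟩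
  -- complex conjugation
  have hcc : ∀ x, M c (M c x) = x := by
    intro x
    change (M c * M c) x = x
    rw [← map_mul, hc, map_one]; rfl
  by_contra hcon
  push Not at hcon
  have hK : ∀ b, M c (Φ b v) = -ε • Φ b v := by
    intro b
    have h1 : ∀ i, D i (Φ b v) = 0 := fun i => by rw [hcomm, hvD, map_zero]
    have h3 : M c (M c (Φ b v) + ε • Φ b v) = ε • (M c (Φ b v) + ε • Φ b v) := by
      rw [map_add, hcc, map_smul, smul_add, smul_smul, hε, one_smul, add_comm]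
    by_contra hne
    refine hcon (M c (Φ b v) + ε • Φ b v) ?_ (fun i => ?_) h3
    · intro h
      apply hne
      rw [neg_smul]
      exact eq_neg_of_add_eq_zero_left h
    · rw [map_add, hD, h1, map_zero, map_smul, h1, smul_zero, add_zero]
  have hZ' : ρ c + ε • 1 ≠ 0 := by
    intro h
    have h1 : ρ c = (-ε) • 1 := by
      rw [neg_smul]
      exact eq_neg_of_add_eq_zero_left h
    rw [h1, Matrix.det_smul, Matrix.det_one, Fintype.card_fin, mul_one] at hdet
    apply h2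
    linear_combination hdet - hε
  refine hv (eq_zero_of Φ hZ' fun b => ?_)
  rw [map_add, LinearMap.add_apply, hs, hΦ, hK, neg_smul, neg_add_cancel]

end Fermat.Agent.RT6.B1
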