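import Fermat.Agent.RT6.HFs
import Fermat.Agent.Carayol.Interface
import Fermat.Agent.CarayolX.Flat
import Fermat.Agent.Carayol.K0Thm

/-!
# (A3), (G): statements of the geometric pieces
-/

set_option autoImplicit false
set_option linter.style.haveILetI false

noncomputable section

namespace Fermat.Agent.RT6

open ModularCurve Fermat.Agent.ModFun Fermat.Agent.AnJac AlgebraicCurve
open Fermat.Agent.HeckeQ Matrix Fermat.Agent.Curves Module Fermat.Agent.Carayol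
open Fermat.Agent.CarayolX CongruenceSubgroup

local notation "Qb" => AlgebraicClosure ℚ
local notation "GQ" => Qb ≃ₐ[ℚ] Qb

section

variable (q N : ℕ) [hq : Fact q.Prime] [NeZero q] [NeZero (q ^ 2 * N)] (hN : ¬ q ∣ N)

/-- the operator `R_s` on the lattice -/
def LS (s : ZMod q) (hs : s ≠ 1) : Lat (q ^ 2 * N) →+ Lat (q ^ 2 * N) :=
  ((hfS q N hN s hs).T.comp (Lat (q ^ 2 * N)).subtype).codRestrict _
    fun φ => (hfS q N hN s hs).T_mem φ.2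

/-- the matrix of `R_s - R_t` -/
def DS (s t : ZMod q) (hs : s ≠ 1) (ht : t ≠ 1) :
    Matrix (Fin (finrank ℤ (Lat (q ^ 2 * N)))) (Fin (finrank ℤ (Lat (q ^ 2 * N)))) ℤ :=
  KSys.tm (bL (q ^ 2 * N)) (LS q N hN s hs) - KSys.tm (bL (q ^ 2 * N)) (LS q N hN t ht)

end

/-- **(G)** products of two differences `R_s - R_t` kill the inertia invariant classes -/
def GeoSt : Prop :=
  ∀ (q N p : ℕ) [hq : Fact q.Prime] [NeZero q] [NeZero (q ^ 2 * N)] [hp : Fact p.Prime]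
    (hN : ¬ q ∣ N), q ≠ p → q ≠ 2 → ∀ A : ValuationSubring Qb, A.LiesOverPrime q →
    ∀ (s t s' t' : ZMod q) (hs : s ≠ 1) (ht : t ≠ 1) (hs' : s' ≠ 1) (ht' : t' ≠ 1),
      s ≠ 0 → t ≠ 0 → s' ≠ 0 → t' ≠ 0 →
    ∀ x : Fin (finrank ℤ (Lat (q ^ 2 * N))) → ZMod (p ^ 1),
      (∀ σ ∈ A.inertiaSubgroupIn ℚ,
        (KQ (q ^ 2 * N)).M (bL (q ^ 2 * N)) (KSys.pn0 p 1) σ *ᵥ x = x) →
      rmod (p ^ 1) (DS q N hN s t hs ht) *ᵥ (rmod (p ^ 1) (DS q N hN s' t' hs' ht') *ᵥ x) = 0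

/-- **(G), commutation with Galois** -/
def GeoGal : Prop :=
  ∀ (q N p : ℕ) [hq : Fact q.Prime] [NeZero q] [NeZero (q ^ 2 * N)] [hp : Fact p.Prime]
    (hN : ¬ q ∣ N) (s : ZMod q) (hs : s ≠ 1), s ≠ 0 → ∀ (n : ℕ) (σ : GQ),
    (KQ (q ^ 2 * N)).M (bL (q ^ 2 * N)) (KSys.pn0 p n) σ *
        rmod (p ^ n) (KSys.tm (bL (q ^ 2 * N)) (LS q N hN s hs)) =
      rmod (p ^ n) (KSys.tm (bL (q ^ 2 * N)) (LS q N hN s hs)) *
        (KQ (q ^ 2 * N)).M (bL (q ^ 2 * N)) (KSys.pn0 p n) σ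

/-- the operator `R_s` on functions, through its expansions at the three components -/
structure IsRS {k₀ K κ : Type} [Field k₀] [Field K] [Field κ] [Algebra k₀ K] {q M' : ℕ}
    [NeZero q] [NeZero M'] (S : Sit k₀ K κ q M') (R : S.F →* S.F) : Prop where
  ne : ∀ u, u ≠ 0 → R u ≠ 0
  f0 : ∃ e : (ZMod q)ˣ → ℕ, ∀ u, S.φ 0 (R u) =
    ∏ c : (ZMod q)ˣ, twist (S.ζ ^ e c) (S.sg (c : ZMod q).val (S.bK u))
  f2 : ∃ e : (ZMod q)ˣ → ℕ, ∀ u, S.φ 2 (R u) =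
    ∏ c : (ZMod q)ˣ, twist (S.ζ ^ e c) (S.sg (c : ZMod q).val (S.bK u))
  f1 : ∃ (e : (ZMod q)ˣ → ℕ) (h : (ZMod q)ˣ → (ZMod q)ˣ) (a b : ℕ) (c₁ c₂ : (ZMod q)ˣ),
    c₁ ≠ c₂ ∧ ∀ u, S.φ 1 (R u) =
      twist (S.ζ ^ a) (S.φ 0 u) * twist (S.ζ ^ b) (S.φ 2 u) *
      ∏ c ∈ (Finset.univ.erase c₁).erase c₂,
        twist (S.ζ ^ e c) (S.sg (h c : ZMod q).val (S.bK u))

/-- **(G4)**, first part: `R u / R' u` has finite nonzero residues on the three components -/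
def StarA : Prop :=
  ∀ {k₀ K κ : Type} [Field k₀] [Field K] [Field κ] [Algebra k₀ K] {q M' : ℕ}
    [NeZero q] [NeZero M'] (S : Sit k₀ K κ q M'), S.HasGal → S.HasParam →
    ∀ R R' : S.F →* S.F, IsRS S R → IsRS S R' → ∀ u : S.F, u ≠ 0 →
      ∀ i, (S.C i).r (R u * (R' u)⁻¹) ≠ 0

/-- **(G4)**, second part: for a unit `v` along the components, `R v (R' v)^(m-1)` is an `m`-th
power times a constant -/
def StarB : Prop :=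
  ∀ {k₀ K κ : Type} [Field k₀] [Field K] [Field κ] [Algebra k₀ K] {q M' : ℕ}
    [NeZero q] [NeZero M'] (S : Sit k₀ K κ q M'), S.HasGal → S.HasParam →
    ∀ R R' : S.F →* S.F, IsRS S R → IsRS S R' → ∀ m : ℕ, 0 < m → Nat.Coprime q m →
    ∀ v : S.F, (∀ i, (S.C i).r v ≠ 0) →
    (∀ V : ValuationSubring S.F, (∀ c : k₀, algebraMap k₀ S.F c ∈ V) → V ≠ ⊤ →
      ∃ y : S.F, y ≠ 0 ∧ v * y ^ m ∈ V ∧ (v * y ^ m)⁻¹ ∈ V) →
    (∀ V : ValuationSubring S.F, (∀ c : k₀, algebraMap k₀ S.F c ∈ V) → V ≠ ⊤ →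
      ∃ y : S.F, y ≠ 0 ∧ (R v * R' v ^ (m - 1)) * y ^ m ∈ V ∧
        ((R v * R' v ^ (m - 1)) * y ^ m)⁻¹ ∈ V) →
    ∃ c : k₀, c ≠ 0 ∧ ∃ x : S.F, x ≠ 0 ∧
      R v * R' v ^ (m - 1) = algebraMap k₀ S.F c * x ^ m

/-- **(G23)** the operators `R_s` over `Qb` at all levels `q²N`, and over the inertia field -/
def RSSt : Prop :=
  ∀ (q : ℕ) [hq : Fact q.Prime] [NeZero q] (s : ZMod q) (hs : s ≠ 1), s ≠ 0 →
  ∃ RQ : ∀ (N : ℕ) [NeZero N] [NeZero (q ^ 2 * N)], ¬ q ∣ N →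
      (FF Qb (q ^ 2 * N) →* FF Qb (q ^ 2 * N)),
    (∀ (N : ℕ) [NeZero N] [NeZero (q ^ 2 * N)] (hN : ¬ q ∣ N),
      Op (q ^ 2 * N) (q ^ 2 * N) (RQ N hN)) ∧
    (∀ (N : ℕ) [NeZero N] [NeZero (q ^ 2 * N)] (hN : ¬ q ∣ N) (n : ℕ), n ≠ 0 →
      (KQ (q ^ 2 * N)).Compat n (LS q N hN s hs) (RQ N hN)) ∧
    (∀ (N M : ℕ) [NeZero N] [NeZero M] [NeZero (q ^ 2 * N)] [NeZero (q ^ 2 * M)] (hN : ¬ q ∣ N)
      (hM : ¬ q ∣ M) (h : q ^ 2 * N ∣ q ^ 2 * M) (u : FF Qb (q ^ 2 * N)),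
      RQ M hM (inc Qb h u) = inc Qb h (RQ N hN u)) ∧
    (∀ (M' : ℕ) [NeZero M'] [NeZero (q ^ 2 * M')] (hM' : ¬ q ∣ M') (A : ValuationSubring Qb)
      (hA : A.LiesOverPrime q) (hM : Nat.Coprime q M') (h4 : q ≠ 2 → 4 ∣ M')
      (h9 : q = 2 → 9 ∣ M'),
      ∃ R : (mkSit hq.out hA hM h4 h9).F →* (mkSit hq.out hA hM h4 h9).F,
        IsRS (mkSit hq.out hA hM h4 h9) R ∧
        ∀ u, bc (algebraMap (K0 A) Qb) (q ^ 2 * M') (R u) =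
          RQ M' hM' (bc (algebraMap (K0 A) Qb) (q ^ 2 * M') u))

/-- **(G5)** -/
def G5St : Prop := StarA → StarB → RSSt → GeoSt ∧ GeoGal

end Fermat.Agent.RT6
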