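import Fermat.Agent.RT6.B1
import Fermat.Agent.RT6.GeoSt

/-!
# (L1), class level
-/

set_option autoImplicit false
set_option linter.unusedVariables false
set_option linter.style.haveILetI false
set_option synthInstance.maxHeartbeats 400000

noncomputable section

namespace Fermat.Agent.RT6.B2

open ModularCurve Fermat.Agent.ModFun Fermat.Agent.AnJac AlgebraicCurve
open Fermat.Agent.HeckeQ Matrix Fermat.Agent.Curves Module Fermat.Agent.Carayol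
open Fermat.Agent.CarayolX CongruenceSubgroup Fermat.Agent.MazurP Fermat.Agent.S43Glue CuspForm

local notation "Qb" => AlgebraicClosure ℚ
local notation "GQ" => Qb ≃ₐ[ℚ] Qb

/-- reduction modulo `p` -/
abbrev rp (p : ℕ) {r : ℕ} : Matrix (Fin r) (Fin r) ℤ →+* Matrix (Fin r) (Fin r) (ZMod p) :=
  (Int.castRingHom (ZMod p)).mapMatrix

section

variable (q N p : ℕ) [hq : Fact q.Prime] [NeZero q] [NeZero (q ^ 2 * N)] [hp : Fact p.Prime]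
    (hN : ¬ q ∣ N)

/-- commutation with Galois, modulo `p` -/
theorem gal_comm (HG : GeoGal) (s : ZMod q) (hs : s ≠ 1) (hs0 : s ≠ 0) (σ : GQ) :
    (KQ (q ^ 2 * N)).M (bL (q ^ 2 * N)) (pne p) σ * rp p (KSys.tm (bL (q ^ 2 * N)) (LS q N hN s hs)) =
      rp p (KSys.tm (bL (q ^ 2 * N)) (LS q N hN s hs)) *
        (KQ (q ^ 2 * N)).M (bL (q ^ 2 * N)) (pne p) σ := by
  have key : ∀ (n : ℕ) (hn : n ≠ 0), n = p ^ 1 →
      (KQ (q ^ 2 * N)).M (bL (q ^ 2 * N)) hn σ * rp n (KSys.tm (bL (q ^ 2 * N)) (LS q N hN s hs)) =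
      rp n (KSys.tm (bL (q ^ 2 * N)) (LS q N hN s hs)) *
        (KQ (q ^ 2 * N)).M (bL (q ^ 2 * N)) hn σ := by
    rintro n hn rfl
    exact HG q N p hN s hs hs0 1 σ
  exact key p (pne p) (pow_one p).symm

theorem geo_zero (HS : GeoSt) (hqp : q ≠ p) (hq2 : q ≠ 2) (A : ValuationSubring Qb)
    (hA : A.LiesOverPrime q)
    (s t s' t' : ZMod q) (hs : s ≠ 1) (ht : t ≠ 1) (hs' : s' ≠ 1) (ht' : t' ≠ 1)
    (hs0 : s ≠ 0) (ht0 : t ≠ 0) (hs0' : s' ≠ 0) (ht0' : t' ≠ 0)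
    (x : Fin (rk (q ^ 2 * N)) → ZMod p)
    (hx : ∀ σ ∈ A.inertiaSubgroupIn ℚ,
        (KQ (q ^ 2 * N)).M (bL (q ^ 2 * N)) (pne p) σ *ᵥ x = x) :
    rp p (DS q N hN s t hs ht) *ᵥ (rp p (DS q N hN s' t' hs' ht') *ᵥ x) = 0 := by
  have key : ∀ (n : ℕ) (hn : n ≠ 0), n = p ^ 1 → ∀ x : Fin (rk (q ^ 2 * N)) → ZMod n,
      (∀ σ ∈ A.inertiaSubgroupIn ℚ, (KQ (q ^ 2 * N)).M (bL (q ^ 2 * N)) hn σ *ᵥ x = x) →
      rp n (DS q N hN s t hs ht) *ᵥ (rp n (DS q N hN s' t' hs' ht') *ᵥ x) = 0 := by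
    rintro n hn rfl x hx
    exact HS q N p hN hqp hq2 A hA s t s' t' hs ht hs' ht' hs0 ht0 hs0' ht0' x hx
  exact key p (pne p) (pow_one p).symm x hx

variable {q N p} {S : Set ℕ}

theorem mat_comm {r : ℕ} {H R M₁ M₂ : Matrix (Fin r) (Fin r) (ZMod p)} {l : ZMod p}
    (h : H = M₁ + l • M₂) (h1 : M₁ * R = R * M₁) (h2 : M₂ * R = R * M₂) : H * R = R * H := by
  rw [h, add_mul, mul_add, smul_mul_assoc, mul_smul_comm, h1, h2]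

theorem mat_sub {r : ℕ} {H R R' : Matrix (Fin r) (Fin r) (ZMod p)}
    (h1 : H * R = R * H) (h2 : H * R' = R' * H) : H * (R - R') = (R - R') * H := by
  rw [mul_sub, sub_mul, h1, h2]

theorem vec_comm {r : ℕ} {H R : Matrix (Fin r) (Fin r) (ZMod p)} {x : Fin r → ZMod p}
    {c : ZMod p} (h1 : H * R = R * H) (h2 : H *ᵥ x = c • x) : H *ᵥ (R *ᵥ x) = c • (R *ᵥ x) := by
  rw [Matrix.mulVec_mulVec, h1, ← Matrix.mulVec_mulVec, h2, Matrix.mulVec_smul]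

/-- `R_s` commutes with the Hecke operators modulo `p` -/
theorem HV_comm (HG : GeoGal) (s : ZMod q) (hs : s ≠ 1) (hs0 : s ≠ 0) (hpS : p ∈ S)
    (hSN : ∀ i : JS S, ¬ i.1 ∣ q ^ 2 * N) (i : JS S) :
    HV (N := q ^ 2 * N) p (FreeAlgebra.ι ℤ i) * rp p (KSys.tm (bL (q ^ 2 * N)) (LS q N hN s hs)) =
      rp p (KSys.tm (bL (q ^ 2 * N)) (LS q N hN s hs)) *
        HV (N := q ^ 2 * N) p (FreeAlgebra.ι ℤ i) := by
  obtain ⟨A, hA⟩ := Frob.exists_liesOverPrime Qb i.2.1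
  obtain ⟨τ, hτ⟩ := Frob.exists_isFrobeniusAt A i.2.1 hA
  have hlNp : ¬ i.1 ∣ (q ^ 2 * N) * p := by
    intro h
    rcases i.2.1.dvd_mul.mp h with h | h
    · exact hSN i h
    · exact i.2.2 (by rw [(Nat.prime_dvd_prime_iff_eq i.2.1 hp.out).mp h]; exact hpS)
  exact mat_comm (HV_frob i.2.1 i.2.2 hlNp hA hτ) (gal_comm q N p hN HG s hs hs0 τ)
    (gal_comm q N p hN HG s hs hs0 τ⁻¹)

theorem rp_DS (s t : ZMod q) (hs : s ≠ 1) (ht : t ≠ 1) :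
    rp p (DS q N hN s t hs ht) = rp p (KSys.tm (bL (q ^ 2 * N)) (LS q N hN s hs)) -
      rp p (KSys.tm (bL (q ^ 2 * N)) (LS q N hN t ht)) := map_sub (rp p) _ _

theorem DS_comm (HG : GeoGal) (hpS : p ∈ S) (hSN : ∀ i : JS S, ¬ i.1 ∣ q ^ 2 * N)
    (s t : ZMod q) (hs : s ≠ 1) (ht : t ≠ 1)
    (hs0 : s ≠ 0) (ht0 : t ≠ 0) (i : JS S) :
    HV (N := q ^ 2 * N) p (FreeAlgebra.ι ℤ i) * rp p (DS q N hN s t hs ht) =
        rp p (DS q N hN s t hs ht) * HV (N := q ^ 2 * N) p (FreeAlgebra.ι ℤ i) := by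
  rw [rp_DS]
  exact mat_sub (HV_comm hN HG s hs hs0 hpS hSN i) (HV_comm hN HG t ht ht0 hpS hSN i)

theorem DS_gal (HG : GeoGal)
    (s t : ZMod q) (hs : s ≠ 1) (ht : t ≠ 1)
    (hs0 : s ≠ 0) (ht0 : t ≠ 0) (g : GQ) :
    (KQ (q ^ 2 * N)).M (bL (q ^ 2 * N)) (pne p) g * rp p (DS q N hN s t hs ht) =
        rp p (DS q N hN s t hs ht) * (KQ (q ^ 2 * N)).M (bL (q ^ 2 * N)) (pne p) g := by
  rw [rp_DS]
  exact mat_sub (gal_comm q N p hN HG _ _ hs0 g) (gal_comm q N p hN HG _ _ ht0 g)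

theorem DS_stable (HG : GeoGal) (hpS : p ∈ S) {hSN : ∀ i : JS S, ¬ i.1 ∣ q ^ 2 * N}
    {θ : heckeAlgebra (q ^ 2 * N) 2 S →+* ZMod p} (s t : ZMod q) (hs : s ≠ 1) (ht : t ≠ 1)
    (hs0 : s ≠ 0) (ht0 : t ≠ 0) {x : Fin (rk (q ^ 2 * N)) → ZMod p} (hx : x ∈ WW hSN θ) :
    rp p (DS q N hN s t hs ht) *ᵥ x ∈ WW hSN θ := fun i =>
  vec_comm (DS_comm hN HG hpS hSN s t hs ht hs0 ht0 i) (hx i)

/-- the operators `R_s - R_t` on the Hecke eigenspace -/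
def DW (HG : GeoGal) (hpS : p ∈ S) (hSN : ∀ i : JS S, ¬ i.1 ∣ q ^ 2 * N)
    (θ : heckeAlgebra (q ^ 2 * N) 2 S →+* ZMod p) (s t : ZMod q) (hs : s ≠ 1) (ht : t ≠ 1)
    (hs0 : s ≠ 0) (ht0 : t ≠ 0) : WW hSN θ →ₗ[ZMod p] WW hSN θ where
  toFun x := ⟨rp p (DS q N hN s t hs ht) *ᵥ x.1, DS_stable hN HG hpS s t hs ht hs0 ht0 x.2⟩
  map_add' x y := by
    apply Subtype.ext
    exact Matrix.mulVec_add _ x.1 y.1
  map_smul' c x := by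
    apply Subtype.ext
    exact Matrix.mulVec_smul _ c x.1

theorem coe_DW (HG : GeoGal) (hpS : p ∈ S) (hSN : ∀ i : JS S, ¬ i.1 ∣ q ^ 2 * N)
    (θ : heckeAlgebra (q ^ 2 * N) 2 S →+* ZMod p) (s t : ZMod q) (hs : s ≠ 1) (ht : t ≠ 1)
    (hs0 : s ≠ 0) (ht0 : t ≠ 0) (x : WW hSN θ) :
    (DW hN HG hpS hSN θ s t hs ht hs0 ht0 x : Fin (rk (q ^ 2 * N)) → ZMod p) =
      rp p (DS q N hN s t hs ht) *ᵥ (x : Fin (rk (q ^ 2 * N)) → ZMod p) := rfl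

theorem zmod2 (z : ZMod 2) (h : z ≠ 1) : z = 0 := by
  revert z; decide

/-- **(L1), class level** -/
theorem exists_class (HS : GeoSt) (HG : GeoGal) (hp2 : p ≠ 2) (hqp : q ≠ p) (hS : S.Finite)
    (hpS : p ∈ S) (hNS : ∀ r : ℕ, r.Prime → r ∣ q ^ 2 * N → r ∈ S)
    {ρ : GQ →* Matrix (Fin 2) (Fin 2) (ZMod p)} (hfin : FinLevel ρ)
    (hdet : ∀ g, (ρ g).det = chiK p (ZMod p) g)
    (hspan : Submodule.span (ZMod p) (Set.range ρ) = ⊤)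
    (hunip : ∀ A : ValuationSubring Qb, A.LiesOverPrime q → ∀ σ ∈ A.inertiaSubgroupIn ℚ,
      (ρ σ - 1) * (ρ σ - 1) = 0)
    (hmod : HMod ρ (q ^ 2 * N) S) (c : GQ) (hc : c * c = 1) (hcd : (ρ c).det = -1)
    (ε : ZMod p) (hε : ε * ε = 1) :
    ∃ (hSN : ∀ i : JS S, ¬ i.1 ∣ q ^ 2 * N) (θ : heckeAlgebra (q ^ 2 * N) 2 S →+* ZMod p)
      (x : Fin (rk (q ^ 2 * N)) → ZMod p),
      (∀ (ℓ : ℕ) (hℓ : ℓ.Prime) (hℓM : ¬ ℓ ∣ q ^ 2 * N) (hℓS : ℓ ∉ S),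
        ∀ A : ValuationSubring Qb, A.LiesOverPrime ℓ → ∀ τ : GQ, A.IsFrobeniusAt τ ℓ →
        (ρ τ).trace = θ (heckeAlgebra.T hℓ hℓM hℓS)) ∧ x ≠ 0 ∧
      (∀ i : JS S, HV p (FreeAlgebra.ι ℤ i) *ᵥ x =
        θ (hkA (q ^ 2 * N) hSN (FreeAlgebra.ι ℤ i)) • x) ∧
      (∀ (s t : ZMod q) (hs : s ≠ 1) (ht : t ≠ 1), s ≠ 0 → t ≠ 0 →
        rp p (DS q N hN s t hs ht) *ᵥ x = 0) ∧
      (KQ (q ^ 2 * N)).M (bL (q ^ 2 * N)) (pne p) c *ᵥ x = ε • x := by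
  have h2 : (2 : ZMod p) ≠ 0 := by
    intro h
    have h1 : ((2 : ℕ) : ZMod p) = 0 := by exact_mod_cast h
    rw [ZMod.natCast_eq_zero_iff] at h1
    exact hp2 ((Nat.prime_dvd_prime_iff_eq hp.out Nat.prime_two).mp h1)
  have hSN : ∀ i : JS S, ¬ i.1 ∣ q ^ 2 * N := fun i h => i.2.2 (hNS _ i.2.1 h)
  obtain ⟨θ, hθ⟩ := hmod
  haveI : Nontrivial (WW hSN θ) := WW_ne_bot hNS
  obtain ⟨A, hA⟩ := Frob.exists_liesOverPrime Qb hq.out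
  let I := {a : ZMod q × ZMod q // (a.1 ≠ 1 ∧ a.1 ≠ 0) ∧ (a.2 ≠ 1 ∧ a.2 ≠ 0)}
  obtain ⟨x, hx0, hxD, hxc⟩ := B1.exists_ker (V := WW hSN θ) (M := TW hSN θ) (ρ := ρ) h2 hspan
    (chiK p (ZMod p)) (TW_rel hfin hdet hS hpS hθ) (A.inertiaSubgroupIn ℚ) (hunip A hA)
    (I := I) (fun a => DW hN HG hpS hSN θ a.1.1 a.1.2 a.2.1.1 a.2.2.1 a.2.1.2 a.2.2.2)
    (fun a g x => by
      apply Subtype.ext
      rw [coe_DW, coe_TW, coe_TW, coe_DW, Matrix.mulVec_mulVec, Matrix.mulVec_mulVec]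
      rw [DS_gal hN HG _ _ _ _ a.2.1.2 a.2.2.2])
    (fun a b x hx => by
      apply Subtype.ext
      rw [coe_DW, coe_DW]
      refine geo_zero q N p hN HS hqp ?_ A hA _ _ _ _ _ _ _ _ a.2.1.2 a.2.2.2 b.2.1.2 b.2.2.2 _
        fun σ hσ => ?_
      · intro h
        obtain ⟨⟨s, t⟩, ⟨h1, h3⟩, -⟩ := a
        subst h
        exact h3 (zmod2 s h1)
      · have := congrArg Subtype.val (hx σ hσ)
        rwa [coe_TW] at this)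
    c hc hcd ε hε
  refine ⟨hSN, θ, x, hθ, fun h => hx0 (Subtype.ext h), x.2, fun s t hs ht hs0 ht0 => ?_, ?_⟩
  · have := congrArg Subtype.val (hxD ⟨(s, t), ⟨hs, hs0⟩, ⟨ht, ht0⟩⟩)
    rwa [coe_DW] at this
  · have := congrArg Subtype.val hxc
    rwa [coe_TW] at this

end

end Fermat.Agent.RT6.B2
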