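import Fermat.Agent.AnJac.Lat

/-!
# Complex conjugation on characters
-/

set_option autoImplicit false
set_option linter.unusedSectionVars false

noncomputable section

namespace Fermat.Agent.RT6

open UpperHalfPlane ModularForm MatrixGroups Matrix.SpecialLinearGroup Filter Function
open scoped Manifold Topology Real ComplexConjugate
open Fermat.Agent.AnJac Fermat.Agent.DimS2 Fermat.Agent.ModFun CongruenceSubgroup ModularCurve
open Fermat.Agent.GenusX0 (zetaU)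

local notation "𝕢" => Function.Periodic.qParam

/-- the reflection of the upper half plane -/
def rfl' (τ : ℍ) : ℍ := UpperHalfPlane.mk (-(conj (τ : ℂ))) (by
  rw [Complex.neg_im, Complex.conj_im, neg_neg]
  exact τ.im_pos)

theorem coe_rfl' (τ : ℍ) : ((rfl' τ : ℍ) : ℂ) = -(conj (τ : ℂ)) := rfl

theorem rfl'_rfl' (τ : ℍ) : rfl' (rfl' τ) = τ := by
  apply UpperHalfPlane.ext
  rw [coe_rfl', coe_rfl', map_neg, neg_neg, Complex.conj_conj]

theorem im_rfl' (τ : ℍ) : (rfl' τ).im = τ.im := by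
  change (-(conj (τ : ℂ))).im = (τ : ℂ).im
  rw [Complex.neg_im, Complex.conj_im, neg_neg]

theorem mul_entry (γ δ : SL(2,ℤ)) (i j : Fin 2) :
    (γ * δ) i j = γ i 0 * δ 0 j + γ i 1 * δ 1 j := by
  rw [Matrix.SpecialLinearGroup.coe_mul, Matrix.mul_apply, Fin.sum_univ_two]

/-- conjugation by `diag(-1,1)` -/
def iota : SL(2,ℤ) →* SL(2,ℤ) where
  toFun γ := ⟨!![γ 0 0, -γ 0 1; -γ 1 0, γ 1 1], by
    have := Matrix.SpecialLinearGroup.det_coe γ
    rw [Matrix.det_fin_two] at this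
    rw [Matrix.det_fin_two_of]
    linear_combination this⟩
  map_one' := by
    ext i j
    fin_cases i <;> fin_cases j <;> simp
  map_mul' γ δ := by
    apply Subtype.ext
    change !![(γ * δ) 0 0, -(γ * δ) 0 1; -(γ * δ) 1 0, (γ * δ) 1 1] =
      !![γ 0 0, -γ 0 1; -γ 1 0, γ 1 1] * !![δ 0 0, -δ 0 1; -δ 1 0, δ 1 1]
    rw [Matrix.mul_fin_two, mul_entry, mul_entry, mul_entry, mul_entry]
    congr 1
    ext i j
    fin_cases i <;> fin_cases j <;> simp <;> ring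

theorem iota_apply (γ : SL(2,ℤ)) : (iota γ) 0 0 = γ 0 0 ∧ (iota γ) 0 1 = -γ 0 1 ∧
    (iota γ) 1 0 = -γ 1 0 ∧ (iota γ) 1 1 = γ 1 1 := ⟨rfl, rfl, rfl, rfl⟩

theorem iota_iota (γ : SL(2,ℤ)) : iota (iota γ) = γ := by
  obtain ⟨h1, h2, h3, h4⟩ := iota_apply γ
  obtain ⟨g1, g2, g3, g4⟩ := iota_apply (iota γ)
  ext i j
  fin_cases i <;> fin_cases j
  · exact g1.trans h1
  · change (iota (iota γ)) 0 1 = γ 0 1
    rw [g2, h2, neg_neg]
  · change (iota (iota γ)) 1 0 = γ 1 0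
    rw [g3, h3, neg_neg]
  · exact g4.trans h4

/-- the same on `Γ₀(N)` -/
def iotaG (N : ℕ) : Gamma0 N →* Gamma0 N :=
  (iota.comp (Gamma0 N).subtype).codRestrict (Gamma0 N) fun γ => by
    have h := γ.2
    rw [Gamma0_mem] at h
    change iota (γ : SL(2,ℤ)) ∈ Gamma0 N
    rw [Gamma0_mem, (iota_apply _).2.2.1]
    push_cast
    rw [h, neg_zero]

theorem coe_iotaG {N : ℕ} (γ : Gamma0 N) : (iotaG N γ : SL(2,ℤ)) = iota γ := rfl

theorem smul_rfl' (γ : SL(2,ℤ)) (τ : ℍ) : rfl' (γ • τ) = iota γ • rfl' τ := by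
  obtain ⟨h1, h2, h3, h4⟩ := iota_apply γ
  apply UpperHalfPlane.ext
  rw [coe_rfl', UpperHalfPlane.coe_specialLinearGroup_apply,
    UpperHalfPlane.coe_specialLinearGroup_apply,
    coe_rfl', map_div₀, map_add, map_add, map_mul, map_mul]
  simp only [algebraMap_int_eq, eq_intCast, Complex.ofReal_intCast, map_intCast, h1, h2, h3, h4,
    Int.cast_neg, Complex.ofReal_neg]
  rw [← neg_div]
  congr 1 <;> ring

/-- the conjugate function -/
def cj (f : ℍ → ℂ) (τ : ℍ) : ℂ := conj (f (rfl' τ))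

theorem cj_mul (f g : ℍ → ℂ) : cj (f * g) = cj f * cj g := by
  ext τ
  exact map_mul _ _ _

theorem cj_pow (f : ℍ → ℂ) (n : ℕ) : cj (f ^ n) = cj f ^ n := by
  ext τ
  exact map_pow _ _ _

theorem cj_ne_zero {f : ℍ → ℂ} (h : f ≠ 0) : cj f ≠ 0 := by
  intro h0
  apply h
  ext τ
  have h1 := congrFun h0 (rfl' τ)
  rw [cj, rfl'_rfl'] at h1
  exact (map_eq_zero _).mp h1

theorem mdiff_cj {f : ℍ → ℂ} (hf : MDiff f) : MDiff (cj f) := by
  rw [mdifferentiable_iff] at hf ⊢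
  intro z hz
  have hz' : (0 : ℝ) < (-(conj z)).im := by
    rw [Complex.neg_im, Complex.conj_im, neg_neg]
    exact hz
  have h1 : DifferentiableAt ℂ (f ∘ ofComplex) (-(conj z)) :=
    (hf _ hz').differentiableAt (isOpen_upperHalfPlaneSet.mem_nhds hz')
  have h2 : DifferentiableAt ℂ ((f ∘ ofComplex) ∘ Neg.neg) (conj z) :=
    DifferentiableAt.comp _ h1 differentiable_neg.differentiableAt
  have h3 : DifferentiableAt ℂ (conj ∘ ((f ∘ ofComplex) ∘ Neg.neg) ∘ conj) z :=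
    differentiableAt_conj_conj_iff.mpr h2
  refine (h3.congr_of_eventuallyEq ?_).differentiableWithinAt
  filter_upwards [isOpen_upperHalfPlaneSet.mem_nhds hz] with w hw
  have hw' : (0 : ℝ) < (-(conj w)).im := by
    rw [Complex.neg_im, Complex.conj_im, neg_neg]
    exact hw
  change conj (f (rfl' (ofComplex w))) = conj (f (ofComplex (-(conj w))))
  congr 2
  apply UpperHalfPlane.ext
  rw [coe_rfl', ofComplex_apply_of_im_pos hw, ofComplex_apply_of_im_pos hw']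

theorem mg_cj {f : ℍ → ℂ} (hf : MG f) : MG (cj f) := by
  obtain ⟨m, hm⟩ := hf
  refine ⟨m, ?_⟩
  obtain ⟨C, hC⟩ := hm.bound
  refine Asymptotics.IsBigO.of_bound C ?_
  rw [Filter.Eventually, UpperHalfPlane.atImInfty_mem] at hC ⊢
  obtain ⟨A, hA⟩ := hC
  refine ⟨A, fun τ hτ => ?_⟩
  have h1 := hA (rfl' τ) (by rw [im_rfl']; exact hτ)
  change ‖f (rfl' τ)‖ ≤ C * ‖Real.exp (2 * π * m * (rfl' τ).im)‖ at h1
  change ‖conj (f (rfl' τ))‖ ≤ C * ‖Real.exp (2 * π * m * τ.im)‖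
  rw [RCLike.norm_conj]
  rwa [im_rfl'] at h1

theorem cj_comp (f : ℍ → ℂ) (δ : SL(2,ℤ)) : (fun τ => cj f (δ • τ)) =
    cj (fun τ => f (iota δ • τ)) := by
  ext τ
  rw [cj, cj, smul_rfl']

theorem iota_T : iota ModularGroup.T = ModularGroup.T⁻¹ := by
  rw [eq_inv_iff_mul_eq_one]
  obtain ⟨h1, h2, h3, h4⟩ := iota_apply ModularGroup.T
  have t1 : ModularGroup.T 0 0 = 1 := rfl
  have t2 : ModularGroup.T 0 1 = 1 := rfl
  have t3 : ModularGroup.T 1 0 = 0 := rfl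
  have t4 : ModularGroup.T 1 1 = 1 := rfl
  ext i j
  rw [mul_entry]
  fin_cases i <;> fin_cases j
  · change (iota ModularGroup.T) 0 0 * ModularGroup.T 0 0 +
      (iota ModularGroup.T) 0 1 * ModularGroup.T 1 0 = 1
    rw [h1, h2, t1, t3, t2]; norm_num
  · change (iota ModularGroup.T) 0 0 * ModularGroup.T 0 1 +
      (iota ModularGroup.T) 0 1 * ModularGroup.T 1 1 = 0
    rw [h1, h2, t1, t2, t4]; norm_num
  · change (iota ModularGroup.T) 1 0 * ModularGroup.T 0 0 +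
      (iota ModularGroup.T) 1 1 * ModularGroup.T 1 0 = 0
    rw [h3, h4, t1, t3, t4]; norm_num
  · change (iota ModularGroup.T) 1 0 * ModularGroup.T 0 1 +
      (iota ModularGroup.T) 1 1 * ModularGroup.T 1 1 = 1
    rw [h3, h4, t2, t3, t4]; norm_num

theorem isA_cj {N : ℕ} {f : ℍ → ℂ} (hf : IsA N f) : IsA N (cj f) where
  mdiff := mdiff_cj hf.mdiff
  per δ τ := by
    have h1 := hf.per (iota δ) ((ModularGroup.T ^ N)⁻¹ • rfl' τ)
    rw [smul_inv_smul] at h1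
    rw [cj, cj, smul_rfl', smul_rfl', smul_rfl', map_pow, iota_T, inv_pow, h1]
  mg δ := by
    rw [cj_comp]
    exact mg_cj (hf.mg (iota δ))

/-- the conjugate character -/
def cch {N : ℕ} (χ : Gamma0 N →* ℂˣ) : Gamma0 N →* ℂˣ :=
  (Units.map (starRingEnd ℂ : ℂ →* ℂ)).comp (χ.comp (iotaG N))

theorem cch_apply {N : ℕ} (χ : Gamma0 N →* ℂˣ) (γ : Gamma0 N) :
    ((cch χ γ : ℂˣ) : ℂ) = conj ((χ (iotaG N γ) : ℂˣ) : ℂ) := rfl

theorem isX_cj {N : ℕ} {χ : Gamma0 N →* ℂˣ} {f : ℍ → ℂ} (hf : IsX N χ f) :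
    IsX N (cch χ) (cj f) where
  isA := isA_cj hf.isA
  inv γ τ := by
    have h1 := hf.inv (iotaG N γ) (rfl' τ)
    rw [cj, cj, smul_rfl', ← coe_iotaG, h1, map_mul]
    rfl

theorem cch_one {N : ℕ} : cch (1 : Gamma0 N →* ℂˣ) = 1 := by
  ext γ
  rw [cch_apply]
  simp

theorem isNH_cch {N : ℕ} {χ : Gamma0 N →* ℂˣ} (h : IsNH χ) : IsNH (cch χ) := by
  intro γ hγ
  have h1 := h (iotaG N γ) (by
    rw [coe_iotaG, (iota_apply _).1, (iota_apply _).2.2.2]
    exact hγ)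
  ext
  rw [cch_apply, h1]
  simp

theorem q_rfl' (τ : ℍ) : 𝕢 1 (rfl' τ : ℍ) = conj (𝕢 1 (τ : ℍ)) := by
  rw [coe_rfl', Function.Periodic.qParam, Function.Periodic.qParam, ← Complex.exp_conj]
  congr 1
  simp only [map_div₀, map_mul, Complex.conj_I, Complex.conj_ofReal, map_ofNat, Complex.ofReal_one]
  simp

theorem convAt_cj {F : LaurentSeries ℂ} {z : ℂ} (h : ConvAt F (conj z)) :
    ConvAt (coeffMap (starRingEnd ℂ) F) z := by
  refine Summable.congr h fun n => ?_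
  change ‖F.coeff n * (conj z) ^ n‖ = ‖conj (F.coeff n) * z ^ n‖
  rw [norm_mul, norm_mul, norm_zpow, norm_zpow, RCLike.norm_conj, RCLike.norm_conj]

theorem mem_cj {F : LaurentSeries ℂ} (h : F ∈ convLaurent) :
    coeffMap (starRingEnd ℂ) F ∈ convLaurent := by
  rw [mem_convLaurent] at h ⊢
  intro z hz
  apply convAt_cj
  apply h
  refine ⟨?_, ?_⟩
  · have := hz.1
    rw [RCLike.norm_conj]
    exact this
  · rw [RCLike.norm_conj]
    exact hz.2

theorem ef_cj (F : LaurentSeries ℂ) : ef (coeffMap (starRingEnd ℂ) F) = cj (ef F) := by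
  ext τ
  rw [cj, ef, ef, q_rfl', evf, evf, Complex.conj_tsum]
  refine tsum_congr fun n => ?_
  rw [map_mul, map_zpow₀, Complex.conj_conj]
  rfl

theorem lser_cj {f : ℍ → ℂ} (hf : IsP f) : lser (cj f) = coeffMap (starRingEnd ℂ) (lser f) := by
  rw [← lser_ef (mem_cj hf.lser_mem), ef_cj, hf.ef_lser]

/-- **complex conjugation on characters** -/
theorem isChar_conj {N n : ℕ} [NeZero N] {u : LaurentSeries ℂ} {χ : Gamma0 N →* ℂˣ}
    (h : IsChar N n u χ) : IsChar N n (coeffMap (starRingEnd ℂ) u) (cch χ) := by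
  obtain ⟨nh, pw, G, b, hG, hb, hG0, hb0, he⟩ := h
  refine ⟨isNH_cch nh, ?_, cj G, cj b, isX_cj hG, ?_, cj_ne_zero hG0, cj_ne_zero hb0, ?_⟩
  · ext γ
    have h1 := congrArg (fun ψ : Gamma0 N →* ℂˣ => (ψ (iotaG N γ) : ℂ)) pw
    simp only [MonoidHom.pow_apply, MonoidHom.one_apply, Units.val_pow_eq_pow_val,
      Units.val_one] at h1 ⊢
    rw [cch_apply, ← map_pow, h1, map_one]
  · have := isX_cj hb
    rwa [cch_one] at this
  · rw [lser_cj (hb.isP isNH_one), lser_cj (hG.isP nh), ← map_pow, ← map_pow, ← map_mul, he]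

theorem conj_zetaU (n : ℕ) : conj ((zetaU n : ℂˣ) : ℂ) = ((zetaU n)⁻¹ : ℂˣ) := by
  rw [Units.val_inv_eq_inv_val]
  change conj (Complex.exp (2 * π * Complex.I / n)) = (Complex.exp (2 * π * Complex.I / n))⁻¹
  rw [← Complex.exp_conj, ← Complex.exp_neg]
  congr 1
  have h2 : (starRingEnd ℂ) 2 = 2 := map_ofNat _ 2
  simp [map_div₀, neg_div, h2]

/-- the action on homomorphisms -/
theorem cch_ech {N : ℕ} (n : ℕ) (φ : Additive (Gamma0 N) →+ ℤ) :
    cch (ech n φ) = ech n (-(φ.comp (MonoidHom.toAdditive (iotaG N)))) := by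
  ext γ
  rw [cch_apply, ech_apply, ech_apply, AddMonoidHom.neg_apply, AddMonoidHom.comp_apply,
    _root_.zpow_neg, ← inv_zpow, Units.val_zpow_eq_zpow_val, map_zpow₀, conj_zetaU,
    Units.val_zpow_eq_zpow_val]
  rfl

section ClX

variable {k : Type*} [Field k] [IsAlgClosed k] [CharZero k]

/-- `-φ ∘ ι` on the lattice -/
def cL {N : ℕ} [NeZero N] (φ : Lat N) : Lat N :=
  ⟨-((φ : Additive (Gamma0 N) →+ ℤ).comp (MonoidHom.toAdditive (iotaG N))), by
    intro γ hγ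
    have h := φ.2 (iotaG N γ) (by
      rw [coe_iotaG, (iota_apply _).1, (iota_apply _).2.2.2]
      exact hγ)
    rw [AddMonoidHom.neg_apply, AddMonoidHom.comp_apply]
    exact neg_eq_zero.mpr h⟩

theorem ClX_conj {N : ℕ} [NeZero N] (ι : k →+* ℂ) {n : ℕ} {φ : Lat N}
    {u v : modularFunctionFieldFullC k N} (h : ClX N ι n φ u)
    (hv : coeffMap ι (v : LaurentSeries k) =
      coeffMap (starRingEnd ℂ) (coeffMap ι (u : LaurentSeries k))) : ClX N ι n (cL φ) v := by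
  have h1 := isChar_conj h
  rw [cch_ech, ← hv] at h1
  exact h1

end ClX

end Fermat.Agent.RT6
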