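import Fermat.Agent.RT6.GeoSt
import Fermat.Agent.RT6.CC
import Fermat.Agent.AnJac.Link

/-!
# From vectors of classes to homomorphisms
-/

set_option autoImplicit false
set_option linter.unusedSectionVars false
set_option linter.style.haveILetI false

noncomputable section

namespace Fermat.Agent.RT6.B3

open Matrix CongruenceSubgroup Fermat.Agent.AnJac MatrixGroups ModularCurve
open Fermat.Agent.GalRep

local notation "Qb" => AlgebraicClosure ℚ
local notation "GQ" => Qb ≃ₐ[ℚ] Qb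

variable {M : ℕ} [NeZero M] (n : ℕ)

/-- reduction of homomorphisms -/
def rL : Lat M →+ (Additive (Gamma0 M) →+ ZMod n) where
  toFun φ := (Int.castAddHom (ZMod n)).comp (φ : Additive (Gamma0 M) →+ ℤ)
  map_zero' := by ext γ; simp
  map_add' φ ψ := by ext γ; simp

theorem rL_apply (φ : Lat M) (γ : Additive (Gamma0 M)) :
    rL n φ γ = (((φ : Additive (Gamma0 M) →+ ℤ) γ : ℤ) : ZMod n) := rfl

/-- the homomorphism of a vector -/
def vh : (Fin (Module.finrank ℤ (Lat M)) → ZMod n) →+ (Additive (Gamma0 M) →+ ZMod n) where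
  toFun x := ∑ i, x i • rL n (bL M i)
  map_zero' := by simp
  map_add' x y := by simp only [Pi.add_apply, add_smul, Finset.sum_add_distrib]

theorem vh_apply (x : Fin (Module.finrank ℤ (Lat M)) → ZMod n) :
    vh n x = ∑ i, x i • rL n (bL M i) := rfl

theorem vh_smul (a : ZMod n) (x : Fin (Module.finrank ℤ (Lat M)) → ZMod n) :
    vh n (a • x) = a • vh n x := by
  rw [vh_apply, vh_apply, Finset.smul_sum]
  exact Finset.sum_congr rfl fun i _ => by rw [Pi.smul_apply, smul_assoc]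

theorem vh_red (φ : Lat M) : vh n (KSys.red (bL M) n φ) = rL n φ := by
  conv_rhs => rw [← (bL M).sum_repr φ]
  rw [vh_apply, map_sum]
  refine Finset.sum_congr rfl fun i _ => ?_
  rw [KSys.red_apply, map_zsmul]
  ext γ
  simp

theorem exists_red (x : Fin (Module.finrank ℤ (Lat M)) → ZMod n) :
    ∃ φ : Lat M, KSys.red (bL M) n φ = x := by
  choose c hc using fun i => ZMod.intCast_surjective (x i)
  refine ⟨∑ i, c i • bL M i, ?_⟩
  rw [map_sum]
  funext j
  rw [Finset.sum_apply, Finset.sum_eq_single j]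
  · rw [map_zsmul, KSys.red_basis, Pi.smul_apply, Pi.single_eq_same, ← hc j]
    simp
  · intro i _ hij
    rw [map_zsmul, KSys.red_basis, Pi.smul_apply, Pi.single_eq_of_ne hij.symm, smul_zero]
  · intro h
    exact absurd (Finset.mem_univ j) h

theorem rL_mem (φ : Lat M) : rL n φ ∈ NHA (Gamma0 M) (ZMod n) := by
  intro γ hγ
  rw [rL_apply, φ.2 γ hγ, Int.cast_zero]

theorem vh_mem (x : Fin (Module.finrank ℤ (Lat M)) → ZMod n) :
    vh n x ∈ NHA (Gamma0 M) (ZMod n) := by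
  obtain ⟨φ, rfl⟩ := exists_red n x
  rw [vh_red]
  exact rL_mem n φ

theorem vh_eq_zero (hn : n ≠ 0) {x : Fin (Module.finrank ℤ (Lat M)) → ZMod n}
    (h : vh n x = 0) : x = 0 := by
  obtain ⟨φ, rfl⟩ := exists_red n x
  rw [vh_red] at h
  have h1 : ∀ γ, ∃ c : ℤ, (φ : Additive (Gamma0 M) →+ ℤ) γ = n * c := by
    intro γ
    have h2 := DFunLike.congr_fun h γ
    rw [rL_apply, AddMonoidHom.zero_apply, ZMod.intCast_zmod_eq_zero_iff_dvd] at h2
    exact h2
  choose c hc using h1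
  have hinj : Function.Injective fun m : ℤ => (n : ℤ) * m :=
    mul_right_injective₀ (by exact_mod_cast hn)
  let χ : Additive (Gamma0 M) →+ ℤ :=
    { toFun := c
      map_zero' := hinj (by simp only [← hc, map_zero, mul_zero])
      map_add' := fun x y => hinj (by simp only [mul_add, ← hc, map_add]) }
  rw [KSys.red_eq_zero]
  refine ⟨⟨χ, fun γ hγ => hinj ?_⟩, ?_⟩
  · change (n : ℤ) * c (Additive.ofMul γ) = (n : ℤ) * 0
    rw [← hc, φ.2 γ hγ, mul_zero]
  · apply Subtype.ext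
    refine AddMonoidHom.ext fun x => ?_
    change (φ : Additive (Gamma0 M) →+ ℤ) x = n • c x
    rw [hc, nsmul_eq_mul]

/-- compatibility with endomorphisms of the lattice -/
theorem vh_tm {t : Lat M →+ Lat M}
    {T : (Additive (Gamma0 M) →+ ZMod n) →+ (Additive (Gamma0 M) →+ ZMod n)}
    (h : ∀ φ : Lat M, T (rL n φ) = rL n (t φ))
    (x : Fin (Module.finrank ℤ (Lat M)) → ZMod n) :
    vh n ((Int.castRingHom (ZMod n)).mapMatrix (KSys.tm (bL M) t) *ᵥ x) = T (vh n x) := by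
  obtain ⟨φ, rfl⟩ := exists_red n x
  rw [KSys.tm_mulVec, vh_red, vh_red, h]

theorem vh_LTot (l : ℕ) (x : Fin (Module.finrank ℤ (Lat M)) → ZMod n) :
    vh n ((Int.castRingHom (ZMod n)).mapMatrix (KSys.tm (bL M) (LTot M l)) *ᵥ x) =
      MT M (ZMod n) l (vh n x) := by
  refine vh_tm n (T := MT M (ZMod n) l) (fun φ => ?_) x
  change MT M (ZMod n) l ((Int.castAddHom (ZMod n)).comp (φ : Additive (Gamma0 M) →+ ℤ)) =
    (Int.castAddHom (ZMod n)).comp ((LTot M l φ : Lat M) : Additive (Gamma0 M) →+ ℤ)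
  rw [MT_comp, coe_LTot]

theorem vh_LS (q N : ℕ) [hq : Fact q.Prime] [NeZero q] [NeZero (q ^ 2 * N)] (hN : ¬ q ∣ N)
    (s : ZMod q) (hs : s ≠ 1) (x : Fin (Module.finrank ℤ (Lat (q ^ 2 * N))) → ZMod n) :
    vh n ((Int.castRingHom (ZMod n)).mapMatrix (KSys.tm (bL (q ^ 2 * N)) (LS q N hN s hs)) *ᵥ x) =
      (hfS q N hN s hs).T (vh n x) := by
  refine vh_tm n (T := (hfS q N hN s hs).T) (fun φ => ?_) x
  change (hfS q N hN s hs).T ((Int.castAddHom (ZMod n)).comp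
    (φ : Additive (Gamma0 (q ^ 2 * N)) →+ ℤ)) = (Int.castAddHom (ZMod n)).comp
      ((hfS q N hN s hs).T (φ : Additive (Gamma0 (q ^ 2 * N)) →+ ℤ))
  rw [HF.T_comp]

theorem vh_DS (q N : ℕ) [hq : Fact q.Prime] [NeZero q] [NeZero (q ^ 2 * N)] (hN : ¬ q ∣ N)
    (s t : ZMod q) (hs : s ≠ 1) (ht : t ≠ 1)
    {x : Fin (Module.finrank ℤ (Lat (q ^ 2 * N))) → ZMod n}
    (h : (Int.castRingHom (ZMod n)).mapMatrix (DS q N hN s t hs ht) *ᵥ x = 0) :
    (hfS q N hN s hs).T (vh n x) = (hfS q N hN t ht).T (vh n x) := by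
  rw [DS, map_sub, Matrix.sub_mulVec, sub_eq_zero] at h
  rw [← vh_LS, ← vh_LS, h]

/-! ### complex conjugation -/

/-- complex conjugation -/
theorem exists_cc : ∃ c : GQ, (∀ x : Qb, ιQ (c x) = starRingEnd ℂ (ιQ x)) ∧ c * c = 1 := by
  letI : Algebra Qb ℂ := (ιQ : Qb →+* ℂ).toAlgebra
  haveI : IsScalarTower ℚ Qb ℂ := IsScalarTower.of_algebraMap_eq fun x => by
    change algebraMap ℚ ℂ x = ιQ (algebraMap ℚ Qb x)
    rw [eq_ratCast (algebraMap ℚ Qb) x, map_ratCast, eq_ratCast (algebraMap ℚ ℂ) x]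
  haveI : Algebra.IsAlgebraic ℚ Qb := AlgebraicClosure.isAlgebraic ℚ
  haveI : IsAlgClosure ℚ Qb := ⟨inferInstance, inferInstance⟩
  haveI : Normal ℚ Qb := IsAlgClosure.normal _ _
  let χ : ℂ ≃ₐ[ℚ] ℂ := Complex.conjAe.restrictScalars ℚ
  have h1 : ∀ x : Qb, ιQ (χ.restrictNormal Qb x) = starRingEnd ℂ (ιQ x) := fun x =>
    AlgEquiv.restrictNormal_commutes χ Qb x
  refine ⟨χ.restrictNormal Qb, h1, ?_⟩
  ext x
  apply (ιQ : Qb →+* ℂ).injective
  rw [AlgEquiv.mul_apply, h1, h1, Complex.conj_conj, AlgEquiv.one_apply]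

/-- the involution of the lattice as a homomorphism -/
def cLh : Lat M →+ Lat M where
  toFun := cL
  map_zero' := by
    apply Subtype.ext
    ext γ
    simp [cL]
  map_add' φ ψ := by
    apply Subtype.ext
    refine AddMonoidHom.ext fun γ => ?_
    change -((φ : Additive (Gamma0 M) →+ ℤ) _ + (ψ : Additive (Gamma0 M) →+ ℤ) _) =
      -((φ : Additive (Gamma0 M) →+ ℤ) _) + -((ψ : Additive (Gamma0 M) →+ ℤ) _)
    rw [neg_add]

theorem M_conj {n : ℕ} (hn : n ≠ 0) {c : GQ}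
    (hc : ∀ x : Qb, ιQ (c x) = starRingEnd ℂ (ιQ x)) :
    (KQ M).M (bL M) hn c = (Int.castRingHom (ZMod n)).mapMatrix (KSys.tm (bL M) cLh) := by
  apply KSys.mat_ext (bL M)
  intro φ
  obtain ⟨u, hu⟩ := (KQ M).ex hn φ
  rw [KSys.tm_mulVec]
  refine (KQ M).M_mulVec (bL M) hn c hu ?_
  refine ClX_conj ιQ hu ?_
  change coeffMap ιQ (((KQ M).act c u : modularFunctionFieldFullC Qb M) : LaurentSeries Qb) = _
  ext i
  exact hc _

theorem vh_conj {n : ℕ} (hn : n ≠ 0) {c : GQ}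
    (hc : ∀ x : Qb, ιQ (c x) = starRingEnd ℂ (ιQ x))
    (x : Fin (Module.finrank ℤ (Lat M)) → ZMod n) (γ : Gamma0 M) :
    vh n ((KQ M).M (bL M) hn c *ᵥ x) (Additive.ofMul γ) =
      -(vh n x (Additive.ofMul (iotaG M γ))) := by
  obtain ⟨φ, rfl⟩ := exists_red n x
  rw [M_conj hn hc, KSys.tm_mulVec, vh_red, vh_red, rL_apply, rL_apply]
  change ((-((φ : Additive (Gamma0 M) →+ ℤ) (Additive.ofMul (iotaG M γ))) : ℤ) : ZMod n) = _
  rw [Int.cast_neg]

/-- the sign -/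
theorem vh_sign {n : ℕ} (hn : n ≠ 0) {c : GQ}
    (hc : ∀ x : Qb, ιQ (c x) = starRingEnd ℂ (ιQ x))
    {x : Fin (Module.finrank ℤ (Lat M)) → ZMod n}
    (hx : (KQ M).M (bL M) hn c *ᵥ x = -x) (γ : Gamma0 M) :
    vh n x (Additive.ofMul (iotaG M γ)) = vh n x (Additive.ofMul γ) := by
  have h := vh_conj hn hc x γ
  rw [hx, map_neg, AddMonoidHom.neg_apply] at h
  exact (neg_injective h).symm

end Fermat.Agent.RT6.B3
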