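import Fermat.Agent.RT6.CC
import Fermat.Agent.AnJac.HD

/-!
# (A3), links: complex conjugation on classes modulo `n`
-/

set_option autoImplicit false
set_option linter.style.haveILetI false

noncomputable section

namespace Fermat.Agent.RT6.B3s

open ModularCurve Fermat.Agent.ModFun Fermat.Agent.AnJac Matrix Module CongruenceSubgroup
open scoped MatrixGroups ComplexConjugate

local notation "Qbar" => AlgebraicClosure ℚ
local notation "GQ" => Qbar ≃ₐ[ℚ] Qbar

variable {N : ℕ} [NeZero N]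

/-- the homomorphism with values in `ℤ/n` attached to a vector -/
def vH (n : ℕ) (x : Fin (finrank ℤ (Lat N)) → ZMod n) : Additive (Gamma0 N) →+ ZMod n where
  toFun γ := ∑ i, x i * (((bL N i : Lat N) : Additive (Gamma0 N) →+ ℤ) γ : ZMod n)
  map_zero' := by simp
  map_add' γ δ := by
    rw [← Finset.sum_add_distrib]
    refine Finset.sum_congr rfl fun i _ => ?_
    rw [map_add]
    push_cast
    ring

theorem vH_apply (n : ℕ) (x : Fin (finrank ℤ (Lat N)) → ZMod n) (γ : Additive (Gamma0 N)) :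
    vH n x γ = ∑ i, x i * (((bL N i : Lat N) : Additive (Gamma0 N) →+ ℤ) γ : ZMod n) := rfl

theorem vH_red (n : ℕ) (φ : Lat N) (γ : Additive (Gamma0 N)) :
    vH n (KSys.red (bL N) n φ) γ = (((φ : Additive (Gamma0 N) →+ ℤ) γ : ℤ) : ZMod n) := by
  have h1 : (φ : Additive (Gamma0 N) →+ ℤ) γ =
      ∑ i, (bL N).repr φ i * ((bL N i : Lat N) : Additive (Gamma0 N) →+ ℤ) γ := by
    let ev : Lat N →+ ℤ := (AddMonoidHom.eval γ).comp (Lat N).subtype
    have h2 : ev (∑ i, (bL N).repr φ i • (bL N) i) = ev φ := congrArg ev ((bL N).sum_repr φ)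
    show ev φ = _
    rw [← h2]
    rw [map_sum]
    refine Finset.sum_congr rfl fun i _ => ?_
    rw [map_zsmul, smul_eq_mul]
    rfl
  rw [vH_apply, h1]
  push_cast
  rfl

theorem exists_red (n : ℕ) (x : Fin (finrank ℤ (Lat N)) → ZMod n) :
    ∃ φ : Lat N, KSys.red (bL N) n φ = x := by
  choose a ha using fun i => ZMod.intCast_surjective (x i)
  refine ⟨∑ i, a i • bL N i, ?_⟩
  funext j
  rw [KSys.red_apply, ← ha j]
  congr 1
  rw [map_sum, Finsupp.finset_sum_apply]
  rw [Finset.sum_eq_single j]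
  · simp
  · intro i _ hij
    simp [Finsupp.single_apply, hij]
  · intro h; exact absurd (Finset.mem_univ j) h

/-- complex conjugation on the classes -/
theorem M_conj {n : ℕ} (hn : n ≠ 0) {c : GQ} (hc : ∀ a : Qbar, ιQ (c a) = conj (ιQ a))
    (φ : Lat N) : (KQ N).M (bL N) hn c *ᵥ KSys.red (bL N) n φ = KSys.red (bL N) n (cL φ) := by
  obtain ⟨u, hu⟩ := (KQ N).ex hn φ
  refine (KQ N).M_mulVec (bL N) hn c hu ?_
  refine ClX_conj ιQ hu ?_
  show coeffMap ιQ (coeffMap (fQ c : Qbar →+* Qbar) (u : LaurentSeries Qbar)) = _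
  have e : ιQ.comp (fQ c : Qbar →+* Qbar) = (starRingEnd ℂ).comp ιQ := RingHom.ext hc
  rw [coeffMap_coeffMap, coeffMap_coeffMap, e]

/-- **the sign**, general form -/
theorem vH_conj {n : ℕ} (hn : n ≠ 0) {c : GQ} (hc : ∀ a : Qbar, ιQ (c a) = conj (ιQ a))
    (x : Fin (finrank ℤ (Lat N)) → ZMod n) (γ : Gamma0 N) :
    vH n ((KQ N).M (bL N) hn c *ᵥ x) (Additive.ofMul γ) =
      - vH n x (Additive.ofMul (iotaG N γ)) := by
  obtain ⟨φ, rfl⟩ := exists_red n x
  rw [M_conj hn hc, vH_red, vH_red, ← Int.cast_neg]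
  rfl

/-- **the sign** -/
theorem vH_sign {n : ℕ} (hn : n ≠ 0) {c : GQ} (hc : ∀ a : Qbar, ιQ (c a) = conj (ιQ a))
    {x : Fin (finrank ℤ (Lat N)) → ZMod n} {ε : ZMod n}
    (hx : (KQ N).M (bL N) hn c *ᵥ x = ε • x) (γ : Gamma0 N) :
    vH n x (Additive.ofMul (iotaG N γ)) = - (ε * vH n x (Additive.ofMul γ)) := by
  have h := vH_conj hn hc x γ
  rw [hx] at h
  have h2 : vH n (ε • x) (Additive.ofMul γ) = ε * vH n x (Additive.ofMul γ) := by
    rw [vH_apply, vH_apply, Finset.mul_sum]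
    refine Finset.sum_congr rfl fun i _ => ?_
    rw [Pi.smul_apply, smul_eq_mul, mul_assoc]
  rw [h2] at h
  rw [h, neg_neg]

end Fermat.Agent.RT6.B3s
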