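import Fermat.Agent.AnJac.HD
import Fermat.Agent.Carayol.Emb

/-!
# The Hecke families `R_s`
-/

set_option autoImplicit false
set_option linter.unusedSectionVars false
set_option linter.style.haveILetI false

noncomputable section

namespace Fermat.Agent.RT6

open Fermat.Agent.AnJac Fermat.Agent.Carayol
open UpperHalfPlane MatrixGroups CongruenceSubgroup Matrix.SpecialLinearGroup

/-- `q` times the conjugate of `γ` by `diag(q, 1)` : `τ ↦ γ(qτ)/q` -/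
def MD (q : ℕ) (γ : SL(2,ℤ)) : Matrix (Fin 2) (Fin 2) ℤ :=
  !![q * γ 0 0, γ 0 1; q ^ 2 * γ 1 0, q * γ 1 1]

lemma det_entries (γ : SL(2,ℤ)) : γ 0 0 * γ 1 1 - γ 0 1 * γ 1 0 = 1 := by
  have := Matrix.SpecialLinearGroup.det_coe γ
  rwa [Matrix.det_fin_two] at this

lemma det_MD (q : ℕ) (γ : SL(2,ℤ)) : (MD q γ).det = q ^ 2 := by
  rw [MD, Matrix.det_fin_two_of]
  linear_combination (q : ℤ) ^ 2 * det_entries γ

lemma det_entriesR (γ : SL(2,ℤ)) :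
    ((γ 0 0 : ℤ) : ℝ) * ((γ 1 1 : ℤ) : ℝ) - ((γ 0 1 : ℤ) : ℝ) * ((γ 1 0 : ℤ) : ℝ) = 1 := by
  exact_mod_cast det_entries γ

lemma det_MDR' (q : ℕ) (γ : SL(2,ℤ)) :
    ((MD q γ).map (Int.cast : ℤ → ℝ)).det = (q : ℝ) ^ 2 := by
  rw [Matrix.det_fin_two]
  simp only [MD, Matrix.map_apply, Matrix.of_apply, Matrix.cons_val', Matrix.cons_val_zero,
    Matrix.cons_val_one]
  push_cast
  linear_combination (q : ℝ) ^ 2 * det_entriesR γ

lemma det_MDR (q : ℕ) [NeZero q] (γ : SL(2,ℤ)) :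
    ((MD q γ).map (Int.cast : ℤ → ℝ)).det ≠ 0 := by
  rw [det_MDR']
  have : (q : ℝ) ≠ 0 := by exact_mod_cast NeZero.ne q
  positivity

/-- the matrix as an element of `GL₂(ℝ)` -/
def AD (q : ℕ) [NeZero q] (γ : SL(2,ℤ)) : GL (Fin 2) ℝ :=
  Matrix.GeneralLinearGroup.mkOfDetNeZero ((MD q γ).map (Int.cast : ℤ → ℝ)) (det_MDR q γ)

variable {q : ℕ} [NeZero q]

lemma coe_AD (γ : SL(2,ℤ)) : ((AD q γ : GL (Fin 2) ℝ) : Matrix (Fin 2) (Fin 2) ℝ) =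
    (MD q γ).map (Int.cast : ℤ → ℝ) := rfl

lemma AD_det (γ : SL(2,ℤ)) : (AD q γ).det.val = (q : ℝ) ^ 2 := det_MDR' q γ

lemma AD_pos (γ : SL(2,ℤ)) : 0 < (AD q γ).det.val := by
  rw [AD_det]
  have : (q : ℝ) ≠ 0 := by exact_mod_cast NeZero.ne q
  positivity

lemma AD_int (γ : SL(2,ℤ)) : IsInt (AD q γ) := ⟨MD q γ, rfl⟩

/-- conjugation of elements of `Γ₀(q)` -/
def up (q : ℕ) [NeZero q] (g : SL(2,ℤ)) (hg : (q : ℤ) ∣ g 1 0) : SL(2,ℤ) :=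
  ⟨!![g 0 0, q * g 0 1; g 1 0 / q, g 1 1], by
    rw [Matrix.det_fin_two_of]
    have h := det_entries g
    obtain ⟨c, hc⟩ := hg
    have hq : (q : ℤ) ≠ 0 := by exact_mod_cast NeZero.ne q
    rw [hc, Int.mul_ediv_cancel_left _ hq]
    rw [hc] at h
    linear_combination h⟩

lemma up_10 {g : SL(2,ℤ)} (hg : (q : ℤ) ∣ g 1 0) : q * (up q g hg) 1 0 = g 1 0 := by
  obtain ⟨c, hc⟩ := hg
  have hq : (q : ℤ) ≠ 0 := by exact_mod_cast NeZero.ne q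
  have : (up q g ⟨c, hc⟩) 1 0 = g 1 0 / q := rfl
  rw [this, hc, Int.mul_ediv_cancel_left _ hq]

/-- conjugation of elements with upper right entry divisible by `q` -/
def dn (q : ℕ) [NeZero q] (g : SL(2,ℤ)) (hg : (q : ℤ) ∣ g 0 1) : SL(2,ℤ) :=
  ⟨!![g 0 0, g 0 1 / q; q * g 1 0, g 1 1], by
    rw [Matrix.det_fin_two_of]
    have h := det_entries g
    obtain ⟨c, hc⟩ := hg
    have hq : (q : ℤ) ≠ 0 := by exact_mod_cast NeZero.ne q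
    rw [hc, Int.mul_ediv_cancel_left _ hq]
    rw [hc] at h
    linear_combination h⟩

lemma dn_01 {g : SL(2,ℤ)} (hg : (q : ℤ) ∣ g 0 1) : q * (dn q g hg) 0 1 = g 0 1 := by
  obtain ⟨c, hc⟩ := hg
  have hq : (q : ℤ) ≠ 0 := by exact_mod_cast NeZero.ne q
  have : (dn q g ⟨c, hc⟩) 0 1 = g 0 1 / q := rfl
  rw [this, hc, Int.mul_ediv_cancel_left _ hq]

lemma gl_coe (g : SL(2,ℤ)) : ((gl g : GL (Fin 2) ℝ) : Matrix (Fin 2) (Fin 2) ℝ) =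
    (g : Matrix (Fin 2) (Fin 2) ℤ).map (Int.cast : ℤ → ℝ) := by
  ext i j
  simp [gl]

lemma AD_mul_gl (γ g : SL(2,ℤ)) (hg : (q : ℤ) ∣ g 1 0) :
    AD q γ * gl g = AD q (γ * up q g hg) := by
  apply Units.ext
  rw [Units.val_mul, coe_AD, coe_AD, gl_coe]
  have h : (q : ℝ) * (((up q g hg) 1 0 : ℤ) : ℝ) = ((g 1 0 : ℤ) : ℝ) := by exact_mod_cast up_10 hg
  have h00 : (up q g hg) 0 0 = g 0 0 := rfl
  have h01 : (up q g hg) 0 1 = q * g 0 1 := rfl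
  have h11 : (up q g hg) 1 1 = g 1 1 := rfl
  ext i j
  fin_cases i <;> fin_cases j <;>
    simp [MD, Matrix.mul_apply, Fin.sum_univ_two, Matrix.SpecialLinearGroup.coe_mul, h00, h01, h11]
  · linear_combination -((γ 0 1 : ℤ) : ℝ) * h
  · ring
  · linear_combination -((q : ℝ) * ((γ 1 1 : ℤ) : ℝ)) * h
  · ring

lemma gl_mul_AD (γ g : SL(2,ℤ)) (hg : (q : ℤ) ∣ g 0 1) :
    gl (dn q g hg) * AD q γ = AD q (g * γ) := by
  apply Units.ext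
  rw [Units.val_mul, coe_AD, coe_AD, gl_coe]
  have h : (q : ℝ) * (((dn q g hg) 0 1 : ℤ) : ℝ) = ((g 0 1 : ℤ) : ℝ) := by exact_mod_cast dn_01 hg
  have h00 : (dn q g hg) 0 0 = g 0 0 := rfl
  have h10 : (dn q g hg) 1 0 = q * g 1 0 := rfl
  have h11 : (dn q g hg) 1 1 = g 1 1 := rfl
  ext i j
  fin_cases i <;> fin_cases j <;>
    simp [MD, Matrix.mul_apply, Fin.sum_univ_two, Matrix.SpecialLinearGroup.coe_mul, h00, h10, h11]
  · linear_combination ((q : ℝ) * ((γ 1 0 : ℤ) : ℝ)) * h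
  · linear_combination (((γ 1 1 : ℤ) : ℝ)) * h
  · ring
  · ring

section Fam

variable (q) (N : ℕ)

/-- the representative of a residue class -/
def cv (c : (ZMod q)ˣ) : ℤ := ((c : ZMod q).val : ℤ)

lemma cv_cast (c : (ZMod q)ˣ) : ((cv q c : ℤ) : ZMod q) = c := by
  rw [cv, Int.cast_natCast, ZMod.natCast_zmod_val]

/-- `m ≡ 0 (N)`, `m (1 - s) c ≡ 1 (q)` -/
def mS (s : ZMod q) (c : (ZMod q)ˣ) : ℤ :=
  (N : ℤ) * ((((N : ZMod q) * ((1 - s) * c))⁻¹).val : ℤ)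

lemma mS_cast [hq : Fact q.Prime] (hN : ¬ q ∣ N) {s : ZMod q} (hs : s ≠ 1) (c : (ZMod q)ˣ) :
    ((mS q N s c : ℤ) : ZMod q) * ((1 - s) * c) = 1 := by
  have h1 : (N : ZMod q) ≠ 0 := fun h => hN ((ZMod.natCast_eq_zero_iff _ _).1 h)
  have h2 : (1 - s : ZMod q) ≠ 0 := sub_ne_zero.2 hs.symm
  have h3 : (c : ZMod q) ≠ 0 := c.ne_zero
  rw [mS]
  push_cast
  rw [ZMod.natCast_zmod_val]
  field_simp

lemma dvd_mS (s : ZMod q) (c : (ZMod q)ˣ) : (N : ℤ) ∣ mS q N s c := ⟨_, rfl⟩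

/-- `γ_{s,c} ∈ Γ₀(N)` with `γ (c) = 0`, `γ (s c) = ∞` modulo `q` -/
def gS (s : ZMod q) (c : (ZMod q)ˣ) : SL(2,ℤ) :=
  mkSL 1 (-cv q c) (mS q N s c) (1 - mS q N s c * cv q c) (by ring)

lemma gS_00 (s : ZMod q) (c : (ZMod q)ˣ) : gS q N s c 0 0 = 1 := rfl
lemma gS_01 (s : ZMod q) (c : (ZMod q)ˣ) : gS q N s c 0 1 = -cv q c := rfl
lemma gS_10 (s : ZMod q) (c : (ZMod q)ˣ) : gS q N s c 1 0 = mS q N s c := rfl
lemma gS_11 (s : ZMod q) (c : (ZMod q)ˣ) : gS q N s c 1 1 = 1 - mS q N s c * cv q c := rfl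

lemma inv_00 (g : SL(2,ℤ)) : g⁻¹ 0 0 = g 1 1 := by
  rw [Matrix.SpecialLinearGroup.SL2_inv_expl]; rfl
lemma inv_01 (g : SL(2,ℤ)) : g⁻¹ 0 1 = -g 0 1 := by
  rw [Matrix.SpecialLinearGroup.SL2_inv_expl]; rfl
lemma inv_10 (g : SL(2,ℤ)) : g⁻¹ 1 0 = -g 1 0 := by
  rw [Matrix.SpecialLinearGroup.SL2_inv_expl]; rfl
lemma inv_11 (g : SL(2,ℤ)) : g⁻¹ 1 1 = g 0 0 := by
  rw [Matrix.SpecialLinearGroup.SL2_inv_expl]; rfl

lemma mul_ent (g h : SL(2,ℤ)) (i j : Fin 2) : (g * h) i j = g i 0 * h 0 j + g i 1 * h 1 j := by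
  rw [Matrix.SpecialLinearGroup.coe_mul, Matrix.mul_apply, Fin.sum_univ_two]

/-- `γ γ'⁻¹` lies in the group of the split torus -/
lemma torus_of {γ γ' : SL(2,ℤ)} (hN : (N : ℤ) ∣ γ 1 0) (hN' : (N : ℤ) ∣ γ' 1 0)
    (hcop : Nat.Coprime q N)
    (h1 : ((γ 0 0 : ℤ) : ZMod q) * (γ' 0 1 : ℤ) = (γ' 0 0 : ℤ) * (γ 0 1 : ℤ))
    (h2 : ((γ 1 0 : ℤ) : ZMod q) * (γ' 1 1 : ℤ) = (γ' 1 0 : ℤ) * (γ 1 1 : ℤ)) :
    (q : ℤ) ∣ (γ * γ'⁻¹) 0 1 ∧ ((q * N : ℕ) : ℤ) ∣ (γ * γ'⁻¹) 1 0 := by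
  have e1 : (γ * γ'⁻¹) 0 1 = γ' 0 0 * γ 0 1 - γ 0 0 * γ' 0 1 := by
    rw [mul_ent, inv_01, inv_11]; ring
  have e2 : (γ * γ'⁻¹) 1 0 = γ 1 0 * γ' 1 1 - γ' 1 0 * γ 1 1 := by
    rw [mul_ent, inv_00, inv_10]; ring
  constructor
  · rw [e1, ← ZMod.intCast_zmod_eq_zero_iff_dvd]
    push_cast
    rw [h1, sub_self]
  · rw [e2]
    push_cast
    refine IsCoprime.mul_dvd (Nat.isCoprime_iff_coprime.2 hcop) ?_ ?_
    · rw [← ZMod.intCast_zmod_eq_zero_iff_dvd]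
      push_cast
      rw [h2, sub_self]
    · exact dvd_sub (Dvd.dvd.mul_right hN _) (Dvd.dvd.mul_right hN' _)

/-- elements of the torus group come from `Γ₀(q²N)` -/
lemma dn_mem {t : SL(2,ℤ)} (h1 : (q : ℤ) ∣ t 0 1) (h2 : ((q * N : ℕ) : ℤ) ∣ t 1 0) :
    dn q t h1 ∈ Gamma0 (q ^ 2 * N) := by
  rw [Gamma0_mem, ZMod.intCast_zmod_eq_zero_iff_dvd]
  change _ ∣ (q : ℤ) * t 1 0
  obtain ⟨c, hc⟩ := h2
  rw [hc]
  push_cast
  exact ⟨c, by ring⟩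

lemma dvd_of_mem {g : SL(2,ℤ)} (hg : g ∈ Gamma0 (q ^ 2 * N)) :
    ∃ κ : ℤ, g 1 0 = q ^ 2 * N * κ := by
  rw [Gamma0_mem, ZMod.intCast_zmod_eq_zero_iff_dvd] at hg
  obtain ⟨κ, h⟩ := hg
  exact ⟨κ, by rw [h]; push_cast; ring⟩

lemma q_dvd_of_mem {g : SL(2,ℤ)} (hg : g ∈ Gamma0 (q ^ 2 * N)) : (q : ℤ) ∣ g 1 0 := by
  obtain ⟨κ, h⟩ := dvd_of_mem q N hg
  exact ⟨q * N * κ, by rw [h]; ring⟩

lemma up_10_mem {g : SL(2,ℤ)} (hg : g ∈ Gamma0 (q ^ 2 * N)) :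
    ∃ κ : ℤ, (up q g (q_dvd_of_mem q N hg)) 1 0 = q * N * κ := by
  obtain ⟨κ, h⟩ := dvd_of_mem q N hg
  refine ⟨κ, ?_⟩
  have h1 := up_10 (q_dvd_of_mem q N hg)
  have hq : (q : ℤ) ≠ 0 := by exact_mod_cast NeZero.ne q
  apply mul_left_cancel₀ hq
  rw [h1, h]; ring

/-- transport of `Γ₀(q²N)` to the torus group preserves products on representatives -/
lemma tr_gen (hcop : Nat.Coprime q N) {g : SL(2,ℤ)} (hg : g ∈ Gamma0 (q ^ 2 * N))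
    {γ γ' : SL(2,ℤ)} (hN : (N : ℤ) ∣ γ 1 0) (hN' : (N : ℤ) ∣ γ' 1 0)
    (h1 : ((γ 0 0 : ℤ) : ZMod q) * (g 0 0 : ℤ) * (γ' 0 1 : ℤ) =
      (γ' 0 0 : ℤ) * ((γ 0 1 : ℤ) * (g 1 1 : ℤ)))
    (h2 : ((γ 1 0 : ℤ) : ZMod q) * (g 0 0 : ℤ) * (γ' 1 1 : ℤ) =
      (γ' 1 0 : ℤ) * ((γ 1 1 : ℤ) * (g 1 1 : ℤ))) :
    ∃ g' ∈ Gamma0 (q ^ 2 * N), AD q γ * gl g = gl g' * AD q γ' := by
  obtain ⟨κ, hκ⟩ := up_10_mem q N hg
  have hq0 : ((q : ℤ) : ZMod q) = 0 := by rw [Int.cast_natCast, ZMod.natCast_self]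
  have e00 : (γ * up q g (q_dvd_of_mem q N hg)) 0 0 = γ 0 0 * g 0 0 + γ 0 1 * (q * N * κ) := by
    rw [mul_ent, hκ]; rfl
  have e01 : (γ * up q g (q_dvd_of_mem q N hg)) 0 1 = γ 0 0 * (q * g 0 1) + γ 0 1 * g 1 1 := by
    rw [mul_ent]; rfl
  have e10 : (γ * up q g (q_dvd_of_mem q N hg)) 1 0 = γ 1 0 * g 0 0 + γ 1 1 * (q * N * κ) := by
    rw [mul_ent, hκ]; rfl
  have e11 : (γ * up q g (q_dvd_of_mem q N hg)) 1 1 = γ 1 0 * (q * g 0 1) + γ 1 1 * g 1 1 := by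
    rw [mul_ent]; rfl
  obtain ⟨t1, t2⟩ := torus_of q N (γ := γ * up q g (q_dvd_of_mem q N hg)) (γ' := γ')
    (by
      rw [e10]
      exact dvd_add (Dvd.dvd.mul_right hN _) (Dvd.dvd.mul_left ⟨q * κ, by ring⟩ _))
    hN' hcop (by
      rw [e00, e01]
      push_cast
      simp only [ZMod.natCast_self]
      linear_combination h1) (by
      rw [e10, e11]
      push_cast
      simp only [ZMod.natCast_self]
      linear_combination h2)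
  refine ⟨dn q _ t1, dn_mem q N t1 t2, ?_⟩
  rw [AD_mul_gl _ _ (q_dvd_of_mem q N hg), gl_mul_AD, inv_mul_cancel_right]

lemma gS_dvd (s : ZMod q) (c : (ZMod q)ˣ) : (N : ℤ) ∣ gS q N s c 1 0 := dvd_mS q N s c

/-- **the Hecke family `R_s`** -/
def hfS [hq : Fact q.Prime] (hN : ¬ q ∣ N) (s : ZMod q) (hs : s ≠ 1) :
    HF (Gamma0 (q ^ 2 * N)) (ZMod q)ˣ where
  A c := AD q (gS q N s c)
  pos c := AD_pos _
  int c := AD_int _
  tr γ c := by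
    have hcop : Nat.Coprime q N := (Nat.Prime.coprime_iff_not_dvd hq.out).2 hN
    obtain ⟨κ, hκ⟩ := dvd_of_mem q N γ.2
    have hdet := det_entries (γ : SL(2,ℤ))
    have hdet' : (((γ : SL(2,ℤ)) 0 0 : ℤ) : ZMod q) * (((γ : SL(2,ℤ)) 1 1 : ℤ) : ZMod q) = 1 := by
      have := congrArg (Int.cast : ℤ → ZMod q) hdet
      rw [hκ] at this
      push_cast at this
      simp only [ZMod.natCast_self] at this
      linear_combination this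
    let d : (ZMod q)ˣ := ⟨(((γ : SL(2,ℤ)) 1 1 : ℤ) : ZMod q), (((γ : SL(2,ℤ)) 0 0 : ℤ) : ZMod q),
      by rw [mul_comm]; exact hdet', hdet'⟩
    have hd : (d : ZMod q) = (((γ : SL(2,ℤ)) 1 1 : ℤ) : ZMod q) := rfl
    obtain ⟨g', hg', e⟩ := tr_gen q N hcop γ.2 (gS_dvd q N s c) (gS_dvd q N s (c * d ^ 2))
      (by
        rw [gS_00, gS_00, gS_01, gS_01]
        push_cast
        rw [cv_cast, cv_cast, Units.val_mul, Units.val_pow_eq_pow_val, hd]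
        linear_combination (-(c : ZMod q) * (((γ : SL(2,ℤ)) 1 1 : ℤ) : ZMod q)) * hdet')
      (by
        have m1 := mS_cast q N hN hs c
        have m2 := mS_cast q N hN hs (c * d ^ 2)
        rw [gS_10, gS_10, gS_11, gS_11]
        push_cast
        rw [cv_cast, cv_cast]
        rw [Units.val_mul, Units.val_pow_eq_pow_val, hd] at m2 ⊢
        generalize ((mS q N s c : ℤ) : ZMod q) = m at m1 ⊢
        generalize ((mS q N s (c * d ^ 2) : ℤ) : ZMod q) = m' at m2 ⊢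
        generalize (((γ : SL(2,ℤ)) 1 1 : ℤ) : ZMod q) = D at m2 hdet' ⊢
        generalize (((γ : SL(2,ℤ)) 0 0 : ℤ) : ZMod q) = a at hdet' ⊢
        generalize (c : ZMod q) = x at m1 m2 ⊢
        linear_combination (-m * a) * m2 + (m' * D) * m1 - (s * m * m' * x * D) * hdet')
    exact ⟨⟨g', hg'⟩, _, e⟩
  uniq c c' g h := by
    have h1 := congrArg (fun B : GL (Fin 2) ℝ => (B : Matrix (Fin 2) (Fin 2) ℝ)) h
    simp only [Units.val_mul, coe_AD, gl_coe] at h1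
    have e00 := congrFun (congrFun h1 0) 0
    have e01 := congrFun (congrFun h1 0) 1
    simp only [MD, gS_00, gS_01, gS_10, gS_11, Matrix.map_apply, Matrix.mul_apply,
      Fin.sum_univ_two, Matrix.of_apply, Matrix.cons_val', Matrix.cons_val_zero,
      Matrix.cons_val_one] at e00 e01
    have f00 : (q : ℤ) * 1 = g 0 0 * (q * 1) + g 0 1 * (q ^ 2 * mS q N s c') := by
      exact_mod_cast e00
    have f01 : -cv q c = g 0 0 * (-cv q c') + g 0 1 * (q * (1 - mS q N s c' * cv q c')) := by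
      exact_mod_cast e01
    have hq0 : (q : ℤ) ≠ 0 := by exact_mod_cast NeZero.ne q
    have f00' : 1 = g 0 0 + g 0 1 * (q * mS q N s c') := by
      apply mul_left_cancel₀ hq0
      linear_combination f00
    have k00 := congrArg (Int.cast : ℤ → ZMod q) f00'
    have k01 := congrArg (Int.cast : ℤ → ZMod q) f01
    push_cast at k00 k01
    simp only [ZMod.natCast_self] at k00 k01
    rw [cv_cast, cv_cast] at k01
    apply Units.ext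
    have k2 : ((g 0 0 : ℤ) : ZMod q) = 1 := by linear_combination -k00
    rw [k2] at k01
    linear_combination -k01

end Fam

end Fermat.Agent.RT6
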