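import Fermat.Agent.RT6.L5

/-!
# (A3), links: the involution on symbols
-/

set_option autoImplicit false
set_option maxHeartbeats 400000

noncomputable section

namespace Fermat.Agent.RT6

open Matrix CongruenceSubgroup Fermat.Agent.AnJac Fermat.Agent.RT
open Fermat.Agent.TWCoh hiding GQ
open scoped MatrixGroups OnePoint

/-- `x ↦ -x` -/
def Jm : GL (Fin 2) ℚ := mk (-1) 0 0 1 (by norm_num)

theorem ent_Jm : Ent Jm (-1) 0 0 1 := ent_mk _ _ _ _ _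

theorem Jm_smul (x : P1) : Jm • x = x.map (-·) := by
  have h00 : (Jm : Matrix (Fin 2) (Fin 2) ℚ) 0 0 = -1 := congrFun (congrFun ent_Jm 0) 0
  have h01 : (Jm : Matrix (Fin 2) (Fin 2) ℚ) 0 1 = 0 := congrFun (congrFun ent_Jm 0) 1
  have h10 : (Jm : Matrix (Fin 2) (Fin 2) ℚ) 1 0 = 0 := congrFun (congrFun ent_Jm 1) 0
  have h11 : (Jm : Matrix (Fin 2) (Fin 2) ℚ) 1 1 = 1 := congrFun (congrFun ent_Jm 1) 1
  induction x using OnePoint.rec with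
  | infty =>
    rw [OnePoint.smul_infty_eq_ite, if_pos h10]
    rfl
  | coe x =>
    rw [OnePoint.smul_some_eq_ite, h00, h01, h10, h11]
    rw [if_neg (by norm_num)]
    show _ = ((-x : ℚ) : OnePoint ℚ)
    congr 1
    ring

/-- conjugation by `Jm` -/
def gi (γ : SL(2, ℤ)) : SL(2, ℤ) := ⟨!![γ 0 0, -γ 0 1; -γ 1 0, γ 1 1], by
  rw [Matrix.det_fin_two_of]
  linear_combination det_SL γ⟩

theorem Jm_mul_io (γ : SL(2, ℤ)) : Jm * io γ = io (gi γ) * Jm := by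
  refine ((ent_Jm.mul (ent_io γ))).ext (((ent_io (gi γ)).mul ent_Jm).congr ?_ ?_ ?_ ?_)
  · show ((γ 0 0 : ℤ) : ℚ) * -1 + ((-γ 0 1 : ℤ) : ℚ) * 0 = _
    ring
  · show ((γ 0 0 : ℤ) : ℚ) * 0 + ((-γ 0 1 : ℤ) : ℚ) * 1 = _
    push_cast; ring
  · show ((-γ 1 0 : ℤ) : ℚ) * -1 + ((γ 1 1 : ℤ) : ℚ) * 0 = _
    push_cast; ring
  · show ((-γ 1 0 : ℤ) : ℚ) * 0 + ((γ 1 1 : ℤ) : ℚ) * 1 = _
    ring

theorem gi_mem {M : ℕ} {γ : SL(2, ℤ)} (hγ : γ ∈ Gamma0 M) : gi γ ∈ Gamma0 M := by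
  rw [mem_Gamma0] at hγ ⊢
  show (M : ℤ) ∣ -γ 1 0
  exact (dvd_neg).2 hγ

theorem Jm_mul_Up {l : ℕ} (hl : l ≠ 0) (k : ℤ) : Jm * Up l hl k = Up l hl (-k) * Jm := by
  refine ((ent_Jm.mul (ent_Up l hl k)).congr ?_ ?_ ?_ ?_).ext
    ((ent_Up l hl (-k)).mul ent_Jm) <;> push_cast <;> ring

theorem Jm_mul_Di {l : ℕ} (hl : l ≠ 0) : Jm * Di l hl = Di l hl * Jm := by
  refine ((ent_Jm.mul (ent_Di l hl)).congr ?_ ?_ ?_ ?_).ext
    ((ent_Di l hl).mul ent_Jm) <;> push_cast <;> ring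

section

variable {K : Type} [Field K]

/-- the involution on symbols -/
def jy (y : P1 → P1 → K) : P1 → P1 → K := fun x z => y (Jm • x) (Jm • z)

theorem CK.jy {M : ℕ} {y : P1 → P1 → K} (h : CK M y) : CK M (jy y) := by
  refine ⟨fun x z w => h.add _ _ _, fun γ hγ x z => ?_⟩
  rw [one_smul]
  show y (Jm • io γ • x) (Jm • io γ • z) = y (Jm • x) (Jm • z)
  rw [← mul_smul, ← mul_smul, Jm_mul_io, mul_smul, mul_smul, h.equi _ (gi_mem hγ), one_smul]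

theorem hm_jy {M : ℕ} {y : P1 → P1 → K} (h : CK M y) (h' : CK M (RT6.jy y)) (γ : SL(2, ℤ))
    (hγ : γ ∈ Gamma0 M) : hm h' (Additive.ofMul ⟨γ, hγ⟩) =
      hm h (Additive.ofMul ⟨gi γ, gi_mem hγ⟩) := by
  rw [hm_apply, hm_apply]
  show y (Jm • ∞) (Jm • io γ • ∞) = y ∞ (io (gi γ) • ∞)
  rw [← mul_smul, Jm_mul_io, mul_smul, Jm_smul]
  rfl

theorem TK_jy {y : P1 → P1 → K} (hy : TrInv y) {l : ℕ} (hl : l.Prime) :
    TK K hl (jy y) = jy (TK K hl y) := by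
  funext x z
  show TK K hl (jy y) x z = TK K hl y (Jm • x) (Jm • z)
  rw [TK, tk_apply, tk_apply, one_smul, one_smul, one_smul, one_smul]
  show Uop K K P1 l hl.ne_zero (jy y) x z + Bop K K P1 l hl.ne_zero (jy y) x z =
    Uop K K P1 l hl.ne_zero y (Jm • x) (Jm • z) + Bop K K P1 l hl.ne_zero y (Jm • x) (Jm • z)
  congr 1
  · rw [Uop_apply]
    show ∑ j ∈ Finset.range l, y (Jm • Up l hl.ne_zero (j : ℕ) • x)
      (Jm • Up l hl.ne_zero (j : ℕ) • z) = _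
    rw [← TrInv.sum_eq (Λ := K) hy hl.ne_zero (Finset.range l) (fun j : ℕ => -(j : ℤ)) ?_
      (Finset.card_range l) (Jm • x) (Jm • z)]
    · refine Finset.sum_congr rfl fun j _ => ?_
      rw [← mul_smul, ← mul_smul, Jm_mul_Up, mul_smul, mul_smul]
    · intro i hi j hj hij
      rw [Finset.mem_range] at hi hj
      have h1 : (i : ℤ) ≡ j [ZMOD l] := by
        have := hij.neg
        simpa using this
      exact Nat.ModEq.eq_of_lt_of_lt (Int.natCast_modEq_iff.1 h1) hi hj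
  · rw [Bop_apply, Bop_apply]
    show y (Jm • Di l hl.ne_zero • x) (Jm • Di l hl.ne_zero • z) = _
    rw [← mul_smul, ← mul_smul, Jm_mul_Di, mul_smul, mul_smul]

end

end Fermat.Agent.RT6
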