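import Fermat.Agent.RT6.Asm
import Fermat.Agent.RT6.L6
import Fermat.Agent.RT6.HFs

/-!
# (A3), links: from homomorphisms to symbols
-/

set_option autoImplicit false
set_option maxHeartbeats 400000
set_option linter.unusedSectionVars false
set_option linter.style.haveILetI false

noncomputable section

namespace Fermat.Agent.RT6.B4

open OnePoint Matrix CongruenceSubgroup Fermat.Agent.RT Fermat.Agent.AnJac
open Fermat.Agent.S43Glue Fermat.Agent.TWG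
open Fermat.Agent.TWCoh hiding GQ
open scoped MatrixGroups

local notation "Qbar" => AlgebraicClosure ℚ
local notation "GQ" => (AlgebraicClosure ℚ ≃ₐ[ℚ] AlgebraicClosure ℚ)

section Red

variable {q : ℕ} [Fact q.Prime]

lemma red_ent (γ : SL(2, ℤ)) (i j : Fin 2) :
    (red q γ : Matrix (Fin 2) (Fin 2) (ZMod q)) i j = ((γ i j : ℤ) : ZMod q) := rfl

lemma cross_zero {γ : SL(2, ℤ)} {c : ZMod q}
    (h : red q γ • ((0 : ZMod q) : Pq q) = ((c : ZMod q) : Pq q)) :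
    ((γ 0 1 : ℤ) : ZMod q) = c * ((γ 1 1 : ℤ) : ZMod q) := by
  rw [OnePoint.smul_some_eq_ite] at h
  split_ifs at h with h1
  · exact absurd h (OnePoint.infty_ne_coe c)
  · have h2 := OnePoint.coe_injective h
    rw [mul_zero, mul_zero, zero_add, zero_add] at h2
    rw [mul_zero, zero_add] at h1
    rw [div_eq_iff h1] at h2
    exact h2

lemma cross_infty {γ : SL(2, ℤ)} {c : ZMod q}
    (h : red q γ • (∞ : Pq q) = ((c : ZMod q) : Pq q)) :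
    ((γ 0 0 : ℤ) : ZMod q) = c * ((γ 1 0 : ℤ) : ZMod q) := by
  rw [OnePoint.smul_infty_eq_ite] at h
  split_ifs at h with h1
  · exact absurd h (OnePoint.infty_ne_coe c)
  · have h2 := OnePoint.coe_injective h
    rw [div_eq_iff h1] at h2
    exact h2

end Red

section Mat

variable {q : ℕ} [NeZero q]

lemma det_entQ (γ : SL(2, ℤ)) :
    ((γ 0 0 : ℤ) : ℚ) * ((γ 1 1 : ℤ) : ℚ) - ((γ 0 1 : ℤ) : ℚ) * ((γ 1 0 : ℤ) : ℚ) = 1 := by
  exact_mod_cast det_entries γ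

/-- the rational matrix -/
def Bq (q : ℕ) [NeZero q] (γ : SL(2, ℤ)) : GL (Fin 2) ℚ :=
  TWCoh.mk (q * (γ 0 0 : ℤ)) ((γ 0 1 : ℤ)) (q ^ 2 * (γ 1 0 : ℤ)) (q * (γ 1 1 : ℤ)) (by
    have h : (q : ℚ) ≠ 0 := by exact_mod_cast NeZero.ne q
    have e : (q : ℚ) * ((γ 0 0 : ℤ) : ℚ) * (q * ((γ 1 1 : ℤ) : ℚ)) -
        ((γ 0 1 : ℤ) : ℚ) * (q ^ 2 * ((γ 1 0 : ℤ) : ℚ)) = q ^ 2 := by
      linear_combination (q : ℚ) ^ 2 * det_entQ γ
    rw [e]
    positivity)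

lemma ent_Bq (γ : SL(2, ℤ)) : Ent (Bq q γ) (q * (γ 0 0 : ℤ)) ((γ 0 1 : ℤ))
    (q ^ 2 * (γ 1 0 : ℤ)) (q * (γ 1 1 : ℤ)) := ent_mk _ _ _ _ _

lemma toR_Bq (γ : SL(2, ℤ)) : TWCoh.toR (Bq q γ) = AD q γ := by
  apply Units.ext
  ext i j
  fin_cases i <;> fin_cases j <;> simp [TWCoh.toR, Bq, TWCoh.mk, AD, MD]

lemma Bq_eq (γ : SL(2, ℤ)) (x : P1) :
    Bq q γ • x = Dq q (NeZero.ne q) • io γ • (Dq q (NeZero.ne q))⁻¹ • x := by
  have h : (q : ℚ) ≠ 0 := by exact_mod_cast NeZero.ne q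
  -- `Bq γ * Dq = (q) * Dq * io γ`
  obtain ⟨w, rfl⟩ : ∃ w, Dq q (NeZero.ne q) • w = x := ⟨(Dq q (NeZero.ne q))⁻¹ • x, smul_inv_smul _ _⟩
  rw [inv_smul_smul, ← mul_smul, ← mul_smul]
  have e : Bq q γ * Dq q (NeZero.ne q) =
      TWCoh.mk q 0 0 q (by simpa using h) * (Dq q (NeZero.ne q) * io γ) := by
    refine (((ent_Bq γ).mul (ent_Dq q (NeZero.ne q))).congr ?_ ?_ ?_ ?_).ext
      ((ent_mk _ _ _ _ _).mul ((ent_Dq q (NeZero.ne q)).mul (ent_io γ))) <;> ring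
  rw [e, mul_smul]
  have hsc : ∀ z : P1, TWCoh.mk (q : ℚ) 0 0 q (by simpa using h) • z = z := by
    intro z
    induction z using OnePoint.rec with
    | infty =>
      rw [OnePoint.smul_infty_eq_ite]
      exact if_pos rfl
    | coe z =>
      rw [OnePoint.smul_some_eq_ite]
      have e1 : (TWCoh.mk (q : ℚ) 0 0 q (by simpa using h) : Matrix (Fin 2) (Fin 2) ℚ) 1 0 = 0 := rfl
      have e2 : (TWCoh.mk (q : ℚ) 0 0 q (by simpa using h) : Matrix (Fin 2) (Fin 2) ℚ) 1 1 = q := rfl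
      have e3 : (TWCoh.mk (q : ℚ) 0 0 q (by simpa using h) : Matrix (Fin 2) (Fin 2) ℚ) 0 0 = q := rfl
      have e4 : (TWCoh.mk (q : ℚ) 0 0 q (by simpa using h) : Matrix (Fin 2) (Fin 2) ℚ) 0 1 = 0 := rfl
      rw [e1, e2, e3, e4, if_neg (by simpa using h)]
      congr 1
      rw [zero_mul, zero_add, add_zero, mul_div_assoc, mul_comm, div_mul_cancel₀ _ h]
  exact hsc _

end Mat

section Torus

variable {q : ℕ} [Fact q.Prime] [NeZero q] {N : ℕ} {K : Type} [Field K]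

lemma Dq_io_dn {t : SL(2, ℤ)} (h : (q : ℤ) ∣ t 0 1) :
    Dq q (NeZero.ne q) * io t = io (dn q t h) * Dq q (NeZero.ne q) := by
  have h1 := dn_01 h
  have h2 : (q : ℚ) * (((dn q t h) 0 1 : ℤ) : ℚ) = ((t 0 1 : ℤ) : ℚ) := by exact_mod_cast h1
  have h00 : (dn q t h) 0 0 = t 0 0 := rfl
  have h10 : (dn q t h) 1 0 = q * t 1 0 := rfl
  have h11 : (dn q t h) 1 1 = t 1 1 := rfl
  refine (((ent_Dq q (NeZero.ne q)).mul (ent_io t)).congr ?_ ?_ ?_ ?_).ext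
    ((ent_io _).mul (ent_Dq q (NeZero.ne q)))
  · rw [h00]; ring
  · rw [h00]; linear_combination -h2
  · rw [h10, h11]; push_cast; ring
  · rw [h10, h11]; push_cast; ring

/-- independence of the choice of the representatives -/
lemma term_eq (hqN : ¬ q ∣ N) {y : P1 → P1 → K} (hy : CK (q ^ 2 * N) y) {s : ZMod q}
    (hs : s ≠ 1) (c : (ZMod q)ˣ) {γ : SL(2, ℤ)} (hγ : γ ∈ Gamma0 N)
    (h0 : red q γ • ((0 : ZMod q) : Pq q) = ((c : ZMod q) : Pq q))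
    (h1 : red q γ • (∞ : Pq q) = ((s * c : ZMod q) : Pq q)) (x z : P1) :
    y (Dq q (NeZero.ne q) • (io γ)⁻¹ • (Dq q (NeZero.ne q))⁻¹ • x)
      (Dq q (NeZero.ne q) • (io γ)⁻¹ • (Dq q (NeZero.ne q))⁻¹ • z) =
    y (Bq q (gS q N s c) • x) (Bq q (gS q N s c) • z) := by
  have k0 := cross_zero h0
  have k1 := cross_infty h1
  have hm := mS_cast q N hqN hs c
  have hN : (N : ℤ) ∣ (γ⁻¹) 1 0 := by
    rw [inv_10]
    rw [Gamma0_mem, ZMod.intCast_zmod_eq_zero_iff_dvd] at hγ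
    exact hγ.neg_right
  obtain ⟨t1, t2⟩ := torus_of q N (γ := γ⁻¹) (γ' := gS q N s c) hN (gS_dvd q N s c)
    ((Nat.Prime.coprime_iff_not_dvd (Fact.out : q.Prime)).2 hqN) (by
      rw [inv_00, inv_01, gS_00, gS_01]
      push_cast
      rw [cv_cast]
      linear_combination k0) (by
      rw [inv_10, inv_11, gS_10, gS_11]
      push_cast
      rw [cv_cast]
      linear_combination (-((γ 1 0 : ℤ) : ZMod q)) * (-hm) - ((mS q N s c : ℤ) : ZMod q) * k1)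
  have e : (io γ)⁻¹ = io (γ⁻¹ * (gS q N s c)⁻¹) * io (gS q N s c) := by
    rw [← map_mul, inv_mul_cancel_right, map_inv]
  have key : ∀ w : P1, Dq q (NeZero.ne q) • (io γ)⁻¹ • (Dq q (NeZero.ne q))⁻¹ • w =
      io (dn q _ t1) • Bq q (gS q N s c) • w := by
    intro w
    rw [e, mul_smul, ← mul_smul (Dq q (NeZero.ne q)), Dq_io_dn t1, mul_smul, Bq_eq]
  rw [key, key, hy.equi _ (dn_mem q N t1 t2), one_smul]

end Torus

section Main

variable {p q : ℕ} [Fact p.Prime] [Fact q.Prime] [NeZero q] {N : ℕ} [NeZero (q ^ 2 * N)]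
  {S : Set ℕ}

/-- **from homomorphisms to symbols** -/
theorem exists_y (hqN : ¬ q ∣ N) (hS : S.Finite) (hpS : p ∈ S)
    (hNS : ∀ r : ℕ, r.Prime → r ∣ q * N → r ∈ S)
    {ρ : GQ →* Matrix (Fin 2) (Fin 2) (ZMod p)} (hfin : FinLevel ρ)
    (hdet : ∀ g, (ρ g).det = chiK p (ZMod p) g)
    (hspan : Submodule.span (ZMod p) (Set.range ρ) = ⊤)
    {v : Additive (Gamma0 (q ^ 2 * N)) →+ ZMod p} (hv : v ∈ NHA (Gamma0 (q ^ 2 * N)) (ZMod p))
    (hv0 : v ≠ 0)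
    (hT : ∀ l : ℕ, l.Prime → l ∉ S → ∀ A : ValuationSubring Qbar, A.LiesOverPrime l →
      ∀ τ : GQ, A.IsFrobeniusAt τ l → MT (q ^ 2 * N) (ZMod p) l v = (ρ τ).trace • v)
    (hR : ∀ (s t : ZMod q) (hs : s ≠ 1) (ht : t ≠ 1), s ≠ 0 → t ≠ 0 →
      (hfS q N hqN s hs).T v = (hfS q N hqN t ht).T v)
    (hι : ∀ (γ : SL(2, ℤ)) (hγ : γ ∈ Gamma0 (q ^ 2 * N)),
      v (Additive.ofMul ⟨gi γ, gi_mem hγ⟩) = v (Additive.ofMul ⟨γ, hγ⟩)) :
    ∃ y ∈ SZ (ZMod p) (q ^ 2 * N), y ≠ 0 ∧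
      (∀ (l : ℕ) (hl : l.Prime), l ∉ S → ∀ A : ValuationSubring Qbar, A.LiesOverPrime l →
        ∀ τ : GQ, A.IsFrobeniusAt τ l →
          Tz (ZMod p) hl y = fun a b => (ρ τ).trace * y a b) ∧
      (∀ x z : P1, y (x.map (-·)) (z.map (-·)) = y x z) ∧ Asm.CrSym (q := q) N y := by
  classical
  have hMS : ∀ r : ℕ, r.Prime → r ∣ (q ^ 2 * N) → r ∈ S := by
    intro r hr hrM
    refine hNS r hr ?_
    rcases hr.dvd_mul.mp hrM with h | h
    · exact (hr.dvd_of_dvd_pow h).mul_right N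
    · exact h.mul_left q
  -- the eigenvalues
  have hex : ∀ l : ℕ, ∃ t : ZMod p, l.Prime → l ∉ S → ∀ A : ValuationSubring Qbar,
      A.LiesOverPrime l → ∀ τ : GQ, A.IsFrobeniusAt τ l → (ρ τ).trace = t := by
    intro l
    by_cases hl : l.Prime ∧ l ∉ S
    · obtain ⟨A₀, hA₀, τ₀, hτ₀⟩ := Frob.exists_place_frobenius hl.1
      refine ⟨(ρ τ₀).trace, fun _ _ A hA τ hτ => ?_⟩
      have h1 := hT l hl.1 hl.2 A hA τ hτ
      rw [hT l hl.1 hl.2 A₀ hA₀ τ₀ hτ₀] at h1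
      obtain ⟨a, ha⟩ : ∃ a, v a ≠ 0 := by
        by_contra hcon
        push Not at hcon
        exact hv0 (AddMonoidHom.ext hcon)
      have h2 := congrArg (fun f : Additive (Gamma0 (q ^ 2 * N)) →+ ZMod p => f a) h1
      exact (mul_right_cancel₀ ha h2).symm
    · exact ⟨0, fun h1 h2 => absurd ⟨h1, h2⟩ hl⟩
  choose a ha using hex
  have hT' : ∀ l : ℕ, l.Prime → l ∉ S → MT (q ^ 2 * N) (ZMod p) l v = a l • v := by
    intro l hl hlS
    obtain ⟨A₀, hA₀, τ₀, hτ₀⟩ := Frob.exists_place_frobenius hl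
    rw [hT l hl hlS A₀ hA₀ τ₀ hτ₀, ha l hl hlS A₀ hA₀ τ₀ hτ₀]
  obtain ⟨l₀, hl₀, hl₀S, A₀, hA₀, τ₀, hτ₀, hl₀1, hne⟩ :=
    exists_noneis hfin hdet hspan hS hpS (NeZero.ne (q ^ 2 * N))
  have hne' : a l₀ ≠ 1 + l₀ := by
    rw [← ha l₀ hl₀ hl₀S A₀ hA₀ τ₀ hτ₀]; exact hne
  obtain ⟨y, hy, hyv, hyT⟩ := exists_eigensymbol hMS hv hT' hl₀ hl₀1 hl₀S hne'
  have hqM : q ^ 2 ∣ (q ^ 2 * N) := dvd_mul_right _ _
  -- the operators
  have hB : ∀ (s : ZMod q) (hs : s ≠ 1) (c : (ZMod q)ˣ),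
      TWCoh.toR (Bq q (gS q N s c)) = (hfS q N hqN s hs).A c := fun s hs c => toR_Bq _
  have hBc : ∀ (s : ZMod q) (hs : s ≠ 1), CK (q ^ 2 * N) (opB (fun c => Bq q (gS q N s c)) y) :=
    fun s hs => CK.opB (F := hfS q N hqN s hs) (hB s hs) hy
  have hBT : ∀ (s : ZMod q) (hs : s ≠ 1), TK (ZMod p) hl₀ (opB (fun c => Bq q (gS q N s c)) y) =
      a l₀ • opB (fun c => Bq q (gS q N s c)) y := by
    intro s hs
    rw [TK_opB_comm (NeZero.ne q) (g := fun c => (gS q N s c)⁻¹) (fun c x => by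
      rw [map_inv, inv_inv]; exact Bq_eq _ _) hqM hy (hBc s hs) hl₀ hl₀1, hyT l₀ hl₀ hl₀S]
    funext x z
    exact (Finset.mul_sum _ _ _).symm
  have hBe : ∀ (s t : ZMod q) (hs : s ≠ 1) (ht : t ≠ 1), s ≠ 0 → t ≠ 0 →
      opB (fun c => Bq q (gS q N s c)) y = opB (fun c => Bq q (gS q N t c)) y := by
    intro s t hs ht hs0 ht0
    refine sym_unique (hBc s hs) (hBc t ht) ?_ hl₀ hl₀1 hne' (hBT s hs) (hBT t ht)
    rw [hm_opB (F := hfS q N hqN s hs) (hB s hs) hy (hBc s hs),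
      hm_opB (F := hfS q N hqN t ht) (hB t ht) hy (hBc t ht), hyv]
    exact hR s t hs ht hs0 ht0
  -- the sum
  have hsum : ∀ (s : ZMod q), s ≠ 0 → ∀ (hs : s ≠ 1) (γ : ZMod q → SL(2, ℤ)),
      (∀ c ≠ 0, γ c ∈ Gamma0 N ∧ red q (γ c) • ((0 : ZMod q) : Pq q) = ((c : ZMod q) : Pq q) ∧
        red q (γ c) • (∞ : Pq q) = ((s * c : ZMod q) : Pq q)) → ∀ x z : P1,
      ∑ c ∈ Finset.univ.erase (0 : ZMod q),
        y (Dq q (NeZero.ne q) • (io (γ c))⁻¹ • (Dq q (NeZero.ne q))⁻¹ • x)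
          (Dq q (NeZero.ne q) • (io (γ c))⁻¹ • (Dq q (NeZero.ne q))⁻¹ • z) =
      opB (fun c => Bq q (gS q N s c)) y x z := by
    intro s hs0 hs γ hγ x z
    symm
    refine Finset.sum_bij' (fun (c : (ZMod q)ˣ) _ => (c : ZMod q))
      (fun c hc => Units.mk0 c (Finset.ne_of_mem_erase hc)) ?_ ?_ ?_ ?_ ?_
    · intro c _
      exact Finset.mem_erase.2 ⟨c.ne_zero, Finset.mem_univ _⟩
    · intro c _
      exact Finset.mem_univ _
    · intro c _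
      exact Units.ext rfl
    · intro c _
      rfl
    · intro c _
      obtain ⟨h1, h2, h3⟩ := hγ c c.ne_zero
      exact (term_eq hqN hy hs c h1 h2 h3 x z).symm
  refine ⟨y, ck_iff.2 hy, ?_, ?_, ?_, ?_⟩
  · rintro rfl
    apply hv0
    rw [← hyv]
    refine AddMonoidHom.ext fun γ' => ?_
    change hm hy (Additive.ofMul (Additive.toMul γ')) = 0
    rw [hm_apply]
    rfl
  · intro l hl hlS A hA τ hτ
    rw [← TK_eq, hyT l hl hlS, ha l hl hlS A hA τ hτ]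
    rfl
  · have h1 : jy y = y := by
      refine sym_unique hy.jy hy ?_ hl₀ hl₀1 hne' ?_ (hyT l₀ hl₀ hl₀S)
      · refine AddMonoidHom.ext fun γ' => ?_
        change hm hy.jy (Additive.ofMul (Additive.toMul γ')) = hm hy (Additive.ofMul
          (Additive.toMul γ'))
        generalize Additive.toMul γ' = γ
        obtain ⟨γ, hγ⟩ := γ
        rw [hm_jy hy hy.jy γ hγ, hyv]
        exact hι γ hγ
      · rw [TK_jy hy.tinv, hyT l₀ hl₀ hl₀S]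
        rfl
    intro x z
    have h2 := congrFun (congrFun h1 x) z
    rw [← Jm_smul, ← Jm_smul]
    exact h2
  · intro s t hs0 hs1 ht0 ht1 γ γ' hγ hγ' x z
    refine (hsum s hs0 hs1 γ hγ x z).trans ?_
    rw [hBe s t hs1 ht1 hs0 ht0]
    exact (hsum t ht0 ht1 γ' hγ' x z).symm

end Main

end Fermat.Agent.RT6.B4
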