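import Fermat.Agent.RT6.G5a
import Fermat.Agent.CarayolY.Main

/-!
# (G5): from the situation over the inertia field to classes
-/

set_option autoImplicit false
set_option linter.style.haveILetI false
set_option linter.unusedSectionVars false
set_option maxHeartbeats 2000000
set_option synthInstance.maxHeartbeats 400000

noncomputable section

namespace Fermat.Agent.RT6.G5

open ModularCurve Fermat.Agent.ModFun Fermat.Agent.AnJac AlgebraicCurve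
open Fermat.Agent.HeckeQ Matrix Fermat.Agent.Curves Module Fermat.Agent.Carayol
open Fermat.Agent.CarayolX CongruenceSubgroup

local notation "Qb" => AlgebraicClosure ℚ
local notation "GQ" => Qb ≃ₐ[ℚ] Qb

section Desc

variable {L : ℕ} [NeZero L] {A : ValuationSubring Qb}

/-- the local condition over the inertia field -/
theorem local_K0 {m : ℕ} {w₀ : FF (K0 A) L} (hw₀0 : w₀ ≠ 0)
    (hord : ∀ v : Place Qb (FF Qb L), (m : ℤ) ∣ v.ord (bc (algebraMap (K0 A) Qb) L w₀))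
    (V : ValuationSubring (FF (K0 A) L)) (hV : ∀ c : K0 A, constF (K0 A) L c ∈ V) (htop : V ≠ ⊤) :
    ∃ y : FF (K0 A) L, y ≠ 0 ∧ w₀ * y ^ m ∈ V ∧ (w₀ * y ^ m)⁻¹ ∈ V := by
  haveI : IsFunctionField Qb (FF Qb L) :=
    isFunctionField_fullC Qb L (by exact_mod_cast NeZero.ne L)
  refine CarayolY.exists_local (algebraMap (K0 A) Qb)
    (fun c => (Algebra.IsIntegral.isIntegral (R := K0 A) c : _))
    {σ | ∃ τ ∈ A.inertiaSubgroupIn ℚ, (τ : Qb ≃+* Qb) = σ} ?_ ?_ V hV htop hw₀0 hord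
  · rintro c _ ⟨τ, hτ, rfl⟩
    exact (mem_K0 A).mp c.2 τ hτ
  · intro x hx
    exact CarayolY.exists_descent A x fun σ hσ => hx _ ⟨σ, hσ, rfl⟩

/-- descent of inertia invariant classes -/
theorem desc_K0 {m : ℕ} (hm : m ≠ 0) {u : FF Qb L} (hu : u ≠ 0)
    (hord : ∀ v : Place Qb (FF Qb L), (m : ℤ) ∣ v.ord u)
    (hinv : ∀ σ ∈ A.inertiaSubgroupIn ℚ, ∃ g : FF Qb L, g ≠ 0 ∧
      galF L (σ : Qb ≃+* Qb) u = u * g ^ m) :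
    ∃ (g : FF Qb L) (w₀ : FF (K0 A) L), g ≠ 0 ∧ w₀ ≠ 0 ∧
      bc (algebraMap (K0 A) Qb) L w₀ = u * g ^ m := by
  haveI : IsFunctionField Qb (FF Qb L) :=
    isFunctionField_fullC Qb L (by exact_mod_cast NeZero.ne L)
  obtain ⟨m', g, hg, hcan⟩ := AnJac.exists_isCan hm hu hord
  set w : FF Qb L := u * g ^ m with hw
  have hwfix : ∀ σ ∈ A.inertiaSubgroupIn ℚ, galF L (σ : Qb ≃+* Qb) w = w := by
    intro σ hσ
    obtain ⟨h, hh0, hh⟩ := hinv σ hσ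
    have hσg : galF L (σ : Qb ≃+* Qb) g ≠ 0 := (map_ne_zero _).mpr hg
    refine hcan.unique hm (hcan.galF _) (g := h * galF L (σ : Qb ≃+* Qb) g * g⁻¹)
      (mul_ne_zero (mul_ne_zero hh0 hσg) (inv_ne_zero hg)) ?_
    rw [hw, map_mul, map_pow, hh, mul_pow, mul_pow, inv_pow]
    field_simp
  obtain ⟨w₀, hw₀⟩ := CarayolY.exists_descent A w hwfix
  refine ⟨g, w₀, hg, ?_, hw₀⟩
  rintro rfl
  rw [map_zero] at hw₀
  exact hcan.ne hw₀.symm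

theorem ord_mul_dvd {m : ℕ} {a b : FF Qb L} (ha : a ≠ 0) (hb : b ≠ 0)
    (h1 : ∀ v : Place Qb (FF Qb L), (m : ℤ) ∣ v.ord a)
    (h2 : ∀ v : Place Qb (FF Qb L), (m : ℤ) ∣ v.ord b) (v : Place Qb (FF Qb L)) :
    (m : ℤ) ∣ v.ord (a * b) := by
  rw [v.ord_mul ha hb]
  exact dvd_add (h1 v) (h2 v)

theorem ord_inv_dvd {m : ℕ} {a : FF Qb L}
    (h1 : ∀ v : Place Qb (FF Qb L), (m : ℤ) ∣ v.ord a) (v : Place Qb (FF Qb L)) :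
    (m : ℤ) ∣ v.ord a⁻¹ := by
  rw [v.ord_inv]
  exact (h1 v).neg_right

theorem ord_pow_dvd {m : ℕ} {a : FF Qb L} (k : ℕ)
    (h1 : ∀ v : Place Qb (FF Qb L), (m : ℤ) ∣ v.ord a) (v : Place Qb (FF Qb L)) :
    (m : ℤ) ∣ v.ord (a ^ k) := by
  rw [ord_pow]
  exact Dvd.dvd.mul_left (h1 v) _

end Desc

/-- the power argument over the algebraic closure -/
theorem exists_root {q : ℕ} [hq : Fact q.Prime] [NeZero q] {M' : ℕ} [NeZero M']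
    [NeZero (q ^ 2 * M')] (HA : StarA) (HB : StarB) {A : ValuationSubring Qb}
    (hA : A.LiesOverPrime q) (hM : Nat.Coprime q M') (h4 : q ≠ 2 → 4 ∣ M') (h9 : q = 2 → 9 ∣ M')
    {H₁ H₂ H₃ H₄ : FF Qb (q ^ 2 * M') →* FF Qb (q ^ 2 * M')}
    (o₁ : Op (q ^ 2 * M') (q ^ 2 * M') H₁) (o₂ : Op (q ^ 2 * M') (q ^ 2 * M') H₂)
    (o₃ : Op (q ^ 2 * M') (q ^ 2 * M') H₃) (o₄ : Op (q ^ 2 * M') (q ^ 2 * M') H₄)
    {R₁ R₂ R₃ R₄ : (mkSit hq.out hA hM h4 h9).F →* (mkSit hq.out hA hM h4 h9).F}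
    (r₁ : IsRS (mkSit hq.out hA hM h4 h9) R₁) (r₂ : IsRS (mkSit hq.out hA hM h4 h9) R₂)
    (r₃ : IsRS (mkSit hq.out hA hM h4 h9) R₃) (r₄ : IsRS (mkSit hq.out hA hM h4 h9) R₄)
    (e₁ : ∀ u, bc (algebraMap (K0 A) Qb) (q ^ 2 * M') (R₁ u) =
      H₁ (bc (algebraMap (K0 A) Qb) (q ^ 2 * M') u))
    (e₂ : ∀ u, bc (algebraMap (K0 A) Qb) (q ^ 2 * M') (R₂ u) =
      H₂ (bc (algebraMap (K0 A) Qb) (q ^ 2 * M') u))
    (e₃ : ∀ u, bc (algebraMap (K0 A) Qb) (q ^ 2 * M') (R₃ u) =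
      H₃ (bc (algebraMap (K0 A) Qb) (q ^ 2 * M') u))
    (e₄ : ∀ u, bc (algebraMap (K0 A) Qb) (q ^ 2 * M') (R₄ u) =
      H₄ (bc (algebraMap (K0 A) Qb) (q ^ 2 * M') u))
    {m : ℕ} (hm : 0 < m) (hqm : Nat.Coprime q m) {w₀ : FF (K0 A) (q ^ 2 * M')} (hw₀ : w₀ ≠ 0)
    (hord : ∀ v : Place Qb (FF Qb (q ^ 2 * M')),
      (m : ℤ) ∣ v.ord (bc (algebraMap (K0 A) Qb) (q ^ 2 * M') w₀)) :
    ∃ z : FF Qb (q ^ 2 * M'), z ≠ 0 ∧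
      H₁ (H₃ (bc (algebraMap (K0 A) Qb) (q ^ 2 * M') w₀) *
        (H₄ (bc (algebraMap (K0 A) Qb) (q ^ 2 * M') w₀))⁻¹) *
      H₂ (H₃ (bc (algebraMap (K0 A) Qb) (q ^ 2 * M') w₀) *
        (H₄ (bc (algebraMap (K0 A) Qb) (q ^ 2 * M') w₀))⁻¹) ^ (m - 1) = z ^ m := by
  have hG : (mkSit hq.out hA hM h4 h9).HasGal := mkSit_hasGal hq.out hA hM h4 h9
  have hP : (mkSit hq.out hA hM h4 h9).HasParam := mkSit_hasParam hq.out hA hM h4 h9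
  set β := bc (algebraMap (K0 A) Qb) (q ^ 2 * M') with hβ
  have hβ0 : ∀ {x : FF (K0 A) (q ^ 2 * M')}, x ≠ 0 → β x ≠ 0 := fun hx => (map_ne_zero _).mpr hx
  obtain ⟨v, hv⟩ : ∃ v : FF (K0 A) (q ^ 2 * M'), v = R₃ w₀ * (R₄ w₀)⁻¹ := ⟨_, rfl⟩
  have hR3 : R₃ w₀ ≠ 0 := r₃.ne _ hw₀
  have hR4 : R₄ w₀ ≠ 0 := r₄.ne _ hw₀
  have hv0 : v ≠ 0 := hv ▸ mul_ne_zero hR3 (inv_ne_zero hR4)
  have hβv : β v = H₃ (β w₀) * (H₄ (β w₀))⁻¹ := by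
    rw [hv]
    exact (map_mul β _ _).trans (congrArg₂ (· * ·) (e₃ w₀) ((map_inv₀ β _).trans
      (congrArg (·⁻¹) (e₄ w₀))))
  have hordv : ∀ P : Place Qb (FF Qb (q ^ 2 * M')), (m : ℤ) ∣ P.ord (β v) := by
    intro P
    rw [hβv]
    refine ord_mul_dvd (o₃.ne_zero _ (hβ0 hw₀)) (inv_ne_zero (o₄.ne_zero _ (hβ0 hw₀)))
      (o₃.ord m _ (hβ0 hw₀) hord) (ord_inv_dvd (o₄.ord m _ (hβ0 hw₀) hord)) P
  have hβU : β (R₁ v * R₂ v ^ (m - 1)) = H₁ (β v) * H₂ (β v) ^ (m - 1) := by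
    exact (map_mul β _ _).trans (congrArg₂ (· * ·) (e₁ v) ((map_pow β _ _).trans
      (congrArg (· ^ (m - 1)) (e₂ v))))
  have hU0 : R₁ v * R₂ v ^ (m - 1) ≠ 0 :=
    mul_ne_zero (r₁.ne _ hv0) (pow_ne_zero _ (r₂.ne _ hv0))
  have hordU : ∀ P : Place Qb (FF Qb (q ^ 2 * M')), (m : ℤ) ∣ P.ord (β (R₁ v * R₂ v ^ (m - 1))) := by
    intro P
    rw [hβU]
    exact ord_mul_dvd (o₁.ne_zero _ (hβ0 hv0)) (pow_ne_zero _ (o₂.ne_zero _ (hβ0 hv0)))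
      (o₁.ord m _ (hβ0 hv0) hordv) (ord_pow_dvd _ (o₂.ord m _ (hβ0 hv0) hordv)) P
  obtain ⟨c, hc, x', hx', e⟩ := HB (mkSit hq.out hA hM h4 h9) hG hP R₁ R₂ r₁ r₂ m hm hqm v
    (hv ▸ HA (mkSit hq.out hA hM h4 h9) hG hP R₃ R₄ r₃ r₄ w₀ hw₀)
    (fun V hV ht => local_K0 hv0 hordv V hV ht)
    (fun V hV ht => local_K0 hU0 hordU V hV ht)
  have hψc : algebraMap (K0 A) Qb c ≠ 0 := (map_ne_zero _).mpr hc
  obtain ⟨d, hd⟩ := IsAlgClosed.exists_pow_nat_eq (algebraMap (K0 A) Qb c) hm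
  have hd0 : d ≠ 0 := by
    rintro rfl
    rw [zero_pow hm.ne'] at hd
    exact hψc hd.symm
  have e' := congrArg β e
  have e2 : β (algebraMap (K0 A) (FF (K0 A) (q ^ 2 * M')) c) =
      algebraMap Qb (FF Qb (q ^ 2 * M')) d ^ m := by
    rw [← map_pow, hd]
    exact bc_const _ c
  have hd0' : algebraMap Qb (FF Qb (q ^ 2 * M')) d ≠ 0 := (map_ne_zero _).mpr hd0
  refine ⟨algebraMap Qb (FF Qb (q ^ 2 * M')) d * β x', mul_ne_zero hd0' (hβ0 hx'), ?_⟩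
  rw [← hβv, ← hβU, e', map_mul, map_pow, mul_pow]
  congr 1

/-- **(G)** -/
theorem geoSt (HA : StarA) (HB : StarB) (HR : RSSt) : GeoSt := by
  intro q N p hq _ _ hp hN hqp hq2 A hA s t s' t' hs ht hs' ht' hs0 ht0 hs0' ht0' x hx
  haveI : NeZero N := ⟨by
    rintro rfl
    exact NeZero.ne (q ^ 2 * 0) (mul_zero _)⟩
  have hm : p ^ 1 ≠ 0 := KSys.pn0 p 1
  haveI : NeZero (4 * N) := ⟨mul_ne_zero (by norm_num) (NeZero.ne N)⟩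
  haveI : NeZero (q ^ 2 * (4 * N)) :=
    ⟨mul_ne_zero (pow_ne_zero 2 (NeZero.ne q)) (NeZero.ne (4 * N))⟩
  have hM'q : ¬ q ∣ 4 * N := by
    intro h
    rcases (Nat.Prime.dvd_mul hq.out).mp h with h | h
    · have h5 : q ∣ 2 ^ 2 := h
      exact hq2 ((Nat.prime_dvd_prime_iff_eq hq.out Nat.prime_two).mp (hq.out.dvd_of_dvd_pow h5))
    · exact hN h
  have hcop : Nat.Coprime q (4 * N) := (Nat.Prime.coprime_iff_not_dvd hq.out).2 hM'q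
  have h : q ^ 2 * N ∣ q ^ 2 * (4 * N) := Nat.mul_dvd_mul_left _ (Dvd.intro_left 4 rfl)
  have h4 : q ≠ 2 → 4 ∣ 4 * N := fun _ => dvd_mul_right _ _
  have h9 : q = 2 → 9 ∣ 4 * N := fun h => absurd h hq2
  obtain ⟨Q₁, o₁, c₁, l₁, k₁⟩ := HR q s hs hs0
  obtain ⟨Q₂, o₂, c₂, l₂, k₂⟩ := HR q t ht ht0
  obtain ⟨Q₃, o₃, c₃, l₃, k₃⟩ := HR q s' hs' hs0'
  obtain ⟨Q₄, o₄, c₄, l₄, k₄⟩ := HR q t' ht' ht0'
  obtain ⟨R₁, r₁, e₁⟩ := k₁ (4 * N) hM'q A hA hcop h4 h9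
  obtain ⟨R₂, r₂, e₂⟩ := k₂ (4 * N) hM'q A hA hcop h4 h9
  obtain ⟨R₃, r₃, e₃⟩ := k₃ (4 * N) hM'q A hA hcop h4 h9
  obtain ⟨R₄, r₄, e₄⟩ := k₄ (4 * N) hM'q A hA hcop h4 h9
  obtain ⟨u, hu⟩ := (KQ (q ^ 2 * N)).exists_cls (bL (q ^ 2 * N)) hm x
  have hu0 : u ≠ 0 := hu.ne_zero
  have hord : ∀ v : Place Qb (FF Qb (q ^ 2 * N)), ((p ^ 1 : ℕ) : ℤ) ∣ v.ord u := by
    obtain ⟨φ, h4, -⟩ := hu
    exact fun v => ClX.dvd_ord AnJac.ιQ h4 v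
  have hgal : ∀ σ ∈ A.inertiaSubgroupIn ℚ, ∃ g : FF Qb (q ^ 2 * N), g ≠ 0 ∧
      galF (q ^ 2 * N) (σ : Qb ≃+* Qb) u = u * g ^ (p ^ 1) := by
    intro σ hσ
    have h4 := hu.act hm σ
    rw [hx σ hσ] at h4
    exact h4.exists_pow hm hu
  obtain ⟨g, w₀, hg, hw₀, hbc⟩ := desc_K0 (L := q ^ 2 * (4 * N)) (A := A) hm
    (u := inc Qb h u) ((map_ne_zero _).mpr hu0) (ord_incA h hord) (fun σ hσ => by
      obtain ⟨g, hg, e1⟩ := hgal σ hσ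
      refine ⟨inc Qb h g, (map_ne_zero _).mpr hg, ?_⟩
      rw [← (op_inc h).gal, e1, map_mul, map_pow])
  have hordw : ∀ v : Place Qb (FF Qb (q ^ 2 * (4 * N))),
      ((p ^ 1 : ℕ) : ℤ) ∣ v.ord (bc (algebraMap (K0 A) Qb) (q ^ 2 * (4 * N)) w₀) := by
    intro v
    rw [hbc]
    refine ord_mul_dvd ((map_ne_zero _).mpr hu0) (pow_ne_zero _ hg) (ord_incA h hord) ?_ v
    intro v
    rw [ord_pow]
    exact dvd_mul_right _ _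
  obtain ⟨z, hz0, hz⟩ := exists_root HA HB hA hcop h4 h9 (o₁ (4 * N) hM'q) (o₂ (4 * N) hM'q)
    (o₃ (4 * N) hM'q) (o₄ (4 * N) hM'q) r₁ r₂ r₃ r₄ e₁ e₂ e₃ e₄ (Nat.pos_of_ne_zero hm)
    (Nat.Coprime.pow_right 1 ((Nat.coprime_primes hq.out hp.out).2 hqp)) hw₀ hordw
  -- the functions at level `q²N`
  set V : FF Qb (q ^ 2 * N) := Q₃ N hN u * (Q₄ N hN u)⁻¹ with hV
  set U : FF Qb (q ^ 2 * N) := Q₁ N hN V * Q₂ N hN V ^ (p ^ 1 - 1) with hU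
  have hincV : inc Qb h V = Q₃ (4 * N) hM'q (inc Qb h u) * (Q₄ (4 * N) hM'q (inc Qb h u))⁻¹ := by
    rw [hV, map_mul, map_inv₀, l₃ N (4 * N) hN hM'q h, l₄ N (4 * N) hN hM'q h]
  have hincU : inc Qb h U = Q₁ (4 * N) hM'q (inc Qb h V) *
      Q₂ (4 * N) hM'q (inc Qb h V) ^ (p ^ 1 - 1) := by
    rw [hU, map_mul, map_pow, l₁ N (4 * N) hN hM'q h, l₂ N (4 * N) hN hM'q h]
  set k : FF Qb (q ^ 2 * (4 * N)) := Q₃ (4 * N) hM'q g * (Q₄ (4 * N) hM'q g)⁻¹ with hk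
  have hk0 : k ≠ 0 := mul_ne_zero ((o₃ (4 * N) hM'q).ne_zero _ hg)
    (inv_ne_zero ((o₄ (4 * N) hM'q).ne_zero _ hg))
  have hbv : Q₃ (4 * N) hM'q (bc (algebraMap (K0 A) Qb) (q ^ 2 * (4 * N)) w₀) *
      (Q₄ (4 * N) hM'q (bc (algebraMap (K0 A) Qb) (q ^ 2 * (4 * N)) w₀))⁻¹ =
      inc Qb h V * k ^ (p ^ 1) := by
    rw [hbc, map_mul, map_mul, map_pow, map_pow, hincV, hk, mul_inv, mul_pow, inv_pow]
    ring
  rw [hbv, map_mul (Q₁ (4 * N) hM'q) (inc Qb h V) (k ^ (p ^ 1)),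
    map_mul (Q₂ (4 * N) hM'q) (inc Qb h V) (k ^ (p ^ 1)),
    map_pow (Q₁ (4 * N) hM'q) k, map_pow (Q₂ (4 * N) hM'q) k] at hz
  set K := Q₁ (4 * N) hM'q k * Q₂ (4 * N) hM'q k ^ (p ^ 1 - 1) with hK
  have hK0 : K ≠ 0 := mul_ne_zero ((o₁ (4 * N) hM'q).ne_zero _ hk0)
    (pow_ne_zero _ ((o₂ (4 * N) hM'q).ne_zero _ hk0))
  have hUz : inc Qb h U = (z * K⁻¹) ^ (p ^ 1) := by
    have e1 : inc Qb h U * K ^ (p ^ 1) = z ^ (p ^ 1) := by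
      rw [← hz, hincU, hK, mul_pow, mul_pow, ← pow_mul, ← pow_mul, mul_comm (p ^ 1 - 1) (p ^ 1)]
      ring
    rw [mul_pow, inv_pow, ← e1, mul_inv_cancel_right₀ (pow_ne_zero _ hK0)]
  -- classes
  have hc3 := hu.compat (c₃ N hN (p ^ 1) hm)
  have hc4 := hu.compat (c₄ N hN (p ^ 1) hm)
  have hcV := hc3.mul (hc4.inv hm)
  have hc1 := hcV.compat (c₁ N hN (p ^ 1) hm)
  have hc2 := hcV.compat (c₂ N hN (p ^ 1) hm)
  have hcU := hc1.mul (hc2.npow hm (p ^ 1 - 1))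
  have hfin := cls_inj (bL (q ^ 2 * N)) h (fun g hg => by
    have e : q ^ 2 * (4 * N) = 4 * (q ^ 2 * N) := by ring
    rw [e]; exact hg) hm hcU (mul_ne_zero hz0 (inv_ne_zero hK0)) hUz
  have hp1 : 1 ≤ p ^ 1 := Nat.one_le_iff_ne_zero.mpr hm
  have hneg : ∀ y : Fin (finrank ℤ (Lat (q ^ 2 * N))) → ZMod (p ^ 1), (p ^ 1 - 1) • y = -y := by
    intro y
    rw [eq_neg_iff_add_eq_zero, ← succ_nsmul, Nat.sub_add_cancel hp1]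
    funext i
    rw [Pi.smul_apply, nsmul_eq_mul, ZMod.natCast_self, zero_mul]
    rfl
  rw [hneg] at hfin
  rw [DS, DS, map_sub, map_sub, Matrix.sub_mulVec, Matrix.sub_mulVec _ _ x, sub_eq_add_neg,
    sub_eq_add_neg (rmod (p ^ 1) _ *ᵥ x)]
  exact hfin

/-- **(G5)** -/
theorem g5 : G5St := fun HA HB HR => ⟨geoSt HA HB HR, geoGal HR⟩

end Fermat.Agent.RT6.G5
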