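import Fermat.Agent.RT6.Ev5
import Fermat.Agent.RT6.GeoSt

/-!
# The operators `R_s` over the algebraic numbers
-/

set_option autoImplicit false
set_option linter.unusedSectionVars false
set_option linter.style.haveILetI false

noncomputable section

namespace Fermat.Agent.RT6

open ModularCurve Fermat.Agent.ModFun Fermat.Agent.AnJac AlgebraicCurve
open Fermat.Agent.HeckeQ Matrix Fermat.Agent.Curves Module Fermat.Agent.Carayol
open Fermat.Agent.CarayolX CongruenceSubgroup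
open Fermat.Agent.GoodRed

local notation "Qb" => AlgebraicClosure ℚ

theorem exists_b0 {q : ℕ} (hq : q.Prime) {K : Type*} [Field K] {ζ : Kˣ}
    (hζ : IsPrimitiveRoot (ζ : K) q) (ι : K →+* ℂ) :
    ∃ b₀ : ℤ, ι ζ = Complex.exp (2 * Real.pi * Complex.I * (b₀ / q)) ∧ (b₀ : ZMod q) ≠ 0 := by
  have hζι : IsPrimitiveRoot (ι ζ) q := hζ.map_of_injective ι.injective
  obtain ⟨b, hbq, hbcop, hb⟩ := (Complex.isPrimitiveRoot_iff (ι ζ) q hq.pos.ne').1 hζι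
  refine ⟨b, by rw [← hb]; push_cast; rfl, ?_⟩
  rw [Int.cast_natCast]
  intro h
  have h1 := (ZMod.natCast_eq_zero_iff b q).1 h
  have := Nat.dvd_gcd h1 (dvd_refl q)
  rw [Nat.Coprime.gcd_eq_one hbcop] at this
  exact hq.one_lt.ne' (Nat.dvd_one.1 this)

theorem prim_pow {q : ℕ} (hq : q.Prime) {K : Type*} [Field K] {ζ : Kˣ}
    (hζ : IsPrimitiveRoot (ζ : K) q) {i : ℕ} (hi : ¬ q ∣ i) :
    IsPrimitiveRoot ((ζ ^ i : Kˣ) : K) q := by
  rw [Units.val_pow_eq_pow_val]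
  exact hζ.pow_of_coprime i ((Nat.Prime.coprime_iff_not_dvd hq).2 hi).symm

section

variable (q : ℕ) [hq : Fact q.Prime] [NeZero q]

/-- the primitive root -/
def zQ : Qbˣ := (exists_root hq.out).choose

lemma zQ_prim : IsPrimitiveRoot (zQ q : Qb) q := (exists_root hq.out).choose_spec

variable (N : ℕ) [NeZero N] [NeZero (q ^ 2 * N)] (hN : ¬ q ∣ N)

include hN in
theorem exists_sgQ (i : ℕ) (hi : ¬ q ∣ i) :
    ∃ s : FF Qb (q ^ 2 * N) →+* LaurentSeries Qb, IsSig (zQ q ^ i) s := by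
  obtain ⟨s', h1, h2, h3⟩ := exists_sig (K := Qb) (M' := N) Carayol.ιQ hq.out (cop_of hN)
    (zQ q ^ i) (prim_pow hq.out (zQ_prim q) hi)
  exact ⟨s', h1, h2, h3⟩

open Classical in
/-- the embeddings -/
def sgQ (i : ℕ) : FF Qb (q ^ 2 * N) →+* LaurentSeries Qb :=
  if hi : ¬ q ∣ i then (exists_sgQ q N hN i hi).choose
  else algebraMap (FF Qb (q ^ 2 * N)) (LaurentSeries Qb)

lemma sgQ_spec (i : ℕ) (hi : ¬ q ∣ i) : IsSig (zQ q ^ i) (sgQ q N hN i) := by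
  rw [sgQ, dif_pos hi]
  exact (exists_sgQ q N hN i hi).choose_spec

variable (s : ZMod q) (hs : s ≠ 1)

include hs in
theorem RQ_mem (u : FF Qb (q ^ 2 * N)) :
    RK s (zQ q) (sgQ q N hN) u ∈ FF Qb (q ^ 2 * N) := by
  obtain ⟨b₀, hb, h0⟩ := exists_b0 hq.out (zQ_prim q) Carayol.ιQ
  exact RK_mem s hs (zQ q) (sgQ q N hN) (sgQ_spec q N hN) Carayol.ιQ hb h0 u hN

/-- **the operator `R_s`** -/
def RQ : FF Qb (q ^ 2 * N) →* FF Qb (q ^ 2 * N) where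
  toFun u := ⟨RK s (zQ q) (sgQ q N hN) u, RQ_mem q N hN s hs u⟩
  map_one' := Subtype.ext (RK_one s (zQ q) (sgQ q N hN))
  map_mul' u v := Subtype.ext (RK_mul s (zQ q) (sgQ q N hN) u v)

lemma RQ_coe (u : FF Qb (q ^ 2 * N)) :
    ((RQ q N hN s hs u : FF Qb (q ^ 2 * N)) : LaurentSeries Qb) =
      RK s (zQ q) (sgQ q N hN) u := rfl

lemma RQ_RC (ι : Qb →+* ℂ) (u : FF Qb (q ^ 2 * N)) :
    coeffMap ι (RQ q N hN s hs u : FF Qb (q ^ 2 * N)) = RC hN s (bc ι _ u) := by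
  obtain ⟨b₀, hb, h0⟩ := exists_b0 hq.out (zQ_prim q) ι
  exact coeffMap_RK hN s hs (zQ q) (sgQ q N hN) (sgQ_spec q N hN) ι hb h0 u

lemma RQ_ne {u : FF Qb (q ^ 2 * N)} (hu : u ≠ 0) : RQ q N hN s hs u ≠ 0 := fun h =>
  RK_ne s (zQ q) (sgQ q N hN) hu (congrArg Subtype.val h)

/-- compatibility with the Galois action -/
lemma RQ_gal (σ : Qb ≃+* Qb) (u : FF Qb (q ^ 2 * N)) :
    RQ q N hN s hs (galF _ σ u) = galF _ σ (RQ q N hN s hs u) := by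
  apply Subtype.ext
  apply coeffMap_injective (f := Carayol.ιQ) Carayol.ιQ.injective
  rw [RQ_RC, coe_galF]
  have h1 : coeffMap Carayol.ιQ (coeffMap (σ : Qb →+* Qb)
      (RQ q N hN s hs u : FF Qb (q ^ 2 * N))) =
      coeffMap (Carayol.ιQ.comp (σ : Qb →+* Qb)) (RQ q N hN s hs u : FF Qb (q ^ 2 * N)) := by
    rw [coeffMap_coeffMap]
  rw [h1, RQ_RC]
  congr 1

end

/-- (R1), orders -/
def R1St : Prop :=
  ∀ (q : ℕ) [hq : Fact q.Prime] [NeZero q] (s : ZMod q) (hs : s ≠ 1)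
    (N : ℕ) [NeZero N] [NeZero (q ^ 2 * N)] (hN : ¬ q ∣ N) (n : ℕ)
    (u : FF Qb (q ^ 2 * N)), u ≠ 0 → (∀ v : Place Qb (FF Qb (q ^ 2 * N)), (n : ℤ) ∣ v.ord u) →
    ∀ v : Place Qb (FF Qb (q ^ 2 * N)), (n : ℤ) ∣ v.ord (RQ q N hN s hs u)

/-- (R2) -/
def R2St : Prop :=
  ∀ (q : ℕ) [hq : Fact q.Prime] [NeZero q] (s : ZMod q) (hs : s ≠ 1)
    (N : ℕ) [NeZero N] [NeZero (q ^ 2 * N)] (hN : ¬ q ∣ N) (n : ℕ), n ≠ 0 →
      (KQ (q ^ 2 * N)).Compat n (LS q N hN s hs) (RQ q N hN s hs)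

/-- (R4) -/
def R4St : Prop :=
  ∀ (q : ℕ) [hq : Fact q.Prime] [NeZero q] (s : ZMod q) (hs : s ≠ 1)
    (N : ℕ) [NeZero N] [NeZero (q ^ 2 * N)] (hN : ¬ q ∣ N) (A : ValuationSubring Qb),
    ∃ R : FF (K0 A) (q ^ 2 * N) →* FF (K0 A) (q ^ 2 * N),
      ∀ u, bc (algebraMap (K0 A) Qb) (q ^ 2 * N) (R u) =
          RQ q N hN s hs (bc (algebraMap (K0 A) Qb) (q ^ 2 * N) u)

end Fermat.Agent.RT6
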