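import Fermat.Agent.RT6.R1
import Fermat.Agent.RT6.RQ

/-!
# (R1)
-/

set_option autoImplicit false

noncomputable section

namespace Fermat.Agent.RT6

open ModularCurve Fermat.Agent.ModFun Fermat.Agent.AnJac AlgebraicCurve
open Fermat.Agent.HeckeQ Matrix Fermat.Agent.Curves Module Fermat.Agent.Carayol
open Fermat.Agent.CarayolX CongruenceSubgroup

theorem opRQ {q : ℕ} [hq : Fact q.Prime] [NeZero q] (s : ZMod q) (hs : s ≠ 1)
    (N : ℕ) [NeZero N] [NeZero (q ^ 2 * N)] (hN : ¬ q ∣ N) :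
    Op (q ^ 2 * N) (q ^ 2 * N) (RQ q N hN s hs) :=
  op_of_RC hN s hs (RQ q N hN s hs) (fun _ hu => RQ_ne q N hN s hs hu)
    (fun ι u => RQ_RC q N hN s hs ι u)

theorem r1 : R1St := fun _ _ _ s hs N _ _ hN n u hu h v => (opRQ s hs N hN).ord n u hu h v

end Fermat.Agent.RT6
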