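import Fermat.Agent.RT6.R4
import Fermat.Agent.RT6.RQ

/-!
# (R4)
-/

set_option autoImplicit false
set_option linter.unusedSectionVars false
set_option linter.style.haveILetI false

noncomputable section

namespace Fermat.Agent.RT6

open ModularCurve Fermat.Agent.ModFun Fermat.Agent.AnJac AlgebraicCurve
open Fermat.Agent.HeckeQ Matrix Fermat.Agent.Curves Module Fermat.Agent.Carayol
open Fermat.Agent.CarayolX CongruenceSubgroup

local notation "Qb" => AlgebraicClosure ℚ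

/-- **(R4)** -/
theorem r4 : R4St := by
  intro q _ _ s hs N _ _ hN A
  have h1 : ∀ u : FF (K0 A) (q ^ 2 * N), ∃ y, bc (algebraMap (K0 A) Qb) (q ^ 2 * N) y =
      RQ q N hN s hs (bc (algebraMap (K0 A) Qb) (q ^ 2 * N) u) := by
    intro u
    refine CarayolY.exists_descent A _ fun σ hσ => ?_
    rw [← RQ_gal, R4.galF_bc u σ hσ]
  choose R hR using h1
  have hinj : Function.Injective (bc (algebraMap (K0 A) Qb) (q ^ 2 * N)) :=
    (bc (algebraMap (K0 A) Qb) (q ^ 2 * N)).injective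
  refine ⟨⟨⟨R, ?_⟩, ?_⟩, hR⟩
  · apply hinj
    rw [hR, map_one, map_one]
  · intro u v
    apply hinj
    change bc _ _ (R (u * v)) = bc _ _ (R u * R v)
    rw [hR, map_mul, map_mul, map_mul, hR, hR]

/-- the operator over `Qb`, through the embeddings of the situation -/
theorem RQ_coe_S {q N : ℕ} [hq : Fact q.Prime] [NeZero q] [NeZero N] [NeZero (q ^ 2 * N)]
    (hN : ¬ q ∣ N) {s : ZMod q} (hs : s ≠ 1) {ζ : Qbˣ} (hζ : IsPrimitiveRoot (ζ : Qb) q)
    {sg : ℕ → (FF Qb (q ^ 2 * N) →+* LaurentSeries Qb)}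
    (hsg : ∀ i, ¬ q ∣ i → IsSig (ζ ^ i) (sg i)) (u : FF Qb (q ^ 2 * N)) :
    ((RQ q N hN s hs u : FF Qb (q ^ 2 * N)) : LaurentSeries Qb) = RK s ζ sg u := by
  apply Fermat.Agent.AnJac.coeffMap_injective Carayol.ιQ
  obtain ⟨b₀, hb, h0⟩ := exists_b0 hq.out hζ Carayol.ιQ
  rw [RQ_RC, coeffMap_RK hN s hs ζ sg hsg Carayol.ιQ hb h0]

end Fermat.Agent.RT6
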