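import Fermat.Agent.RT6.StarB

/-!
# (G4), first part
-/

set_option autoImplicit false
set_option linter.unusedSectionVars false
set_option linter.style.haveILetI false

noncomputable section

namespace Fermat.Agent.RT6

open ModularCurve Fermat.Agent.GoodRed Fermat.Agent.ModFun Fermat.Agent.GenusX0
open Fermat.Agent.Models IsLocalRing Polynomial IntermediateField Fermat.Agent.SSMod
open AlgebraicCurve Fermat.Agent.Curves Fermat.Agent.Carayol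

namespace StA

theorem r_ne_of_pow {F 𝓕 : Type*} [Field F] [Field 𝓕] {C : Res F 𝓕} {n : F} {m : ℕ} (hm : 0 < m)
    (hi : C.r (n ^ m) ≠ 0) : C.r n ≠ 0 := by
  have h1 : n ∈ C.O := by
    rcases C.O.mem_or_inv_mem n with h | h
    · exact h
    · have h2 : n ^ m ∈ C.O := Res.mem_of_r_ne_zero hi
      have hn0 : n ≠ 0 := by
        rintro rfl
        rw [zero_pow hm.ne'] at hi
        exact hi Res.r_zero
      have h3 : n = n ^ m * n⁻¹ ^ (m - 1) := by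
        obtain ⟨k, rfl⟩ := Nat.exists_eq_succ_of_ne_zero hm.ne'
        rw [Nat.succ_sub_one, pow_succ', mul_assoc, ← mul_pow, mul_inv_cancel₀ hn0, one_pow,
          mul_one]
      rw [h3]; exact mul_mem h2 (pow_mem h _)
  intro h0
  rw [Res.r_pow h1, h0, zero_pow hm.ne'] at hi
  exact hi rfl

section

variable {k₀ K κ : Type} [Field k₀] [Field K] [Field κ] [Algebra k₀ K] {q M' : ℕ}
  [NeZero q] [NeZero M'] (S : Sit k₀ K κ q M')

/-- the uniformizer in the series -/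
abbrev Q (_ : Sit k₀ K κ q M') : LaurentSeries K :=
  algebraMap K (LaurentSeries K) (algebraMap k₀ K ((q : ℕ) : k₀))

theorem φ_ϖ (i : Fin 3) (n : ℤ) : S.φ i (S.ϖF ^ n) = Q S ^ n := by
  rw [map_zpow₀]
  congr 1
  exact S.φ_const i _

theorem tw_φ (a : ℕ) (i : Fin 3) (x : S.F) (n : ℤ) :
    twist (S.ζ ^ a) (S.φ i (x * S.ϖF ^ n)) = twist (S.ζ ^ a) (S.φ i x) * Q S ^ n := by
  rw [map_mul, map_mul, φ_ϖ, map_zpow₀, StB.twist_const]

theorem tw_sg (a : ℕ) (c : (ZMod q)ˣ) (x : S.F) (n : ℤ) :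
    twist (S.ζ ^ a) (S.sg (c : ZMod q).val (S.bK (x * S.ϖF ^ n))) =
      twist (S.ζ ^ a) (S.sg (c : ZMod q).val (S.bK x)) * Q S ^ n := by
  have hs := S.sg_spec (StB.not_dvd_unit S.hq c)
  have h1 : S.sg (c : ZMod q).val (S.bK S.ϖF) = Q S := by
    change S.sg (c : ZMod q).val (bc S.cK _ (algebraMap k₀ S.F _)) = _
    rw [bc_const]; exact hs.const _
  rw [map_mul, map_mul, map_mul, map_zpow₀, map_zpow₀, map_zpow₀, h1, StB.twist_const]

theorem O_iff {i : Fin 3} {x : S.F} {n : ℤ} {y : LaurentSeries κ} (hy : y ≠ 0)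
    (h : LR S.π (S.φ i x * Q S ^ (-n)) y) : S.O i x n := by
  have h1 : (S.P i).R (x * S.ϖF ^ (-n)) y := by
    rw [Sit.P_R, map_mul, φ_ϖ]; exact h
  have h2 := Sit.mem_C.2 (⟨y, h1⟩ : x * S.ϖF ^ (-n) ∈ (S.P i).O)
  have h3 := S.R_mem h1
  have h4 := Sit.C_r (z := (⟨y, h3⟩ : S.𝓕)) h1
  change (S.C i).r (x * S.ϖF ^ (-n)) ≠ 0
  rw [h4]
  intro h0
  exact hy (congrArg Subtype.val h0)

theorem O_spec {i : Fin 3} {x : S.F} {n : ℤ} (h : S.O i x n) :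
    ∃ y : LaurentSeries κ, y ≠ 0 ∧ (S.P i).R (x * S.ϖF ^ (-n)) y := by
  have h1 : (S.C i).r (x * S.ϖF ^ (-n)) ≠ 0 := h
  refine ⟨_, ?_, Sit.C_spec (Sit.mem_C.1 (Res.mem_of_r_ne_zero h1))⟩
  intro h0
  exact h1 (Subtype.ext h0)

theorem O_R0 (hG : S.HasGal) {R : S.F →* S.F} (hR : IsRS S R) {U : S.F} {n : ℤ}
    (h : S.O 1 U n) :
    S.O 0 (R U) ((q - 1 : ℕ) * n) ∧ S.O 2 (R U) ((q - 1 : ℕ) * n) := by
  obtain ⟨y, hy0, hy⟩ := O_spec S h
  have key : ∀ e : (ZMod q)ˣ → ℕ,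
      LR S.π ((∏ c : (ZMod q)ˣ, twist (S.ζ ^ e c) (S.sg (c : ZMod q).val (S.bK U))) *
        Q S ^ (-((q - 1 : ℕ) * n : ℤ))) (y ^ (q - 1)) := by
    intro e
    have h1 := StB.R_f S hG hy e
    have h2 : ∏ c : (ZMod q)ˣ, twist (S.ζ ^ e c) (S.sg (c : ZMod q).val
        (S.bK (U * S.ϖF ^ (-n)))) =
        (∏ c : (ZMod q)ˣ, twist (S.ζ ^ e c) (S.sg (c : ZMod q).val (S.bK U))) *
        Q S ^ (-((q - 1 : ℕ) * n : ℤ)) := by
      rw [Finset.prod_congr rfl fun c _ => tw_sg S (e c) c U (-n), Finset.prod_mul_distrib,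
        Finset.prod_const, Finset.card_univ, StB.card_units S.hq, ← zpow_natCast, ← zpow_mul]
      congr 2
      ring
    rwa [h2] at h1
  obtain ⟨e, he⟩ := hR.f0
  obtain ⟨e', he'⟩ := hR.f2
  refine ⟨O_iff S (pow_ne_zero (q - 1) hy0) ?_, O_iff S (pow_ne_zero (q - 1) hy0) ?_⟩
  · rw [he]; exact key e
  · rw [he']; exact key e'

theorem O_R1 (hG : S.HasGal) {R : S.F →* S.F} (hR : IsRS S R) {U : S.F} {n : Fin 3 → ℤ}
    (h : ∀ i, S.O i U (n i)) : S.O 1 (R U) (n 0 + n 2 + (q - 3 : ℕ) * n 1) := by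
  obtain ⟨y₀, hy0, h0⟩ := O_spec S (h 0)
  obtain ⟨y₁, hy1, h1⟩ := O_spec S (h 1)
  obtain ⟨y₂, hy2, h2⟩ := O_spec S (h 2)
  obtain ⟨e, σ, a, b, c₁, c₂, hc, he⟩ := hR.f1
  have hcard : ((Finset.univ.erase c₁).erase c₂).card = q - 3 := by
    rw [Finset.card_erase_of_mem (Finset.mem_erase.2 ⟨hc.symm, Finset.mem_univ _⟩),
      Finset.card_erase_of_mem (Finset.mem_univ _), Finset.card_univ, StB.card_units S.hq]
    omega
  refine O_iff S (y := y₀ * y₂ * y₁ ^ (q - 3))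
    (mul_ne_zero (mul_ne_zero hy0 hy2) (pow_ne_zero _ hy1)) ?_
  have k0 := StB.hpow S h0 a
  have k2 := StB.hpow S h2 b
  rw [tw_φ] at k0 k2
  have k1 : LR S.π (∏ c ∈ (Finset.univ.erase c₁).erase c₂,
      twist (S.ζ ^ e c) (S.sg (σ c : ZMod q).val (S.bK (U * S.ϖF ^ (-(n 1))))))
      (y₁ ^ (q - 3)) := by
    have hy : y₁ ^ (q - 3) = ∏ _c ∈ (Finset.univ.erase c₁).erase c₂, y₁ := by
      rw [Finset.prod_const, hcard]
    rw [hy]
    exact LR_prod _ fun c => StB.hpow S (Sit.R_sg hG (StB.not_dvd_unit S.hq (σ c)) h1) _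
  rw [Finset.prod_congr rfl fun c _ => tw_sg S (e c) (σ c) U (-(n 1)), Finset.prod_mul_distrib,
    Finset.prod_const, hcard, ← zpow_natCast, ← zpow_mul] at k1
  have k := (k0.mul k2).mul k1
  have hQ : Q S ≠ 0 := by
    have h : ((q : ℕ) : k₀) ≠ 0 := S.q_ne
    exact (_root_.map_ne_zero _).2 ((_root_.map_ne_zero _).2 h)
  have e1 : Q S ^ (-(n 0 + n 2 + (q - 3 : ℕ) * n 1) : ℤ) =
      Q S ^ (-(n 0)) * Q S ^ (-(n 2)) * Q S ^ (-(n 1) * ((q - 3 : ℕ) : ℤ)) := by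
    rw [← zpow_add₀ hQ, ← zpow_add₀ hQ]
    congr 1
    ring
  rw [he, e1]
  convert k using 1
  ring

end

end StA

/-- **(G4)**, first part. -/
theorem starA' : StarA := by
  intro k₀ K κ _ _ _ _ q M' _ _ S hG hpar R R' hR hR' u hu i
  have hq2 := S.hq.two_le
  have hn : ∀ i, ∃ n, S.O i (u ^ (q - 1)) n := fun i => S.exists_O i hu
  choose n hn using hn
  have key : ∀ i, ∃ E, S.O i (R (u ^ (q - 1))) E ∧ S.O i (R' (u ^ (q - 1))) E := by
    intro i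
    fin_cases i
    · exact ⟨_, (StA.O_R0 S hG hR (hn 1)).1, (StA.O_R0 S hG hR' (hn 1)).1⟩
    · exact ⟨_, StA.O_R1 S hG hR hn, StA.O_R1 S hG hR' hn⟩
    · exact ⟨_, (StA.O_R0 S hG hR (hn 1)).2, (StA.O_R0 S hG hR' (hn 1)).2⟩
  obtain ⟨E, h1, h2⟩ := key i
  have h3 := S.O_mul h1 (S.O_zpow h2 (-1))
  have h4 : E + -1 * E = 0 := by ring
  rw [h4, Sit.O_zero, zpow_neg_one] at h3
  refine StA.r_ne_of_pow (m := q - 1) (by omega) ?_
  rw [mul_pow, inv_pow, ← map_pow, ← map_pow]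
  exact h3

end Fermat.Agent.RT6
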