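import Fermat.Agent.Carayol.Main

/-!
# The abstract theorem, with prescribed roots on the components
-/

set_option autoImplicit false
set_option linter.unusedSectionVars false
set_option linter.style.haveILetI false

noncomputable section

namespace Fermat.Agent.Carayol

open Fermat.Agent.Models Polynomial

variable {F 𝓕 : Type*} [Field F] [Field 𝓕]
variable {A₀ K₀ κ : Type*} [CommRing A₀] [IsDomain A₀] [IsDiscreteValuationRing A₀] [Field K₀]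
  [Algebra A₀ K₀] [IsFractionRing A₀ K₀] [Algebra K₀ F] [Algebra A₀ F]
  [IsScalarTower A₀ K₀ F] [Field κ] [Algebra κ 𝓕]

namespace Setup

variable {C : Fin 3 → Res F 𝓕} {B0 B1 : Subring F} {R0 R1 : Subring 𝓕} {t : F} {ϖ₀ : A₀}
  {π : A₀ →+* κ}

variable (hS : Setup K₀ κ C B0 B1 R0 R1 t ϖ₀ π)

include hS

/-- **Main theorem, with prescribed roots.** -/
theorem main2 [IsAlgClosed κ] {q : ℕ} [Fact q.Prime] [CharP 𝓕 q] {m : ℕ} (hm : 0 < m)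
    (hmu : IsUnit (m : A₀)) (hqm : Nat.Coprime q m) {u : F} {g : Fin 3 → 𝓕} (hg0 : ∀ i, g i ≠ 0)
    (hg : ∀ i, (C i).r u = g i ^ m)
    (hh : ∀ V : ValuationSubring F, (∀ c : K₀, algebraMap K₀ F c ∈ V) → V ≠ ⊤ →
      ∃ y : F, y ≠ 0 ∧ u * y ^ m ∈ V ∧ (u * y ^ m)⁻¹ ∈ V)
    (hμ : ∀ 𝔪 : Ideal B0, 𝔪.IsMaximal →
      (⟨algebraMap A₀ F ϖ₀, hS.c0.ϖ_mem⟩ : B0) ∈ 𝔪 → ∀ 𝔫 : Ideal R0,
      (∀ i (b : B0), b ∈ 𝔪 ↔ hS.c0.rho i b ∈ 𝔫) → ∀ ev : R0 →+* κ, (∀ y, ev y = 0 ↔ y ∈ 𝔫) →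
      (∀ (a : A₀) (h : algebraMap κ 𝓕 (π a) ∈ R0), ev ⟨_, h⟩ = π a) →
      ∀ h : F, h ^ m * u ∈ B0 → ∀ γ : Fin 3 → R0, (∀ i, (γ i : 𝓕) = g i * (C i).r h) →
      (∀ i, ev (γ i) ≠ 0) → ∀ i, ev (γ i) = ev (γ 2)) :
    ∃ c : K₀, c ≠ 0 ∧ ∃ x : F, x ≠ 0 ∧ u = algebraMap K₀ F c * x ^ m := by
  have hur : ∀ i, (C i).r u ≠ 0 := fun i => by rw [hg]; exact pow_ne_zero m (hg0 i)
  have hu0 : u ≠ 0 := Res.ne_zero_of_r (hur 0)
  -- local roots of `v`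
  have hloc : ∀ {B : Subring F} {R : Subring 𝓕} (hB : Chart B C R (algebraMap A₀ F ϖ₀))
      (hAB : ∀ a : A₀, algebraMap A₀ F a ∈ B)
      {𝔪 : Ideal B} (h𝔪 : 𝔪.IsMaximal) (hϖ : (⟨algebraMap A₀ F ϖ₀, hB.ϖ_mem⟩ : B) ∈ 𝔪)
      {i : Fin 3} {x : B} (hi : hB.P i ≤ 𝔪) (hx : hB.LocGen 𝔪 i x),
      ∃ h : F, h ≠ 0 ∧ ∃ y : B, y ∉ 𝔪 ∧ h ^ m * u = y := by
    intro B R hB hAB 𝔪 h𝔪 hϖ i x hi hx
    refine hB.local_root h𝔪 hi hx hϖ hm hu0 (fun i => ⟨1, one_ne_zero, ?_⟩) fun V hBV hϖV hV => ?_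
    · rw [one_pow, mul_one]; exact hur i
    · exact hh V
        (fun c => hS.K_le_of (V := V.toSubring) (fun a => hBV _ (hAB a)) hϖV c) hV
  -- local lifting in the first chart
  have hL0 : ∀ 𝔪 : Ideal B0, 𝔪.IsMaximal →
      (⟨algebraMap A₀ F ϖ₀, hS.c0.ϖ_mem⟩ : B0) ∈ 𝔪 →
      ∃ N : ℕ, ∃ b ∉ 𝔪, ∃ h' : F, h' ^ m * u ^ q ^ N ∈ B0 ∧
        ∀ i, (C i).r h' * g i ^ q ^ N = (C i).r ((b : B0) : F) := by
    intro 𝔪 h𝔪 hϖ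
    obtain ⟨i, x, hi, hx⟩ := hS.gen0 𝔪 h𝔪 hϖ
    obtain ⟨h, hh0, y, hy, hhy⟩ := hloc hS.c0 hS.A_mem0 h𝔪 hϖ hi hx
    rcases hS.meet0 𝔪 h𝔪 hϖ with huniq | ⟨𝔫, h𝔫⟩
    · exact hS.c0.lift_single hS.R_closed0 hS.inc0 h𝔪 hm hg0 hg hi
        (fun j hj => huniq j i hj hi) hy hhy
    · obtain ⟨ev, hev, hevc⟩ := hS.exists_ev h𝔪 hϖ h𝔫
      have hhB : h ^ m * u ∈ B0 := hhy ▸ y.2
      have hhO : ∀ i, h ∈ (C i).O := fun i => hS.c0.mem_O_of_pow (hur i) hm hhB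
      have hγm : ∀ i, (g i * (C i).r h) ^ m = (C i).r (y : F) := by
        intro i
        rw [← hhy, Res.r_mul (pow_mem (hhO i) m) (Res.mem_of_r_ne_zero (hur i)),
          Res.r_pow (hhO i), hg, mul_pow, mul_comm]
      have hγR : ∀ i, g i * (C i).r h ∈ R0 := fun i =>
        hS.R_closed0 _ m hm (by rw [hγm]; exact hS.c0.mem_R i _ y.2)
      let γ : Fin 3 → R0 := fun i => ⟨_, hγR i⟩
      have hevγ : ∀ i, ev (γ i) ≠ 0 := by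
        intro i h0
        apply hy
        rw [h𝔫 i, ← hev]
        have : hS.c0.rho i y = γ i ^ m := by
          apply Subtype.ext
          rw [hS.c0.rho_apply]
          push_cast
          exact (hγm i).symm
        rw [this, map_pow, h0, zero_pow hm.ne']
      have hrel := hμ 𝔪 h𝔪 hϖ 𝔫 h𝔫 ev hev hevc h hhB γ (fun i => rfl) hevγ
      obtain ⟨a, ha⟩ := hS.π_surj (ev (γ 2))
      have hcR : ∀ c : κ, algebraMap κ 𝓕 c ∈ R0 := by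
        intro c
        obtain ⟨a, rfl⟩ := hS.π_surj c
        rw [← hS.r_alg 0]
        exact hS.c0.mem_R 0 _ (hS.A_mem0 a)
      have hevκ : ∀ c : κ, ev ⟨_, hcR c⟩ = c := by
        intro c
        obtain ⟨a, rfl⟩ := hS.π_surj c
        exact hevc a _
      have hra : ∀ i, hS.c0.rho i ⟨algebraMap A₀ F a, hS.A_mem0 a⟩ =
          ⟨algebraMap κ 𝓕 (π a), hcR _⟩ := fun i => Subtype.ext (hS.r_alg i a)
      refine hS.c0.lift_local hS.inc0 h𝔪 hm hg0 hg hhy ⟨algebraMap A₀ F a, hS.A_mem0 a⟩ ?_ ?_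
      · rw [h𝔫 0, ← hev, hra, hevκ, ha]
        exact hevγ 2
      · intro j _
        let z : R0 := γ j - ⟨algebraMap κ 𝓕 (π a), hcR _⟩
        have hz : ev z = 0 := by
          simp only [z]
          rw [map_sub, hevκ, hrel j, ha, sub_self]
        obtain ⟨n, hn⟩ := hS.c0.rho_surjective j z
        refine ⟨n, ?_, ?_⟩
        · rw [h𝔫 j, hn, ← hev, hz]
        · have e1 : (C j).r (n : F) = g j * (C j).r h - algebraMap κ 𝓕 (π a) := by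
            rw [← hS.c0.rho_apply, hn]; rfl
          have e2 : (C j).r (algebraMap A₀ F a) = algebraMap κ 𝓕 (π a) := hS.r_alg j a
          change g j * (C j).r h = (C j).r (algebraMap A₀ F a) + (C j).r (n : F)
          rw [e1, e2]; ring
  -- local lifting in the second chart
  have hL1 : ∀ 𝔪 : Ideal B1, 𝔪.IsMaximal →
      (⟨algebraMap A₀ F ϖ₀, hS.c1.ϖ_mem⟩ : B1) ∈ 𝔪 →
      ∃ N : ℕ, ∃ b ∉ 𝔪, ∃ h' : F, h' ^ m * u ^ q ^ N ∈ B1 ∧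
        ∀ i, (C i).r h' * g i ^ q ^ N = (C i).r ((b : B1) : F) := by
    intro 𝔪 h𝔪 hϖ
    by_cases ht : (⟨t⁻¹, hS.t_mem'⟩ : B1) ∈ 𝔪
    · obtain ⟨i, x, hi, hx⟩ := hS.gen1 𝔪 h𝔪 hϖ ht
      obtain ⟨h, hh0, y, hy, hhy⟩ := hloc hS.c1 hS.A_mem1 h𝔪 hϖ hi hx
      exact hS.c1.lift_single hS.R_closed1 hS.inc1 h𝔪 hm hg0 hg hi
        (fun j hj => hS.meet1 𝔪 h𝔪 hϖ ht j i hj hi) hy hhy
    · obtain ⟨𝔪₀, h𝔪₀, hϖ₀, htr⟩ := hS.transfer h𝔪 hϖ ht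
      obtain ⟨N, b, hb, h', hh', hr⟩ := hL0 𝔪₀ h𝔪₀ hϖ₀
      obtain ⟨n₁, hn₁⟩ := hS.ov0 _ b.2
      obtain ⟨n₂, hn₂⟩ := hS.ov0 _ hh'
      set n := n₁ + n₂ with hn
      have hbB1 : t⁻¹ ^ n * (b : F) ∈ B1 := by
        have : t⁻¹ ^ n * (b : F) = t⁻¹ ^ n₂ * (t⁻¹ ^ n₁ * (b : F)) := by rw [hn, pow_add]; ring
        rw [this]; exact B1.mul_mem (B1.pow_mem hS.t_mem' _) hn₁
      refine ⟨N, ⟨_, hbB1⟩, fun h => hb (htr b n hbB1 h), t⁻¹ ^ n * h', ?_, fun i => ?_⟩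
      · obtain ⟨l, rfl⟩ := Nat.exists_eq_succ_of_ne_zero hm.ne'
        have : (t⁻¹ ^ n * h') ^ l.succ * u ^ q ^ N =
            t⁻¹ ^ (n * l + n₁) * (t⁻¹ ^ n₂ * (h' ^ l.succ * u ^ q ^ N)) := by
          rw [mul_pow, ← pow_mul, Nat.mul_succ, pow_add, pow_add, hn, pow_add]; ring
        rw [this]
        exact B1.mul_mem (B1.pow_mem hS.t_mem' _) hn₂
      · have hwrN : (C i).r (u ^ q ^ N) ≠ 0 := Res.r_pow_ne_zero (hur i) _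
        have h'O : h' ∈ (C i).O := hS.c0.mem_O_of_pow hwrN hm hh'
        have htO := pow_mem (hS.c1.le i _ hS.t_mem') n
        rw [Res.r_mul htO h'O, mul_assoc, hr, ← Res.r_mul htO (hS.c0.le i _ b.2)]
  obtain ⟨N₀, hN₀⟩ := hS.c0.lift_global (q := q) hm hg0 hg hL0
  obtain ⟨N₁, hN₁⟩ := hS.c1.lift_global (q := q) hm hg0 hg hL1
  obtain ⟨h₀, hh₀, hr₀⟩ := hN₀ (max N₀ N₁) (le_max_left _ _)
  obtain ⟨h₁, hh₁, hr₁⟩ := hN₁ (max N₀ N₁) (le_max_right _ _)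
  set Q := q ^ max N₀ N₁ with hQ
  have hgQ : ∀ i, g i ^ Q ≠ 0 := fun i => pow_ne_zero _ (hg0 i)
  obtain ⟨x, hx0, c, hc⟩ := hS.toTwoCharts.kl hm hmu (U := u ^ Q)
    (fun i => Res.r_pow_ne_zero (hur i) _) hh₀ hh₁ (fun i => by
      rw [Res.r_pow (Res.mem_of_r_ne_zero (hur i)), hg, ← pow_mul, mul_comm m, pow_mul,
        ← mul_pow, hr₀, one_pow]) (fun i => by
      apply mul_right_cancel₀ (hgQ i)
      rw [hr₀, hr₁])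
  -- conclusion
  have hc0 : c ≠ 0 := by
    rintro rfl
    rw [map_zero] at hc
    exact mul_ne_zero (pow_ne_zero _ hx0) (pow_ne_zero _ hu0) hc
  have hcop : Nat.Coprime Q m := Nat.Coprime.pow_left _ hqm
  have h1 := Nat.gcd_eq_gcd_ab Q m
  rw [Nat.Coprime.gcd_eq_one hcop] at h1
  have h1' : (Q : ℤ) * Nat.gcdA Q m + m * Nat.gcdB Q m = 1 := by rw [← h1]; rfl
  refine ⟨c ^ Nat.gcdA Q m, zpow_ne_zero _ hc0, (x⁻¹) ^ Nat.gcdA Q m * u ^ Nat.gcdB Q m,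
    mul_ne_zero (zpow_ne_zero _ (inv_ne_zero hx0)) (zpow_ne_zero _ hu0), ?_⟩
  have hwQ : u ^ Q = algebraMap K₀ F c * (x⁻¹) ^ m := by
    rw [← hc, inv_pow]
    have := pow_ne_zero m hx0
    field_simp
  calc u = u ^ ((Q : ℤ) * Nat.gcdA Q m + m * Nat.gcdB Q m) := by rw [h1', zpow_one]
    _ = (u ^ Q) ^ Nat.gcdA Q m * (u ^ Nat.gcdB Q m) ^ m := by
      rw [zpow_add₀ hu0, zpow_mul, zpow_natCast, mul_comm (m : ℤ), zpow_mul, zpow_natCast]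
    _ = _ := by
      rw [hwQ, mul_zpow, map_zpow₀, mul_pow, ← zpow_natCast ((x⁻¹) ^ Nat.gcdA Q m), ← zpow_mul,
        mul_comm _ (m : ℤ), zpow_mul, zpow_natCast]
      ring

end Setup

end Fermat.Agent.Carayol
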