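import Fermat.Agent.RT6.GeoSt
import Fermat.Agent.RT6.Main2

/-!
# (G4), second part
-/

set_option autoImplicit false
set_option linter.unusedSectionVars false
set_option linter.style.haveILetI false

noncomputable section

namespace Fermat.Agent.RT6

open ModularCurve Fermat.Agent.GoodRed Fermat.Agent.ModFun Fermat.Agent.GenusX0
open Fermat.Agent.Models IsLocalRing Polynomial IntermediateField Fermat.Agent.SSMod
open AlgebraicCurve Fermat.Agent.Curves Fermat.Agent.Carayol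

namespace StB

/-- constants of an integral extension -/
theorem icr_const {k K L : Type*} [Field k] [Field K] [Field L] [Algebra k K]
    [Algebra.IsIntegral k K] [Algebra K L] [Algebra k L] [IsScalarTower k K L] (s : L) (c : K) :
    algebraMap K L c ∈ icr k s := by
  obtain ⟨P, hP, hc⟩ := Algebra.IsIntegral.isIntegral (R := k) c
  refine mem_icr_of_monic (P := P.map (algebraMap k L)) (hP.map _) (fun i => ?_) ?_
  · rw [coeff_map]; exact const_mem_icr _ _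
  · rw [eval_map, IsScalarTower.algebraMap_eq k K L, ← hom_eval₂, hc, map_zero]

theorem icr_tower {k K L : Type*} [Field k] [Field K] [Field L] [Algebra k K]
    [Algebra.IsIntegral k K] [Algebra K L] [Algebra k L] [IsScalarTower k K L] {s z : L}
    (hz : z ∈ icr K s) : z ∈ icr k s := by
  obtain ⟨p, hp, h⟩ := mem_icr.1 hz
  refine mem_icr_of_monic (P := p.map (aeval (R := K) s : K[X] →ₐ[K] L).toRingHom) (hp.map _)
    (fun i => ?_) (by rw [eval_map]; exact h)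
  rw [coeff_map]
  change aeval s (p.coeff i) ∈ _
  rw [aeval_eq_sum_range]
  refine sum_mem fun i _ => ?_
  rw [Algebra.smul_def]
  exact mul_mem (icr_const s _) (pow_mem (self_mem_icr _) _)

theorem icr_descend {k F L : Type*} [Field k] [Field F] [Field L] [Algebra k F] [Algebra k L]
    (f : F →+* L) (hf : ∀ a, f (algebraMap k F a) = algebraMap k L a) {t x : F}
    (h : f x ∈ icr k (f t)) : x ∈ icr k t := by
  obtain ⟨p, hp, h⟩ := mem_icr.1 h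
  refine mem_icr.2 ⟨p, hp, ?_⟩
  apply f.injective
  rw [map_zero, hom_eval₂]
  have h1 : f.comp (aeval (R := k) t : k[X] →ₐ[k] F).toRingHom =
      (aeval (R := k) (f t) : k[X] →ₐ[k] L).toRingHom := by
    refine Polynomial.ringHom_ext (fun a => ?_) ?_
    · change f (aeval t (Polynomial.C a)) = aeval (f t) (Polynomial.C a)
      rw [aeval_C, aeval_C, hf]
    · change f (aeval t X) = aeval (f t) X
      rw [aeval_X, aeval_X]
  rw [h1]
  exact h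

theorem icr_desc2 {k K F L : Type*} [Field k] [Field K] [Field F] [Field L] [Algebra k K]
    [Algebra.IsIntegral k K] [Algebra K L] [Algebra k F] (f : F →+* L)
    (hf : ∀ a, f (algebraMap k F a) = algebraMap K L (algebraMap k K a)) {t x : F}
    (h : f x ∈ icr K (f t)) : x ∈ icr k t := by
  letI : Algebra k L := ((algebraMap K L).comp (algebraMap k K)).toAlgebra
  haveI : IsScalarTower k K L := IsScalarTower.of_algebraMap_eq fun _ => rfl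
  exact icr_descend f hf (icr_tower h)

section

variable {k₀ K κ : Type} [Field k₀] [Field K] [Field κ] [Algebra k₀ K] {q M' : ℕ}
  [NeZero q] [NeZero M'] (S : Sit k₀ K κ q M')

theorem hpow {x : LaurentSeries K} {y : LaurentSeries κ} (h : LR S.π x y) (n : ℕ) :
    LR S.π (twist (S.ζ ^ n) x) y := by
  induction n with
  | zero => rw [pow_zero, twist_one]; exact h
  | succ n ih =>
    rw [pow_succ', ← twist_twist]
    exact S.R_twist ih

theorem φ0_jq : S.φ 0 S.jq' = qExpand K q (jqModC K) := by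
  rw [Sit.φ0, coe_jel, coeffMap_gen']

theorem twist_const (u : Kˣ) (c : K) :
    twist u (algebraMap K (LaurentSeries K) c) = algebraMap K (LaurentSeries K) c := by
  have h : algebraMap K (LaurentSeries K) c = HahnSeries.C c := by
    rw [algebraMap_laurentSeries_eq_single, HahnSeries.C_apply]
  rw [h, twist_C]

theorem twist_jq (n : ℕ) : twist (S.ζ ^ n) (qExpand K q (jqModC K)) = qExpand K q (jqModC K) := by
  have hζq : S.ζ ^ q = 1 := Units.ext (by push_cast; exact S.hζ.pow_eq_one)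
  rw [twist_qExpand]
  rw [← pow_mul, mul_comm, pow_mul, hζq, one_pow]

theorem int_twist (n : ℕ) {z : LaurentSeries K} (hz : z ∈ icr K (qExpand K q (jqModC K))) :
    twist (S.ζ ^ n) z ∈ icr K (qExpand K q (jqModC K)) := by
  have h := icr_map (R' := K) (RingHom.id K) (twist (S.ζ ^ n)) (fun a => twist_const _ a) hz
  rwa [twist_jq] at h

theorem int_φ0 {x : S.F} (hx : x ∈ icr k₀ S.jq') :
    S.φ 0 x ∈ icr K (qExpand K q (jqModC K)) := by
  have h := icr_map (R' := K) S.cK (S.φ 0) (fun a => S.φ_const 0 a) hx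
  rwa [φ0_jq] at h

theorem int_φ2 {x : S.F} (hx : x ∈ icr k₀ S.jq') :
    S.φ 2 x ∈ icr K (qExpand K q (jqModC K)) := by
  have h := S.w_icr hx
  rw [Sit.w_jq] at h
  exact int_φ0 S h

theorem int_sg {i : ℕ} (hi : ¬ q ∣ i) {x : S.F} (hx : x ∈ icr k₀ S.jq') :
    S.sg i (S.bK x) ∈ icr K (qExpand K q (jqModC K)) := by
  have hs := S.sg_spec hi
  have h := icr_map (R' := K) S.cK ((S.sg i).comp S.bK) (fun a => by
    rw [RingHom.comp_apply, bc_const]; exact hs.const _) hx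
  rw [RingHom.comp_apply, RingHom.comp_apply, bc_jel, hs.gen1 q _ (Dvd.intro _ rfl)] at h
  exact h

theorem not_dvd_unit (hq : q.Prime) (c : (ZMod q)ˣ) : ¬ q ∣ (c : ZMod q).val := by
  haveI : Fact q.Prime := ⟨hq⟩
  intro h
  have h1 : ((c : ZMod q).val : ZMod q) = 0 := (ZMod.natCast_eq_zero_iff _ _).2 h
  rw [ZMod.natCast_zmod_val] at h1
  exact c.ne_zero h1

/-- the operators preserve integrality -/
theorem int_R {R : S.F →* S.F} (hR : IsRS S R) {x : S.F} (hx : x ∈ icr k₀ S.j1) :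
    R x ∈ icr k₀ S.j1 := by
  haveI := S.intK
  have hx' : x ∈ icr k₀ S.jq' := icr_le S.j1_int hx
  refine icr_le S.jq_int ?_
  refine icr_desc2 (K := K) (S.φ 0) (fun a => S.φ_const 0 a) (t := S.jq') ?_
  rw [φ0_jq]
  obtain ⟨e, he⟩ := hR.f0
  rw [he]
  exact prod_mem fun c _ => int_twist S _ (int_sg S (not_dvd_unit S.hq c) hx')

/-! ### residues -/

theorem card_units (hq : q.Prime) : Fintype.card (ZMod q)ˣ = q - 1 := by
  haveI : Fact q.Prime := ⟨hq⟩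
  exact ZMod.card_units q

theorem R_f (hG : S.HasGal) {x : S.F} {y : LaurentSeries κ} (h : (S.P 1).R x y)
    (e : (ZMod q)ˣ → ℕ) :
    LR S.π (∏ c : (ZMod q)ˣ, twist (S.ζ ^ e c) (S.sg (c : ZMod q).val (S.bK x)))
      (y ^ (q - 1)) := by
  have hy : y ^ (q - 1) = ∏ _c : (ZMod q)ˣ, y := by
    rw [Finset.prod_const, Finset.card_univ, card_units S.hq]
  rw [hy]
  exact LR_prod _ fun c => hpow S (Sit.R_sg hG (not_dvd_unit S.hq c) h) _

/-- the residues of `R x`, in terms of those of `x` -/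
def rr (i : Fin 3) (x : S.F) : S.𝓕 :=
  match i with
  | 0 => (S.C 1).r x ^ (q - 1)
  | 1 => (S.C 0).r x * (S.C 2).r x * (S.C 1).r x ^ (q - 3)
  | 2 => (S.C 1).r x ^ (q - 1)

theorem R_r (hG : S.HasGal) {R : S.F →* S.F} (hR : IsRS S R) {x : S.F}
    (hx : ∀ i, x ∈ (S.C i).O) (i : Fin 3) :
    R x ∈ (S.C i).O ∧ (S.C i).r (R x) = rr S i x := by
  have h0 := Sit.C_spec (Sit.mem_C.1 (hx 0))
  have h1 := Sit.C_spec (Sit.mem_C.1 (hx 1))
  have h2 := Sit.C_spec (Sit.mem_C.1 (hx 2))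
  fin_cases i
  · obtain ⟨e, he⟩ := hR.f0
    have h : (S.P 0).R (R x) ((((S.C 1).r x : S.𝓕) : LaurentSeries κ) ^ (q - 1)) := by
      rw [Sit.P_R, he]
      exact R_f S hG h1 e
    exact ⟨Sit.mem_C.2 ⟨_, h⟩, Sit.C_r (z := (S.C 1).r x ^ (q - 1)) h⟩
  · obtain ⟨e, σ, a, b, c₁, c₂, hc, he⟩ := hR.f1
    have hcard : ((Finset.univ.erase c₁).erase c₂).card = q - 3 := by
      rw [Finset.card_erase_of_mem (Finset.mem_erase.2 ⟨hc.symm, Finset.mem_univ _⟩),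
        Finset.card_erase_of_mem (Finset.mem_univ _), Finset.card_univ, card_units S.hq]
      omega
    have h : (S.P 1).R (R x) ((((S.C 0).r x : S.𝓕) : LaurentSeries κ) *
        (((S.C 2).r x : S.𝓕) : LaurentSeries κ) *
        (((S.C 1).r x : S.𝓕) : LaurentSeries κ) ^ (q - 3)) := by
      have hy : (((S.C 1).r x : S.𝓕) : LaurentSeries κ) ^ (q - 3) =
          ∏ _c ∈ (Finset.univ.erase c₁).erase c₂, (((S.C 1).r x : S.𝓕) : LaurentSeries κ) := by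
        rw [Finset.prod_const, hcard]
      rw [Sit.P_R, he, hy]
      exact ((hpow S h0 a).mul (hpow S h2 b)).mul (LR_prod _ fun c =>
        hpow S (Sit.R_sg hG (not_dvd_unit S.hq (σ c)) h1) _)
    exact ⟨Sit.mem_C.2 ⟨_, h⟩, Sit.C_r
      (z := (S.C 0).r x * (S.C 2).r x * (S.C 1).r x ^ (q - 3)) h⟩
  · obtain ⟨e, he⟩ := hR.f2
    have h : (S.P 2).R (R x) ((((S.C 1).r x : S.𝓕) : LaurentSeries κ) ^ (q - 1)) := by
      rw [Sit.P_R, he]
      exact R_f S hG h1 e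
    exact ⟨Sit.mem_C.2 ⟨_, h⟩, Sit.C_r (z := (S.C 1).r x ^ (q - 1)) h⟩

theorem R_B0 (hG : S.HasGal) {R : S.F →* S.F} (hR : IsRS S R) {x : S.F} (hx : x ∈ S.B0) :
    R x ∈ S.B0 := by
  have hx' := S.mem_B0.1 hx
  exact S.mem_B0.2 ⟨int_R S hR hx'.1, fun i => (R_r S hG hR hx'.2 i).1⟩

/-- multiplicativity -/
theorem rr_mul {x y : S.F} (hx : ∀ i, x ∈ (S.C i).O) (hy : ∀ i, y ∈ (S.C i).O) (i : Fin 3) :
    rr S i (x * y) = rr S i x * rr S i y := by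
  fin_cases i
  · change (S.C 1).r (x * y) ^ (q - 1) = (S.C 1).r x ^ (q - 1) * (S.C 1).r y ^ (q - 1)
    rw [Res.r_mul (hx 1) (hy 1), mul_pow]
  · change (S.C 0).r (x * y) * (S.C 2).r (x * y) * (S.C 1).r (x * y) ^ (q - 3) =
      (S.C 0).r x * (S.C 2).r x * (S.C 1).r x ^ (q - 3) *
        ((S.C 0).r y * (S.C 2).r y * (S.C 1).r y ^ (q - 3))
    rw [Res.r_mul (hx 1) (hy 1), Res.r_mul (hx 0) (hy 0), Res.r_mul (hx 2) (hy 2), mul_pow]
    ring
  · change (S.C 1).r (x * y) ^ (q - 1) = (S.C 1).r x ^ (q - 1) * (S.C 1).r y ^ (q - 1)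
    rw [Res.r_mul (hx 1) (hy 1), mul_pow]

theorem rr_pow {x : S.F} (hx : ∀ i, x ∈ (S.C i).O) (n : ℕ) (i : Fin 3) :
    rr S i (x ^ n) = rr S i x ^ n := by
  fin_cases i
  · change (S.C 1).r (x ^ n) ^ (q - 1) = ((S.C 1).r x ^ (q - 1)) ^ n
    rw [Res.r_pow (hx 1), ← pow_mul, ← pow_mul, mul_comm]
  · change (S.C 0).r (x ^ n) * (S.C 2).r (x ^ n) * (S.C 1).r (x ^ n) ^ (q - 3) =
      ((S.C 0).r x * (S.C 2).r x * (S.C 1).r x ^ (q - 3)) ^ n
    rw [Res.r_pow (hx 1), Res.r_pow (hx 0), Res.r_pow (hx 2), mul_pow, mul_pow, ← pow_mul,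
      ← pow_mul, mul_comm n]
  · change (S.C 1).r (x ^ n) ^ (q - 1) = ((S.C 1).r x ^ (q - 1)) ^ n
    rw [Res.r_pow (hx 1), ← pow_mul, ← pow_mul, mul_comm]

theorem rr_ne {x : S.F} (hx : ∀ i, (S.C i).r x ≠ 0) (i : Fin 3) : rr S i x ≠ 0 := by
  fin_cases i
  · exact pow_ne_zero _ (hx 1)
  · exact mul_ne_zero (mul_ne_zero (hx 0) (hx 2)) (pow_ne_zero _ (hx 1))
  · exact pow_ne_zero _ (hx 1)

theorem RR_r (hG : S.HasGal) {R R' : S.F →* S.F} (hR : IsRS S R) (hR' : IsRS S R') {m : ℕ}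
    (hm : 0 < m) {x : S.F} (hx : ∀ i, x ∈ (S.C i).O) (i : Fin 3) :
    (S.C i).r (R x * R' x ^ (m - 1)) = rr S i x ^ m := by
  obtain ⟨a1, a2⟩ := R_r S hG hR hx i
  obtain ⟨b1, b2⟩ := R_r S hG hR' hx i
  obtain ⟨k, rfl⟩ := Nat.exists_eq_succ_of_ne_zero hm.ne'
  rw [Res.r_mul a1 (pow_mem b1 _), Res.r_pow b1, a2, b2, Nat.succ_sub_one, ← pow_succ']

theorem q_ge {R : S.F →* S.F} (hR : IsRS S R) : 3 ≤ q := by
  obtain ⟨e, σ, a, b, c₁, c₂, hc, he⟩ := hR.f1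
  haveI : Fact q.Prime := ⟨S.hq⟩
  have h := Fintype.one_lt_card_iff.2 ⟨c₁, c₂, hc⟩
  rw [card_units S.hq] at h
  omega

end

section Abs

variable {F 𝓕 : Type*} [Field F] [Field 𝓕]
variable {A₀ K₀ κ : Type*} [CommRing A₀] [IsDomain A₀] [IsDiscreteValuationRing A₀] [Field K₀]
  [Algebra A₀ K₀] [IsFractionRing A₀ K₀] [Algebra K₀ F] [Algebra A₀ F]
  [IsScalarTower A₀ K₀ F] [Field κ] [Algebra κ 𝓕]
  {C : Fin 3 → Res F 𝓕} {B0 B1 : Subring F} {R0 R1 : Subring 𝓕} {t : F} {ϖ₀ : A₀}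
  {π : A₀ →+* κ}

/-- residues at a meeting point -/
theorem ev_rho (hS : Setup K₀ κ C B0 B1 R0 R1 t ϖ₀ π) {𝔪 : Ideal B0} (h𝔪 : 𝔪.IsMaximal)
    (hϖ : (⟨algebraMap A₀ F ϖ₀, hS.c0.ϖ_mem⟩ : B0) ∈ 𝔪) {𝔫 : Ideal R0}
    (h𝔫 : ∀ i (b : B0), b ∈ 𝔪 ↔ hS.c0.rho i b ∈ 𝔫) {ev : R0 →+* κ}
    (hev : ∀ y, ev y = 0 ↔ y ∈ 𝔫)
    (hevc : ∀ (a : A₀) (h : algebraMap κ 𝓕 (π a) ∈ R0), ev ⟨_, h⟩ = π a) (b : B0) :
    ∃ c : κ, (∀ i, ev (hS.c0.rho i b) = c) ∧ (c = 0 ↔ b ∈ 𝔪) := by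
  have hcR : ∀ c : κ, algebraMap κ 𝓕 c ∈ R0 := by
    intro c
    obtain ⟨a, rfl⟩ := hS.π_surj c
    rw [← hS.r_alg 0]
    exact hS.c0.mem_R 0 _ (hS.A_mem0 a)
  obtain ⟨a₁, ha₁⟩ := hS.res0 𝔪 h𝔪 hϖ b
  have key : ∀ i, ev (hS.c0.rho i b) = π a₁ := by
    intro i
    have h1 := (h𝔫 i _).1 ha₁
    rw [← hev, map_sub, map_sub, sub_eq_zero] at h1
    rw [h1]
    have h2 : hS.c0.rho i ⟨algebraMap A₀ F a₁, hS.A_mem0 a₁⟩ =
        ⟨algebraMap κ 𝓕 (π a₁), hcR _⟩ := Subtype.ext (hS.r_alg i a₁)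
    rw [h2]
    exact hevc a₁ _
  refine ⟨π a₁, key, ?_⟩
  rw [h𝔫 0, ← hev, key 0]

/-- gluing from one root -/
theorem glue_root (hS : Setup K₀ κ C B0 B1 R0 R1 t ϖ₀ π) {𝔪 : Ideal B0} (h𝔪 : 𝔪.IsMaximal)
    (hϖ : (⟨algebraMap A₀ F ϖ₀, hS.c0.ϖ_mem⟩ : B0) ∈ 𝔪) {𝔫 : Ideal R0}
    (h𝔫 : ∀ i (b : B0), b ∈ 𝔪 ↔ hS.c0.rho i b ∈ 𝔫) {ev : R0 →+* κ}
    (hev : ∀ y, ev y = 0 ↔ y ∈ 𝔫)
    (hevc : ∀ (a : A₀) (h : algebraMap κ 𝓕 (π a) ∈ R0), ev ⟨_, h⟩ = π a)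
    {m : ℕ} (hm : 0 < m) {U : F} {g : Fin 3 → 𝓕} (hg0 : ∀ i, g i ≠ 0)
    (hg : ∀ i, (C i).r U = g i ^ m) {H : F} (hH0 : H ≠ 0) {Y : B0} (hHY : H ^ m * U = Y)
    {η : Fin 3 → R0} (hη : ∀ i, (η i : 𝓕) = g i * (C i).r H) {e : κ} (he : e ≠ 0)
    (hηe : ∀ i, ev (η i) = e) {h : F} (hh : h ^ m * U ∈ B0) {γ : Fin 3 → R0}
    (hγ : ∀ i, (γ i : 𝓕) = g i * (C i).r h) (i j : Fin 3) : ev (γ i) = ev (γ j) := by
  have hu : ∀ i, (C i).r U ≠ 0 := fun i => by rw [hg]; exact pow_ne_zero m (hg0 i)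
  have hHO : ∀ i, H ∈ (C i).O := fun i => hS.c0.mem_O_of_pow (hu i) hm (hHY ▸ Y.2)
  have hhO : ∀ i, h ∈ (C i).O := fun i => hS.c0.mem_O_of_pow (hu i) hm hh
  have hZ : h * H⁻¹ * (Y : F) ∈ B0 := by
    refine hS.c0.closed _ m hm ?_
    obtain ⟨k, rfl⟩ := Nat.exists_eq_succ_of_ne_zero hm.ne'
    have e1 : (h * H⁻¹ * (Y : F)) ^ k.succ = (h ^ k.succ * U) * (Y : F) ^ k := by
      have e2 : (Y : F) ^ k.succ = (Y : F) ^ k * (H ^ k.succ * U) := by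
        rw [hHY, ← pow_succ]
      have e3 : H⁻¹ ^ k.succ * H ^ k.succ = 1 := by
        rw [← mul_pow, inv_mul_cancel₀ hH0, one_pow]
      rw [mul_pow, mul_pow, e2]
      calc h ^ k.succ * H⁻¹ ^ k.succ * ((Y : F) ^ k * (H ^ k.succ * U)) =
          (H⁻¹ ^ k.succ * H ^ k.succ) * ((h ^ k.succ * U) * (Y : F) ^ k) := by ring
        _ = _ := by rw [e3, one_mul]
    rw [e1]
    exact mul_mem hh (pow_mem Y.2 _)
  obtain ⟨c, hc, -⟩ := ev_rho hS h𝔪 hϖ h𝔫 hev hevc ⟨_, hZ⟩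
  have hY : ∀ i, hS.c0.rho i Y = η i ^ m := by
    intro i
    apply Subtype.ext
    rw [hS.c0.rho_apply]
    push_cast
    rw [← hHY, Res.r_mul (pow_mem (hHO i) m) (Res.mem_of_r_ne_zero (hu i)), Res.r_pow (hHO i),
      hg, hη, mul_pow, mul_comm]
  have key : ∀ i, c * e = ev (γ i) * e ^ m := by
    intro i
    have h1 : hS.c0.rho i ⟨_, hZ⟩ * η i = γ i * hS.c0.rho i Y := by
      apply Subtype.ext
      push_cast
      rw [hS.c0.rho_apply, hS.c0.rho_apply, hη, hγ]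
      have h2 : (C i).r (h * H⁻¹ * (Y : F)) * (C i).r H = (C i).r h * (C i).r (Y : F) := by
        rw [← Res.r_mul (hS.c0.le i _ hZ) (hHO i), ← Res.r_mul (hhO i) (hS.c0.le i _ Y.2)]
        congr 1
        field_simp
      linear_combination (g i) * h2
    have h3 := congrArg ev h1
    rw [map_mul, map_mul, hY, map_pow, hηe, hc] at h3
    exact h3
  have hem : e ^ m ≠ 0 := pow_ne_zero _ he
  exact mul_right_cancel₀ hem ((key i).symm.trans (key j))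

/-- local roots -/
theorem exists_local_root (hS : Setup K₀ κ C B0 B1 R0 R1 t ϖ₀ π) {𝔪 : Ideal B0}
    (h𝔪 : 𝔪.IsMaximal) (hϖ : (⟨algebraMap A₀ F ϖ₀, hS.c0.ϖ_mem⟩ : B0) ∈ 𝔪) {m : ℕ} (hm : 0 < m)
    {v : F} (hv : ∀ i, (C i).r v ≠ 0)
    (hh : ∀ V : ValuationSubring F, (∀ c : K₀, algebraMap K₀ F c ∈ V) → V ≠ ⊤ →
      ∃ y : F, y ≠ 0 ∧ v * y ^ m ∈ V ∧ (v * y ^ m)⁻¹ ∈ V) :
    ∃ h : F, h ≠ 0 ∧ ∃ y : B0, y ∉ 𝔪 ∧ h ^ m * v = y := by
  obtain ⟨i, x, hi, hx⟩ := hS.gen0 𝔪 h𝔪 hϖ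
  refine hS.c0.local_root h𝔪 hi hx hϖ hm (Res.ne_zero_of_r (hv 0))
    (fun i => ⟨1, one_ne_zero, ?_⟩) fun V hBV hϖV hV => ?_
  · rw [one_pow, mul_one]; exact hv i
  · exact hh V (fun c => hS.K_le_of (V := V.toSubring) (fun a => hBV _ (hS.A_mem0 a)) hϖV c) hV

end Abs

end StB

set_option synthInstance.maxHeartbeats 400000 in
set_option maxHeartbeats 1000000 in
/-- **(G4)**, second part. -/
theorem starB : StarB := by
  intro k₀ K κ _ _ _ _ q M' _ _ S hG hpar R R' hR hR' m hm hqm v hv hhv hhU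
  haveI : Fact q.Prime := ⟨S.hq⟩
  haveI := S.charP
  haveI : IsAlgClosed κ := S.acκ
  haveI : CharP S.𝓕 q := charP_of_injective_algebraMap (algebraMap κ S.𝓕).injective q
  haveI := tower_A (F := S.F) S.A₀
  have hq3 := StB.q_ge S hR
  have hvO : ∀ i, v ∈ (S.C i).O := fun i => Res.mem_of_r_ne_zero (hv i)
  have hS := S.setup hpar
  have hg : ∀ i, (S.C i).r (R v * R' v ^ (m - 1)) = StB.rr S i v ^ m := fun i =>
    StB.RR_r S hG hR hR' hm hvO i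
  refine (S.setup hpar).main2 hm (Sit.isUnit_m hm hqm) hqm (StB.rr_ne S hv) hg hhU ?_
  intro 𝔪 h𝔪 hϖ 𝔫 h𝔫 ev hev hevc h hh γ hγ hγ0 i
  obtain ⟨z, hz0, y, hy, hzy⟩ := StB.exists_local_root (S.setup hpar) h𝔪 hϖ hm hv hhv
  have hzO : ∀ i, z ∈ (S.C i).O := fun i =>
    (S.setup hpar).c0.mem_O_of_pow (hv i) hm (hzy ▸ y.2)
  obtain ⟨c, hc, hc0⟩ := StB.ev_rho (S.setup hpar) h𝔪 hϖ h𝔫 hev hevc y
  have hcne : c ≠ 0 := fun h => hy (hc0.1 h)
  have hY : R (y : S.F) * R' (y : S.F) ^ (m - 1) ∈ S.B0 :=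
    mul_mem (StB.R_B0 S hG hR y.2) (pow_mem (StB.R_B0 S hG hR' y.2) _)
  have hHY : (R z * R' z ^ (m - 1)) ^ m * (R v * R' v ^ (m - 1)) =
      R (y : S.F) * R' (y : S.F) ^ (m - 1) := by
    rw [← hzy, map_mul, map_mul, map_pow, map_pow]
    ring
  have hrho : ∀ i, (((S.setup hpar).c0.rho i y : S.R0) : S.𝓕) = (S.C i).r (y : S.F) := fun i =>
    (S.setup hpar).c0.rho_apply i y
  refine StB.glue_root (S.setup hpar) h𝔪 hϖ h𝔫 hev hevc hm (StB.rr_ne S hv) hg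
    (H := R z * R' z ^ (m - 1)) (mul_ne_zero (hR.ne z hz0) (pow_ne_zero _ (hR'.ne z hz0)))
    (Y := ⟨_, hY⟩) hHY
    (η := ![(S.setup hpar).c0.rho 1 y ^ (q - 1),
      (S.setup hpar).c0.rho 0 y * (S.setup hpar).c0.rho 2 y * (S.setup hpar).c0.rho 1 y ^ (q - 3),
      (S.setup hpar).c0.rho 1 y ^ (q - 1)]) ?_ (e := c ^ (q - 1)) (pow_ne_zero _ hcne) ?_ hh hγ i 2
  · intro i
    rw [StB.RR_r S hG hR hR' hm hzO i]
    have h1 : StB.rr S i v * StB.rr S i z ^ m = StB.rr S i (y : S.F) := by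
      rw [← hzy, StB.rr_mul S (fun i => pow_mem (hzO i) m) hvO, StB.rr_pow S hzO, mul_comm]
    rw [h1]
    fin_cases i
    · change (((S.setup hpar).c0.rho 1 y ^ (q - 1) : S.R0) : S.𝓕) = (S.C 1).r (y : S.F) ^ (q - 1)
      rw [← hrho]; push_cast; rfl
    · change (((S.setup hpar).c0.rho 0 y * (S.setup hpar).c0.rho 2 y *
        (S.setup hpar).c0.rho 1 y ^ (q - 3) : S.R0) : S.𝓕) =
        (S.C 0).r (y : S.F) * (S.C 2).r (y : S.F) * (S.C 1).r (y : S.F) ^ (q - 3)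
      rw [← hrho, ← hrho, ← hrho]; push_cast; rfl
    · change (((S.setup hpar).c0.rho 1 y ^ (q - 1) : S.R0) : S.𝓕) = (S.C 1).r (y : S.F) ^ (q - 1)
      rw [← hrho]; push_cast; rfl
  · intro i
    fin_cases i
    · change ev ((S.setup hpar).c0.rho 1 y ^ (q - 1)) = _
      rw [map_pow, hc]
    · change ev ((S.setup hpar).c0.rho 0 y * (S.setup hpar).c0.rho 2 y *
        (S.setup hpar).c0.rho 1 y ^ (q - 3)) = _
      rw [map_mul, map_mul, map_pow, hc, hc, hc, ← sq, ← pow_add]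
      congr 1
      omega
    · change ev ((S.setup hpar).c0.rho 1 y ^ (q - 1)) = _
      rw [map_pow, hc]

end Fermat.Agent.RT6
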