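import Fermat.Agent.RT6.R2c
import Fermat.Agent.RT6.R1a
import Fermat.Agent.RT6.R4b
import Fermat.Agent.RT6.StarA2
import Fermat.Agent.RT6.StarB
import Fermat.Agent.RT6.G5

/-!
# (G): the geometric input
-/

set_option autoImplicit false

namespace Fermat.Agent.RT6

theorem rsGeo : RSSt := rs_of r1 r2c r4

/-- **(G)** -/
theorem geoBoth : GeoSt ∧ GeoGal := G5.g5 starA' starB rsGeo

end Fermat.Agent.RT6
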