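import Fermat.Agent.MazurP.Vrep
import Fermat.Agent.MazurP.BLR
import Fermat.Agent.CarayolX.Fixed
import Fermat.Agent.TWGal.Rep
import Fermat.Agent.RT6.GeoSt
import Fermat.Agent.TWG.Res

/-!
# (A3), links: the classes killed by the differences `R_s - R_t`
-/

set_option autoImplicit false
set_option linter.style.haveILetI false
set_option maxHeartbeats 1000000
set_option synthInstance.maxHeartbeats 400000

noncomputable section

namespace Fermat.Agent.RT6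

open ModularCurve Fermat.Agent.ModFun Fermat.Agent.AnJac AlgebraicCurve
open Fermat.Agent.HeckeQ Matrix Fermat.Agent.Curves Module Fermat.Agent.Carayol
open Fermat.Agent.CarayolX CongruenceSubgroup Fermat.Agent.MazurP Fermat.Agent.S43Glue
open Fermat.Agent.GalRep CuspForm

local notation "Qb" => AlgebraicClosure ℚ
local notation "GQ" => Qb ≃ₐ[ℚ] Qb

theorem zmod_two_aux : ∀ s : ZMod 2, s ≠ 1 → s = 0 := by decide

/-- both eigenvalues of an involution occur -/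
theorem exists_neg {k : Type*} [Field k] {G : Type*} [Group G] {V : Type*} [AddCommGroup V]
    [Module k V] [Nontrivial V] {M : G →* (V →ₗ[k] V)} {ρ : G →* Matrix (Fin 2) (Fin 2) k}
    (h2 : (2 : k) ≠ 0) (hspan : Submodule.span k (Set.range ρ) = ⊤) (χ : G →* k)
    (hrel : ∀ g x, M g x + χ g • M g⁻¹ x = (ρ g).trace • x) {c : G} (hcc : c * c = 1)
    (hne : ρ c ≠ 1) : ∃ x : V, x ≠ 0 ∧ M c x = -x := by
  by_contra hcon
  push Not at hcon
  have h1 : ∀ x, M c x = x := by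
    intro x
    by_contra hx
    have h3 : x - M c x ≠ 0 := fun h => hx (sub_eq_zero.mp h).symm
    apply hcon _ h3
    rw [map_sub, ← Module.End.mul_apply, ← map_mul, hcc, map_one, Module.End.one_apply, neg_sub]
  set φ := MonoidAlgebra.lift k (V →ₗ[k] V) G M with hφ
  set ψ := MonoidAlgebra.lift k (Matrix (Fin 2) (Fin 2) k) G ρ with hψ
  have hsurj : Function.Surjective ψ := lift_surjective ρ hspan
  set Y := ρ c - 1 with hYdef
  have hY0 : Y ≠ 0 := fun h => hne (sub_eq_zero.mp h)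
  obtain ⟨i, j, hij⟩ : ∃ i j, Y i j ≠ 0 := by
    by_contra hcon
    push Not at hcon
    exact hY0 (Matrix.ext hcon)
  choose a ha using fun l : Fin 2 => hsurj (Matrix.single l i (1 : k))
  choose b hb using fun l : Fin 2 => hsurj (Matrix.single j l (Y i j)⁻¹)
  set y₀ : MonoidAlgebra k G := MonoidAlgebra.of k G c - 1 with hy₀
  have hψy : ψ y₀ = Y := by
    rw [hy₀, map_sub, map_one, hψ, MonoidAlgebra.lift_of]
  have hz : ψ (∑ l, a l * y₀ * b l) = 1 := by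
    rw [map_sum]
    simp only [map_mul, ha, hb, hψy]
    ext r s
    rw [Matrix.sum_apply, Fin.sum_univ_two]
    simp only [Matrix.single_mul_mul_single]
    fin_cases r <;> fin_cases s <;> simp [Matrix.single_apply, mul_inv_cancel₀ hij]
  have h3 := blr_rep (M := M) h2 hspan χ hrel (x := ∑ l, a l * y₀ * b l - 1) (by
    rw [← hψ, map_sub, hz, map_one, sub_self])
  rw [← hφ, map_sub, map_one, sub_eq_zero] at h3
  have h4 : φ y₀ = 0 := by
    rw [hy₀, map_sub, map_one, hφ, MonoidAlgebra.lift_of, sub_eq_zero]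
    ext x
    exact h1 x
  obtain ⟨y, hy0⟩ := exists_ne (0 : V)
  have h5 := congrArg (fun f : V →ₗ[k] V => f y) h3
  simp only [Module.End.one_apply, map_sum, map_mul, h4, mul_zero, zero_mul,
    Finset.sum_const_zero, LinearMap.zero_apply] at h5
  exact hy0 h5.symm

/-- the cyclotomic character is odd -/
theorem chiK_conj (p : ℕ) [Fact p.Prime] :
    chiK p (ZMod p) complexConjugation = -1 := by
  rw [chiK_apply, TWGal.cycP_conj, map_neg, map_neg, map_one, map_one]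

theorem trace_of_unip {p : ℕ} [Fact p.Prime] {T : Matrix (Fin 2) (Fin 2) (ZMod p)}
    (h : (T - 1) * (T - 1) = 0) : T.trace = 2 := by
  have h1 : IsNilpotent (T - 1) := ⟨2, by rw [pow_two, h]⟩
  have h2 := (Matrix.isNilpotent_trace_of_isNilpotent h1).eq_zero
  rw [Matrix.trace_sub, Matrix.trace_one, Fintype.card_fin, sub_eq_zero] at h2
  rw [h2]
  rfl

section

variable {p : ℕ} [hp : Fact p.Prime] {q N : ℕ} [hq : Fact q.Prime] [NeZero q]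
  [NeZero (q ^ 2 * N)] (hN : ¬ q ∣ N)

include hp in
theorem gal_p (hGal : GeoGal) {s : ZMod q} (hs : s ≠ 1) (hs0 : s ≠ 0) (σ : GQ) :
    (KQ (q ^ 2 * N)).M (bL (q ^ 2 * N)) (pne p) σ *
        rmod p (KSys.tm (bL (q ^ 2 * N)) (LS q N hN s hs)) =
      rmod p (KSys.tm (bL (q ^ 2 * N)) (LS q N hN s hs)) *
        (KQ (q ^ 2 * N)).M (bL (q ^ 2 * N)) (pne p) σ := by
  let P : ℕ → Prop := fun n => ∀ hn : n ≠ 0, (KQ (q ^ 2 * N)).M (bL (q ^ 2 * N)) hn σ *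
        rmod n (KSys.tm (bL (q ^ 2 * N)) (LS q N hN s hs)) =
      rmod n (KSys.tm (bL (q ^ 2 * N)) (LS q N hN s hs)) *
        (KQ (q ^ 2 * N)).M (bL (q ^ 2 * N)) hn σ
  have h1 : P (p ^ 1) := fun hn => hGal q N p hN s hs hs0 1 σ
  have h2 : P p := (pow_one p) ▸ h1
  exact h2 _

theorem geo_p (hGeo : GeoSt) (hqp : q ≠ p) (hq2 : q ≠ 2) {A : ValuationSubring Qb}
    (hA : A.LiesOverPrime q) {s t s' t' : ZMod q} (hs : s ≠ 1) (ht : t ≠ 1) (hs' : s' ≠ 1)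
    (ht' : t' ≠ 1) (hs0 : s ≠ 0) (ht0 : t ≠ 0) (hs0' : s' ≠ 0) (ht0' : t' ≠ 0)
    {x : Fin (rk (q ^ 2 * N)) → ZMod p}
    (hx : ∀ σ ∈ A.inertiaSubgroupIn ℚ,
        (KQ (q ^ 2 * N)).M (bL (q ^ 2 * N)) (pne p) σ *ᵥ x = x) :
    rmod p (DS q N hN s t hs ht) *ᵥ (rmod p (DS q N hN s' t' hs' ht') *ᵥ x) = 0 := by
  let P : ℕ → Prop := fun n => ∀ hn : n ≠ 0, ∀ x : Fin (finrank ℤ (Lat (q ^ 2 * N))) → ZMod n,
      (∀ σ ∈ A.inertiaSubgroupIn ℚ,
        (KQ (q ^ 2 * N)).M (bL (q ^ 2 * N)) hn σ *ᵥ x = x) →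
      rmod n (DS q N hN s t hs ht) *ᵥ (rmod n (DS q N hN s' t' hs' ht') *ᵥ x) = 0
  have h1 : P (p ^ 1) := fun hn x hx => hGeo q N p hN hqp hq2 A hA s t s' t' hs ht hs' ht'
    hs0 ht0 hs0' ht0' x hx
  have h2 : P p := (pow_one p) ▸ h1
  exact h2 _ x hx

/-- `R_s - R_t` commutes with Galois -/
theorem gal_D (hGal : GeoGal) {s t : ZMod q} (hs : s ≠ 1) (ht : t ≠ 1) (hs0 : s ≠ 0) (ht0 : t ≠ 0)
    (σ : GQ) : (KQ (q ^ 2 * N)).M (bL (q ^ 2 * N)) (pne p) σ * rmod p (DS q N hN s t hs ht) =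
      rmod p (DS q N hN s t hs ht) * (KQ (q ^ 2 * N)).M (bL (q ^ 2 * N)) (pne p) σ := by
  rw [DS, map_sub, Matrix.mul_sub, Matrix.sub_mul, gal_p hN hGal hs hs0, gal_p hN hGal ht ht0]

/-- `R_s - R_t` commutes with Hecke operators -/
theorem hecke_D (hGal : GeoGal) {S : Set ℕ} (hpS : p ∈ S)
    (hLS : ∀ r : ℕ, r.Prime → r ∣ q * N → r ∈ S)
    {s t : ZMod q} (hs : s ≠ 1) (ht : t ≠ 1) (hs0 : s ≠ 0) (ht0 : t ≠ 0) (i : JS S) :
    HV (N := q ^ 2 * N) p (FreeAlgebra.ι ℤ i) * rmod p (DS q N hN s t hs ht) =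
      rmod p (DS q N hN s t hs ht) * HV p (FreeAlgebra.ι ℤ i) := by
  obtain ⟨l, hl, hlS⟩ := i
  obtain ⟨A, hA, τ, hτ⟩ := Frob.exists_place_frobenius hl
  have hlN : ¬ l ∣ (q ^ 2 * N) * p := by
    intro h
    rcases hl.dvd_mul.mp h with h | h
    · rcases hl.dvd_mul.mp h with h | h
      · exact hlS (hLS l hl ((hl.dvd_of_dvd_pow h).mul_right N))
      · exact hlS (hLS l hl (h.mul_left q))
    · rw [(Nat.prime_dvd_prime_iff_eq hl hp.out).mp h] at hlS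
      exact hlS hpS
  rw [HV_frob hl hlS hlN hA hτ, Matrix.add_mul, Matrix.mul_add, Matrix.smul_mul,
    Matrix.mul_smul, gal_D hN hGal hs ht hs0 ht0, gal_D hN hGal hs ht hs0 ht0]

/-- the classes in the eigenspace which are killed by all differences -/
def KD {S : Set ℕ} (hSN : ∀ i : JS S, ¬ i.1 ∣ q ^ 2 * N)
    (θ : heckeAlgebra (q ^ 2 * N) 2 S →+* ZMod p) :
    Submodule (ZMod p) (Fin (rk (q ^ 2 * N)) → ZMod p) where
  carrier := {x | x ∈ WW hSN θ ∧ ∀ (s t : ZMod q) (hs : s ≠ 1) (ht : t ≠ 1), s ≠ 0 → t ≠ 0 →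
    rmod p (DS q N hN s t hs ht) *ᵥ x = 0}
  add_mem' := by
    rintro x y ⟨hx, hx'⟩ ⟨hy, hy'⟩
    refine ⟨Submodule.add_mem _ hx hy, fun s t hs ht hs0 ht0 => ?_⟩
    rw [Matrix.mulVec_add, hx' s t hs ht hs0 ht0, hy' s t hs ht hs0 ht0, add_zero]
  zero_mem' := ⟨Submodule.zero_mem _, fun s t hs ht _ _ => Matrix.mulVec_zero _⟩
  smul_mem' := by
    rintro c x ⟨hx, hx'⟩
    refine ⟨Submodule.smul_mem _ c hx, fun s t hs ht hs0 ht0 => ?_⟩
    rw [Matrix.mulVec_smul, hx' s t hs ht hs0 ht0, smul_zero]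

variable {S : Set ℕ} {hSN : ∀ i : JS S, ¬ i.1 ∣ q ^ 2 * N}
  {θ : heckeAlgebra (q ^ 2 * N) 2 S →+* ZMod p}

theorem KD_stable (hGal : GeoGal) (g : GQ) {x : Fin (rk (q ^ 2 * N)) → ZMod p}
    (hx : x ∈ KD hN hSN θ) : TV (q ^ 2 * N) p g x ∈ KD hN hSN θ := by
  refine ⟨WW_stable g hx.1, fun s t hs ht hs0 ht0 => ?_⟩
  rw [TV_apply, Matrix.mulVec_mulVec, ← gal_D hN hGal hs ht hs0 ht0, ← Matrix.mulVec_mulVec,
    hx.2 s t hs ht hs0 ht0, Matrix.mulVec_zero]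

/-- the representation on `KD` -/
def RD (hGal : GeoGal) (hSN : ∀ i : JS S, ¬ i.1 ∣ q ^ 2 * N)
    (θ : heckeAlgebra (q ^ 2 * N) 2 S →+* ZMod p) :
    GQ →* (KD hN hSN θ →ₗ[ZMod p] KD hN hSN θ) where
  toFun g := (TV (q ^ 2 * N) p g).restrict fun x hx => KD_stable hN hGal g hx
  map_one' := by
    ext x : 2
    show TV (q ^ 2 * N) p 1 x = x
    rw [map_one]; rfl
  map_mul' g h := by
    ext x : 2
    show TV (q ^ 2 * N) p (g * h) x = TV (q ^ 2 * N) p g (TV (q ^ 2 * N) p h x)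
    rw [map_mul]; rfl

/-- **(L1), the fixed vector** -/
theorem exists_fixed_vec (hqp : q ≠ p) (hS : S.Finite)
    (hpS : p ∈ S) (hLS : ∀ r : ℕ, r.Prime → r ∣ q * N → r ∈ S)
    {ρ : GQ →* Matrix (Fin 2) (Fin 2) (ZMod p)} (hfin : FinLevel ρ)
    (hdet : ∀ g, (ρ g).det = chiK p (ZMod p) g)
    {A : ValuationSubring Qb} (hA : A.LiesOverPrime q)
    (hun : ∀ σ ∈ A.inertiaSubgroupIn ℚ, (ρ σ - 1) * (ρ σ - 1) = 0)
    (hθ : ∀ (ℓ : ℕ) (hℓ : ℓ.Prime) (hℓM : ¬ ℓ ∣ q ^ 2 * N) (hℓS : ℓ ∉ S),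
      ∀ A : ValuationSubring Qb, A.LiesOverPrime ℓ → ∀ τ : GQ, A.IsFrobeniusAt τ ℓ →
      (ρ τ).trace = θ (heckeAlgebra.T hℓ hℓM hℓS)) :
    ∃ x : Fin (rk (q ^ 2 * N)) → ZMod p, x ≠ 0 ∧ x ∈ WW hSN θ ∧
      ∀ σ ∈ A.inertiaSubgroupIn ℚ,
        (KQ (q ^ 2 * N)).M (bL (q ^ 2 * N)) (pne p) σ *ᵥ x = x := by
  have hMS : ∀ r : ℕ, r.Prime → r ∣ q ^ 2 * N → r ∈ S := by
    intro r hr h
    rcases hr.dvd_mul.mp h with h | h
    · exact hLS r hr ((hr.dvd_of_dvd_pow h).mul_right N)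
    · exact hLS r hr (h.mul_left q)
  have hrel : ∀ (g : GQ) (x : Fin (rk (q ^ 2 * N)) → ZMod p), x ∈ WW hSN θ →
      TV (q ^ 2 * N) p g x + chiK p (ZMod p) g • TV (q ^ 2 * N) p g⁻¹ x = (ρ g).trace • x := by
    intro g x hx
    have h := TW_rel (hSN := hSN) hfin hdet hS hpS hθ g ⟨x, hx⟩
    exact congrArg Subtype.val h
  -- an inertia fixed vector
  haveI := WW_ne_bot (hSN := hSN) (θ := θ) hMS
  have hW : WW hSN θ ≠ ⊥ := by
    intro h
    obtain ⟨⟨x, hx⟩, ⟨y, hy⟩, hxy⟩ := this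
    apply hxy
    apply Subtype.ext
    rw [h, Submodule.mem_bot] at hx hy
    show x = y
    rw [hx, hy]
  obtain ⟨x₀, hx₀W, hx₀0, hx₀⟩ := CarayolX.exists_fixed (TV (q ^ 2 * N) p)
    (A.inertiaSubgroupIn ℚ) (WW hSN θ) hW (fun σ _ v hv => WW_stable σ hv) (fun σ hσ v hv => by
      have h := hrel σ v hv
      rw [chiK_inertia p (ZMod p) hq.out hA hqp hσ, one_smul, trace_of_unip (hun σ hσ),
        two_smul] at h
      exact h)
  refine ⟨x₀, hx₀0, hx₀W, fun σ hσ => ?_⟩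
  rw [← TV_apply]
  exact hx₀ σ hσ

/-- **(L1), the vector** -/
theorem exists_vec (hGeo : GeoSt) (hGal : GeoGal) (hp2 : p ≠ 2) (hqp : q ≠ p) (hS : S.Finite)
    (hpS : p ∈ S) (hLS : ∀ r : ℕ, r.Prime → r ∣ q * N → r ∈ S)
    {ρ : GQ →* Matrix (Fin 2) (Fin 2) (ZMod p)} (hfin : FinLevel ρ)
    (hdet : ∀ g, (ρ g).det = chiK p (ZMod p) g)
    (hspan : Submodule.span (ZMod p) (Set.range ρ) = ⊤)
    (hun : ∀ A : ValuationSubring Qb, A.LiesOverPrime q → ∀ σ ∈ A.inertiaSubgroupIn ℚ,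
      (ρ σ - 1) * (ρ σ - 1) = 0)
    (hθ : ∀ (ℓ : ℕ) (hℓ : ℓ.Prime) (hℓM : ¬ ℓ ∣ q ^ 2 * N) (hℓS : ℓ ∉ S),
      ∀ A : ValuationSubring Qb, A.LiesOverPrime ℓ → ∀ τ : GQ, A.IsFrobeniusAt τ ℓ →
      (ρ τ).trace = θ (heckeAlgebra.T hℓ hℓM hℓS)) :
    ∃ x : Fin (rk (q ^ 2 * N)) → ZMod p, x ≠ 0 ∧ x ∈ WW hSN θ ∧
      (∀ (s t : ZMod q) (hs : s ≠ 1) (ht : t ≠ 1), s ≠ 0 → t ≠ 0 →
        rmod p (DS q N hN s t hs ht) *ᵥ x = 0) ∧
      (KQ (q ^ 2 * N)).M (bL (q ^ 2 * N)) (pne p) complexConjugation *ᵥ x = -x := by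
  have hMS : ∀ r : ℕ, r.Prime → r ∣ q ^ 2 * N → r ∈ S := by
    intro r hr h
    rcases hr.dvd_mul.mp h with h | h
    · exact hLS r hr ((hr.dvd_of_dvd_pow h).mul_right N)
    · exact hLS r hr (h.mul_left q)
  have h2 : (2 : ZMod p) ≠ 0 := by
    intro h
    have h1 : ((2 : ℕ) : ZMod p) = 0 := by exact_mod_cast h
    rw [ZMod.natCast_eq_zero_iff] at h1
    exact hp2 ((Nat.prime_dvd_prime_iff_eq hp.out Nat.prime_two).mp h1)
  have hrel : ∀ (g : GQ) (x : Fin (rk (q ^ 2 * N)) → ZMod p), x ∈ WW hSN θ →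
      TV (q ^ 2 * N) p g x + chiK p (ZMod p) g • TV (q ^ 2 * N) p g⁻¹ x = (ρ g).trace • x := by
    intro g x hx
    have h := TW_rel (hSN := hSN) hfin hdet hS hpS hθ g ⟨x, hx⟩
    exact congrArg Subtype.val h
  obtain ⟨A, hA, -, -⟩ := Frob.exists_place_frobenius hq.out
  obtain ⟨x₀, hx₀0, hx₀W, hx₀'⟩ := exists_fixed_vec (hSN := hSN) hqp hS hpS hLS hfin hdet hA
    (hun A hA) hθ
  have hK : Nontrivial (KD hN hSN θ) := by
    by_cases hD : ∀ (s t : ZMod q) (hs : s ≠ 1) (ht : t ≠ 1), s ≠ 0 → t ≠ 0 →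
        rmod p (DS q N hN s t hs ht) *ᵥ x₀ = 0
    · exact ⟨⟨⟨x₀, hx₀W, hD⟩, 0, fun h => hx₀0 (congrArg Subtype.val h)⟩⟩
    · push Not at hD
      obtain ⟨s', t', hs', ht', hs0', ht0', hne⟩ := hD
      have hq2 : q ≠ 2 := by
        intro h
        have h0 : ∀ s : ZMod q, s ≠ 1 → s = 0 := by
          subst h
          exact zmod_two_aux
        exact hs0' (h0 s' hs')
      refine ⟨⟨⟨rmod p (DS q N hN s' t' hs' ht') *ᵥ x₀, fun i => ?_,
        fun s t hs ht hs0 ht0 => ?_⟩, 0, fun h => hne (congrArg Subtype.val h)⟩⟩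
      · rw [Matrix.mulVec_mulVec, hecke_D hN hGal hpS hLS hs' ht' hs0' ht0',
          ← Matrix.mulVec_mulVec, hx₀W i, Matrix.mulVec_smul]
      · exact geo_p hN hGeo hqp hq2 hA hs ht hs' ht' hs0 ht0 hs0' ht0' hx₀'
  obtain ⟨x, hx0, hx⟩ := exists_neg (M := RD hN hGal hSN θ) h2 hspan (chiK p (ZMod p))
    (fun g x => Subtype.ext (hrel g x x.2.1)) (c := complexConjugation)
    complexConjugation_mul_self (fun h => by
      have h1 := hdet complexConjugation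
      rw [h, Matrix.det_one, chiK_conj] at h1
      apply h2
      rw [← one_add_one_eq_two]
      nth_rewrite 1 [h1]
      exact neg_add_cancel 1)
  refine ⟨x, fun h => hx0 (Subtype.ext h), x.2.1, x.2.2, ?_⟩
  have h3 := congrArg Subtype.val hx
  rw [← TV_apply]
  exact h3

end

end Fermat.Agent.RT6
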