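import Fermat.Agent.RT6.B3
import Fermat.Agent.RT6.B4
import Fermat.Agent.RT6.L7
import Fermat.Agent.RT6.Geo
import Fermat.Agent.RT6.A3

/-!
# (L1): the symbol
-/

set_option autoImplicit false
set_option linter.style.haveILetI false
set_option linter.unusedVariables false
set_option synthInstance.maxHeartbeats 400000

noncomputable section

namespace Fermat.Agent.RT6.B5

open Matrix CongruenceSubgroup CuspForm
open Fermat.Agent.AnJac Fermat.Agent.MazurP Fermat.Agent.CarayolX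
open Fermat.Agent.S43Glue Fermat.Agent.HeckeQ
open scoped MatrixGroups

local notation "Qb" => AlgebraicClosure ℚ
local notation "GQ" => Qb ≃ₐ[ℚ] Qb

theorem conj_spec (a : Qb) : AnJac.ιQ (complexConjugation a) = (starRingEnd ℂ) (AnJac.ιQ a) :=
  complexEmbedding_complexConjugation a

theorem l1St (p : ℕ) [hp : Fact p.Prime] (hp2 : p ≠ 2) : L1St p := by
  intro q N hq _ _ S ρ hqp hqN hS hpS hNS hfin hdet hspan hun hmod
  haveI : NeZero q := ⟨hq.out.ne_zero⟩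
  have hMS : ∀ r : ℕ, r.Prime → r ∣ q ^ 2 * N → r ∈ S := by
    intro r hr h
    rcases hr.dvd_mul.mp h with h | h
    · exact hNS r hr ((hr.dvd_of_dvd_pow h).mul_right N)
    · exact hNS r hr (h.mul_left q)
  have hSN : ∀ i : JS S, ¬ i.1 ∣ q ^ 2 * N := fun i h => i.2.2 (hMS _ i.2.1 h)
  obtain ⟨θ, hθ⟩ := hmod
  obtain ⟨HS, HG⟩ := geoBoth
  obtain ⟨x, hx0, hxW, hxD, hxc⟩ := exists_vec (hSN := hSN) (θ := θ) hqN HS HG hp2 hqp hS hpS hNS
    hfin hdet hspan hun hθ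
  refine B4.exists_y hqN hS hpS hNS hfin hdet hspan (v := B3.vh p x) (B3.vh_mem p x)
    (fun h => hx0 (B3.vh_eq_zero p (pne p) h)) ?_ ?_ ?_
  · intro l hl hlS A hA τ hτ
    have h1 := hxW ⟨l, hl, hlS⟩
    rw [HV_ι, hkA_ι, ← hθ l hl (hSN ⟨l, hl, hlS⟩) hlS A hA τ hτ] at h1
    rw [← B3.vh_LTot]
    refine (congrArg (B3.vh p) h1).trans ?_
    exact B3.vh_smul p _ _
  · intro s t hs ht hs0 ht0
    exact B3.vh_DS p q N hqN s t hs ht (hxD s t hs ht hs0 ht0)
  · intro γ hγ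
    exact B3.vh_sign (pne p) conj_spec hxc ⟨γ, hγ⟩

/-- **(A3)** -/
theorem a3 (p : ℕ) [hp : Fact p.Prime] (h : p = 3 ∨ p = 5) : TWG.A3St p :=
  a3_of_l1 p h (l1St p (by rcases h with rfl | rfl <;> norm_num))

end Fermat.Agent.RT6.B5
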