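import Fermat.Agent.RT6.HFs
import Fermat.Agent.Carayol.Ident

/-!
# Expansions of modular functions along `τ ↦ γ(qτ)/q`
-/

set_option autoImplicit false
set_option linter.unusedSectionVars false
set_option linter.style.haveILetI false

noncomputable section

namespace Fermat.Agent.RT6

open Fermat.Agent.Carayol
open Fermat.Agent.AnJac (IsX IsP lser ef HF gl MGA IsInt isNH_one lser_mul lser_add lser_const
  lser_one lser_inj lser_ne_zero isX_jfun lser_jfun quot_mem_FF)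
open Fermat.Agent.ModFun Fermat.Agent.GenusX0 ModularCurve
open UpperHalfPlane MatrixGroups CongruenceSubgroup Matrix.SpecialLinearGroup

variable {q : ℕ} [NeZero q]

lemma lin_ne {c d : ℤ} (h : c ≠ 0 ∨ d ≠ 0) (τ : ℍ) : (c : ℂ) * τ + d ≠ 0 := lin_ne_zero h τ

lemma row_ne (γ : SL(2,ℤ)) : γ 1 0 ≠ 0 ∨ γ 1 1 ≠ 0 := by
  by_contra! h
  have := det_entries γ
  rw [h.1, h.2] at this
  simp at this

lemma den_ne (γ : SL(2,ℤ)) (τ : ℍ) : ((γ 1 0 : ℤ) : ℂ) * (q * τ) + ((γ 1 1 : ℤ) : ℂ) ≠ 0 := by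
  have hq : (q : ℤ) ≠ 0 := by exact_mod_cast NeZero.ne q
  have h := lin_ne (c := γ 1 0 * q) (d := γ 1 1) (by
    rcases row_ne γ with h | h
    · exact Or.inl (mul_ne_zero h hq)
    · exact Or.inr h) τ
  push_cast at h
  intro h0
  apply h
  linear_combination h0

lemma coe_AD_smul (γ : SL(2,ℤ)) (τ : ℍ) : ((AD q γ • τ : ℍ) : ℂ) * q =
    (((γ 0 0 : ℤ) : ℂ) * (q * τ) + ((γ 0 1 : ℤ) : ℂ)) /
      (((γ 1 0 : ℤ) : ℂ) * (q * τ) + ((γ 1 1 : ℤ) : ℂ)) := by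
  rw [coe_smul_of_det_pos (AD_pos γ)]
  have hq : (q : ℂ) ≠ 0 := by exact_mod_cast NeZero.ne q
  have e00 : ((AD q γ : GL (Fin 2) ℝ) : Matrix (Fin 2) (Fin 2) ℝ) 0 0 = q * (γ 0 0 : ℤ) := by
    rw [coe_AD]; simp [MD]
  have e01 : ((AD q γ : GL (Fin 2) ℝ) : Matrix (Fin 2) (Fin 2) ℝ) 0 1 = (γ 0 1 : ℤ) := by
    rw [coe_AD]; simp [MD]
  have e10 : ((AD q γ : GL (Fin 2) ℝ) : Matrix (Fin 2) (Fin 2) ℝ) 1 0 = q ^ 2 * (γ 1 0 : ℤ) := by
    rw [coe_AD]; simp [MD]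
  have e11 : ((AD q γ : GL (Fin 2) ℝ) : Matrix (Fin 2) (Fin 2) ℝ) 1 1 = q * (γ 1 1 : ℤ) := by
    rw [coe_AD]; simp [MD]
  rw [num, denom, e00, e01, e10, e11]
  have h := den_ne (q := q) γ τ
  push_cast
  rw [div_mul_eq_mul_div, div_eq_div_iff _ h]
  · ring
  · intro h0
    apply h
    apply mul_left_cancel₀ hq
    rw [mul_zero, ← h0]; ring

lemma AD_smul_smul (γ γ' : SL(2,ℤ)) (τ : ℍ) : AD q γ • (AD q γ' • τ) = AD q (γ * γ') • τ := by
  apply UpperHalfPlane.ext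
  have hq : (q : ℂ) ≠ 0 := by exact_mod_cast NeZero.ne q
  apply mul_right_cancel₀ hq
  rw [coe_AD_smul, coe_AD_smul]
  have h1 := den_ne (q := q) γ' τ
  have h2 := den_ne (q := q) γ (AD q γ' • τ)
  have h3 := den_ne (q := q) (γ * γ') τ
  have hX := coe_AD_smul (q := q) γ' τ
  rw [mul_comm ((AD q γ' • τ : ℍ) : ℂ) (q : ℂ)] at hX
  rw [hX] at h2 ⊢
  rw [mul_ent, mul_ent, mul_ent, mul_ent] at *
  push_cast at h3 ⊢
  generalize (((γ 0 0 : ℤ) : ℂ)) = a at *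
  generalize (((γ 0 1 : ℤ) : ℂ)) = b at *
  generalize (((γ 1 0 : ℤ) : ℂ)) = c at *
  generalize (((γ 1 1 : ℤ) : ℂ)) = d at *
  generalize (((γ' 0 0 : ℤ) : ℂ)) = a' at *
  generalize (((γ' 0 1 : ℤ) : ℂ)) = b' at *
  generalize (((γ' 1 0 : ℤ) : ℂ)) = c' at *
  generalize (((γ' 1 1 : ℤ) : ℂ)) = d' at *
  generalize (q : ℂ) * (τ : ℂ) = z at *
  rw [div_eq_div_iff h2 h3]
  have hXw : (a' * z + b') / (c' * z + d') * (c' * z + d') = a' * z + b' := div_mul_cancel₀ _ h1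
  generalize (a' * z + b') / (c' * z + d') = X at *
  linear_combination (a * d - b * c) * hXw

/-- composition with `τ ↦ γ(qτ)/q` -/
def cA (q : ℕ) [NeZero q] (γ : SL(2,ℤ)) (f : ℍ → ℂ) : ℍ → ℂ := fun τ => f (AD q γ • τ)

lemma cA_mul (γ : SL(2,ℤ)) (f g : ℍ → ℂ) : cA q γ (f * g) = cA q γ f * cA q γ g := rfl
lemma cA_add (γ : SL(2,ℤ)) (f g : ℍ → ℂ) : cA q γ (f + g) = cA q γ f + cA q γ g := rfl
lemma cA_one (γ : SL(2,ℤ)) : cA q γ 1 = 1 := rfl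
lemma cA_const (γ : SL(2,ℤ)) (c : ℂ) : cA q γ (fun _ => c) = fun _ => c := rfl
lemma cA_cA (γ γ' : SL(2,ℤ)) (f : ℍ → ℂ) : cA q γ' (cA q γ f) = cA q (γ * γ') f := by
  funext τ
  rw [cA, cA, cA, AD_smul_smul]

lemma cA_ne_zero (γ : SL(2,ℤ)) {f : ℍ → ℂ} (hf : f ≠ 0) : cA q γ f ≠ 0 :=
  AnJac.comp_GL_ne_zero hf _

variable {N : ℕ} [NeZero N]

lemma gl_smul (g : SL(2,ℤ)) (τ : ℍ) : g • τ = gl g • τ := rfl

lemma T_mem' (N : ℕ) : ModularGroup.T ∈ Gamma0 N := AnJac.T_mem N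

lemma isP_cA (hcop : Nat.Coprime q N) {γ : SL(2,ℤ)} (hγ : (N : ℤ) ∣ γ 1 0) {f : ℍ → ℂ}
    (hf : IsX (q ^ 2 * N) 1 f) : IsP (cA q γ f) := by
  have hmga := MGA.comp_int hf.isA.mga (AD_pos (q := q) γ) (AD_int γ)
  refine ⟨AnJac.mdiff_comp_GL hf.isA.mdiff (AD_pos γ), fun τ => ?_, ?_⟩
  · obtain ⟨g', hg', e⟩ := tr_gen q N hcop (T_mem' (q ^ 2 * N)) (γ := γ) (γ' := γ) hγ hγ
      (by simp [ModularGroup.T]) (by simp [ModularGroup.T])
    rw [cA, cA, gl_smul, ← mul_smul, e, mul_smul, ← gl_smul]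
    have := hf.inv ⟨g', hg'⟩ (AD q γ • τ)
    simpa using this
  · have := hmga 1
    change AnJac.MG (fun τ => f (AD q γ • τ))
    simpa using this

/-- the relation defining the expansion -/
def EvRel (q N : ℕ) [NeZero q] (γ : SL(2,ℤ)) (u v : LaurentSeries ℂ) : Prop :=
  ∃ f e : ℍ → ℂ, IsX (q ^ 2 * N) 1 f ∧ IsX (q ^ 2 * N) 1 e ∧ e ≠ 0 ∧ u * lser e = lser f ∧
    v * lser (cA q γ e) = lser (cA q γ f)

section Ev

variable (hcop : Nat.Coprime q N) {γ : SL(2,ℤ)} (hγ : (N : ℤ) ∣ γ 1 0)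

include hcop hγ

lemma lser_cA_ne {e : ℍ → ℂ} (he : IsX (q ^ 2 * N) 1 e) (h0 : e ≠ 0) : lser (cA q γ e) ≠ 0 :=
  lser_ne_zero (isP_cA hcop hγ he) (cA_ne_zero γ h0)

lemma EvRel.of {u : LaurentSeries ℂ} {f e : ℍ → ℂ} (hf : IsX (q ^ 2 * N) 1 f)
    (he : IsX (q ^ 2 * N) 1 e) (h0 : e ≠ 0) (h : u * lser e = lser f) :
    EvRel q N γ u (lser (cA q γ f) / lser (cA q γ e)) :=
  ⟨f, e, hf, he, h0, h, div_mul_cancel₀ _ (lser_cA_ne hcop hγ he h0)⟩

lemma EvRel.unique {u v v' : LaurentSeries ℂ} (h : EvRel q N γ u v) (h' : EvRel q N γ u v') :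
    v = v' := by
  obtain ⟨f, e, hf, he, h0, h1, h2⟩ := h
  obtain ⟨f', e', hf', he', h0', h1', h2'⟩ := h'
  have pf := hf.isP isNH_one
  have pe := he.isP isNH_one
  have pf' := hf'.isP isNH_one
  have pe' := he'.isP isNH_one
  have k1 : f * e' = f' * e := by
    apply lser_inj (pf.mul pe') (pf'.mul pe)
    rw [lser_mul pf pe', lser_mul pf' pe, ← h1, ← h1']; ring
  have k2 : lser (cA q γ f) * lser (cA q γ e') = lser (cA q γ f') * lser (cA q γ e) := by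
    rw [← lser_mul (isP_cA hcop hγ hf) (isP_cA hcop hγ he'),
      ← lser_mul (isP_cA hcop hγ hf') (isP_cA hcop hγ he), ← cA_mul, ← cA_mul, k1]
  have n1 := lser_cA_ne hcop hγ he h0
  have n2 := lser_cA_ne hcop hγ he' h0'
  apply mul_right_cancel₀ (mul_ne_zero n1 n2)
  rw [← mul_assoc, h2, k2, ← h2']; ring

lemma EvRel.mul {u v u' v' : LaurentSeries ℂ} (h : EvRel q N γ u v) (h' : EvRel q N γ u' v') :
    EvRel q N γ (u * u') (v * v') := by
  obtain ⟨f, e, hf, he, h0, h1, h2⟩ := h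
  obtain ⟨f', e', hf', he', h0', h1', h2'⟩ := h'
  refine ⟨f * f', e * e', hf.mul_one hf', he.mul_one he', ?_, ?_, ?_⟩
  · intro h
    rw [UpperHalfPlane.mul_eq_zero_iff he.isA.mdiff he'.isA.mdiff] at h
    rcases h with h | h
    · exact h0 h
    · exact h0' h
  · rw [lser_mul (hf.isP isNH_one) (hf'.isP isNH_one), lser_mul (he.isP isNH_one)
      (he'.isP isNH_one), ← h1, ← h1']; ring
  · rw [cA_mul, cA_mul, lser_mul (isP_cA hcop hγ hf) (isP_cA hcop hγ hf'),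
      lser_mul (isP_cA hcop hγ he) (isP_cA hcop hγ he'), ← h2, ← h2']; ring

lemma EvRel.add {u v u' v' : LaurentSeries ℂ} (h : EvRel q N γ u v) (h' : EvRel q N γ u' v') :
    EvRel q N γ (u + u') (v + v') := by
  obtain ⟨f, e, hf, he, h0, h1, h2⟩ := h
  obtain ⟨f', e', hf', he', h0', h1', h2'⟩ := h'
  refine ⟨f * e' + f' * e, e * e', (hf.mul_one he').add (hf'.mul_one he), he.mul_one he',
    ?_, ?_, ?_⟩
  · intro h
    rw [UpperHalfPlane.mul_eq_zero_iff he.isA.mdiff he'.isA.mdiff] at h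
    rcases h with h | h
    · exact h0 h
    · exact h0' h
  · rw [lser_add ((hf.mul_one he').isP isNH_one) ((hf'.mul_one he).isP isNH_one),
      lser_mul (hf.isP isNH_one) (he'.isP isNH_one), lser_mul (hf'.isP isNH_one)
      (he.isP isNH_one), lser_mul (he.isP isNH_one) (he'.isP isNH_one), ← h1, ← h1']; ring
  · rw [cA_add, cA_mul, cA_mul, cA_mul,
      lser_add ((isP_cA hcop hγ hf).mul (isP_cA hcop hγ he'))
        ((isP_cA hcop hγ hf').mul (isP_cA hcop hγ he)),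
      lser_mul (isP_cA hcop hγ hf) (isP_cA hcop hγ he'),
      lser_mul (isP_cA hcop hγ hf') (isP_cA hcop hγ he),
      lser_mul (isP_cA hcop hγ he) (isP_cA hcop hγ he'), ← h2, ← h2']; ring

lemma EvRel.const (c : ℂ) : EvRel q N γ (algebraMap ℂ _ c) (algebraMap ℂ _ c) := by
  have h1 : lser (1 : ℍ → ℂ) = 1 := lser_one
  refine ⟨fun _ => c, 1, IsX.const c, IsX.const 1, ?_, ?_, ?_⟩
  · intro h
    have := congrFun h UpperHalfPlane.I
    exact one_ne_zero this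
  · rw [h1, mul_one, lser_const, C_eq_algebraMap]
  · rw [cA_one, cA_const, h1, mul_one, lser_const, C_eq_algebraMap]

lemma exists_EvRel (u : FF ℂ (q ^ 2 * N)) : ∃ v, EvRel q N γ (u : LaurentSeries ℂ) v := by
  obtain ⟨f, hf, B, hB, h⟩ := AnJac.mem_FF.mp u.2
  refine ⟨_, EvRel.of hcop hγ hf (AnJac.isX_jev (N := q ^ 2 * N) B) (AnJac.ef_jev_ne_zero hB) ?_⟩
  rw [AnJac.lser_ef (AnJac.jev_mem B), h]

omit hcop hγ in
/-- the expansion as a homomorphism -/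
def evC (hcop : Nat.Coprime q N) {γ : SL(2,ℤ)} (hγ : (N : ℤ) ∣ γ 1 0) :
    FF ℂ (q ^ 2 * N) →+* LaurentSeries ℂ where
  toFun u := (exists_EvRel hcop hγ u).choose
  map_one' := by
    refine EvRel.unique hcop hγ (exists_EvRel hcop hγ 1).choose_spec ?_
    have := EvRel.const hcop hγ 1
    rw [map_one] at this
    exact this
  map_zero' := by
    refine EvRel.unique hcop hγ (exists_EvRel hcop hγ 0).choose_spec ?_
    have := EvRel.const hcop hγ 0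
    rw [map_zero] at this
    exact this
  map_mul' u v := EvRel.unique hcop hγ (exists_EvRel hcop hγ (u * v)).choose_spec
    (EvRel.mul hcop hγ (exists_EvRel hcop hγ u).choose_spec (exists_EvRel hcop hγ v).choose_spec)
  map_add' u v := EvRel.unique hcop hγ (exists_EvRel hcop hγ (u + v)).choose_spec
    (EvRel.add hcop hγ (exists_EvRel hcop hγ u).choose_spec (exists_EvRel hcop hγ v).choose_spec)

lemma evC_rel (u : FF ℂ (q ^ 2 * N)) : EvRel q N γ (u : LaurentSeries ℂ) (evC hcop hγ u) :=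
  (exists_EvRel hcop hγ u).choose_spec

lemma evC_eq {u : FF ℂ (q ^ 2 * N)} {v : LaurentSeries ℂ}
    (h : EvRel q N γ (u : LaurentSeries ℂ) v) : evC hcop hγ u = v :=
  EvRel.unique hcop hγ (evC_rel hcop hγ u) h

lemma evC_quot {u : FF ℂ (q ^ 2 * N)} {f e : ℍ → ℂ} (hf : IsX (q ^ 2 * N) 1 f)
    (he : IsX (q ^ 2 * N) 1 e) (h0 : e ≠ 0) (h : (u : LaurentSeries ℂ) * lser e = lser f) :
    evC hcop hγ u * lser (cA q γ e) = lser (cA q γ f) := by
  rw [evC_eq hcop hγ (EvRel.of hcop hγ hf he h0 h), div_mul_cancel₀ _ (lser_cA_ne hcop hγ he h0)]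

lemma evC_const (c : ℂ) : evC hcop hγ (algebraMap ℂ (FF ℂ (q ^ 2 * N)) c) = algebraMap ℂ _ c :=
  evC_eq hcop hγ (EvRel.const hcop hγ c)

end Ev

end Fermat.Agent.RT6
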