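import Fermat.Agent.RT6.Ev

/-!
# Classification of the expansions
-/

set_option autoImplicit false
set_option linter.unusedSectionVars false
set_option linter.style.haveILetI false

noncomputable section

namespace Fermat.Agent.RT6

open Fermat.Agent.Carayol
open Fermat.Agent.AnJac (IsX IsP lser ef HF gl MGA IsInt isNH_one lser_mul lser_add lser_const
  lser_one lser_inj lser_ne_zero isX_jfun lser_jfun quot_mem_FF)
open Fermat.Agent.ModFun Fermat.Agent.GenusX0 ModularCurve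
open UpperHalfPlane MatrixGroups CongruenceSubgroup Matrix.SpecialLinearGroup

variable {q : ℕ} [NeZero q] {N : ℕ} [NeZero N] {K : Type*} [Field K]

section Gen

/-- the expansion of functions over `K` -/
def evK (ι : K →+* ℂ) (hcop : Nat.Coprime q N) {γ : SL(2,ℤ)} (hγ : (N : ℤ) ∣ γ 1 0) :
    FF K (q ^ 2 * N) →+* LaurentSeries ℂ := (evC hcop hγ).comp (bc ι (q ^ 2 * N))

lemma diag_eq_dm (d : ℕ) [NeZero d] (τ : ℍ) :
    (ModularForm.heckeDiagMatrix d • τ : ℍ) = dm d τ := by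
  apply UpperHalfPlane.ext
  rw [ModularForm.coe_heckeDiagMatrix_smul (NeZero.ne d), coe_dm]

variable (ι : K →+* ℂ) (hcop : Nat.Coprime q N) {γ : SL(2,ℤ)} (hγ : (N : ℤ) ∣ γ 1 0)

lemma isX_dm {d : ℕ} [NeZero d] (hd : d ∣ q ^ 2 * N) :
    IsX (q ^ 2 * N) 1 (fun τ => jfun (dm d τ)) := by
  have h := AnJac.isX_diag (N := q ^ 2 * N) (d := d) (NeZero.ne _) hd
    (f := jfun) ((isX_jfun 1).isP isNH_one) jfun_smul
  have e : (fun τ : ℍ => jfun (ModularForm.heckeDiagMatrix d • τ)) = fun τ => jfun (dm d τ) := by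
    funext τ; rw [diag_eq_dm]
  rwa [e] at h

lemma lser_dm {d : ℕ} [NeZero d] :
    lser (fun τ => jfun (dm d τ)) = qExpand ℂ d (jqModC ℂ) := by
  have h := (AnJac.lser_diag (d := d) (f := jfun) ((isX_jfun 1).isP isNH_one)).2
  have e : (fun τ : ℍ => jfun (ModularForm.heckeDiagMatrix d • τ)) = fun τ => jfun (dm d τ) := by
    funext τ; rw [diag_eq_dm]
  rw [e] at h
  rw [h, lser_jfun]

/-- values on the generators -/
lemma evK_jel {d : ℕ} [NeZero d] (hd : d ∣ q ^ 2 * N) {F : LaurentSeries ℂ} (hF : F ∈ convLaurent)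
    (h : ∀ τ : ℍ, jfun (dm d (AD q γ • τ)) = ef F τ) :
    evK ι hcop hγ (jel K d hd) = F := by
  rw [evK, RingHom.comp_apply, bc_jel]
  refine evC_eq hcop hγ ⟨fun τ => jfun (dm d τ), 1, isX_dm hd, IsX.const 1, ?_, ?_, ?_⟩
  · intro h
    have := congrFun h UpperHalfPlane.I
    exact one_ne_zero this
  · rw [lser_one, mul_one, lser_dm, coe_jel]
  · rw [cA_one, lser_one, mul_one]
    have e : cA q γ (fun τ => jfun (dm d τ)) = ef F := funext h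
    rw [e, AnJac.lser_ef hF]

lemma evK_const (c : K) : evK ι hcop hγ (algebraMap K _ c) = algebraMap ℂ _ (ι c) := by
  rw [evK, RingHom.comp_apply, bc_const, evC_const]

/-- `X q (c q τ + d) = a q τ + b` -/
lemma X_eq (γ : SL(2,ℤ)) (τ : ℍ) : ((AD q γ • τ : ℍ) : ℂ) * q *
    (((γ 1 0 : ℤ) : ℂ) * (q * τ) + ((γ 1 1 : ℤ) : ℂ)) =
    ((γ 0 0 : ℤ) : ℂ) * (q * τ) + ((γ 0 1 : ℤ) : ℂ) := by
  rw [coe_AD_smul, div_mul_cancel₀ _ (den_ne γ τ)]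

/-- the middle generators -/
lemma ev_a1 {d d₀ : ℕ} [NeZero d] (hd : d ∣ q ^ 2 * N) (hd₀ : d₀ ∣ N) (e : d = q * d₀) :
    evK ι hcop hγ (jel K d hd) = coeffMap ι (qExpand K d (jqModC K)) := by
  refine evK_jel ι hcop hγ hd (gen_conv ι d) fun τ => ?_
  change _ = fn ι (qExpand K d (jqModC K)) τ
  rw [fn_gen]
  obtain ⟨n₀, hn₀⟩ := hd₀
  obtain ⟨κ, hκ⟩ := hγ
  have hdet := det_entries γ
  have hN : (N : ℤ) = d₀ * n₀ := by exact_mod_cast hn₀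
  refine jfun_mob (γ 0 0) (d₀ * γ 0 1) (n₀ * κ) (γ 1 1) ?_ ?_
  · rw [hκ, hN] at hdet
    linear_combination hdet
  · have hX := X_eq (q := q) γ τ
    rw [hκ, hN] at hX
    have hdC : (d : ℂ) = q * d₀ := by exact_mod_cast e
    rw [coe_dm, coe_dm, hdC]
    push_cast at hX ⊢
    linear_combination d₀ * hX

/-- `x = ∞` -/
lemma ev_a0_inf {d₀ : ℕ} [NeZero d₀] [NeZero (q ^ 2 * d₀)] (hd : d₀ ∣ q ^ 2 * N) (hd₀ : d₀ ∣ N)
    (ha : (q : ℤ) ∣ γ 0 0) :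
    evK ι hcop hγ (jel K d₀ hd) = coeffMap ι (qExpand K (q ^ 2 * d₀) (jqModC K)) := by
  refine evK_jel ι hcop hγ hd (gen_conv ι _) fun τ => ?_
  change _ = fn ι (qExpand K (q ^ 2 * d₀) (jqModC K)) τ
  rw [fn_gen]
  obtain ⟨n₀, hn₀⟩ := hd₀
  obtain ⟨κ, hκ⟩ := hγ
  obtain ⟨a₁, ha₁⟩ := ha
  have hdet := det_entries γ
  have hN : (N : ℤ) = d₀ * n₀ := by exact_mod_cast hn₀
  have hq : (q : ℂ) ≠ 0 := by exact_mod_cast NeZero.ne q
  refine jfun_mob a₁ (d₀ * γ 0 1) (n₀ * κ) (q * γ 1 1) ?_ ?_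
  · rw [hκ, hN, ha₁] at hdet
    linear_combination hdet
  · have hX := X_eq (q := q) γ τ
    rw [hκ, hN, ha₁] at hX
    rw [coe_dm, coe_dm]
    push_cast at hX ⊢
    linear_combination d₀ * hX

/-- `y = ∞` -/
lemma ev_a2_inf {d d₀ : ℕ} [NeZero d] (hd : d ∣ q ^ 2 * N) (hd₀ : d₀ ∣ N) (e : d = q ^ 2 * d₀)
    (hc : (q : ℤ) ∣ γ 1 0) :
    evK ι hcop hγ (jel K d hd) = coeffMap ι (qExpand K d (jqModC K)) := by
  refine evK_jel ι hcop hγ hd (gen_conv ι _) fun τ => ?_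
  change _ = fn ι (qExpand K d (jqModC K)) τ
  rw [fn_gen]
  obtain ⟨n₀, hn₀⟩ := hd₀
  have hdet := det_entries γ
  have hN : (N : ℤ) = d₀ * n₀ := by exact_mod_cast hn₀
  obtain ⟨κ, hκ⟩ : ((q * N : ℕ) : ℤ) ∣ γ 1 0 := by
    push_cast
    exact IsCoprime.mul_dvd (Nat.isCoprime_iff_coprime.2 hcop) hc hγ
  refine jfun_mob (γ 0 0) (d₀ * q * γ 0 1) (n₀ * κ) (γ 1 1) ?_ ?_
  · rw [hκ] at hdet
    push_cast at hdet
    rw [hN] at hdet
    linear_combination hdet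
  · have hX := X_eq (q := q) γ τ
    rw [hκ] at hX
    have hNC : (N : ℂ) = d₀ * n₀ := by exact_mod_cast hn₀
    have hdC : (d : ℂ) = q ^ 2 * d₀ := by exact_mod_cast e
    rw [coe_dm, coe_dm, hdC]
    push_cast at hX ⊢
    rw [hNC] at hX
    linear_combination (q * d₀) * hX

section Finite

variable {ζ : Kˣ} {b₀ : ℤ} (hb : ι ζ = Complex.exp (2 * Real.pi * Complex.I * (b₀ / q)))

/-- the exponent of the translation by `k/q` -/
def ex (q : ℕ) (b₀ : ℤ) (k : ZMod q) : ℕ := (k * (b₀ : ZMod q)⁻¹).val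

lemma ex_spec [hq : Fact q.Prime] {b₀ : ℤ} (h0 : (b₀ : ZMod q) ≠ 0) (k : ℤ) :
    ∃ t : ℤ, (ex q b₀ (k : ZMod q) : ℤ) * b₀ = k + q * t := by
  have h1 : (((ex q b₀ (k : ZMod q) : ℤ) * b₀ - k : ℤ) : ZMod q) = 0 := by
    rw [ex]
    push_cast
    rw [ZMod.natCast_zmod_val]
    field_simp
    ring
  rw [ZMod.intCast_zmod_eq_zero_iff_dvd] at h1
  obtain ⟨t, ht⟩ := h1
  exact ⟨t, by linear_combination ht⟩

include hb in
lemma ζ_ex [hq : Fact q.Prime] (h0 : (b₀ : ZMod q) ≠ 0) (k : ℤ) :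
    ι ((ζ ^ ex q b₀ (k : ZMod q) : Kˣ) : K) = Complex.exp (2 * Real.pi * Complex.I * (k / q)) := by
  obtain ⟨t, ht⟩ := ex_spec h0 k
  rw [Units.val_pow_eq_pow_val, map_pow, hb, ← Complex.exp_nat_mul]
  have hqC : (q : ℂ) ≠ 0 := by exact_mod_cast NeZero.ne q
  have htC : ((ex q b₀ (k : ZMod q) : ℕ) : ℂ) * b₀ = k + q * t := by exact_mod_cast ht
  have e : ((ex q b₀ (k : ZMod q) : ℕ) : ℂ) * (2 * Real.pi * Complex.I * (b₀ / q)) =
      2 * Real.pi * Complex.I * (k / q) + t * (2 * Real.pi * Complex.I) := by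
    field_simp
    linear_combination htC
  rw [e, Complex.exp_add, Complex.exp_int_mul_two_pi_mul_I, mul_one]

include hb in
lemma ζ_pow_q [hq : Fact q.Prime] : (ζ : K) ^ q = 1 := by
  apply ι.injective
  have hqC : (q : ℂ) ≠ 0 := by exact_mod_cast NeZero.ne q
  rw [map_pow, hb, ← Complex.exp_nat_mul, map_one]
  have e : (q : ℂ) * (2 * Real.pi * Complex.I * (b₀ / q)) = b₀ * (2 * Real.pi * Complex.I) := by
    field_simp
  rw [e, Complex.exp_int_mul_two_pi_mul_I]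

include hb in
lemma ζ_pow_q' [hq : Fact q.Prime] (n : ℕ) : ((ζ ^ n : Kˣ) : K) ^ q = 1 := by
  rw [Units.val_pow_eq_pow_val, ← pow_mul, mul_comm, pow_mul, ζ_pow_q ι hb, one_pow]

include hb in
/-- finite `x` -/
lemma ev_a0 [hq : Fact q.Prime] (h0 : (b₀ : ZMod q) ≠ 0) {d₀ : ℕ} [NeZero d₀]
    (hd : d₀ ∣ q ^ 2 * N) (hd₀ : d₀ ∣ N) {k : ℤ} (hk : (q : ℤ) ∣ γ 0 1 + γ 0 0 * k) :
    evK ι hcop hγ (jel K d₀ hd) =
      coeffMap ι (twist (ζ ^ ex q b₀ ((-k : ℤ) : ZMod q)) (qExpand K d₀ (jqModC K))) := by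
  have hq0 : 0 < q := hq.out.pos
  refine evK_jel ι hcop hγ hd (coeffMap_twist_gen_mem ι _ hq0 (ζ_pow_q' ι hb _) d₀) fun τ => ?_
  change _ = fn ι (twist (ζ ^ ex q b₀ ((-k : ℤ) : ZMod q)) (qExpand K d₀ (jqModC K))) τ
  rw [fn_twist_gen ι _ hq0 (ζ_ex ι hb h0 (-k))]
  obtain ⟨n₀, hn₀⟩ := hd₀
  obtain ⟨κ, hκ⟩ := hγ
  obtain ⟨b₁, hb₁⟩ := hk
  have hdet := det_entries γ
  have hN : (N : ℤ) = d₀ * n₀ := by exact_mod_cast hn₀
  have hqC : (q : ℂ) ≠ 0 := by exact_mod_cast NeZero.ne q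
  refine jfun_mob (γ 0 0) (d₀ * b₁) (n₀ * κ * q) (γ 1 0 * k + γ 1 1) ?_ ?_
  · have h1 : γ 1 0 = d₀ * n₀ * κ := by rw [hκ, hN]
    linear_combination hdet + (-(b₁ * q)) * h1.symm + γ 1 0 * hb₁
  · have hX := X_eq (q := q) γ τ
    have h1 : ((γ 1 0 : ℤ) : ℂ) = d₀ * n₀ * κ := by
      have : γ 1 0 = d₀ * n₀ * κ := by rw [hκ, hN]
      exact_mod_cast this
    have h2 : ((γ 0 1 : ℤ) : ℂ) + (γ 0 0 : ℤ) * k = q * b₁ := by exact_mod_cast hb₁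
    rw [coe_dm, coe_dm, coe_pte]
    have hY : (((q : ℂ) * τ + ((-k : ℤ) : ℂ)) / q) * q = q * τ - k := by
      rw [div_mul_cancel₀ _ hqC]; push_cast; ring
    generalize (((q : ℂ) * τ + ((-k : ℤ) : ℂ)) / q) = Y at hY ⊢
    generalize ((AD q γ • τ : ℍ) : ℂ) = X at hX ⊢
    apply mul_right_cancel₀ hqC
    push_cast
    generalize ((γ 1 0 : ℤ) : ℂ) = c at *
    generalize ((γ 1 1 : ℤ) : ℂ) = d at *
    generalize ((γ 0 0 : ℤ) : ℂ) = a at *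
    generalize ((γ 0 1 : ℤ) : ℂ) = b at *
    linear_combination d₀ * hX - d₀ * X * q * (Y * q) * h1 + (d₀ * X * q * c - a * d₀) * hY + d₀ * h2

include hb in
/-- finite `y` -/
lemma ev_a2 [hq : Fact q.Prime] (h0 : (b₀ : ZMod q) ≠ 0) {d d₀ : ℕ} [NeZero d] [NeZero d₀]
    (hd : d ∣ q ^ 2 * N) (hd₀ : d₀ ∣ N) (e : d = q ^ 2 * d₀)
    {l : ℤ} (hl : (q : ℤ) ∣ γ 1 1 + γ 1 0 * l) :
    evK ι hcop hγ (jel K d hd) =
      coeffMap ι (twist (ζ ^ ex q b₀ ((-l : ℤ) : ZMod q)) (qExpand K d₀ (jqModC K))) := by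
  have hq0 : 0 < q := hq.out.pos
  refine evK_jel ι hcop hγ hd (coeffMap_twist_gen_mem ι _ hq0 (ζ_pow_q' ι hb _) d₀) fun τ => ?_
  change _ = fn ι (twist (ζ ^ ex q b₀ ((-l : ℤ) : ZMod q)) (qExpand K d₀ (jqModC K))) τ
  rw [fn_twist_gen ι _ hq0 (ζ_ex ι hb h0 (-l))]
  obtain ⟨n₀, hn₀⟩ := hd₀
  obtain ⟨κ, hκ⟩ := hγ
  obtain ⟨d₁, hd₁⟩ := hl
  have hdet := det_entries γ
  have hN : (N : ℤ) = d₀ * n₀ := by exact_mod_cast hn₀
  have hqC : (q : ℂ) ≠ 0 := by exact_mod_cast NeZero.ne q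
  refine jfun_mob (γ 0 0 * q) (d₀ * (γ 0 0 * l + γ 0 1)) (n₀ * κ) d₁ ?_ ?_
  · have h1 : γ 1 0 = d₀ * n₀ * κ := by rw [hκ, hN]
    linear_combination hdet - γ 0 0 * hd₁ + (γ 0 0 * l + γ 0 1) * h1
  · have hX := X_eq (q := q) γ τ
    have h1 : ((γ 1 0 : ℤ) : ℂ) = d₀ * n₀ * κ := by
      have : γ 1 0 = d₀ * n₀ * κ := by rw [hκ, hN]
      exact_mod_cast this
    have h2 : ((γ 1 1 : ℤ) : ℂ) + (γ 1 0 : ℤ) * l = q * d₁ := by exact_mod_cast hd₁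
    have hdC : (d : ℂ) = q ^ 2 * d₀ := by exact_mod_cast e
    rw [coe_dm, coe_dm, coe_pte, hdC]
    have hY : (((q : ℂ) * τ + ((-l : ℤ) : ℂ)) / q) * q = q * τ - l := by
      rw [div_mul_cancel₀ _ hqC]; push_cast; ring
    generalize (((q : ℂ) * τ + ((-l : ℤ) : ℂ)) / q) = Y at hY ⊢
    generalize ((AD q γ • τ : ℍ) : ℂ) = X at hX ⊢
    push_cast
    generalize ((γ 1 0 : ℤ) : ℂ) = c at *
    generalize ((γ 1 1 : ℤ) : ℂ) = d' at *
    generalize ((γ 0 0 : ℤ) : ℂ) = a at *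
    generalize ((γ 0 1 : ℤ) : ℂ) = b at *
    linear_combination d₀ * hX - d₀ * X * q * (Y * q) * h1 + (d₀ * X * q * c - a * d₀) * hY - d₀ * X * q * h2

end Finite

end Gen

end Fermat.Agent.RT6
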