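import Fermat.Agent.RT6.Ev2

/-!
# Classification of the expansions, II, and the operators `R_s`
-/

set_option autoImplicit false
set_option linter.unusedSectionVars false
set_option linter.style.haveILetI false

noncomputable section

namespace Fermat.Agent.RT6

open Fermat.Agent.Carayol
open Fermat.Agent.AnJac (IsX IsP lser ef HF gl MGA IsInt isNH_one lser_mul lser_add lser_const
  lser_one lser_inj lser_ne_zero isX_jfun lser_jfun quot_mem_FF)
open Fermat.Agent.ModFun Fermat.Agent.GenusX0 ModularCurve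
open UpperHalfPlane MatrixGroups CongruenceSubgroup Matrix.SpecialLinearGroup

variable {q : ℕ} [NeZero q] {N : ℕ} [NeZero N] {K : Type*} [Field K]

section Class

variable (ι : K →+* ℂ) (hcop : Nat.Coprime q N) {γ : SL(2,ℤ)} (hγ : (N : ℤ) ∣ γ 1 0)
  {ζ : Kˣ} {b₀ : ℤ} (hb : ι ζ = Complex.exp (2 * Real.pi * Complex.I * (b₀ / q)))

include hb in
lemma twist_triv [hq : Fact q.Prime] (n : ℕ) {d : ℕ} [NeZero d] (hd : q ∣ d) :
    twist (ζ ^ n) (qExpand K d (jqModC K)) = qExpand K d (jqModC K) := by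
  refine twist_qExpand _ _ ?_ _
  obtain ⟨e, rfl⟩ := hd
  apply Units.ext
  rw [pow_mul, Units.val_pow_eq_pow_val, Units.val_pow_eq_pow_val, ζ_pow_q' ι hb, one_pow,
    Units.val_one]

include hb in
theorem class_zero [hq : Fact q.Prime] (h0 : (b₀ : ZMod q) ≠ 0) {k : ℤ}
    (hk : (q : ℤ) ∣ γ 0 1 + γ 0 0 * k) (hc : (q : ℤ) ∣ γ 1 0) (u : FF K (q ^ 2 * N)) :
    evK ι hcop hγ u =
      coeffMap ι (twist (ζ ^ ex q b₀ ((-k : ℤ) : ZMod q)) (u : LaurentSeries K)) := by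
  have : evK ι hcop hγ = (coeffMap ι).comp ((twist (ζ ^ ex q b₀ ((-k : ℤ) : ZMod q))).comp
      (algebraMap (FF K (q ^ 2 * N)) (LaurentSeries K))) := by
    refine ext_gen (fun c => ?_) fun d _ hd => ?_
    · rw [evK_const, RingHom.comp_apply, RingHom.comp_apply]
      change _ = coeffMap ι (twist _ (algebraMap K (LaurentSeries K) c))
      rw [twist_const, Carayol.coeffMap_algebraMap]
    · rw [RingHom.comp_apply, RingHom.comp_apply]
      change _ = coeffMap ι (twist _ ((jel K d hd : FF K (q ^ 2 * N)) : LaurentSeries K))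
      rw [coe_jel]
      obtain ⟨a, d₀, ha, hd₀, hda⟩ := dvd_cases hq.out hd
      haveI := neZero_of_dvd hd₀
      interval_cases a
      · rw [pow_zero, one_mul] at hda
        subst hda
        exact ev_a0 ι hcop hγ hb h0 hd hd₀ hk
      · rw [pow_one] at hda
        rw [ev_a1 ι hcop hγ hd hd₀ hda, twist_triv ι hb _ (hda ▸ dvd_mul_right q d₀)]
      · rw [ev_a2_inf ι hcop hγ hd hd₀ hda hc, twist_triv ι hb _
          (hda ▸ (dvd_pow_self q two_ne_zero).mul_right d₀)]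
  exact DFunLike.congr_fun this u

include hb in
theorem class_two [hq : Fact q.Prime] (h0 : (b₀ : ZMod q) ≠ 0) {l : ℤ}
    (ha : (q : ℤ) ∣ γ 0 0) (hl : (q : ℤ) ∣ γ 1 1 + γ 1 0 * l)
    {w : FF K (q ^ 2 * N) →+* FF K (q ^ 2 * N)} (hw : IsW w) (u : FF K (q ^ 2 * N)) :
    evK ι hcop hγ u =
      coeffMap ι (twist (ζ ^ ex q b₀ ((-l : ℤ) : ZMod q)) ((w u : FF K (q ^ 2 * N)) : LaurentSeries K)) := by
  have : evK ι hcop hγ = (coeffMap ι).comp ((twist (ζ ^ ex q b₀ ((-l : ℤ) : ZMod q))).comp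
      ((algebraMap (FF K (q ^ 2 * N)) (LaurentSeries K)).comp w)) := by
    refine ext_gen (fun c => ?_) fun d _ hd => ?_
    · rw [evK_const, RingHom.comp_apply, RingHom.comp_apply, RingHom.comp_apply, hw.const]
      change _ = coeffMap ι (twist _ (algebraMap K (LaurentSeries K) c))
      rw [twist_const, Carayol.coeffMap_algebraMap]
    · rw [RingHom.comp_apply, RingHom.comp_apply, RingHom.comp_apply]
      change _ = coeffMap ι (twist _ ((w (jel K d hd) : FF K (q ^ 2 * N)) : LaurentSeries K))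
      obtain ⟨a, d₀, ha', hd₀, hda⟩ := dvd_cases hq.out hd
      haveI := neZero_of_dvd hd₀
      haveI : NeZero (q ^ 2 * d₀) := ⟨mul_ne_zero (pow_ne_zero 2 (NeZero.ne q)) (NeZero.ne d₀)⟩
      interval_cases a
      · rw [pow_zero, one_mul] at hda
        subst hda
        rw [ev_a0_inf ι hcop hγ hd hd₀ ha, hw.gen 0 d d (q ^ 2 * d) hd
          (mul_dvd_mul_left _ hd₀) (Nat.zero_le _) hd₀ (by rw [pow_zero, one_mul]) (by simp),
          coe_jel, twist_triv ι hb _ ((dvd_pow_self q two_ne_zero).mul_right d)]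
      · rw [ev_a1 ι hcop hγ hd hd₀ (by rw [hda, pow_one]), hw.gen 1 d₀ d d hd hd (by norm_num) hd₀
          hda (by rw [hda]), coe_jel, twist_triv ι hb _ (by
            rw [hda, pow_one]; exact dvd_mul_right q d₀)]
      · rw [ev_a2 ι hcop hγ hb h0 hd hd₀ hda hl, hw.gen 2 d₀ d d₀ hd
          (hd₀.mul_left _) le_rfl hd₀ hda (by rw [Nat.sub_self, pow_zero, one_mul]), coe_jel]
  exact DFunLike.congr_fun this u

include hb in
lemma ζ_ex_add [hq : Fact q.Prime] (h0 : (b₀ : ZMod q) ≠ 0) (k l m : ℤ) (h : k + l = m) :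
    ζ ^ ex q b₀ (k : ZMod q) * ζ ^ ex q b₀ (l : ZMod q) = ζ ^ ex q b₀ (m : ZMod q) := by
  apply Units.ext
  apply ι.injective
  rw [Units.val_mul, map_mul, ζ_ex ι hb h0, ζ_ex ι hb h0, ζ_ex ι hb h0, ← Complex.exp_add]
  congr 1
  rw [← h]
  push_cast
  ring

include hb in
theorem class_one [hq : Fact q.Prime] (h0 : (b₀ : ZMod q) ≠ 0) {k l : ℤ}
    (hk : (q : ℤ) ∣ γ 0 1 + γ 0 0 * k) (hl : (q : ℤ) ∣ γ 1 1 + γ 1 0 * l)
    {s : FF K (q ^ 2 * N) →+* LaurentSeries K} (hs : IsSig (ζ ^ ex q b₀ ((k - l : ℤ) : ZMod q)) s)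
    (u : FF K (q ^ 2 * N)) :
    evK ι hcop hγ u = coeffMap ι (twist (ζ ^ ex q b₀ ((-k : ℤ) : ZMod q)) (s u)) := by
  have : evK ι hcop hγ = (coeffMap ι).comp ((twist (ζ ^ ex q b₀ ((-k : ℤ) : ZMod q))).comp s) := by
    refine ext_gen (fun c => ?_) fun d _ hd => ?_
    · rw [evK_const, RingHom.comp_apply, RingHom.comp_apply, hs.const, twist_const,
        Carayol.coeffMap_algebraMap]
    · rw [RingHom.comp_apply, RingHom.comp_apply]
      obtain ⟨a, d₀, ha', hd₀, hda⟩ := dvd_cases hq.out hd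
      haveI := neZero_of_dvd hd₀
      interval_cases a
      · rw [pow_zero, one_mul] at hda
        subst hda
        rw [ev_a0 ι hcop hγ hb h0 hd hd₀ hk, hs.gen1 d hd (hd₀.mul_left _)]
      · rw [pow_one] at hda
        rw [ev_a1 ι hcop hγ hd hd₀ hda, hs.gen1 d hd (hda ▸ mul_dvd_mul_left q hd₀),
          twist_triv ι hb _ (hda ▸ dvd_mul_right q d₀)]
      · rw [ev_a2 ι hcop hγ hb h0 hd hd₀ hda hl, hs.gen2 d₀ d hd hd₀ hda, twist_twist,
          ζ_ex_add ι hb h0 (-k) (k - l) (-l) (by ring)]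
  exact DFunLike.congr_fun this u

end Class

section Op

lemma isP_prod {κ : Type*} (S : Finset κ) {f : κ → ℍ → ℂ} (hf : ∀ i ∈ S, IsP (f i)) :
    IsP (∏ i ∈ S, f i) ∧ lser (∏ i ∈ S, f i) = ∏ i ∈ S, lser (f i) := by
  classical
  induction S using Finset.induction_on with
  | empty => exact ⟨AnJac.isP_const 1, by rw [Finset.prod_empty, Finset.prod_empty]; exact lser_one⟩
  | insert a S ha ih =>
    obtain ⟨h1, h2⟩ := ih fun i hi => hf i (Finset.mem_insert_of_mem hi)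
    rw [Finset.prod_insert ha, Finset.prod_insert ha]
    have h3 := hf a (Finset.mem_insert_self _ _)
    exact ⟨h3.mul h1, by rw [lser_mul h3 h1, h2]⟩

variable [hq : Fact q.Prime] (hN : ¬ q ∣ N) (s : ZMod q) (hs : s ≠ 1)

lemma cop_of (hN : ¬ q ∣ N) : Nat.Coprime q N := (Nat.Prime.coprime_iff_not_dvd hq.out).2 hN

lemma Nm_eq (f : ℍ → ℂ) : (hfS q N hN s hs).Nm f = ∏ c, cA q (gS q N s c) f := rfl

lemma lser_Nm {f : ℍ → ℂ} (hf : IsX (q ^ 2 * N) 1 f) :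
    lser ((hfS q N hN s hs).Nm f) = ∏ c, lser (cA q (gS q N s c) f) := by
  rw [Nm_eq]
  exact (isP_prod _ fun c _ => isP_cA (cop_of hN) (gS_dvd q N s c) hf).2

lemma isX_NmS {f : ℍ → ℂ} (hf : IsX (q ^ 2 * N) 1 f) :
    IsX (q ^ 2 * N) 1 ((hfS q N hN s hs).Nm f) := by
  have := (hfS q N hN s hs).isX_Nm hf (by rw [HF.Tm_one]; exact isNH_one)
  rwa [HF.Tm_one] at this

/-- the operator `R_s` over `ℂ` -/
def RC (u : FF ℂ (q ^ 2 * N)) : LaurentSeries ℂ :=
  ∏ c : (ZMod q)ˣ, evC (cop_of hN) (gS_dvd q N s c) u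

lemma RC_quot {u : FF ℂ (q ^ 2 * N)} {f e : ℍ → ℂ} (hf : IsX (q ^ 2 * N) 1 f)
    (he : IsX (q ^ 2 * N) 1 e) (h0 : e ≠ 0) (h : (u : LaurentSeries ℂ) * lser e = lser f) :
    RC hN s u * lser ((hfS q N hN s hs).Nm e) = lser ((hfS q N hN s hs).Nm f) := by
  rw [lser_Nm hN s hs he, lser_Nm hN s hs hf, RC, ← Finset.prod_mul_distrib]
  exact Finset.prod_congr rfl fun c _ => evC_quot (cop_of hN) (gS_dvd q N s c) hf he h0 h

lemma exists_quot (u : FF ℂ (q ^ 2 * N)) : ∃ f e : ℍ → ℂ, IsX (q ^ 2 * N) 1 f ∧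
    IsX (q ^ 2 * N) 1 e ∧ e ≠ 0 ∧ (u : LaurentSeries ℂ) * lser e = lser f := by
  obtain ⟨f, hf, B, hB, h⟩ := AnJac.mem_FF.mp u.2
  exact ⟨f, _, hf, AnJac.isX_jev (N := q ^ 2 * N) B, AnJac.ef_jev_ne_zero hB,
    by rw [AnJac.lser_ef (AnJac.jev_mem B), h]⟩

include hs in
lemma RC_mem (u : FF ℂ (q ^ 2 * N)) : RC hN s u ∈ FF ℂ (q ^ 2 * N) := by
  obtain ⟨f, e, hf, he, h0, h⟩ := exists_quot u
  have h1 := RC_quot hN s hs hf he h0 h
  have h2 := (hfS q N hN s hs).Nm_ne_zero he.isA.mdiff h0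
  have h3 := lser_ne_zero ((isX_NmS hN s hs he).isP isNH_one) h2
  rw [← eq_div_iff h3] at h1
  rw [h1]
  exact quot_mem_FF (isX_NmS hN s hs hf) (isX_NmS hN s hs he)

lemma dvd_mul_10 {γ γ' : SL(2,ℤ)} (h : (N : ℤ) ∣ γ 1 0) (h' : (N : ℤ) ∣ γ' 1 0) :
    (N : ℤ) ∣ (γ * γ') 1 0 := by
  rw [mul_ent]
  exact dvd_add (Dvd.dvd.mul_right h _) (Dvd.dvd.mul_left h' _)

include hs in
/-- expansions of `R_s u` -/
theorem evC_RC {γ : SL(2,ℤ)} (hγ : (N : ℤ) ∣ γ 1 0) (u : FF ℂ (q ^ 2 * N)) :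
    evC (cop_of hN) hγ ⟨RC hN s u, RC_mem hN s hs u⟩ =
      ∏ c : (ZMod q)ˣ, evC (cop_of hN) (dvd_mul_10 (gS_dvd q N s c) hγ) u := by
  obtain ⟨f, e, hf, he, h0, h⟩ := exists_quot u
  have h1 := RC_quot hN s hs hf he h0 h
  have h2 := (hfS q N hN s hs).Nm_ne_zero he.isA.mdiff h0
  have h3 := evC_quot (cop_of hN) hγ (isX_NmS hN s hs hf) (isX_NmS hN s hs he) h2
    (u := ⟨RC hN s u, RC_mem hN s hs u⟩) h1
  have h4 : ∀ g : ℍ → ℂ, IsX (q ^ 2 * N) 1 g → lser (cA q γ ((hfS q N hN s hs).Nm g)) =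
      ∏ c : (ZMod q)ˣ, lser (cA q (gS q N s c * γ) g) := by
    intro g hg
    have e1 : cA q γ ((hfS q N hN s hs).Nm g) = ∏ c : (ZMod q)ˣ, cA q (gS q N s c * γ) g := by
      funext τ
      rw [cA, HF.Nm_apply, Finset.prod_apply]
      refine Finset.prod_congr rfl fun c _ => ?_
      rw [cA, ← AD_smul_smul]
      rfl
    rw [e1]
    exact (isP_prod _ fun c _ => isP_cA (cop_of hN) (dvd_mul_10 (gS_dvd q N s c) hγ) hg).2
  rw [h4 _ hf, h4 _ he] at h3
  have h5 : ∏ c : (ZMod q)ˣ, lser (cA q (gS q N s c * γ) e) ≠ 0 :=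
    Finset.prod_ne_zero_iff.2 fun c _ =>
      lser_cA_ne (cop_of hN) (dvd_mul_10 (gS_dvd q N s c) hγ) he h0
  apply mul_right_cancel₀ h5
  rw [h3, ← Finset.prod_mul_distrib]
  exact Finset.prod_congr rfl fun c _ =>
    (evC_quot (cop_of hN) (dvd_mul_10 (gS_dvd q N s c) hγ) hf he h0 h).symm

include hs in
/-- characters -/
theorem isChar_RC {n : ℕ} {u : FF ℂ (q ^ 2 * N)} {χ : Gamma0 (q ^ 2 * N) →* ℂˣ}
    (hu : AnJac.IsChar (q ^ 2 * N) n (u : LaurentSeries ℂ) χ)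
    (hnh : AnJac.IsNH ((hfS q N hN s hs).Tm χ)) :
    AnJac.IsChar (q ^ 2 * N) n (RC hN s u) ((hfS q N hN s hs).Tm χ) := by
  obtain ⟨f, e, hf, he, h0, h⟩ := exists_quot u
  obtain ⟨G, b, hG, hb, hG0, hb0, hE⟩ := hu.ex
  have h1 := RC_quot hN s hs hf he h0 h
  have h2 := (hfS q N hN s hs).Nm_ne_zero he.isA.mdiff h0
  have h3 := lser_ne_zero ((isX_NmS hN s hs he).isP isNH_one) h2
  have pG := hG.isP hu.nh
  have pb := hb.isP isNH_one
  have pf := hf.isP isNH_one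
  have pe := he.isP isNH_one
  -- the relation between functions
  have k1 : f * b ^ n = e * G ^ n := by
    apply lser_inj (pf.mul (pb.pow n)) (pe.mul (pG.pow n))
    rw [lser_mul pf (pb.pow n), lser_mul pe (pG.pow n), AnJac.lser_pow pb, AnJac.lser_pow pG, ← hE,
      ← h]
    ring
  have XG := (hfS q N hN s hs).isX_Nm hG hnh
  have Xb := isX_NmS hN s hs hb
  have Xf := isX_NmS hN s hs hf
  have Xe := isX_NmS hN s hs he
  have hpow : ∀ (g : ℍ → ℂ) (n : ℕ), (hfS q N hN s hs).Nm (g ^ n) =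
      (hfS q N hN s hs).Nm g ^ n := by
    intro g n
    induction n with
    | zero =>
      rw [pow_zero, pow_zero]
      funext τ
      rw [HF.Nm_apply]
      simp
    | succ n ih => rw [pow_succ g n, HF.Nm_mul, ih, pow_succ ((hfS q N hN s hs).Nm g) n]
  have k2 : (hfS q N hN s hs).Nm f * (hfS q N hN s hs).Nm b ^ n =
      (hfS q N hN s hs).Nm e * (hfS q N hN s hs).Nm G ^ n := by
    rw [← hpow, ← hpow, ← HF.Nm_mul, ← HF.Nm_mul, k1]
  refine ⟨hnh, ?_, _, _, XG, Xb, (hfS q N hN s hs).Nm_ne_zero hG.isA.mdiff hG0,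
    (hfS q N hN s hs).Nm_ne_zero hb.isA.mdiff hb0, ?_⟩
  · ext γ
    rw [MonoidHom.pow_apply, HF.Tm_apply, ← Finset.prod_pow, MonoidHom.one_apply]
    rw [Finset.prod_eq_one]
    intro i _
    have := DFunLike.congr_fun hu.pw ((hfS q N hN s hs).g γ i)
    rwa [MonoidHom.pow_apply] at this
  · have k3 := congrArg lser k2
    rw [lser_mul (Xf.isP isNH_one) ((Xb.isP isNH_one).pow n),
      lser_mul (Xe.isP isNH_one) ((XG.isP hnh).pow n), AnJac.lser_pow (Xb.isP isNH_one),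
      AnJac.lser_pow (XG.isP hnh), ← h1] at k3
    apply mul_left_cancel₀ h3
    rw [← k3]
    ring

end Op

end Fermat.Agent.RT6
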