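import Fermat.Agent.RT6.Ev3
import Fermat.Agent.Carayol.Delta

/-!
# The operators `R_s` over `K`
-/

set_option autoImplicit false
set_option linter.unusedSectionVars false
set_option linter.style.haveILetI false

noncomputable section

namespace Fermat.Agent.RT6

open Fermat.Agent.Carayol
open Fermat.Agent.AnJac (IsX IsP lser ef HF gl MGA IsInt isNH_one lser_mul lser_add lser_const
  lser_one lser_inj lser_ne_zero isX_jfun lser_jfun quot_mem_FF)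
open Fermat.Agent.ModFun Fermat.Agent.GenusX0 ModularCurve
open UpperHalfPlane MatrixGroups CongruenceSubgroup Matrix.SpecialLinearGroup

variable {q : ℕ} [NeZero q] {N : ℕ} [NeZero N] {K : Type*} [Field K]

section Class

variable (ι : K →+* ℂ) (hcop : Nat.Coprime q N) {γ : SL(2,ℤ)} (hγ : (N : ℤ) ∣ γ 1 0)
  {ζ : Kˣ} {b₀ : ℤ} (hb : ι ζ = Complex.exp (2 * Real.pi * Complex.I * (b₀ / q)))

lemma dvd_iff_mod (a b : ℤ) (k : ZMod q) :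
    (q : ℤ) ∣ a + b * (k.val : ℤ) ↔ (a : ZMod q) + b * k = 0 := by
  rw [← ZMod.intCast_zmod_eq_zero_iff_dvd]
  push_cast
  rw [ZMod.natCast_zmod_val]

lemma dvd_iff_zero (a : ℤ) : (q : ℤ) ∣ a ↔ (a : ZMod q) = 0 :=
  (ZMod.intCast_zmod_eq_zero_iff_dvd _ _).symm

lemma cast_neg_val (k : ZMod q) : ((-(k.val : ℤ) : ℤ) : ZMod q) = -k := by
  push_cast; rw [ZMod.natCast_zmod_val]

lemma cast_sub_val (k l : ZMod q) : (((k.val : ℤ) - (l.val : ℤ) : ℤ) : ZMod q) = k - l := by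
  push_cast; rw [ZMod.natCast_zmod_val, ZMod.natCast_zmod_val]

include hb in
theorem class_zero' [hq : Fact q.Prime] (h0 : (b₀ : ZMod q) ≠ 0) {k : ZMod q}
    (hk : ((γ 0 1 : ℤ) : ZMod q) + (γ 0 0 : ℤ) * k = 0) (hc : ((γ 1 0 : ℤ) : ZMod q) = 0)
    (u : FF K (q ^ 2 * N)) :
    evK ι hcop hγ u = coeffMap ι (twist (ζ ^ ex q b₀ (-k)) (u : LaurentSeries K)) := by
  have := class_zero ι hcop hγ hb h0 (k := k.val) ((dvd_iff_mod _ _ _).2 hk)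
    ((dvd_iff_zero _).2 hc) u
  rwa [cast_neg_val] at this

include hb in
theorem class_two' [hq : Fact q.Prime] (h0 : (b₀ : ZMod q) ≠ 0) {l : ZMod q}
    (ha : ((γ 0 0 : ℤ) : ZMod q) = 0) (hl : ((γ 1 1 : ℤ) : ZMod q) + (γ 1 0 : ℤ) * l = 0)
    {w : FF K (q ^ 2 * N) →+* FF K (q ^ 2 * N)} (hw : IsW w) (u : FF K (q ^ 2 * N)) :
    evK ι hcop hγ u = coeffMap ι (twist (ζ ^ ex q b₀ (-l))
      ((w u : FF K (q ^ 2 * N)) : LaurentSeries K)) := by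
  have := class_two ι hcop hγ hb h0 (l := l.val) ((dvd_iff_zero _).2 ha)
    ((dvd_iff_mod _ _ _).2 hl) hw u
  rwa [cast_neg_val] at this

include hb in
theorem class_one' [hq : Fact q.Prime] (h0 : (b₀ : ZMod q) ≠ 0) {k l : ZMod q}
    (hk : ((γ 0 1 : ℤ) : ZMod q) + (γ 0 0 : ℤ) * k = 0)
    (hl : ((γ 1 1 : ℤ) : ZMod q) + (γ 1 0 : ℤ) * l = 0)
    {s : FF K (q ^ 2 * N) →+* LaurentSeries K} (hs : IsSig (ζ ^ ex q b₀ (k - l)) s)
    (u : FF K (q ^ 2 * N)) :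
    evK ι hcop hγ u = coeffMap ι (twist (ζ ^ ex q b₀ (-k)) (s u)) := by
  have := class_one ι hcop hγ hb h0 (k := k.val) (l := l.val) ((dvd_iff_mod _ _ _).2 hk)
    ((dvd_iff_mod _ _ _).2 hl) (s := s) (by rw [cast_sub_val]; exact hs) u
  rwa [cast_neg_val] at this

end Class

section RK

variable [hq : Fact q.Prime] (hN : ¬ q ∣ N) (s : ZMod q) (hs : s ≠ 1)
  (ζ : Kˣ) (sg : ℕ → (FF K (q ^ 2 * N) →+* LaurentSeries K))
  (hsg : ∀ i, ¬ q ∣ i → IsSig (ζ ^ i) (sg i))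

lemma not_dvd_val {c : ZMod q} (hc : c ≠ 0) : ¬ q ∣ c.val := by
  intro h
  apply hc
  have h1 := (ZMod.natCast_eq_zero_iff c.val q).2 h
  rwa [ZMod.natCast_zmod_val] at h1

/-- the exponent -/
def epsR (q : ℕ) (s : ZMod q) (c : (ZMod q)ˣ) : ℕ := (-((c : ZMod q) * (1 - s)⁻¹)).val

/-- the operator on Laurent series -/
def RK (u : FF K (q ^ 2 * N)) : LaurentSeries K :=
  ∏ c : (ZMod q)ˣ, twist (ζ ^ epsR q s c) (sg (c : ZMod q).val u)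

lemma RK_mul (u v : FF K (q ^ 2 * N)) : RK s ζ sg (u * v) = RK s ζ sg u * RK s ζ sg v := by
  rw [RK, RK, RK, ← Finset.prod_mul_distrib]
  exact Finset.prod_congr rfl fun c _ => by rw [map_mul, map_mul]

lemma RK_one : RK s ζ sg 1 = 1 := by
  rw [RK]
  exact Finset.prod_eq_one fun c _ => by rw [map_one, map_one]

lemma RK_ne {u : FF K (q ^ 2 * N)} (hu : u ≠ 0) : RK s ζ sg u ≠ 0 :=
  Finset.prod_ne_zero_iff.2 fun c _ => (map_ne_zero _).2 ((map_ne_zero _).2 hu)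

/-- entries of `gS c * γ` modulo `q` -/
lemma ent (γ : SL(2,ℤ)) (c : (ZMod q)ˣ) (hs : s ≠ 1) (hN : ¬ q ∣ N) :
    ∃ m : ZMod q, m * ((1 - s) * c) = 1 ∧
    (((gS q N s c * γ) 0 0 : ℤ) : ZMod q) = (γ 0 0 : ℤ) - c * (γ 1 0 : ℤ) ∧
    (((gS q N s c * γ) 0 1 : ℤ) : ZMod q) = (γ 0 1 : ℤ) - c * (γ 1 1 : ℤ) ∧
    (((gS q N s c * γ) 1 0 : ℤ) : ZMod q) = m * (γ 0 0 : ℤ) - m * s * c * (γ 1 0 : ℤ) ∧
    (((gS q N s c * γ) 1 1 : ℤ) : ZMod q) = m * (γ 0 1 : ℤ) - m * s * c * (γ 1 1 : ℤ) := by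
  have h := mS_cast q N hN hs c
  refine ⟨_, h, ?_, ?_, ?_, ?_⟩
  · rw [mul_ent, gS_00, gS_01]; push_cast; rw [cv_cast]; ring
  · rw [mul_ent, gS_00, gS_01]; push_cast; rw [cv_cast]; ring
  · rw [mul_ent, gS_10, gS_11]; push_cast; rw [cv_cast]
    linear_combination (-(((γ 1 0 : ℤ)) : ZMod q)) * h
  · rw [mul_ent, gS_10, gS_11]; push_cast; rw [cv_cast]
    linear_combination (-(((γ 1 1 : ℤ)) : ZMod q)) * h

variable (ι : K →+* ℂ) {b₀ : ℤ} (hb : ι ζ = Complex.exp (2 * Real.pi * Complex.I * (b₀ / q)))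
  (h0 : (b₀ : ZMod q) ≠ 0)

lemma evC_congr {γ γ' : SL(2,ℤ)} (e : γ = γ') (hγ : (N : ℤ) ∣ γ 1 0) (hγ' : (N : ℤ) ∣ γ' 1 0)
    (hcop : Nat.Coprime q N) (u : FF ℂ (q ^ 2 * N)) : evC hcop hγ u = evC hcop hγ' u := by
  subst e; rfl

include hs hsg hb h0 in
/-- **the expansion over `ℂ`** -/
theorem coeffMap_RK (u : FF K (q ^ 2 * N)) :
    coeffMap ι (RK s ζ sg u) = RC hN s (bc ι _ u) := by
  have h1s : (1 - s : ZMod q) ≠ 0 := sub_ne_zero.2 hs.symm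
  let r : (ZMod q)ˣ := Units.mk0 ((1 - s) * (b₀ : ZMod q)⁻¹) (mul_ne_zero h1s (inv_ne_zero h0))
  have hr : (r : ZMod q) = (1 - s) * (b₀ : ZMod q)⁻¹ := rfl
  rw [RK, map_prod, RC]
  rw [← Equiv.prod_comp (Equiv.mulLeft r)]
  refine Finset.prod_congr rfl fun c _ => ?_
  rw [Equiv.coe_mulLeft]
  obtain ⟨m, hm, e00, e01, e10, e11⟩ := ent s (1 : SL(2,ℤ)) c hs hN
  rw [mul_one] at e00 e01 e10 e11
  have a00 : ((1 : SL(2,ℤ)) 0 0 : ℤ) = 1 := rfl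
  have a01 : ((1 : SL(2,ℤ)) 0 1 : ℤ) = 0 := rfl
  have a10 : ((1 : SL(2,ℤ)) 1 0 : ℤ) = 0 := rfl
  have a11 : ((1 : SL(2,ℤ)) 1 1 : ℤ) = 1 := rfl
  rw [a00, a10] at e00
  rw [a01, a11] at e01
  rw [a00, a10] at e10
  rw [a01, a11] at e11
  have hv : ((r * c : (ZMod q)ˣ) : ZMod q).val = ex q b₀ ((c : ZMod q) - s * c) := by
    rw [ex, Units.val_mul, hr]
    congr 1
    ring
  have hnd : ¬ q ∣ ((r * c : (ZMod q)ˣ) : ZMod q).val := not_dvd_val (r * c).ne_zero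
  have hsig := hsg _ hnd
  rw [hv] at hsig
  have h := class_one' ι (cop_of hN) (gS_dvd q N s c) hb h0 (k := c) (l := s * c)
    (by rw [e00, e01]; push_cast; ring) (by rw [e10, e11]; push_cast; ring) hsig u
  rw [hv]
  have he : epsR q s (r * c) = ex q b₀ (-(c : ZMod q)) := by
    rw [epsR, ex, Units.val_mul, hr]
    congr 1
    field_simp
  rw [he, ← h]
  rfl

include hs hsg hb h0 in
theorem RK_mem (u : FF K (q ^ 2 * N)) (hN : ¬ q ∣ N) : RK s ζ sg u ∈ FF K (q ^ 2 * N) := by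
  apply mem_FF_of_coeffs ι
  rw [coeffMap_RK hN s hs ζ sg hsg ι hb h0]
  exact RC_mem hN s hs _

include hb h0 hs hsg in
/-- expansions of `R_s u` along `γ` -/
theorem evK_RK {γ : SL(2,ℤ)} (hγ : (N : ℤ) ∣ γ 1 0) (u : FF K (q ^ 2 * N))
    (hm : RK s ζ sg u ∈ FF K (q ^ 2 * N)) :
    evK ι (cop_of hN) hγ ⟨RK s ζ sg u, hm⟩ =
      ∏ c : (ZMod q)ˣ, evK ι (cop_of hN) (dvd_mul_10 (gS_dvd q N s c) hγ) u := by
  have h := evC_RC hN s hs hγ (bc ι _ u)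
  rw [evK, RingHom.comp_apply]
  have e : bc ι (q ^ 2 * N) ⟨RK s ζ sg u, hm⟩ = ⟨RC hN s (bc ι _ u), RC_mem hN s hs _⟩ :=
    Subtype.ext (coeffMap_RK hN s hs ζ sg hsg ι hb h0 u)
  rw [e, h]
  rfl

end RK

end Fermat.Agent.RT6
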