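import Fermat.Agent.RT6.Ev4

/-!
# Expansions of `R_s u` at the other components
-/

set_option autoImplicit false
set_option linter.unusedSectionVars false
set_option linter.style.haveILetI false

noncomputable section

namespace Fermat.Agent.RT6

open Fermat.Agent.Carayol
open Fermat.Agent.ModFun Fermat.Agent.GenusX0 ModularCurve
open UpperHalfPlane MatrixGroups CongruenceSubgroup Matrix.SpecialLinearGroup
open Fermat.Agent.GoodRed Fermat.Agent.Curves Fermat.Agent.SSMod Fermat.Agent.Models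

variable {q : ℕ} [NeZero q] {N : ℕ} [NeZero N] {K : Type*} [Field K]

section Sig

/-- uniqueness of the embeddings -/
theorem sig_unique (hq : q.Prime) {ζ : Kˣ} {s s' : FF K (q ^ 2 * N) →+* LaurentSeries K}
    (hs : IsSig ζ s) (hs' : IsSig ζ s') : s = s' := by
  refine ext_gen (fun c => ?_) fun d _ hd => ?_
  · rw [hs.const, hs'.const]
  · obtain ⟨a, d₀, ha, hd₀, hda⟩ := dvd_cases hq hd
    haveI := neZero_of_dvd hd₀
    rcases Nat.lt_or_ge a 2 with h | h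
    · have h1 : d ∣ q * N := by
        rw [hda]
        exact mul_dvd_mul ((pow_dvd_pow q (by omega : a ≤ 1)).trans (by rw [pow_one])) hd₀
      rw [hs.gen1 d hd h1, hs'.gen1 d hd h1]
    · have : a = 2 := le_antisymm ha h
      subst this
      rw [hs.gen2 d₀ d hd hd₀ hda, hs'.gen2 d₀ d hd hd₀ hda]

/-- change of level -/
theorem sig_inc (hq : q.Prime) {M : ℕ} [NeZero M] (hNM : N ∣ M) (h : q ^ 2 * N ∣ q ^ 2 * M)
    {ζ : Kˣ} {s : FF K (q ^ 2 * N) →+* LaurentSeries K} (hs : IsSig ζ s)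
    {s' : FF K (q ^ 2 * M) →+* LaurentSeries K} (hs' : IsSig ζ s') (x : FF K (q ^ 2 * N)) :
    s' (inc K h x) = s x := by
  have : s'.comp (inc K h) = s := by
    refine ext_gen (fun c => ?_) fun d _ hd => ?_
    · rw [RingHom.comp_apply, inc_const, hs.const, hs'.const]
    · rw [RingHom.comp_apply, inc_jel]
      obtain ⟨a, d₀, ha, hd₀, hda⟩ := dvd_cases hq hd
      haveI := neZero_of_dvd hd₀
      rcases Nat.lt_or_ge a 2 with h | h
      · have h1 : d ∣ q * N := by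
          rw [hda]
          exact mul_dvd_mul ((pow_dvd_pow q (by omega : a ≤ 1)).trans (by rw [pow_one])) hd₀
        rw [hs.gen1 d hd h1, hs'.gen1 d _ (h1.trans (mul_dvd_mul_left q hNM))]
      · have : a = 2 := le_antisymm ha h
        subst this
        rw [hs.gen2 d₀ d hd hd₀ hda, hs'.gen2 d₀ d _ (hd₀.trans hNM) hda]
  exact DFunLike.congr_fun this x

end Sig

section RK

variable [hq : Fact q.Prime] (hN : ¬ q ∣ N) (s : ZMod q) (hs : s ≠ 1)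
  (ζ : Kˣ) (sg : ℕ → (FF K (q ^ 2 * N) →+* LaurentSeries K))
  (hsg : ∀ i, ¬ q ∣ i → IsSig (ζ ^ i) (sg i))
  (ι : K →+* ℂ) {b₀ : ℤ} (hb : ι ζ = Complex.exp (2 * Real.pi * Complex.I * (b₀ / q)))
  (h0 : (b₀ : ZMod q) ≠ 0)

include hb h0 hsg in
theorem evK_one {γ : SL(2,ℤ)} (hγ : (N : ℤ) ∣ γ 1 0) (hcop : Nat.Coprime q N) {k l : ZMod q}
    (hk : ((γ 0 1 : ℤ) : ZMod q) + (γ 0 0 : ℤ) * k = 0)
    (hl : ((γ 1 1 : ℤ) : ZMod q) + (γ 1 0 : ℤ) * l = 0) {c : (ZMod q)ˣ}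
    (hc : (c : ZMod q) = (k - l) * (b₀ : ZMod q)⁻¹) (u : FF K (q ^ 2 * N)) :
    evK ι hcop hγ u = coeffMap ι (twist (ζ ^ ex q b₀ (-k)) (sg (c : ZMod q).val u)) := by
  have hv : (c : ZMod q).val = ex q b₀ (k - l) := by rw [ex, hc]
  have hsig := hsg _ (not_dvd_val c.ne_zero)
  rw [hv] at hsig
  rw [class_one' ι hcop hγ hb h0 hk hl hsig u, hv]

theorem exists_W (hcop : Nat.Coprime q N) : ∃ W : SL(2,ℤ), (N : ℤ) ∣ W 1 0 ∧
    ((W 0 0 : ℤ) : ZMod q) = 0 ∧ ((W 1 1 : ℤ) : ZMod q) = 0 ∧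
    ((W 1 0 : ℤ) : ZMod q) = (N : ZMod q) ∧ ((W 0 1 : ℤ) : ZMod q) * N = -1 := by
  obtain ⟨x, y, hxy⟩ : IsCoprime ((q : ℤ) ^ 2) (N : ℤ) :=
    (Nat.isCoprime_iff_coprime.2 hcop).pow_left
  refine ⟨mkSL (q * x) (-y) N q (by linear_combination hxy), dvd_refl _, ?_, ?_, ?_, ?_⟩
  · change ((((q : ℤ) * x : ℤ)) : ZMod q) = 0
    push_cast
    simp
  · change (((q : ℤ)) : ZMod q) = 0
    simp
  · change (((N : ℤ)) : ZMod q) = _
    simp
  · change ((((-y : ℤ)) : ZMod q)) * N = -1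
    have := congrArg (Int.cast : ℤ → ZMod q) hxy
    push_cast at this
    simp only [ZMod.natCast_self] at this
    push_cast
    linear_combination -this

include hb h0 hs hsg hN in
theorem K_f2 (hs0 : s ≠ 0) {w : FF K (q ^ 2 * N) →+* FF K (q ^ 2 * N)} (hw : IsW w) :
    ∃ e : (ZMod q)ˣ → ℕ, ∀ (u : FF K (q ^ 2 * N)) (hm : RK s ζ sg u ∈ FF K (q ^ 2 * N)),
      ((w ⟨RK s ζ sg u, hm⟩ : FF K (q ^ 2 * N)) : LaurentSeries K) =
        ∏ c : (ZMod q)ˣ, twist (ζ ^ e c) (sg (c : ZMod q).val u) := by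
  obtain ⟨W, hWN, w00, w11, w10, w01⟩ := exists_W (q := q) (N := N) (cop_of hN)
  have hN0 : (N : ZMod q) ≠ 0 := fun h => hN ((ZMod.natCast_eq_zero_iff _ _).1 h)
  have h1s : (1 - s⁻¹ : ZMod q) ≠ 0 := by
    rw [sub_ne_zero]
    intro h
    apply hs
    rw [← inv_inv s, ← h, inv_one]
  have hw01 : ((W 0 1 : ℤ) : ZMod q) = -(N : ZMod q)⁻¹ := by
    field_simp
    exact w01
  let r : (ZMod q)ˣ := Units.mk0 (-((N : ZMod q)⁻¹ ^ 2 * (1 - s⁻¹)) * (b₀ : ZMod q)⁻¹)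
    (mul_ne_zero (neg_ne_zero.2 (mul_ne_zero (pow_ne_zero 2 (inv_ne_zero hN0)) h1s))
      (inv_ne_zero h0))
  have hr : (r : ZMod q) = -((N : ZMod q)⁻¹ ^ 2 * (1 - s⁻¹)) * (b₀ : ZMod q)⁻¹ := rfl
  let σ : (ZMod q)ˣ ≃ (ZMod q)ˣ := (Equiv.inv _).trans (Equiv.mulLeft r)
  have hσ : ∀ c, σ c = r * c⁻¹ := fun c => rfl
  let k : (ZMod q)ˣ → ZMod q := fun c => -((N : ZMod q)⁻¹ ^ 2 * (c : ZMod q)⁻¹)
  refine ⟨fun c => ex q b₀ (-k (σ.symm c)), fun u hm => ?_⟩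
  apply coeffMap_injective (f := ι) ι.injective
  have h1 := class_two' ι (cop_of hN) hWN hb h0 (l := 0) w00 (by rw [w11, mul_zero, add_zero]) hw
    ⟨RK s ζ sg u, hm⟩
  have e0 : ex q b₀ (-0) = 0 := by rw [neg_zero, ex, zero_mul, ZMod.val_zero]
  rw [e0, pow_zero, twist_one] at h1
  rw [← h1, evK_RK hN s hs ζ sg hsg ι hb h0 hWN u hm, map_prod]
  refine Eq.trans ?_ (Equiv.prod_comp σ (fun c : (ZMod q)ˣ =>
    coeffMap ι (twist (ζ ^ ex q b₀ (-k (σ.symm c))) (sg (c : ZMod q).val u))))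
  refine Finset.prod_congr rfl fun c _ => ?_
  rw [Equiv.symm_apply_apply]
  obtain ⟨m, hm', e00, e01, e10, e11⟩ := ent s W c hs hN
  have hc0 : (c : ZMod q) ≠ 0 := c.ne_zero
  refine evK_one ζ sg hsg ι hb h0 (dvd_mul_10 (gS_dvd q N s c) hWN) (cop_of hN)
    (k := k c) (l := -((N : ZMod q)⁻¹ ^ 2 * (s * (c : ZMod q))⁻¹)) ?_ ?_ ?_ u
  · rw [e00, e01, w00, w11, w10, hw01]
    simp only [k]
    field_simp
    ring
  · rw [e10, e11, w00, w11, w10, hw01]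
    field_simp
    ring
  · rw [hσ, Units.val_mul, hr]
    simp only [k]
    rw [Units.val_inv_eq_inv_val]
    field_simp
    ring

theorem exists_G1 (hcop : Nat.Coprime q N) {b₀ : ℤ} (h0 : (b₀ : ZMod q) ≠ 0) :
    ∃ G : SL(2,ℤ), (N : ℤ) ∣ G 1 0 ∧ G 0 0 = 1 ∧ G 0 1 = 0 ∧ G 1 1 = 1 ∧
      ((G 1 0 : ℤ) : ZMod q) = (b₀ : ZMod q)⁻¹ := by
  have hN0 : (N : ZMod q) ≠ 0 := by
    intro h
    exact (Nat.Prime.coprime_iff_not_dvd hq.out).1 hcop ((ZMod.natCast_eq_zero_iff _ _).1 h)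
  refine ⟨mkSL 1 0 (N * (((N : ZMod q)⁻¹ * (b₀ : ZMod q)⁻¹).val : ℤ)) 1 (by ring), 
    (show (N : ℤ) ∣ (N : ℤ) * (((N : ZMod q)⁻¹ * (b₀ : ZMod q)⁻¹).val : ℤ) from dvd_mul_right _ _),
    rfl, rfl, rfl, ?_⟩
  change ((((N : ℤ) * (((N : ZMod q)⁻¹ * (b₀ : ZMod q)⁻¹).val : ℤ) : ℤ)) : ZMod q) = _
  push_cast
  rw [ZMod.natCast_zmod_val]
  field_simp

include hb h0 hs hsg hN in
theorem K_f1 (hs0 : s ≠ 0) {w : FF K (q ^ 2 * N) →+* FF K (q ^ 2 * N)} (hw : IsW w)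
    {s₁ : FF K (q ^ 2 * N) →+* LaurentSeries K} (hs₁ : IsSig ζ s₁) :
    ∃ (e : (ZMod q)ˣ → ℕ) (h : (ZMod q)ˣ → (ZMod q)ˣ) (a b : ℕ) (c₁ c₂ : (ZMod q)ˣ),
    c₁ ≠ c₂ ∧ ∀ (u : FF K (q ^ 2 * N)) (hm : RK s ζ sg u ∈ FF K (q ^ 2 * N)),
      s₁ ⟨RK s ζ sg u, hm⟩ =
      twist (ζ ^ a) (u : LaurentSeries K) *
        twist (ζ ^ b) ((w u : FF K (q ^ 2 * N)) : LaurentSeries K) *
      ∏ c ∈ (Finset.univ.erase c₁).erase c₂,
        twist (ζ ^ e c) (sg (h c : ZMod q).val u) := by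
  classical
  obtain ⟨G, hGN, g00, g01, g11, g10⟩ := exists_G1 (cop_of hN) h0
  have h1s : (1 - s : ZMod q) ≠ 0 := sub_ne_zero.2 hs.symm
  let B : (ZMod q)ˣ := Units.mk0 (b₀ : ZMod q) h0
  let B' : (ZMod q)ˣ := Units.mk0 ((b₀ : ZMod q) * s⁻¹) (mul_ne_zero h0 (inv_ne_zero hs0))
  have hB : (B : ZMod q) = b₀ := rfl
  have hB' : (B' : ZMod q) = b₀ * s⁻¹ := rfl
  have hBB : B' ≠ B := by
    intro h
    have h1 := congrArg (Units.val) h
    rw [hB, hB'] at h1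
    apply hs
    have h2 : s⁻¹ = 1 := mul_left_cancel₀ h0 (by rw [h1, mul_one])
    rw [← inv_inv s, h2, inv_one]
  let k : (ZMod q)ˣ → ZMod q := fun c => c * (1 - c * (b₀ : ZMod q)⁻¹)⁻¹
  let l : (ZMod q)ˣ → ZMod q := fun c => s * c * (1 - s * c * (b₀ : ZMod q)⁻¹)⁻¹
  let h : (ZMod q)ˣ → (ZMod q)ˣ := fun c =>
    if hx : (k c - l c) * (b₀ : ZMod q)⁻¹ ≠ 0 then Units.mk0 _ hx else 1
  refine ⟨fun c => ex q b₀ (-k c), h, ex q b₀ (-k B'), ex q b₀ (-l B), B, B', hBB.symm,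
    fun u hm => ?_⟩
  apply coeffMap_injective (f := ι) ι.injective
  -- the left hand side
  have e1 : ex q b₀ (0 - -(b₀ : ZMod q)) = 1 := by
    haveI : Fact (1 < q) := ⟨hq.out.one_lt⟩
    rw [ex, sub_neg_eq_add, zero_add, mul_inv_cancel₀ h0, ZMod.val_one]
  have h1 := class_one' ι (cop_of hN) hGN hb h0 (k := 0) (l := -(b₀ : ZMod q))
    (by rw [g01, g00]; simp) (by rw [g11, g10]; push_cast; field_simp; ring) (s := s₁) (by
      rw [e1, pow_one]; exact hs₁) ⟨RK s ζ sg u, hm⟩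
  have e0 : ex q b₀ (-0) = 0 := by rw [neg_zero, ex, zero_mul, ZMod.val_zero]
  rw [e0, pow_zero, twist_one] at h1
  rw [← h1, evK_RK hN s hs ζ sg hsg ι hb h0 hGN u hm]
  rw [map_mul, map_mul, map_prod]
  rw [← Finset.mul_prod_erase Finset.univ _ (Finset.mem_univ B),
    ← Finset.mul_prod_erase (Finset.univ.erase B) _
      (Finset.mem_erase.2 ⟨hBB, Finset.mem_univ B'⟩), ← mul_assoc]
  congr 1
  · rw [mul_comm]
    congr 1
    · -- `c = B'`
      obtain ⟨m, hm', e00, e01, e10, e11⟩ := ent s G B' hs hN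
      rw [hB'] at hm' e00 e01 e10 e11
      rw [g00, g10] at e00 e10
      rw [g01, g11] at e01 e11
      push_cast at e00 e01 e10 e11
      refine class_zero' ι (cop_of hN) (dvd_mul_10 (gS_dvd q N s B') hGN) hb h0 (k := k B') ?_ ?_ u
      · rw [e01, e00]
        simp only [k]
        rw [hB']
        have : (1 - (b₀ : ZMod q) * s⁻¹ * (b₀ : ZMod q)⁻¹) ≠ 0 := by
          have e : (1 - (b₀ : ZMod q) * s⁻¹ * (b₀ : ZMod q)⁻¹) = -((1 - s) * s⁻¹) := by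
            field_simp; ring
          rw [e]
          exact neg_ne_zero.2 (mul_ne_zero h1s (inv_ne_zero hs0))
        have e3 : (1 - (b₀ : ZMod q) * s⁻¹ * (b₀ : ZMod q)⁻¹) * ((b₀ : ZMod q) * s⁻¹ *
            (1 - (b₀ : ZMod q) * s⁻¹ * (b₀ : ZMod q)⁻¹)⁻¹) = (b₀ : ZMod q) * s⁻¹ := by
          rw [mul_comm, mul_assoc, inv_mul_cancel₀ this, mul_one]
        rw [e3]
        ring
      · rw [e10]
        field_simp
        ring
    · -- `c = B`
      obtain ⟨m, hm', e00, e01, e10, e11⟩ := ent s G B hs hN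
      rw [hB] at hm' e00 e01 e10 e11
      rw [g00, g10] at e00 e10
      rw [g01, g11] at e01 e11
      push_cast at e00 e01 e10 e11
      refine class_two' ι (cop_of hN) (dvd_mul_10 (gS_dvd q N s B) hGN) hb h0 (l := l B) ?_ ?_ hw u
      · rw [e00]
        field_simp
        ring
      · rw [e11, e10]
        simp only [l]
        rw [hB]
        have : (1 - s * (b₀ : ZMod q) * (b₀ : ZMod q)⁻¹) ≠ 0 := by
          have e : (1 - s * (b₀ : ZMod q) * (b₀ : ZMod q)⁻¹) = 1 - s := by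
            field_simp
          rw [e]
          exact h1s
        have e2 : (m * 1 - m * s * (b₀ : ZMod q) * (b₀ : ZMod q)⁻¹) =
            m * (1 - s * (b₀ : ZMod q) * (b₀ : ZMod q)⁻¹) := by ring
        have e3 : (1 - s * (b₀ : ZMod q) * (b₀ : ZMod q)⁻¹) * (s * (b₀ : ZMod q) *
            (1 - s * (b₀ : ZMod q) * (b₀ : ZMod q)⁻¹)⁻¹) = s * (b₀ : ZMod q) := by
          rw [mul_comm, mul_assoc, inv_mul_cancel₀ this, mul_one]
        linear_combination m * e3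
  · refine Finset.prod_congr rfl fun c hc => ?_
    have hc2 : c ≠ B' := (Finset.mem_erase.1 hc).1
    have hc1 : c ≠ B := (Finset.mem_erase.1 (Finset.mem_erase.1 hc).2).1
    obtain ⟨m, hm', e00, e01, e10, e11⟩ := ent s G c hs hN
    rw [g00, g10] at e00 e10
    rw [g01, g11] at e01 e11
    push_cast at e00 e01 e10 e11
    have n1 : (1 - c * (b₀ : ZMod q)⁻¹ : ZMod q) ≠ 0 := by
      intro h
      apply hc1
      apply Units.ext
      rw [hB]
      field_simp at h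
      linear_combination -h
    have n2 : (1 - s * c * (b₀ : ZMod q)⁻¹ : ZMod q) ≠ 0 := by
      intro h
      apply hc2
      apply Units.ext
      rw [hB']
      field_simp at h ⊢
      linear_combination -h
    have hc0 : (c : ZMod q) ≠ 0 := c.ne_zero
    have hkl : (k c - l c) * (b₀ : ZMod q)⁻¹ = c * (1 - s) *
        ((1 - c * (b₀ : ZMod q)⁻¹)⁻¹ * (1 - s * c * (b₀ : ZMod q)⁻¹)⁻¹ * (b₀ : ZMod q)⁻¹) := by
      simp only [k, l]
      generalize hX : (1 - c * (b₀ : ZMod q)⁻¹ : ZMod q) = X at n1 ⊢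
      generalize hY : (1 - s * c * (b₀ : ZMod q)⁻¹ : ZMod q) = Y at n2 ⊢
      have : (c : ZMod q) * Y - s * c * X = c * (1 - s) := by
        rw [← hX, ← hY]; ring
      rw [← this]
      field_simp
    have hx : (k c - l c) * (b₀ : ZMod q)⁻¹ ≠ 0 := by
      rw [hkl]
      exact mul_ne_zero (mul_ne_zero hc0 h1s)
        (mul_ne_zero (mul_ne_zero (inv_ne_zero n1) (inv_ne_zero n2)) (inv_ne_zero h0))
    have hh : (h c : ZMod q) = (k c - l c) * (b₀ : ZMod q)⁻¹ := by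
      simp only [h]
      rw [dif_pos hx]
      rfl
    refine evK_one ζ sg hsg ι hb h0 (dvd_mul_10 (gS_dvd q N s c) hGN) (cop_of hN)
      (k := k c) (l := l c) ?_ ?_ hh u
    · rw [e01, e00]
      simp only [k]
      have e2 : (1 - (c : ZMod q) * (b₀ : ZMod q)⁻¹) * ((c : ZMod q) *
          (1 - (c : ZMod q) * (b₀ : ZMod q)⁻¹)⁻¹) = c := by
        rw [mul_comm (c : ZMod q) (1 - (c : ZMod q) * (b₀ : ZMod q)⁻¹)⁻¹, ← mul_assoc,
          mul_inv_cancel₀ n1, one_mul]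
      rw [e2]
      ring
    · rw [e11, e10]
      simp only [l]
      have e2 : (1 - s * (c : ZMod q) * (b₀ : ZMod q)⁻¹) * (s * (c : ZMod q) *
          (1 - s * (c : ZMod q) * (b₀ : ZMod q)⁻¹)⁻¹) = s * c := by
        rw [mul_comm (s * (c : ZMod q)) (1 - s * (c : ZMod q) * (b₀ : ZMod q)⁻¹)⁻¹, ← mul_assoc,
          mul_inv_cancel₀ n2, one_mul]
      linear_combination m * e2

end RK

end Fermat.Agent.RT6
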