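import Fermat.Agent.RT6.GeoSt

/-!
# (G5): injectivity under raising the level, commutation with Galois
-/

set_option autoImplicit false
set_option linter.style.haveILetI false
set_option linter.unusedSectionVars false

noncomputable section

namespace Fermat.Agent.RT6.G5

open ModularCurve Fermat.Agent.ModFun Fermat.Agent.AnJac AlgebraicCurve
open Fermat.Agent.HeckeQ Matrix Fermat.Agent.Curves Module Fermat.Agent.Carayol
open Fermat.Agent.CarayolX CongruenceSubgroup UpperHalfPlane MatrixGroups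

local notation "Qb" => AlgebraicClosure ℚ
local notation "GQ" => Qb ≃ₐ[ℚ] Qb

theorem memG0 {N : ℕ} {γ : SL(2, ℤ)} : γ ∈ Gamma0 N ↔ (N : ℤ) ∣ γ 1 0 := by
  rw [Gamma0_mem, ZMod.intCast_zmod_eq_zero_iff_dvd]

section Level

variable {N M : ℕ} [NeZero N] [NeZero M]

theorem gamma_le (h : N ∣ M) : Gamma0 M ≤ Gamma0 N := by
  intro g hg
  rw [memG0] at hg ⊢
  exact (by exact_mod_cast h : (N : ℤ) ∣ M).trans hg

theorem isA_mono (h : N ∣ M) {f : ℍ → ℂ} (hf : IsA N f) : IsA M f where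
  mdiff := hf.mdiff
  per := by
    intro δ τ
    obtain ⟨d, rfl⟩ := h
    have key : ∀ k : ℕ, ∀ τ : ℍ, f (δ • (ModularGroup.T ^ (N * k) • τ)) = f (δ • τ) := by
      intro k
      induction k with
      | zero => intro τ; rw [mul_zero, pow_zero, one_smul]
      | succ k ih =>
        intro τ
        rw [Nat.mul_succ, pow_add, mul_smul, ih, hf.per]
    exact key d τ
  mg := hf.mg

theorem isX_mono (h : N ∣ M) {χ : Gamma0 N →* ℂˣ} {f : ℍ → ℂ} (hf : IsX N χ f) :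
    IsX M (χ.comp (Subgroup.inclusion (gamma_le h))) f where
  isA := isA_mono h hf.isA
  inv γ τ := hf.inv (Subgroup.inclusion (gamma_le h) γ) τ

theorem isChar_mono (h : N ∣ M) {n : ℕ} {u : LaurentSeries ℂ} {χ : Gamma0 N →* ℂˣ}
    (hu : IsChar N n u χ) : IsChar M n u (χ.comp (Subgroup.inclusion (gamma_le h))) := by
  obtain ⟨G, b, hG, hb, hG0, hb0, he⟩ := hu.ex
  refine ⟨fun γ hγ => hu.nh _ hγ, ?_, G, b, isX_mono h hG, ?_, hG0, hb0, he⟩
  · ext γ
    have := DFunLike.congr_fun hu.pw (Subgroup.inclusion (gamma_le h) γ)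
    rw [MonoidHom.pow_apply] at this ⊢
    rw [MonoidHom.comp_apply, this]
    rfl
  · exact isX_mono h hb

/-- the parabolic element -/
def PN (N : ℕ) : Gamma0 N := ⟨⟨!![1, 0; (N : ℤ), 1], by rw [Matrix.det_fin_two_of]; ring⟩,
  memG0.mpr (dvd_refl _)⟩

/-- homomorphisms killing parabolics are determined on the subgroup of level `2N` -/
theorem two_gen {G : Type*} [Group G] {N : ℕ} (χ : Gamma0 N →* G)
    (hT : χ (TT N) = 1) (hP : χ (PN N) = 1)
    (h2 : ∀ γ : Gamma0 N, (γ : SL(2, ℤ)) ∈ Gamma0 (2 * N) → χ γ = 1) (γ : Gamma0 N) :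
    χ γ = 1 := by
  obtain ⟨c, hc⟩ := memG0.mp γ.2
  have hmul : ∀ (a b : SL(2, ℤ)) (i j : Fin 2), (a * b) i j = a i 0 * b 0 j + a i 1 * b 1 j :=
    fun a b i j => mul_ent a b i j
  have hdet := det_entries (γ : SL(2, ℤ))
  -- criterion
  have hcrit : ∀ δ : Gamma0 N, (∃ k : ℤ, (δ : SL(2, ℤ)) 1 0 = N * (2 * k)) → χ δ = 1 := by
    rintro δ ⟨k, hk⟩
    apply h2
    rw [memG0, hk]
    exact ⟨k, by push_cast; ring⟩
  rcases Int.even_or_odd' c with ⟨k, rfl | rfl⟩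
  · exact hcrit γ ⟨k, hc⟩
  · rcases Int.even_or_odd' ((γ : SL(2, ℤ)) 1 1) with ⟨m, hm | hm⟩
    · -- `d` even
      have hN : ∃ m', (N : ℤ) = 2 * m' + 1 := by
        rcases Int.even_or_odd' (N : ℤ) with ⟨m', h' | h'⟩
        · exfalso
          rw [hc, hm, h'] at hdet
          have : (2 : ℤ) ∣ 1 := ⟨(γ : SL(2, ℤ)) 0 0 * m - (γ : SL(2, ℤ)) 0 1 * (m' * (2 * k + 1)), by
            linear_combination -hdet⟩
          norm_num at this
        · exact ⟨m', h'⟩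
      obtain ⟨m', hm'⟩ := hN
      have h3 : χ (γ * TT N * PN N) = 1 := by
        apply hcrit
        have e1 : ((γ * TT N * PN N : Gamma0 N) : SL(2, ℤ)) =
            (γ : SL(2, ℤ)) * ModularGroup.T * (PN N : SL(2, ℤ)) := rfl
        rw [e1, hmul, hmul, hmul]
        have t00 : ModularGroup.T 0 0 = 1 := rfl
        have t01 : ModularGroup.T 0 1 = 1 := rfl
        have t10 : ModularGroup.T 1 0 = 0 := rfl
        have t11 : ModularGroup.T 1 1 = 1 := rfl
        have p00 : (PN N : SL(2, ℤ)) 0 0 = 1 := rfl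
        have p10 : (PN N : SL(2, ℤ)) 1 0 = N := rfl
        rw [t00, t01, t10, t11, p00, p10, hc, hm]
        exact ⟨k + m' * (2 * k + 1) + k + 1 + m, by rw [hm']; ring⟩
      rw [map_mul, map_mul, hT, hP, mul_one, mul_one] at h3
      exact h3
    · -- `d` odd
      have h3 : χ (γ * PN N) = 1 := by
        apply hcrit
        have e1 : ((γ * PN N : Gamma0 N) : SL(2, ℤ)) = (γ : SL(2, ℤ)) * (PN N : SL(2, ℤ)) := rfl
        rw [e1, hmul]
        have p00 : (PN N : SL(2, ℤ)) 0 0 = 1 := rfl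
        have p10 : (PN N : SL(2, ℤ)) 1 0 = N := rfl
        rw [p00, p10, hc, hm]
        exact ⟨k + m + 1, by ring⟩
      rw [map_mul, hP, mul_one] at h3
      exact h3

/-- a character which is trivial at level `2N` is trivial -/
theorem nh_two {N : ℕ} {χ : Gamma0 N →* ℂˣ} (hχ : IsNH χ)
    (h2 : ∀ γ : Gamma0 N, (γ : SL(2, ℤ)) ∈ Gamma0 (2 * N) → χ γ = 1) : χ = 1 := by
  ext γ
  rw [MonoidHom.one_apply, two_gen χ hχ.T ?_ h2 γ]
  apply hχ
  have p00 : (PN N : SL(2, ℤ)) 0 0 = 1 := rfl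
  have p11 : (PN N : SL(2, ℤ)) 1 1 = 1 := rfl
  rw [p00, p11]
  norm_num

theorem nh_four {N : ℕ} {χ : Gamma0 N →* ℂˣ} (hχ : IsNH χ)
    (h4 : ∀ γ : Gamma0 N, (γ : SL(2, ℤ)) ∈ Gamma0 (4 * N) → χ γ = 1) : χ = 1 := by
  apply nh_two hχ
  intro γ hγ
  let χ' : Gamma0 (2 * N) →* ℂˣ := χ.comp (Subgroup.inclusion (fun g hg => by
    rw [memG0] at hg ⊢
    exact (Dvd.intro_left 2 (by push_cast; rfl)).trans hg))
  have h1 : χ' = 1 := by
    apply nh_two (χ := χ')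
    · intro δ hδ
      exact hχ _ hδ
    · intro δ hδ
      apply h4
      have e : 2 * (2 * N) = 4 * N := by ring
      rw [← e]
      exact hδ
  exact DFunLike.congr_fun h1 ⟨γ, hγ⟩

/-- **injectivity** -/
theorem cls_inj {r : ℕ} (b : Module.Basis (Fin r) ℤ (Lat N)) (h : N ∣ M)
    (h4 : ∀ g : SL(2, ℤ), g ∈ Gamma0 (4 * N) → g ∈ Gamma0 M) {n : ℕ}
    (hn : n ≠ 0) {u : FF Qb N} {y : Fin r → ZMod n} (hu : (KQ N).Cls b n u y)
    {z : FF Qb M} (hz0 : z ≠ 0) (hz : inc Qb h u = z ^ n) : y = 0 := by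
  obtain ⟨φ, hφ, rfl⟩ := hu
  have hφ' : IsChar N n (coeffMap AnJac.ιQ (u : LaurentSeries Qb))
    (ech n (φ : Additive (Gamma0 N) →+ ℤ)) := hφ
  have h1 := isChar_mono h hφ'
  have e1 : coeffMap AnJac.ιQ (u : LaurentSeries Qb) = (coeffMap AnJac.ιQ (z : LaurentSeries Qb)) ^ n := by
    have h2 := congrArg (fun w : FF Qb M => coeffMap AnJac.ιQ (w : LaurentSeries Qb)) hz
    simp only [coe_inc] at h2
    rw [h2]
    change coeffMap AnJac.ιQ ((z : LaurentSeries Qb) ^ n) = _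
    rw [map_pow]
  have h2 : IsChar M n (coeffMap AnJac.ιQ (u : LaurentSeries Qb)) 1 := by
    rw [e1]
    refine IsChar.of_pow (coeffMap_mem_FF AnJac.ιQ z.2) ?_
    rw [Ne, map_eq_zero_iff _ (AnJac.coeffMap_injective AnJac.ιQ)]
    exact fun h => hz0 (Subtype.ext h)
  have h3 := IsChar.unique hn h1 h2
  have h5 : ech n (φ : Additive (Gamma0 N) →+ ℤ) = 1 := by
    apply nh_four hφ'.nh
    intro γ hγ
    exact DFunLike.congr_fun h3 ⟨γ, h4 _ hγ⟩
  have h6 : (KQ N).cl n 0 u := by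
    change IsChar N n (coeffMap AnJac.ιQ (u : LaurentSeries Qb))
      (ech n ((0 : Lat N) : Additive (Gamma0 N) →+ ℤ))
    have h7 : ech n ((0 : Lat N) : Additive (Gamma0 N) →+ ℤ) = 1 := by
      ext γ
      rw [ech_apply]
      have h8 : ((0 : Lat N) : Additive (Gamma0 N) →+ ℤ) (Additive.ofMul γ) = 0 := rfl
      rw [h8, zpow_zero]; rfl
    rw [h7, ← h5]
    exact hφ'
  obtain ⟨χ, hχ⟩ := (KQ N).uniq hn hφ h6
  exact (KSys.red_eq_zero b).mpr ⟨χ, by rw [← hχ, sub_zero]⟩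

end Level

/-- **commutation with Galois** -/
theorem geoGal (H : RSSt) : GeoGal := by
  intro q N p hq _ _ hp hN s hs hs0 n σ
  haveI : NeZero N := ⟨by
    rintro rfl
    exact NeZero.ne (q ^ 2 * 0) (mul_zero _)⟩
  obtain ⟨RQ, hOp, hC, -, -⟩ := H q s hs hs0
  exact (KQ (q ^ 2 * N)).M_comm (bL (q ^ 2 * N)) (KSys.pn0 p n) (hC N hN (p ^ n) (KSys.pn0 p n)) σ
    (fun u => (hOp N hN).gal _ u)

end Fermat.Agent.RT6.G5
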