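import Fermat.Agent.RT6.G5a

/-!
# Injectivity under raising the level by a prime
-/

set_option autoImplicit false
set_option linter.style.haveILetI false
set_option linter.unusedSectionVars false

noncomputable section

namespace Fermat.Agent.RT6.G5

open ModularCurve Fermat.Agent.ModFun Fermat.Agent.AnJac AlgebraicCurve
open Fermat.Agent.HeckeQ Matrix Fermat.Agent.Curves Module Fermat.Agent.Carayol
open Fermat.Agent.CarayolX CongruenceSubgroup UpperHalfPlane MatrixGroups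

local notation "Qb" => AlgebraicClosure ℚ
local notation "GQ" => Qb ≃ₐ[ℚ] Qb

/-- the parabolic elements -/
def PJ (N : ℕ) (j : ℤ) : Gamma0 N := ⟨⟨!![1, 0; j * (N : ℤ), 1], by
  rw [Matrix.det_fin_two_of]; ring⟩, memG0.mpr (Dvd.intro_left j rfl)⟩

/-- a character which is trivial at level `ℓN` is trivial -/
theorem nh_prime {ℓ : ℕ} (hℓ : ℓ.Prime) {N : ℕ} {χ : Gamma0 N →* ℂˣ} (hχ : IsNH χ)
    (h2 : ∀ γ : Gamma0 N, (γ : SL(2, ℤ)) ∈ Gamma0 (ℓ * N) → χ γ = 1) : χ = 1 := by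
  have hP : ∀ j, χ (PJ N j) = 1 := by
    intro j
    apply hχ
    have p00 : (PJ N j : SL(2, ℤ)) 0 0 = 1 := rfl
    have p11 : (PJ N j : SL(2, ℤ)) 1 1 = 1 := rfl
    rw [p00, p11]
    norm_num
  have hmul : ∀ (a b : SL(2, ℤ)) (i j : Fin 2), (a * b) i j = a i 0 * b 0 j + a i 1 * b 1 j :=
    fun a b i j => mul_ent a b i j
  have hp : Prime (ℓ : ℤ) := Nat.prime_iff_prime_int.mp hℓ
  -- the generic case
  have h1 : ∀ γ : Gamma0 N, ¬ (ℓ : ℤ) ∣ (γ : SL(2, ℤ)) 1 1 → χ γ = 1 := by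
    intro γ hd
    obtain ⟨c, hc⟩ := memG0.mp γ.2
    have hco : IsCoprime ((γ : SL(2, ℤ)) 1 1) (ℓ : ℤ) := ((hp.coprime_iff_not_dvd).2 hd).symm
    obtain ⟨x, y, hxy⟩ := hco
    have h3 : χ (γ * PJ N (-c * x)) = 1 := by
      apply h2
      have e1 : ((γ * PJ N (-c * x) : Gamma0 N) : SL(2, ℤ)) =
        (γ : SL(2, ℤ)) * (PJ N (-c * x) : SL(2, ℤ)) := rfl
      have p00 : (PJ N (-c * x) : SL(2, ℤ)) 0 0 = 1 := rfl
      have p10 : (PJ N (-c * x) : SL(2, ℤ)) 1 0 = -c * x * N := rfl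
      rw [memG0, e1, hmul, p00, p10, hc]
      exact ⟨c * y, by push_cast; linear_combination (-(c * N : ℤ)) * hxy⟩
    rw [map_mul, hP, mul_one] at h3
    exact h3
  ext γ
  rw [MonoidHom.one_apply]
  by_cases hd : (ℓ : ℤ) ∣ (γ : SL(2, ℤ)) 1 1
  · have h3 : χ (γ * TT N) = 1 := by
      apply h1
      intro h4
      have e1 : ((γ * TT N : Gamma0 N) : SL(2, ℤ)) = (γ : SL(2, ℤ)) * ModularGroup.T := rfl
      have t01 : ModularGroup.T 0 1 = 1 := rfl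
      have t11 : ModularGroup.T 1 1 = 1 := rfl
      rw [e1, hmul, t01, t11, mul_one, mul_one] at h4
      have h5 : (ℓ : ℤ) ∣ (γ : SL(2, ℤ)) 1 0 := (dvd_add_left hd).1 h4
      have hdet := det_entries (γ : SL(2, ℤ))
      have h6 : (ℓ : ℤ) ∣ 1 := by
        rw [← hdet]
        exact dvd_sub (Dvd.dvd.mul_left hd _) (Dvd.dvd.mul_left h5 _)
      exact hp.not_unit (isUnit_of_dvd_one h6)
    rw [map_mul, hχ.T, mul_one] at h3
    rw [h3]
  · rw [h1 γ hd]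

/-- the same, twice -/
theorem nh_sq {ℓ : ℕ} (hℓ : ℓ.Prime) {N : ℕ} {χ : Gamma0 N →* ℂˣ} (hχ : IsNH χ)
    (h4 : ∀ γ : Gamma0 N, (γ : SL(2, ℤ)) ∈ Gamma0 (ℓ * (ℓ * N)) → χ γ = 1) : χ = 1 := by
  apply nh_prime hℓ hχ
  intro γ hγ
  let χ' : Gamma0 (ℓ * N) →* ℂˣ := χ.comp (Subgroup.inclusion (fun g hg => by
    rw [memG0] at hg ⊢
    exact (Dvd.intro_left (ℓ : ℤ) (by push_cast; rfl)).trans hg))
  have h1 : χ' = 1 := by
    apply nh_prime hℓ (χ := χ')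
    · intro δ hδ
      exact hχ _ hδ
    · intro δ hδ
      exact h4 _ hδ
  exact DFunLike.congr_fun h1 ⟨γ, hγ⟩

section Level

variable {N M : ℕ} [NeZero N] [NeZero M]

/-- **injectivity**, general form -/
theorem cls_inj_of {r : ℕ} (b : Module.Basis (Fin r) ℤ (Lat N)) (h : N ∣ M)
    (hM : ∀ χ : Gamma0 N →* ℂˣ, IsNH χ →
      (∀ γ : Gamma0 N, (γ : SL(2, ℤ)) ∈ Gamma0 M → χ γ = 1) → χ = 1) {n : ℕ}
    (hn : n ≠ 0) {u : FF Qb N} {y : Fin r → ZMod n} (hu : (KQ N).Cls b n u y)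
    {z : FF Qb M} (hz0 : z ≠ 0) (hz : inc Qb h u = z ^ n) : y = 0 := by
  obtain ⟨φ, hφ, rfl⟩ := hu
  have hφ' : IsChar N n (coeffMap AnJac.ιQ (u : LaurentSeries Qb))
    (ech n (φ : Additive (Gamma0 N) →+ ℤ)) := hφ
  have h1 := isChar_mono h hφ'
  have e1 : coeffMap AnJac.ιQ (u : LaurentSeries Qb) =
      (coeffMap AnJac.ιQ (z : LaurentSeries Qb)) ^ n := by
    have h2 := congrArg (fun w : FF Qb M => coeffMap AnJac.ιQ (w : LaurentSeries Qb)) hz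
    simp only [coe_inc] at h2
    rw [h2]
    change coeffMap AnJac.ιQ ((z : LaurentSeries Qb) ^ n) = _
    rw [map_pow]
  have h2 : IsChar M n (coeffMap AnJac.ιQ (u : LaurentSeries Qb)) 1 := by
    rw [e1]
    refine IsChar.of_pow (coeffMap_mem_FF AnJac.ιQ z.2) ?_
    rw [Ne, map_eq_zero_iff _ (AnJac.coeffMap_injective AnJac.ιQ)]
    exact fun h => hz0 (Subtype.ext h)
  have h3 := IsChar.unique hn h1 h2
  have h5 : ech n (φ : Additive (Gamma0 N) →+ ℤ) = 1 := by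
    apply hM _ hφ'.nh
    intro γ hγ
    exact DFunLike.congr_fun h3 ⟨γ, hγ⟩
  have h6 : (KQ N).cl n 0 u := by
    change IsChar N n (coeffMap AnJac.ιQ (u : LaurentSeries Qb))
      (ech n ((0 : Lat N) : Additive (Gamma0 N) →+ ℤ))
    have h7 : ech n ((0 : Lat N) : Additive (Gamma0 N) →+ ℤ) = 1 := by
      ext γ
      rw [ech_apply]
      have h8 : ((0 : Lat N) : Additive (Gamma0 N) →+ ℤ) (Additive.ofMul γ) = 0 := rfl
      rw [h8, zpow_zero]; rfl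
    rw [h7, ← h5]
    exact hφ'
  obtain ⟨χ, hχ⟩ := (KQ N).uniq hn hφ h6
  exact (KSys.red_eq_zero b).mpr ⟨χ, by rw [← hχ, sub_zero]⟩

/-- **injectivity** for `M = ℓ²N` -/
theorem cls_inj_sq {ℓ : ℕ} (hℓ : ℓ.Prime) {r : ℕ} (b : Module.Basis (Fin r) ℤ (Lat N))
    (hM : M = ℓ ^ 2 * N) (h : N ∣ M) {n : ℕ}
    (hn : n ≠ 0) {u : FF Qb N} {y : Fin r → ZMod n} (hu : (KQ N).Cls b n u y)
    {z : FF Qb M} (hz0 : z ≠ 0) (hz : inc Qb h u = z ^ n) : y = 0 := by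
  refine cls_inj_of b h (fun χ hχ h4 => nh_sq hℓ hχ fun γ hγ => h4 γ ?_) hn hu hz0 hz
  rw [hM, show ℓ ^ 2 * N = ℓ * (ℓ * N) by ring]
  exact hγ

end Level

end Fermat.Agent.RT6.G5
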