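import Fermat.Agent.RT6.L9

/-!
# (A3), links: the eigensymbol
-/

set_option autoImplicit false
set_option linter.style.haveILetI false
set_option maxHeartbeats 1000000
set_option synthInstance.maxHeartbeats 400000

noncomputable section

namespace Fermat.Agent.RT6

open Matrix CongruenceSubgroup Fermat.Agent.AnJac Fermat.Agent.RT
open Fermat.Agent.CarayolX Fermat.Agent.MazurP Fermat.Agent.GalRep CuspForm
open Fermat.Agent.TWCoh hiding GQ
open Fermat.Agent.S43Glue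
open scoped MatrixGroups OnePoint

local notation "Qb" => AlgebraicClosure ℚ
local notation "GQ" => Qb ≃ₐ[ℚ] Qb

section

variable {p : ℕ} [hp : Fact p.Prime] {q N : ℕ} [hq : Fact q.Prime] [NeZero q]
  [NeZero (q ^ 2 * N)] {S : Set ℕ} {ρ : GQ →* Matrix (Fin 2) (Fin 2) (ZMod p)}

theorem opB_smul {κ : Type*} [Fintype κ] {K : Type} [Field K] (B : κ → GL (Fin 2) ℚ) (a : K)
    (y : P1 → P1 → K) : opB B (a • y) = a • opB B y := by
  funext x z
  show ∑ i, a * y (B i • x) (B i • z) = a * ∑ i, y (B i • x) (B i • z)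
  rw [Finset.mul_sum]

/-- **(L1)** -/
theorem exists_sym' (hGeo : GeoSt) (hGal : GeoGal) (hp2 : p ≠ 2) (hqp : q ≠ p) (hN : ¬ q ∣ N)
    (hS : S.Finite) (hpS : p ∈ S) (hLS : ∀ r : ℕ, r.Prime → r ∣ q * N → r ∈ S)
    (hfin : FinLevel ρ) (hdet : ∀ g, (ρ g).det = chiK p (ZMod p) g)
    (hspan : Submodule.span (ZMod p) (Set.range ρ) = ⊤)
    (hun : ∀ A : ValuationSubring Qb, A.LiesOverPrime q → ∀ σ ∈ A.inertiaSubgroupIn ℚ,
      (ρ σ - 1) * (ρ σ - 1) = 0)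
    (hmod : S43Glue.HMod ρ (q ^ 2 * N) S) :
    ∃ y ∈ SZ (ZMod p) (q ^ 2 * N), y ≠ 0 ∧
      (∀ (l : ℕ) (hl : l.Prime), l ∉ S → ∀ A : ValuationSubring Qb, A.LiesOverPrime l →
        ∀ τ : GQ, A.IsFrobeniusAt τ l →
          Tz (ZMod p) hl y = fun a b => (ρ τ).trace * y a b) ∧
      (∀ x z : P1, y (x.map (-·)) (z.map (-·)) = y x z) ∧
      (∀ s t : ZMod q, s ≠ 0 → s ≠ 1 → t ≠ 0 → t ≠ 1 → ∀ γ γ' : ZMod q → SL(2, ℤ),
        (∀ c ≠ 0, γ c ∈ Gamma0 N ∧ red q (γ c) • ((0 : ZMod q) : Pq q) = ((c : ZMod q) : Pq q) ∧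
          red q (γ c) • (∞ : Pq q) = ((s * c : ZMod q) : Pq q)) →
        (∀ c ≠ 0, γ' c ∈ Gamma0 N ∧ red q (γ' c) • ((0 : ZMod q) : Pq q) = ((c : ZMod q) : Pq q) ∧
          red q (γ' c) • (∞ : Pq q) = ((t * c : ZMod q) : Pq q)) →
        ∀ x z : P1,
          ∑ c ∈ Finset.univ.erase (0 : ZMod q),
            y (RT6.Dq q (Fact.out : q.Prime).ne_zero • (io (γ c))⁻¹ •
                (RT6.Dq q (Fact.out : q.Prime).ne_zero)⁻¹ • x)
              (RT6.Dq q (Fact.out : q.Prime).ne_zero • (io (γ c))⁻¹ •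
                (RT6.Dq q (Fact.out : q.Prime).ne_zero)⁻¹ • z) =
          ∑ c ∈ Finset.univ.erase (0 : ZMod q),
            y (RT6.Dq q (Fact.out : q.Prime).ne_zero • (io (γ' c))⁻¹ •
                (RT6.Dq q (Fact.out : q.Prime).ne_zero)⁻¹ • x)
              (RT6.Dq q (Fact.out : q.Prime).ne_zero • (io (γ' c))⁻¹ •
                (RT6.Dq q (Fact.out : q.Prime).ne_zero)⁻¹ • z)) := by
  classical
  obtain ⟨θ, hθ⟩ := hmod
  have hMS : ∀ r : ℕ, r.Prime → r ∣ q ^ 2 * N → r ∈ S := by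
    intro r hr h
    rcases hr.dvd_mul.mp h with h | h
    · exact hLS r hr ((hr.dvd_of_dvd_pow h).mul_right N)
    · exact hLS r hr (h.mul_left q)
  have hSN : ∀ i : JS S, ¬ i.1 ∣ q ^ 2 * N := fun i h => i.2.2 (hMS i.1 i.2.1 h)
  -- the vector
  obtain ⟨x, hx0, hxW, hxD, hxc⟩ := exists_vec (hSN := hSN) (θ := θ) hN hGeo hGal hp2 hqp hS hpS
    hLS hfin hdet hspan hun hθ
  obtain ⟨φ, rfl⟩ := KSys.red_surj (b := bL (q ^ 2 * N)) (pne p) x
  set v : Additive (Gamma0 (q ^ 2 * N)) →+ ZMod p :=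
    piH p (φ : Additive (Gamma0 (q ^ 2 * N)) →+ ℤ) with hv
  have hv0 : v ≠ 0 := piH_ne_zero hx0
  -- the eigenvalues
  let a : ℕ → ZMod p := fun l => if h : l.Prime ∧ l ∉ S then
    θ (heckeAlgebra.T h.1 (fun hd => h.2 (hMS l h.1 hd)) h.2) else 0
  have ha : ∀ (l : ℕ) (hl : l.Prime) (hlS : l ∉ S),
      a l = θ (heckeAlgebra.T hl (fun hd => hlS (hMS l hl hd)) hlS) := fun l hl hlS =>
    dif_pos ⟨hl, hlS⟩
  have hvT : ∀ l : ℕ, l.Prime → l ∉ S → MT (q ^ 2 * N) (ZMod p) l v = a l • v := by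
    intro l hl hlS
    have h1 := hxW ⟨l, hl, hlS⟩
    rw [HV_ι, hkA_ι] at h1
    have h2 := red_act (t := LTot (q ^ 2 * N) l) h1
    rw [coe_LTot] at h2
    rw [hv, piH, MT_comp, ha l hl hlS]
    exact h2
  -- a prime which is not Eisenstein
  obtain ⟨l₀, hl₀, hl₀S, A₀, hA₀, τ₀, hτ₀, hd, hne⟩ :=
    exists_noneis hfin hdet hspan hS hpS (NeZero.ne (q ^ 2 * N))
  have hne' : a l₀ ≠ 1 + (l₀ : ZMod p) := by
    rw [ha l₀ hl₀ hl₀S, ← hθ l₀ hl₀ _ hl₀S A₀ hA₀ τ₀ hτ₀]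
    exact hne
  obtain ⟨y, hy, hym, hyT⟩ := exists_eigensymbol hMS (piH_mem φ) hvT hl₀ hd hl₀S hne'
  have hl₀M : ¬ l₀ ∣ q ^ 2 * N := fun h => hl₀S (hMS l₀ hl₀ h)
  refine ⟨y, ck_iff.mpr hy, ?_, ?_, ?_, ?_⟩
  · intro hy0
    apply hv0
    rw [hv, ← hym]
    refine AddMonoidHom.ext fun γ => ?_
    show y ∞ (io ((Additive.toMul γ : Gamma0 (q ^ 2 * N)) : SL(2, ℤ)) • ∞) = 0
    rw [hy0]
    rfl
  · intro l hl hlS A hA τ hτ
    rw [← TK_eq, hyT l hl hlS, ha l hl hlS, ← hθ l hl _ hlS A hA τ hτ]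
    rfl
  · have h1 : jy y = y := by
      refine sym_unique (CK.jy hy) hy ?_ hl₀ hd hne' ?_ (hyT l₀ hl₀ hl₀S)
      · refine AddMonoidHom.ext fun γ' => ?_
        change hm (CK.jy hy) (Additive.ofMul (Additive.toMul γ')) =
          hm hy (Additive.ofMul (Additive.toMul γ'))
        generalize Additive.toMul γ' = g
        obtain ⟨γ, hγ⟩ := g
        rw [hm_jy hy (CK.jy hy) γ hγ, hym, piH_apply, piH_apply]
        have h3 : KSys.red (bL (q ^ 2 * N)) p (cL φ) = KSys.red (bL (q ^ 2 * N)) p (-φ) := by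
          rw [← M_conj, hxc, map_neg]
        have h4 := DFunLike.congr_fun (piH_congr h3)
          (Additive.ofMul (⟨γ, hγ⟩ : Gamma0 (q ^ 2 * N)))
        rw [piH_apply, piH_apply] at h4
        have h5 : (((-φ : Lat (q ^ 2 * N)) : Additive (Gamma0 (q ^ 2 * N)) →+ ℤ)
            (Additive.ofMul (⟨γ, hγ⟩ : Gamma0 (q ^ 2 * N)))) =
          -((φ : Additive (Gamma0 (q ^ 2 * N)) →+ ℤ)
            (Additive.ofMul (⟨γ, hγ⟩ : Gamma0 (q ^ 2 * N)))) := rfl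
        have h6 : (((cL φ : Lat (q ^ 2 * N)) : Additive (Gamma0 (q ^ 2 * N)) →+ ℤ)
            (Additive.ofMul (⟨γ, hγ⟩ : Gamma0 (q ^ 2 * N)))) =
          -((φ : Additive (Gamma0 (q ^ 2 * N)) →+ ℤ)
            (Additive.ofMul (⟨gi γ, gi_mem hγ⟩ : Gamma0 (q ^ 2 * N)))) := rfl
        rw [h5, h6, Int.cast_neg, Int.cast_neg, neg_inj] at h4
        exact h4
      · rw [TK_jy (CK.tinv hy) hl₀, hyT l₀ hl₀ hl₀S]
        rfl
    intro x z
    rw [← Jm_smul, ← Jm_smul]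
    exact congrFun (congrFun h1 x) z
  · intro s t hs0 hs1 ht0 ht1 γ γ' hγ hγ' x z
    have hBs := fun c => toR_BS hN hs1 c
    have hBt := fun c => toR_BS hN ht1 c
    have h1 : opB (BS q N s) y = opB (BS q N t) y := by
      refine sym_unique (CK.opB hBs hy) (CK.opB hBt hy) ?_ hl₀ hd hne' ?_ ?_
      · rw [hm_opB hBs hy, hm_opB hBt hy, hym, piH, HF.T_comp, HF.T_comp]
        have h2 := hxD s t hs1 ht1 hs0 ht0
        rw [DS, map_sub, Matrix.sub_mulVec, sub_eq_zero] at h2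
        have h3 : KSys.red (bL (q ^ 2 * N)) p (LS q N hN s hs1 φ) =
            KSys.red (bL (q ^ 2 * N)) p (LS q N hN t ht1 φ) := by
          rw [← KSys.tm_mulVec, ← KSys.tm_mulVec]
          exact h2
        exact piH_congr h3
      · rw [TK_opB_comm hq.out.ne_zero (BS_smul s) (Dvd.intro N rfl) hy (CK.opB hBs hy) hl₀ hd,
          hyT l₀ hl₀ hl₀S, opB_smul]
      · rw [TK_opB_comm hq.out.ne_zero (BS_smul t) (Dvd.intro N rfl) hy (CK.opB hBt hy) hl₀ hd,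
          hyT l₀ hl₀ hl₀S, opB_smul]
    rw [sum_rep hN hy hs1 hγ, sum_rep hN hy ht1 hγ', h1]

end

end Fermat.Agent.RT6
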