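import Fermat.Agent.RT6.A3
import Fermat.Agent.RT6.B2
import Fermat.Agent.RT6.B3
import Fermat.Agent.RT6.B4
import Fermat.Agent.RT6.Geo

/-!
# (L1): the final glue
-/

set_option autoImplicit false
set_option linter.style.haveILetI false
set_option synthInstance.maxHeartbeats 400000

noncomputable section

namespace Fermat.Agent.RT6.L1Fin

open Matrix CongruenceSubgroup Fermat.Agent.AnJac Fermat.Agent.MazurP
open Fermat.Agent.S43Glue Fermat.Agent.GalRep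

local notation "Qbar" => AlgebraicClosure ℚ
local notation "GQ" => (AlgebraicClosure ℚ ≃ₐ[ℚ] AlgebraicClosure ℚ)

/-- the cyclotomic character is odd -/
theorem chiK_cc (p : ℕ) [hp : Fact p.Prime] {c : GQ}
    (hc : ∀ x : Qbar, ιQ (c x) = starRingEnd ℂ (ιQ x)) : chiK p (ZMod p) c = -1 := by
  haveI : NeZero p := ⟨hp.out.ne_zero⟩
  obtain ⟨ζ, hζ⟩ := HasEnoughRootsOfUnity.exists_primitiveRoot Qbar p
  have h1 : c ζ = ζ ^ (p - 1) := by
    apply (ιQ : Qbar →+* ℂ).injective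
    have h2 : (ιQ ζ) ^ p = 1 := by rw [← map_pow, hζ.pow_eq_one, map_one]
    have h3 : ‖ιQ ζ‖ = 1 := Complex.norm_eq_one_of_pow_eq_one h2 hp.out.ne_zero
    have h4 : starRingEnd ℂ (ιQ ζ) * ιQ ζ = 1 := by
      rw [← Complex.normSq_eq_conj_mul_self, Complex.normSq_eq_norm_sq, h3]
      simp
    have h5 : (ιQ ζ) ^ (p - 1) * ιQ ζ = 1 := by
      rw [← pow_succ, Nat.sub_add_cancel hp.out.one_lt.le, h2]
    have h6 : ιQ ζ ≠ 0 := by
      intro h
      rw [h, norm_zero] at h3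
      exact zero_ne_one h3
    rw [hc, map_pow]
    exact mul_right_cancel₀ h6 (h4.trans h5.symm)
  rw [chiK_spec p (ZMod p) c hζ h1, Nat.cast_sub hp.out.one_lt.le]
  simp

theorem l1St (p : ℕ) [hpf : Fact p.Prime] (hp2 : p ≠ 2) : L1St p := by
  intro q N hq _ _ S ρ hqp hqN hS hpS hNS hfin hdet hspan hun hmod
  haveI : NeZero q := ⟨hq.out.ne_zero⟩
  have hNS' : ∀ r : ℕ, r.Prime → r ∣ q ^ 2 * N → r ∈ S := by
    intro r hr hrM
    refine hNS r hr ?_
    rcases hr.dvd_mul.mp hrM with h | h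
    · exact (hr.dvd_of_dvd_pow h).mul_right N
    · exact h.mul_left q
  obtain ⟨c, hc, hcc⟩ := B3.exists_cc
  have hcd : (ρ c).det = -1 := by rw [hdet, chiK_cc p hc]
  obtain ⟨hSN, θ, x, hθ, hx0, hxT, hxD, hxc⟩ := B2.exists_class hqN geoBoth.1 geoBoth.2 hp2 hqp
    hS hpS hNS' hfin hdet hspan hun hmod c hcc hcd (-1) (by ring)
  refine B4.exists_y hqN hS hpS hNS hfin hdet hspan (v := B3.vh p x) (B3.vh_mem p x)
    (fun h => hx0 (B3.vh_eq_zero p hpf.out.ne_zero h)) ?_ ?_ ?_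
  · intro l hl hlS A hA τ hτ
    have hlM : ¬ l ∣ q ^ 2 * N := fun h => hlS (hNS' l hl h)
    have h1 := hxT ⟨l, hl, hlS⟩
    rw [HV_ι, hkA_ι] at h1
    rw [← B3.vh_LTot, hθ l hl hlM hlS A hA τ hτ, ← B3.vh_smul]
    exact congrArg (B3.vh p) h1
  · intro s t hs ht hs0 ht0
    exact B3.vh_DS p q N hqN s t hs ht (hxD s t hs ht hs0 ht0)
  · intro γ hγ
    have h1 : (KQ (q ^ 2 * N)).M (bL (q ^ 2 * N)) (pne p) c *ᵥ x = -x := by
      rw [hxc, neg_one_smul]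
    exact B3.vh_sign (pne p) hc h1 ⟨γ, hγ⟩

end Fermat.Agent.RT6.L1Fin

namespace Fermat.Agent.RT6

/-- **(A3)** -/
theorem a3L (p : ℕ) [hpf : Fact p.Prime] (hp : p = 3 ∨ p = 5) : TWG.A3St p :=
  a3_of_l1 p hp (L1Fin.l1St p (by rcases hp with rfl | rfl <;> norm_num))

end Fermat.Agent.RT6
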