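import Fermat.Agent.RT6.St
import Fermat.Agent.RT6.L2
import Fermat.Agent.TWCoh.NonZero

/-!
# (A3), links: homomorphisms and symbols
-/

set_option autoImplicit false
set_option maxHeartbeats 400000

noncomputable section

namespace Fermat.Agent.RT6

open Matrix CongruenceSubgroup Fermat.Agent.AnJac Fermat.Agent.RT
open Fermat.Agent.TWCoh hiding GQ
open scoped MatrixGroups OnePoint

section

variable {K : Type} [Field K]

/-- symbols with values in a field -/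
abbrev CK (N : ℕ) (φ : P1 → P1 → K) : Prop := CF (fun _ => (1 : K)) N φ

theorem ck_iff {N : ℕ} {φ : P1 → P1 → K} : φ ∈ SZ K N ↔ CK N φ := by
  constructor
  · rintro ⟨h1, h2⟩
    refine ⟨h1, fun γ hγ x y => ?_⟩
    rw [h2 γ hγ x y, one_dir_apply, one_smul, one_smul]
  · rintro ⟨h1, h2⟩
    refine ⟨h1, fun γ hγ x y => ?_⟩
    rw [h2 γ hγ x y, one_dir_apply, one_smul, one_smul]

/-- the Hecke operator -/
abbrev TK (K : Type) [Field K] {l : ℕ} (hl : l.Prime) : Module.End K (P1 → P1 → K) :=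
  tk (1 : K) 1 K l hl.ne_zero

theorem TK_eq {l : ℕ} (hl : l.Prime) (φ : P1 → P1 → K) : TK K hl φ = Tz K hl φ := by
  rw [TK, tk_apply, one_smul, one_smul]
  rfl

theorem CK.tinv {N : ℕ} {φ : P1 → P1 → K} (h : CK N φ) : TrInv φ := CF.trInv h rfl

theorem CK.TK {N : ℕ} {φ : P1 → P1 → K} (h : CK N φ) {l : ℕ} (hl : l.Prime) (hlN : ¬ l ∣ N) :
    CK N (TK K hl φ) := CF.tk (chF_one N) h hl hlN (by simp)

theorem TK_comm {φ : P1 → P1 → K} (h : TrInv φ) {l m : ℕ} (hl : l.Prime) (hm : m.Prime) :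
    TK K hl (TK K hm φ) = TK K hm (TK K hl φ) := by
  by_cases hlm : l = m
  · subst hlm; rfl
  have hco : l.Coprime m := (Nat.coprime_primes hl hm).mpr hlm
  simp only [TK, tk_apply, one_smul, map_add]
  rw [Uop_comm hl.ne_zero hm.ne_zero, Bop_comm hl.ne_zero hm.ne_zero,
    h.uop_bop hl.ne_zero hm.ne_zero hco, h.uop_bop hm.ne_zero hl.ne_zero hco.symm]
  abel

/-- symbols with trivial periods are Eisenstein -/
theorem TK_of_hm_zero {N : ℕ} {φ : P1 → P1 → K} (h : CK N φ) (h0 : hm h = 0) {l : ℕ}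
    (hl : l.Prime) (hl1 : (N : ℤ) ∣ l - 1) : TK K hl φ = (1 + l : K) • φ := by
  refine tk_one_of_trivial hl hl1 h fun γ hγ x => ?_
  have h2 : φ ∞ (io γ • ∞) = 0 := DFunLike.congr_fun h0 (Additive.ofMul (⟨γ, hγ⟩ : Gamma0 N))
  have h3 := h.equi γ hγ ∞ x
  rw [one_smul] at h3
  rw [← h.add x ∞, ← h.add ∞ (io γ • ∞), h2, h3, zero_add, h.add, h.self]

theorem CK.sub {N : ℕ} {φ ψ : P1 → P1 → K} (h : CK N φ) (h' : CK N ψ) : CK N (φ - ψ) := by
  have : φ - ψ = φ + (-1 : K) • ψ := by rw [neg_one_smul, sub_eq_add_neg]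
  rw [this]
  exact h.add' (h'.smul _)

/-- eigensymbols are determined by their periods -/
theorem sym_unique {M : ℕ} {y y' : P1 → P1 → K} (h : CK M y) (h' : CK M y')
    (e : hm h = hm h') {l₀ : ℕ} (hl₀ : l₀.Prime) (hl₀1 : (M : ℤ) ∣ l₀ - 1) {a : K}
    (hne : a ≠ 1 + l₀) (hy : TK K hl₀ y = a • y) (hy' : TK K hl₀ y' = a • y') : y = y' := by
  have h1 : CK M (y - y') := h.sub h'
  have h2 : hm h1 = 0 := by
    have : hm h1 = hm h - hm h' := rfl
    rw [this, e, sub_self]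
  have h3 := TK_of_hm_zero h1 h2 hl₀ hl₀1
  rw [map_sub, hy, hy', ← smul_sub] at h3
  have h4 : (a - (1 + l₀ : K)) • (y - y') = 0 := by rw [sub_smul, h3, sub_self]
  exact sub_eq_zero.mp ((smul_eq_zero.mp h4).resolve_left (sub_ne_zero.mpr hne))

/-- **eigensymbols from eigenhomomorphisms** -/
theorem exists_eigensymbol {M : ℕ} [NeZero M] {S : Set ℕ} (hMS : ∀ r : ℕ, r.Prime → r ∣ M → r ∈ S)
    {v : Additive (Gamma0 M) →+ K}
    (hv : v ∈ NHA (Gamma0 M) K) {a : ℕ → K}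
    (ha : ∀ l : ℕ, l.Prime → l ∉ S → MT M K l v = a l • v) {l₀ : ℕ} (hl₀ : l₀.Prime)
    (hl₀1 : (M : ℤ) ∣ l₀ - 1) (hl₀S : l₀ ∉ S) (hne : a l₀ ≠ 1 + l₀) :
    ∃ (y : P1 → P1 → K) (h : CK M y), hm h = v ∧
      ∀ (l : ℕ) (hl : l.Prime), l ∉ S → TK K hl y = a l • y := by
  obtain ⟨φ, hφ, hφv⟩ := exists_symbol (K := K) hv
  set c : K := (a l₀ - (1 + l₀))⁻¹ with hc
  have hM : ∀ l : ℕ, l.Prime → l ∉ S → ¬ l ∣ M := fun l hl hlS h => hlS (hMS l hl h)
  have hl₀M := hM l₀ hl₀ hl₀S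
  have hc0 : a l₀ - (1 + l₀) ≠ 0 := sub_ne_zero.mpr hne
  have hT : CK M (TK K hl₀ φ) := CK.TK hφ hl₀ hl₀M
  have hy : CK M (c • (TK K hl₀ φ - (1 + l₀ : K) • φ)) := (CK.sub hT (hφ.smul _)).smul c
  refine ⟨c • (TK K hl₀ φ - (1 + l₀ : K) • φ), hy, ?_, ?_⟩
  · have h1 : hm hT = a l₀ • v := by rw [hm_tk hl₀ hl₀M hφ hT, hφv, ha l₀ hl₀ hl₀S]
    have h2 : hm hy = c • (hm hT - (1 + l₀ : K) • hm hφ) := rfl
    rw [h2, h1, hφv, ← sub_smul, smul_smul, hc, inv_mul_cancel₀ hc0, one_smul]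
  · intro l hl hlS
    have hlM := hM l hl hlS
    have hTl : CK M (TK K hl φ) := CK.TK hφ hl hlM
    have hψ : CK M (TK K hl φ - a l • φ) := CK.sub hTl (hφ.smul _)
    have h0 : hm hψ = 0 := by
      have h1 : hm hTl = a l • v := by rw [hm_tk hl hlM hφ hTl, hφv, ha l hl hlS]
      have h2 : hm hψ = hm hTl - a l • hm hφ := rfl
      rw [h2, h1, hφv, sub_self]
    have h3 := TK_of_hm_zero hψ h0 hl₀ hl₀1
    rw [map_sub, map_smul] at h3
    rw [map_smul, map_sub, map_smul, TK_comm (CK.tinv hφ) hl hl₀]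
    rw [smul_comm (a l) c]
    congr 1
    rw [smul_sub, smul_comm (a l) (1 + l₀ : K)]
    rw [smul_sub] at h3
    linear_combination (exp := 1) h3

end

end Fermat.Agent.RT6
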