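import Fermat.Agent.RT6.L3

/-!
# (A3), links: operators on symbols given by Hecke families
-/

set_option autoImplicit false
set_option maxHeartbeats 400000

noncomputable section

namespace Fermat.Agent.RT6

open Matrix CongruenceSubgroup Fermat.Agent.AnJac Fermat.Agent.RT
open Fermat.Agent.TWCoh hiding GQ
open scoped MatrixGroups OnePoint

section

variable {K : Type} [Field K] {M : ℕ} {κ : Type*} [Fintype κ]

/-- the operator on symbols attached to a family of rational matrices -/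
def opB (B : κ → GL (Fin 2) ℚ) (y : P1 → P1 → K) : P1 → P1 → K :=
  fun x z => ∑ i, y (B i • x) (B i • z)

variable {F : HF (Gamma0 M) κ} {B : κ → GL (Fin 2) ℚ} (hB : ∀ i, toR (B i) = F.A i)

include hB

theorem hf_key (γ : Gamma0 M) (i : κ) : B i * io (γ : SL(2, ℤ)) =
    io ((F.g γ i : Gamma0 M) : SL(2, ℤ)) * B (F.s γ i) := by
  apply toR_injective
  rw [map_mul, map_mul, hB, hB, toR_io, toR_io]
  exact F.spec γ i

theorem CK.opB {y : P1 → P1 → K} (h : CK M y) : CK M (opB B y) := by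
  constructor
  · intro x z w
    show ∑ i, y (B i • x) (B i • z) + ∑ i, y (B i • z) (B i • w) = ∑ i, y (B i • x) (B i • w)
    rw [← Finset.sum_add_distrib]
    exact Finset.sum_congr rfl fun i _ => h.add _ _ _
  · intro γ hγ x z
    rw [one_smul]
    show ∑ i, y (B i • io γ • x) (B i • io γ • z) = ∑ i, y (B i • x) (B i • z)
    rw [← Equiv.sum_comp (F.sE ⟨γ, hγ⟩) (fun i => y (B i • x) (B i • z))]
    refine Finset.sum_congr rfl fun i _ => ?_
    have h1 := hf_key hB ⟨γ, hγ⟩ i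
    rw [← mul_smul, ← mul_smul]
    have h2 : B i * io γ = io ((F.g ⟨γ, hγ⟩ i : Gamma0 M) : SL(2, ℤ)) * B (F.s ⟨γ, hγ⟩ i) := h1
    rw [h2, mul_smul, mul_smul, h.equi _ (F.g ⟨γ, hγ⟩ i).2, one_smul]
    rfl

theorem hm_opB {y : P1 → P1 → K} (h : CK M y) (h' : CK M (RT6.opB B y)) :
    hm h' = F.T (hm h) := by
  refine AddMonoidHom.ext fun γ' => ?_
  change hm h' (Additive.ofMul (Additive.toMul γ')) = F.T (hm h) (Additive.ofMul
    (Additive.toMul γ'))
  generalize Additive.toMul γ' = γ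
  rw [HF.T_apply, hm_apply]
  have h1 : ∀ i : κ, y (B i • ∞) (B i • io (γ : SL(2, ℤ)) • ∞) =
      hm h (Additive.ofMul (F.g γ i)) + (y ∞ (B (F.s γ i) • ∞) - y ∞ (B i • ∞)) := by
    intro i
    rw [← mul_smul, hf_key hB, mul_smul, ← h.add _ ∞,
      ← h.add ∞ (io ((F.g γ i : Gamma0 M) : SL(2, ℤ)) • ∞),
      h.equi _ (F.g γ i).2, one_smul, hm_apply, h.swap (B i • ∞) ∞]
    abel
  show ∑ i, y (B i • ∞) (B i • io (γ : SL(2, ℤ)) • ∞) = _
  rw [Finset.sum_congr rfl fun i _ => h1 i, Finset.sum_add_distrib, Finset.sum_sub_distrib]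
  have h2 : ∑ i : κ, y ∞ (B (F.s γ i) • ∞) = ∑ i : κ, y ∞ (B i • ∞) :=
    Equiv.sum_comp (F.sE γ) (fun i => y ∞ (B i • ∞))
  rw [h2, sub_self, add_zero]

end

section Twist

variable {K : Type} [Field K]

/-- representatives which are `≡ 1` modulo `m` if `l ≡ 1` modulo `m` -/
def rq (l : ℕ) (hl : l ≠ 0) : Ix l → GL (Fin 2) ℚ
  | none => Di l hl
  | some j => Up l hl (-((l : ℤ) - 1) * ((j : ℕ) : ℤ))

/-- the translation -/
def tq (l : ℕ) : Ix l → SL(2, ℤ)
  | none => 1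
  | some j => ModularGroup.T ^ (-(((j : ℕ) : ℤ)))

theorem rq_eq (l : ℕ) (hl : l ≠ 0) (i : Ix l) : rq l hl i = io (tq l i) * rp l hl i := by
  rcases i with _ | j
  · show Di l hl = io 1 * Di l hl
    rw [map_one, one_mul]
  · show Up l hl (-((l : ℤ) - 1) * ((j : ℕ) : ℤ)) = io (ModularGroup.T ^ (-(((j : ℕ) : ℤ)))) *
      Up l hl ((j : ℕ) : ℤ)
    rw [io_T_zpow, ← Up_add_mul]
    congr 1
    ring

/-- the upper right entry of `rq` -/
def qb (l : ℕ) : Ix l → ℤ
  | none => 0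
  | some j => -((l : ℤ) - 1) * ((j : ℕ) : ℤ)

theorem ent_rq (l : ℕ) (hl : l ≠ 0) (i : Ix l) :
    Ent (rq l hl i) (re l i) (qb l i) 0 (rd l i) := by
  rcases i with _ | j
  · refine (ent_Di l hl).congr ?_ ?_ ?_ ?_ <;> simp [re, qb, rd]
  · refine (ent_Up l hl _).congr ?_ ?_ ?_ ?_ <;> simp [re, qb, rd]

theorem exists_perm_q {l : ℕ} (hl : l.Prime) {m : ℕ} (hlm : (m : ℤ) ∣ l - 1) (γ : SL(2, ℤ)) :
    ∃ (σ : Equiv.Perm (Ix l)) (δ : Ix l → SL(2, ℤ)), (∀ i, δ i ∈ CongruenceSubgroup.Gamma m) ∧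
      ∀ i, rq l hl.ne_zero i * io γ = io (δ i) * io γ * rq l hl.ne_zero (σ i) := by
  have h1 : ¬ l ∣ 1 := fun h => hl.one_lt.ne' (Nat.dvd_one.mp h)
  have hγ : γ ∈ Gamma0 1 := mem_Gamma0.2 (by simp)
  obtain ⟨σ, δ, -, h2, -⟩ := exists_perm (N := 1) hl h1 hγ
  have h3 : ∀ i, rq l hl.ne_zero i * io γ =
      io (tq l i * δ i * (tq l (σ i))⁻¹) * rq l hl.ne_zero (σ i) := by
    intro i
    rw [rq_eq, rq_eq, mul_assoc, h2 i, map_mul, map_mul, map_inv]
    group
  refine ⟨σ, fun i => tq l i * δ i * (tq l (σ i))⁻¹ * γ⁻¹, fun i => ?_, fun i => ?_⟩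
  · have h4 := h3 i
    set ε := tq l i * δ i * (tq l (σ i))⁻¹ with hε
    -- compare entries
    have e1 := (ent_rq l hl.ne_zero i).mul (ent_io γ)
    have e2 := (ent_io ε).mul (ent_rq l hl.ne_zero (σ i))
    rw [h4] at e1
    obtain ⟨f1, f2, f3, f4⟩ := e1.inj e2
    have g1 : re l i * γ 0 0 + qb l i * γ 1 0 = ε 0 0 * re l (σ i) := by
      have : ((re l i * γ 0 0 + qb l i * γ 1 0 : ℤ) : ℚ) = ((ε 0 0 * re l (σ i) : ℤ) : ℚ) := by
        push_cast; linear_combination f1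
      exact_mod_cast this
    have g2 : re l i * γ 0 1 + qb l i * γ 1 1 = ε 0 0 * qb l (σ i) + ε 0 1 * rd l (σ i) := by
      have : ((re l i * γ 0 1 + qb l i * γ 1 1 : ℤ) : ℚ) =
          ((ε 0 0 * qb l (σ i) + ε 0 1 * rd l (σ i) : ℤ) : ℚ) := by
        push_cast; linear_combination f2
      exact_mod_cast this
    have g3 : rd l i * γ 1 0 = ε 1 0 * re l (σ i) := by
      have : ((rd l i * γ 1 0 : ℤ) : ℚ) = ((ε 1 0 * re l (σ i) : ℤ) : ℚ) := by
        push_cast; linear_combination f3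
      exact_mod_cast this
    have g4 : rd l i * γ 1 1 = ε 1 0 * qb l (σ i) + ε 1 1 * rd l (σ i) := by
      have : ((rd l i * γ 1 1 : ℤ) : ℚ) =
          ((ε 1 0 * qb l (σ i) + ε 1 1 * rd l (σ i) : ℤ) : ℚ) := by
        push_cast; linear_combination f4
      exact_mod_cast this
    have hl1 : ((l : ℤ) : ZMod m) = 1 := by
      have := (ZMod.intCast_zmod_eq_zero_iff_dvd (l - 1 : ℤ) m).2 hlm
      push_cast at this
      push_cast
      linear_combination this
    have r1 : ∀ j : Ix l, ((re l j : ℤ) : ZMod m) = 1 := by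
      rintro (_ | j)
      · exact hl1
      · simp [re]
    have r2 : ∀ j : Ix l, ((rd l j : ℤ) : ZMod m) = 1 := by
      rintro (_ | j)
      · simp [rd]
      · exact hl1
    have r3 : ∀ j : Ix l, ((qb l j : ℤ) : ZMod m) = 0 := by
      rintro (_ | j)
      · simp [qb]
      · have : ((qb l (some j) : ℤ) : ZMod m) = -(((l : ℤ) : ZMod m) - 1) * ((j : ℕ) : ZMod m) := by
          simp [qb]
        rw [this, hl1, sub_self, neg_zero, zero_mul]
    have k1 : ((γ 0 0 : ℤ) : ZMod m) = ε 0 0 := by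
      have := congrArg (Int.cast : ℤ → ZMod m) g1
      push_cast [r1, r2, r3] at this
      simpa using this
    have k2 : ((γ 0 1 : ℤ) : ZMod m) = ε 0 1 := by
      have := congrArg (Int.cast : ℤ → ZMod m) g2
      push_cast [r1, r2, r3] at this
      simpa using this
    have k3 : ((γ 1 0 : ℤ) : ZMod m) = ε 1 0 := by
      have := congrArg (Int.cast : ℤ → ZMod m) g3
      push_cast [r1, r2, r3] at this
      simpa using this
    have k4 : ((γ 1 1 : ℤ) : ZMod m) = ε 1 1 := by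
      have := congrArg (Int.cast : ℤ → ZMod m) g4
      push_cast [r1, r2, r3] at this
      simpa using this
    have k5 : Matrix.SpecialLinearGroup.map (Int.castRingHom (ZMod m)) γ =
        Matrix.SpecialLinearGroup.map (Int.castRingHom (ZMod m)) ε := by
      ext i j
      fin_cases i <;> fin_cases j
      · exact k1
      · exact k2
      · exact k3
      · exact k4
    rw [CongruenceSubgroup.Gamma_mem', map_mul, map_inv, ← k5, mul_inv_cancel]
  · rw [h3 i, ← map_mul, inv_mul_cancel_right]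

/-- the Hecke operator commutes with `SL₂(ℤ)` -/
theorem sum_rq_comm {l : ℕ} (hl : l.Prime) {m : ℕ} (hlm : (m : ℤ) ∣ l - 1) {w : P1 → P1 → K}
    (hw : ∀ δ ∈ CongruenceSubgroup.Gamma m, ∀ x z, w (io δ • x) (io δ • z) = w x z)
    (γ : SL(2, ℤ)) (x z : P1) :
    ∑ i : Ix l, w (rq l hl.ne_zero i • io γ • x) (rq l hl.ne_zero i • io γ • z) =
      ∑ i : Ix l, w (io γ • rq l hl.ne_zero i • x) (io γ • rq l hl.ne_zero i • z) := by
  obtain ⟨σ, δ, hδ, h⟩ := exists_perm_q hl hlm γ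
  rw [← Equiv.sum_comp σ (fun i => w (io γ • rq l hl.ne_zero i • x)
    (io γ • rq l hl.ne_zero i • z))]
  refine Finset.sum_congr rfl fun i _ => ?_
  rw [← mul_smul, ← mul_smul, h i]
  simp only [mul_smul]
  exact hw _ (hδ i) _ _

end Twist

end Fermat.Agent.RT6
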