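import Fermat.Agent.RT6.L6
import Fermat.Agent.RT6.L7
import Fermat.Agent.RT6.CC

/-!
# (A3), links: from vectors to symbols
-/

set_option autoImplicit false
set_option linter.style.haveILetI false
set_option maxHeartbeats 1000000
set_option synthInstance.maxHeartbeats 400000

noncomputable section

namespace Fermat.Agent.RT6

open ModularCurve Fermat.Agent.ModFun Fermat.Agent.AnJac AlgebraicCurve
open Fermat.Agent.HeckeQ Matrix Fermat.Agent.Curves Module Fermat.Agent.Carayol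
open Fermat.Agent.CarayolX CongruenceSubgroup Fermat.Agent.MazurP Fermat.Agent.S43Glue
open Fermat.Agent.GalRep CuspForm

local notation "Qb" => AlgebraicClosure ℚ
local notation "GQ" => Qb ≃ₐ[ℚ] Qb

section Hom

variable {M : ℕ} [NeZero M] {p : ℕ} [hp : Fact p.Prime]

/-- reduction of homomorphisms -/
def piH (p : ℕ) (φ : Additive (Gamma0 M) →+ ℤ) : Additive (Gamma0 M) →+ ZMod p :=
  (Int.castAddHom (ZMod p)).comp φ

theorem piH_apply (φ : Additive (Gamma0 M) →+ ℤ) (x : Additive (Gamma0 M)) :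
    piH p φ x = ((φ x : ℤ) : ZMod p) := rfl

theorem piH_congr {φ ψ : Lat M} (h : KSys.red (bL M) p φ = KSys.red (bL M) p ψ) :
    piH p (φ : Additive (Gamma0 M) →+ ℤ) = piH p (ψ : Additive (Gamma0 M) →+ ℤ) := by
  obtain ⟨χ, hχ⟩ := (KSys.red_eq_iff (bL M)).mp h
  refine AddMonoidHom.ext fun x => ?_
  rw [piH_apply, piH_apply]
  have h1 : (φ : Additive (Gamma0 M) →+ ℤ) x - (ψ : Additive (Gamma0 M) →+ ℤ) x =
      p • (χ : Additive (Gamma0 M) →+ ℤ) x :=
    congrArg (fun f : Lat M => (f : Additive (Gamma0 M) →+ ℤ) x) hχ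
  have h2 := congrArg (Int.cast : ℤ → ZMod p) h1
  rw [Int.cast_sub, nsmul_eq_mul] at h2
  push_cast at h2
  rw [CharP.cast_eq_zero, zero_mul, sub_eq_zero] at h2
  exact h2

theorem piH_smul {φ ψ : Lat M} {c : ZMod p}
    (h : KSys.red (bL M) p ψ = c • KSys.red (bL M) p φ) :
    piH p (ψ : Additive (Gamma0 M) →+ ℤ) = c • piH p (φ : Additive (Gamma0 M) →+ ℤ) := by
  have hc : ((c.val : ℕ) : ZMod p) = c := ZMod.natCast_zmod_val c
  have h1 : KSys.red (bL M) p ψ = KSys.red (bL M) p (c.val • φ) := by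
    rw [h, map_nsmul]
    ext i
    rw [Pi.smul_apply, Pi.smul_apply, nsmul_eq_mul, hc, smul_eq_mul]
  rw [piH_congr h1]
  refine AddMonoidHom.ext fun x => ?_
  rw [AddMonoidHom.smul_apply, piH_apply, piH_apply]
  show (((c.val • (φ : Additive (Gamma0 M) →+ ℤ)) x : ℤ) : ZMod p) = _
  rw [AddMonoidHom.nsmul_apply, nsmul_eq_mul]
  push_cast
  rw [hc, smul_eq_mul]

theorem piH_ne_zero {φ : Lat M} (h : KSys.red (bL M) p φ ≠ 0) :
    piH p (φ : Additive (Gamma0 M) →+ ℤ) ≠ 0 := by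
  intro h0
  apply h
  have hp0 : (p : ℤ) ≠ 0 := by exact_mod_cast hp.out.ne_zero
  have h1 : ∀ x, ∃ c : ℤ, (φ : Additive (Gamma0 M) →+ ℤ) x = p * c := by
    intro x
    have := DFunLike.congr_fun h0 x
    rw [piH_apply] at this
    exact (ZMod.intCast_zmod_eq_zero_iff_dvd _ _).mp this
  choose c hc using h1
  have hinj : Function.Injective fun m : ℤ => (p : ℤ) * m := mul_right_injective₀ hp0
  let χ : Additive (Gamma0 M) →+ ℤ :=
    { toFun := c
      map_zero' := hinj (by simp only [← hc, map_zero, mul_zero])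
      map_add' := fun x y => hinj (by simp only [mul_add, ← hc, map_add]) }
  rw [KSys.red_eq_zero]
  refine ⟨⟨χ, fun γ hγ => hinj ?_⟩, ?_⟩
  · change (p : ℤ) * c (Additive.ofMul γ) = (p : ℤ) * 0
    rw [← hc, φ.2 γ hγ, mul_zero]
  · apply Subtype.ext
    refine AddMonoidHom.ext fun x => ?_
    change (φ : Additive (Gamma0 M) →+ ℤ) x = p • c x
    rw [hc, nsmul_eq_mul]

theorem piH_mem (φ : Lat M) : piH p (φ : Additive (Gamma0 M) →+ ℤ) ∈ NHA (Gamma0 M) (ZMod p) := by
  intro γ hγ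
  rw [piH_apply, φ.2 γ hγ, Int.cast_zero]

theorem red_act {t : Lat M →+ Lat M} {φ : Lat M} {c : ZMod p}
    (h : rmod p (KSys.tm (bL M) t) *ᵥ KSys.red (bL M) p φ = c • KSys.red (bL M) p φ) :
    piH p (t φ : Additive (Gamma0 M) →+ ℤ) = c • piH p (φ : Additive (Gamma0 M) →+ ℤ) := by
  apply piH_smul
  rw [← h]
  exact (KSys.tm_mulVec (bL M) t p φ).symm

/-- complex conjugation on classes -/
theorem M_conj (φ : Lat M) : (KQ M).M (bL M) (pne p) complexConjugation *ᵥ
    KSys.red (bL M) p φ = KSys.red (bL M) p (cL φ) := by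
  obtain ⟨u, hu⟩ := (KQ M).ex (pne p) φ
  refine (KQ M).M_mulVec (bL M) (pne p) complexConjugation hu ?_
  refine ClX_conj AnJac.ιQ hu ?_
  have h1 : ((KQ M).act complexConjugation u : LaurentSeries Qb) =
      coeffMap ((fQ complexConjugation : RingAut Qb) : Qb →+* Qb) (u : LaurentSeries Qb) :=
    coe_actG fQ complexConjugation u
  rw [h1]
  ext m
  simp only [coeffMap_coeff]
  exact complexEmbedding_complexConjugation _

end Hom

end Fermat.Agent.RT6
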