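import Fermat.Agent.RT6.L8

/-!
# (A3), links: the operators `R_s` on symbols in terms of representatives
-/

set_option autoImplicit false
set_option linter.style.haveILetI false
set_option maxHeartbeats 1000000
set_option synthInstance.maxHeartbeats 400000

noncomputable section

namespace Fermat.Agent.RT6

open Matrix CongruenceSubgroup Fermat.Agent.AnJac Fermat.Agent.RT
open Fermat.Agent.TWCoh hiding GQ
open scoped MatrixGroups OnePoint

section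

variable {q N : ℕ} [hq : Fact q.Prime] [NeZero q]

theorem red_entry (γ : SL(2, ℤ)) (i j : Fin 2) :
    ((red q γ : GL (Fin 2) (ZMod q)) : Matrix (Fin 2) (Fin 2) (ZMod q)) i j =
      ((γ i j : ℤ) : ZMod q) := rfl

theorem red_zero {γ : SL(2, ℤ)} {c : ZMod q}
    (h : red q γ • ((0 : ZMod q) : Pq q) = ((c : ZMod q) : Pq q)) :
    ((γ 0 1 : ℤ) : ZMod q) = c * ((γ 1 1 : ℤ) : ZMod q) := by
  rw [OnePoint.smul_some_eq_ite] at h
  split_ifs at h with h1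
  · exact absurd h (OnePoint.infty_ne_coe c)
  · have h2 := OnePoint.coe_injective h
    rw [red_entry, red_entry, red_entry, red_entry, mul_zero, mul_zero, zero_add, zero_add] at h2
    rw [red_entry, red_entry, mul_zero, zero_add] at h1
    rw [← h2, div_mul_cancel₀ _ h1]

theorem red_infty {γ : SL(2, ℤ)} {d : ZMod q}
    (h : red q γ • (∞ : Pq q) = ((d : ZMod q) : Pq q)) :
    ((γ 0 0 : ℤ) : ZMod q) = d * ((γ 1 0 : ℤ) : ZMod q) := by
  rw [OnePoint.smul_infty_eq_ite] at h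
  split_ifs at h with h1
  · exact absurd h (OnePoint.infty_ne_coe d)
  · have h2 := OnePoint.coe_injective h
    rw [red_entry, red_entry] at h2
    rw [red_entry] at h1
    rw [← h2, div_mul_cancel₀ _ h1]

variable {K : Type} [Field K]

/-- independence of the representative -/
theorem y_rep (hN : ¬ q ∣ N) {y : P1 → P1 → K} (hy : CK (q ^ 2 * N) y) {s : ZMod q} (hs : s ≠ 1)
    (c : (ZMod q)ˣ) {γ : SL(2, ℤ)} (hγ : γ ∈ Gamma0 N)
    (h0 : red q γ • ((0 : ZMod q) : Pq q) = (((c : ZMod q) : ZMod q) : Pq q))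
    (hi : red q γ • (∞ : Pq q) = ((s * (c : ZMod q) : ZMod q) : Pq q)) (x z : P1) :
    y (Dq q hq.out.ne_zero • (io γ)⁻¹ • x) (Dq q hq.out.ne_zero • (io γ)⁻¹ • z) =
      y (Dq q hq.out.ne_zero • io (gS q N s c) • x) (Dq q hq.out.ne_zero • io (gS q N s c) • z) := by
  have e1 := red_zero h0
  have e2 := red_infty hi
  have hm := mS_cast q N hN hs c
  set δ := gS q N s c * γ with hδ
  have d01 : δ 0 1 = γ 0 1 - cv q c * γ 1 1 := by
    rw [hδ, RT6.mul_ent, gS_00, gS_01]; ring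
  have d10 : δ 1 0 = mS q N s c * γ 0 0 + (1 - mS q N s c * cv q c) * γ 1 0 := by
    rw [hδ, RT6.mul_ent, gS_10, gS_11]
  have h1 : (q : ℤ) ∣ δ 0 1 := by
    rw [← ZMod.intCast_zmod_eq_zero_iff_dvd, d01]
    push_cast
    rw [cv_cast, e1, sub_self]
  have hγ' := mem_Gamma0.1 hγ
  have h2 : ((q ^ 2 * N : ℕ) : ℤ) ∣ q * δ 1 0 := by
    have h3 : (q : ℤ) ∣ δ 1 0 := by
      rw [← ZMod.intCast_zmod_eq_zero_iff_dvd, d10]
      push_cast
      rw [cv_cast, e2]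
      linear_combination (-((γ 1 0 : ℤ) : ZMod q)) * hm
    have h4 : (N : ℤ) ∣ δ 1 0 := by
      rw [d10]
      exact dvd_add ((dvd_mS q N s c).mul_right _) (hγ'.mul_left _)
    have hcop : IsCoprime (q : ℤ) (N : ℤ) :=
      Nat.isCoprime_iff_coprime.2 ((Nat.Prime.coprime_iff_not_dvd hq.out).2 hN)
    obtain ⟨k, hk⟩ := hcop.mul_dvd h3 h4
    refine ⟨k, ?_⟩
    rw [hk]
    push_cast
    ring
  obtain ⟨ε, hε, e⟩ := exists_conj_Dq hq.out.ne_zero (Dvd.intro N rfl) h1 h2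
  have h5 : ∀ w : P1, Dq q hq.out.ne_zero • io (gS q N s c) • w =
      io ε • Dq q hq.out.ne_zero • (io γ)⁻¹ • w := by
    intro w
    rw [← mul_smul (io ε), ← e, mul_smul, ← mul_smul (io δ), hδ, map_mul, mul_inv_cancel_right]
  rw [h5, h5, hy.equi ε hε, one_smul]

/-- the rational matrices of the family `R_s` -/
def BS (q N : ℕ) [NeZero q] (s : ZMod q) (c : (ZMod q)ˣ) : GL (Fin 2) ℚ :=
  mk (q * (gS q N s c 0 0 : ℤ)) (gS q N s c 0 1 : ℤ) (q ^ 2 * (gS q N s c 1 0 : ℤ))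
    (q * (gS q N s c 1 1 : ℤ)) (by
      have h1 : (q : ℚ) ≠ 0 := by exact_mod_cast NeZero.ne q
      have h2 := det_SLQ (gS q N s c)
      have h3 : (q : ℚ) * (gS q N s c 0 0 : ℤ) * (q * (gS q N s c 1 1 : ℤ)) -
        (gS q N s c 0 1 : ℤ) * (q ^ 2 * (gS q N s c 1 0 : ℤ)) = q ^ 2 := by
        linear_combination (q : ℚ) ^ 2 * h2
      rw [h3]
      positivity)

theorem ent_BS (s : ZMod q) (c : (ZMod q)ˣ) : Ent (BS q N s c)
    (q * (gS q N s c 0 0 : ℤ)) (gS q N s c 0 1 : ℤ) (q ^ 2 * (gS q N s c 1 0 : ℤ))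
    (q * (gS q N s c 1 1 : ℤ)) := ent_mk _ _ _ _ _

theorem toR_BS (hN : ¬ q ∣ N) {s : ZMod q} (hs : s ≠ 1) (c : (ZMod q)ˣ) :
    toR (BS q N s c) = (hfS q N hN s hs).A c := by
  apply Units.ext
  show ((BS q N s c : GL (Fin 2) ℚ) : Matrix (Fin 2) (Fin 2) ℚ).map (algebraMap ℚ ℝ) =
    (MD q (gS q N s c)).map (Int.cast : ℤ → ℝ)
  have h : ((BS q N s c : GL (Fin 2) ℚ) : Matrix (Fin 2) (Fin 2) ℚ) = _ := ent_BS s c
  rw [h]
  ext i j
  fin_cases i <;> fin_cases j <;> simp [MD]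

theorem BS_smul (s : ZMod q) (c : (ZMod q)ˣ) (x : P1) : BS q N s c • x =
    Dq q hq.out.ne_zero • (io (gS q N s c)⁻¹)⁻¹ • (Dq q hq.out.ne_zero)⁻¹ • x := by
  have hq0 : q ≠ 0 := hq.out.ne_zero
  have hq1 : (q : ℚ) * q - 0 * 0 ≠ 0 := by
    have : (q : ℚ) ≠ 0 := by exact_mod_cast hq0
    simp [this]
  have e : BS q N s c * Dq q hq0 = mk q 0 0 q hq1 * (Dq q hq0 * io (gS q N s c)) := by
    refine ((ent_BS s c).mul (ent_Dq q hq0)).ext (((ent_mk (q : ℚ) 0 0 q hq1).mul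
      ((ent_Dq q hq0).mul (ent_io _))).congr ?_ ?_ ?_ ?_) <;> ring
  obtain ⟨w, rfl⟩ : ∃ w, Dq q hq0 • w = x := ⟨(Dq q hq0)⁻¹ • x, smul_inv_smul _ _⟩
  rw [map_inv, inv_inv, inv_smul_smul, ← mul_smul, e, mul_smul,
    TWCoh.scalar_smul (ent_mk (q : ℚ) 0 0 q hq1), mul_smul]

theorem sum_units {A : Type*} [AddCommMonoid A] (f : ZMod q → A) :
    ∑ c ∈ Finset.univ.erase (0 : ZMod q), f c = ∑ c : (ZMod q)ˣ, f (c : ZMod q) := by
  refine (Finset.sum_bij (fun (c : (ZMod q)ˣ) _ => (c : ZMod q)) (fun c _ => ?_)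
    (fun c _ d _ h => Units.ext h) (fun c hc => ?_) (fun c _ => rfl)).symm
  · exact Finset.mem_erase.2 ⟨c.ne_zero, Finset.mem_univ _⟩
  · exact ⟨Units.mk0 c (Finset.mem_erase.1 hc).1, Finset.mem_univ _, rfl⟩

theorem sum_rep (hN : ¬ q ∣ N) {y : P1 → P1 → K} (hy : CK (q ^ 2 * N) y) {s : ZMod q}
    (hs : s ≠ 1) {γ : ZMod q → SL(2, ℤ)}
    (hγ : ∀ c ≠ 0, γ c ∈ Gamma0 N ∧ red q (γ c) • ((0 : ZMod q) : Pq q) = ((c : ZMod q) : Pq q) ∧
      red q (γ c) • (∞ : Pq q) = ((s * c : ZMod q) : Pq q)) (x z : P1) :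
    ∑ c ∈ Finset.univ.erase (0 : ZMod q),
        y (Dq q hq.out.ne_zero • (io (γ c))⁻¹ • (Dq q hq.out.ne_zero)⁻¹ • x)
          (Dq q hq.out.ne_zero • (io (γ c))⁻¹ • (Dq q hq.out.ne_zero)⁻¹ • z) =
      opB (BS q N s) y x z := by
  rw [sum_units (fun c => y (Dq q hq.out.ne_zero • (io (γ c))⁻¹ • (Dq q hq.out.ne_zero)⁻¹ • x)
          (Dq q hq.out.ne_zero • (io (γ c))⁻¹ • (Dq q hq.out.ne_zero)⁻¹ • z))]
  refine Finset.sum_congr rfl fun c _ => ?_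
  obtain ⟨h1, h2, h3⟩ := hγ (c : ZMod q) c.ne_zero
  rw [y_rep hN hy hs c h1 h2 h3, BS_smul, BS_smul, map_inv, inv_inv]

end

end Fermat.Agent.RT6
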