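import Fermat.Agent.RT6.Ev3
import Fermat.Agent.RT6.GeoSt

/-!
# The operators `R_s`: `Op`
-/

set_option autoImplicit false
set_option linter.unusedSectionVars false
set_option linter.style.haveILetI false

noncomputable section

namespace Fermat.Agent.RT6

open ModularCurve Fermat.Agent.ModFun Fermat.Agent.AnJac AlgebraicCurve
open Fermat.Agent.HeckeQ Matrix Fermat.Agent.Curves Module Fermat.Agent.Carayol
open Fermat.Agent.CarayolX CongruenceSubgroup

local notation "Qb" => AlgebraicClosure ℚ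

theorem op_of_RC {q N : ℕ} [hq : Fact q.Prime] [NeZero q] [NeZero N] [NeZero (q ^ 2 * N)]
    (hN : ¬ q ∣ N) (s : ZMod q) (hs : s ≠ 1)
    (H : FF Qb (q ^ 2 * N) →* FF Qb (q ^ 2 * N)) (hne : ∀ u, u ≠ 0 → H u ≠ 0)
    (hRC : ∀ (ι : Qb →+* ℂ) (u : FF Qb (q ^ 2 * N)),
      coeffMap ι (H u : LaurentSeries Qb) = RC hN s (bc ι (q ^ 2 * N) u)) :
    Op (q ^ 2 * N) (q ^ 2 * N) H where
  mul := map_mul H
  ne_zero := hne
  gal σ u := by
    let ι : Qb →+* ℂ := (IsAlgClosed.lift (R := ℚ) (S := Qb) (M := ℂ)).toRingHom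
    apply Subtype.ext
    apply AnJac.coeffMap_injective ι
    rw [coe_galF, hRC ι, coeffMap_coeffMap, hRC (ι.comp (σ : Qb →+* Qb))]
    congr 1
  ord n u hu0 hu v := by
    let ι : Qb →+* ℂ := (IsAlgClosed.lift (R := ℚ) (S := Qb) (M := ℂ)).toRingHom
    have key : ∀ m : ℕ, m ≠ 0 → (∀ v : Place Qb (FF Qb (q ^ 2 * N)), (m : ℤ) ∣ v.ord u) →
        (m : ℤ) ∣ v.ord (H u) := by
      intro m hm hmu
      obtain ⟨φ, hφ⟩ := exists_ClX ι hm hu0 hmu
      have h1 : IsChar (q ^ 2 * N) m ((bc ι (q ^ 2 * N) u : FF ℂ (q ^ 2 * N)) : LaurentSeries ℂ)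
          (ech m (φ : Additive (Gamma0 (q ^ 2 * N)) →+ ℤ)) := hφ
      have h2 : (hfS q N hN s hs).Tm (ech m (φ : Additive (Gamma0 (q ^ 2 * N)) →+ ℤ)) =
          ech m ((hfS q N hN s hs).T (φ : Additive (Gamma0 (q ^ 2 * N)) →+ ℤ)) :=
        Tm_ech _ m _
      have h3 := isChar_RC hN s hs h1 (by
        rw [h2]
        exact isNH_ech ((hfS q N hN s hs).T_mem φ.2))
      rw [← hRC ι u] at h3
      exact AnJac.dvd_ord ι (hne u hu0) h3 v
    by_cases hn : n = 0
    · subst hn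
      have h1 : ∀ m : ℕ, m ≠ 0 → (m : ℤ) ∣ v.ord (H u) := fun m hm =>
        key m hm fun v => by
          have h2 := hu v
          rw [Nat.cast_zero, zero_dvd_iff] at h2
          rw [h2]
          exact dvd_zero _
      rw [Nat.cast_zero, zero_dvd_iff]
      have h2 := h1 ((v.ord (H u)).natAbs + 1) (Nat.succ_ne_zero _)
      refine Int.eq_zero_of_abs_lt_dvd h2 ?_
      rw [Int.abs_eq_natAbs]
      push_cast
      omega
    · exact key n hn hu

end Fermat.Agent.RT6
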