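import Fermat.Agent.RT6.RS

/-!
# (R2) compatibility of `R_s` with the Kummer system
-/

set_option autoImplicit false
set_option linter.unusedSectionVars false
set_option linter.style.haveILetI false

noncomputable section

namespace Fermat.Agent.RT6

open ModularCurve Fermat.Agent.ModFun Fermat.Agent.AnJac AlgebraicCurve
open Fermat.Agent.HeckeQ Matrix Fermat.Agent.Curves Module Fermat.Agent.Carayol
open Fermat.Agent.CarayolX CongruenceSubgroup
open Fermat.Agent.GoodRed

local notation "Qb" => AlgebraicClosure ℚ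

theorem r2c : R2St := by
  intro q hq _ s hs N _ _ hN n _ φ u hu
  change IsChar (q ^ 2 * N) n (coeffMap AnJac.ιQ
      (RQ q N hN s hs u : FF Qb (q ^ 2 * N)))
    (ech n ((hfS q N hN s hs).T (φ : Additive (Gamma0 (q ^ 2 * N)) →+ ℤ)))
  rw [← Tm_ech, RQ_RC]
  refine isChar_RC hN s hs hu ?_
  rw [Tm_ech]
  exact isNH_ech (LS q N hN s hs φ).2

end Fermat.Agent.RT6
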