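import Fermat.Agent.CarayolY.Main
import Fermat.Agent.CarayolX.NormOp

/-!
# Operators over the inertia field
-/

set_option autoImplicit false
set_option linter.unusedSectionVars false
set_option linter.style.haveILetI false

noncomputable section

namespace Fermat.Agent.RT6.R4

open ModularCurve Fermat.Agent.ModFun Fermat.Agent.AnJac AlgebraicCurve
open Fermat.Agent.HeckeQ Matrix Fermat.Agent.Curves Module Fermat.Agent.Carayol
open Fermat.Agent.CarayolX CongruenceSubgroup

local notation "Qb" => AlgebraicClosure ℚ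
local notation "GQ" => Qb ≃ₐ[ℚ] Qb

/-- functions over the inertia field are fixed by inertia -/
theorem galF_bc {L : ℕ} [NeZero L] {A : ValuationSubring Qb} (u : FF (K0 A) L) (σ : GQ)
    (hσ : σ ∈ A.inertiaSubgroupIn ℚ) :
    galF L (σ : Qb ≃+* Qb) (bc (algebraMap (K0 A) Qb) L u) = bc (algebraMap (K0 A) Qb) L u := by
  apply Subtype.ext
  rw [coe_galF, coe_bc, coeffMap_coeffMap]
  congr 2
  ext c
  exact (mem_K0 A).mp c.2 σ hσ

/-- **(R4)** descent of an operator to the inertia field -/
theorem exists_R {L : ℕ} [NeZero L] (A : ValuationSubring Qb) (H : FF Qb L →* FF Qb L)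
    (hH : Op L L H) : ∃ R : FF (K0 A) L →* FF (K0 A) L, (∀ u, u ≠ 0 → R u ≠ 0) ∧
      ∀ u, bc (algebraMap (K0 A) Qb) L (R u) = H (bc (algebraMap (K0 A) Qb) L u) := by
  have h1 : ∀ u : FF (K0 A) L, ∃ y, bc (algebraMap (K0 A) Qb) L y =
      H (bc (algebraMap (K0 A) Qb) L u) := by
    intro u
    refine CarayolY.exists_descent A _ fun σ hσ => ?_
    rw [← hH.gal (σ : Qb ≃+* Qb), galF_bc u σ hσ]
  choose R hR using h1
  have hinj : Function.Injective (bc (algebraMap (K0 A) Qb) L) := (bc (algebraMap (K0 A) Qb) L).injective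
  refine ⟨⟨⟨R, ?_⟩, ?_⟩, ?_, hR⟩
  · apply hinj
    rw [hR, map_one, map_one]
  · intro u v
    apply hinj
    change bc _ L (R (u * v)) = bc _ L (R u * R v)
    rw [hR, map_mul, map_mul, map_mul, hR, hR]
  · intro u hu h
    have h2 : bc (algebraMap (K0 A) Qb) L (R u) = 0 := by
      change R u = 0 at h
      rw [h, map_zero]
    rw [hR] at h2
    exact hH.ne_zero _ ((map_ne_zero _).mpr hu) h2

end Fermat.Agent.RT6.R4
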