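import Fermat.Agent.RT6.Ev5
import Fermat.Agent.RT6.GeoSt

/-!
# The expansions of the operators over the inertia field
-/

set_option autoImplicit false
set_option linter.unusedSectionVars false
set_option linter.style.haveILetI false

noncomputable section

namespace Fermat.Agent.RT6.R56

open Fermat.Agent.Carayol
open Fermat.Agent.ModFun Fermat.Agent.GenusX0 ModularCurve

/-- **(R5), (R6)** -/
theorem isRS_of {k₀ K κ : Type} [Field k₀] [Field K] [Field κ] [Algebra k₀ K] {q M' : ℕ}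
    [NeZero q] [NeZero M'] [hq : Fact q.Prime] (S : Sit k₀ K κ q M') (hN : ¬ q ∣ M') {s : ZMod q}
    (hs : s ≠ 1) (hs0 : s ≠ 0) (R : S.F →* S.F) (hne : ∀ u, u ≠ 0 → R u ≠ 0)
    (hR : ∀ u, ((S.bK (R u) : FF K (q ^ 2 * M')) : LaurentSeries K) = RK s S.ζ S.sg (S.bK u)) :
    IsRS S R := by
  obtain ⟨b₀, h0, hb⟩ : ∃ b₀ : ℤ, (b₀ : ZMod q) ≠ 0 ∧
      S.ι S.ζ = Complex.exp (2 * Real.pi * Complex.I * (b₀ / q)) := by
    have hζι : IsPrimitiveRoot (S.ι S.ζ) q := S.hζ.map_of_injective S.ι.injective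
    obtain ⟨b, hbq, hbcop, hb⟩ := (Complex.isPrimitiveRoot_iff (S.ι S.ζ) q hq.out.ne_zero).1 hζι
    refine ⟨b, fun h => ?_, by rw [← hb]; push_cast; rfl⟩
    rw [Int.cast_natCast, ZMod.natCast_eq_zero_iff] at h
    have := Nat.dvd_gcd h (dvd_refl q)
    rw [hbcop] at this
    exact hq.out.one_lt.ne' (Nat.dvd_one.1 this)
  have hsg : ∀ i, ¬ q ∣ i → IsSig (S.ζ ^ i) (S.sg i) := fun i hi => S.sg_spec hi
  obtain ⟨w', hw'⟩ : ∃ w : FF K (q ^ 2 * M') →+* FF K (q ^ 2 * M'), IsW w := by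
    obtain ⟨w, h1, h2⟩ := exists_w (k := K) S.ι S.hq S.hM
    exact ⟨w, h1, h2⟩
  have hmem : ∀ u : S.F, RK s S.ζ S.sg (S.bK u) ∈ FF K (q ^ 2 * M') := fun u => by
    rw [← hR u]; exact (S.bK (R u)).2
  have hbR : ∀ u : S.F, S.bK (R u) = ⟨RK s S.ζ S.sg (S.bK u), hmem u⟩ := fun u =>
    Subtype.ext (hR u)
  have hbw : ∀ u : S.F, S.bK (S.w u) = w' (S.bK u) := fun u => IsW.bc S.hq S.hw hw' S.cK u
  refine ⟨hne, ⟨epsR q s, fun u => hR u⟩, ?_, ?_⟩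
  · obtain ⟨e, he⟩ := K_f2 hN s hs S.ζ S.sg hsg S.ι hb h0 hs0 hw'
    refine ⟨e, fun u => ?_⟩
    change ((S.bK (S.w (R u)) : FF K (q ^ 2 * M')) : LaurentSeries K) = _
    rw [hbw, hbR]
    exact he (S.bK u) (hmem u)
  · obtain ⟨e, h, a, b, c₁, c₂, hc, he⟩ := K_f1 hN s hs S.ζ S.sg hsg S.ι hb h0 hs0 hw' S.hs
    refine ⟨e, h, a, b, c₁, c₂, hc, fun u => ?_⟩
    change S.s (S.bK (R u)) = _
    rw [hbR, he (S.bK u) (hmem u), ← hbw]
    rfl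

end Fermat.Agent.RT6.R56
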