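import Fermat.Agent.RT6.RQ
import Fermat.Agent.Carayol.Norm2

/-!
# The operators `R_s` over the inertia field, and `RSSt`
-/

set_option autoImplicit false
set_option linter.unusedSectionVars false
set_option linter.style.haveILetI false

noncomputable section

namespace Fermat.Agent.RT6

open ModularCurve Fermat.Agent.ModFun Fermat.Agent.AnJac AlgebraicCurve
open Fermat.Agent.HeckeQ Matrix Fermat.Agent.Curves Module Fermat.Agent.Carayol
open Fermat.Agent.CarayolX CongruenceSubgroup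
open Fermat.Agent.GoodRed

local notation "Qb" => AlgebraicClosure ℚ

theorem RK_congr {q : ℕ} [NeZero q] [hq : Fact q.Prime] {N : ℕ} [NeZero N] {K : Type*} [Field K]
    (s : ZMod q) (ζ : Kˣ) {sg sg' : ℕ → (FF K (q ^ 2 * N) →+* LaurentSeries K)}
    (h : ∀ i, ¬ q ∣ i → sg i = sg' i) (u : FF K (q ^ 2 * N)) :
    RK s ζ sg u = RK s ζ sg' u := by
  rw [RK, RK]
  exact Finset.prod_congr rfl fun c _ => by rw [h _ (not_dvd_val c.ne_zero)]

section Level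

variable (q : ℕ) [hq : Fact q.Prime] [NeZero q] (s : ZMod q) (hs : s ≠ 1)
  (N M : ℕ) [NeZero N] [NeZero M] [NeZero (q ^ 2 * N)] [NeZero (q ^ 2 * M)] (hN : ¬ q ∣ N)
      (hM : ¬ q ∣ M)

theorem RQ_inc (h : q ^ 2 * N ∣ q ^ 2 * M) (u : FF Qb (q ^ 2 * N)) :
    RQ q M hM s hs (inc Qb h u) = inc Qb h (RQ q N hN s hs u) := by
  have hNM : N ∣ M := Nat.dvd_of_mul_dvd_mul_left (pow_pos hq.out.pos 2) h
  apply Subtype.ext
  rw [RQ_coe, coe_inc, RQ_coe, RK, RK]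
  refine Finset.prod_congr rfl fun c _ => ?_
  have hc := not_dvd_val c.ne_zero
  rw [sig_inc hq.out hNM h (sgQ_spec q N hN _ hc) (sgQ_spec q M hM _ hc)]

end Level

section Sit

variable {k₀ K κ : Type} [Field k₀] [Field K] [Field κ] [Algebra k₀ K] {q M' : ℕ}
    [NeZero q] [NeZero M'] (S : Sit k₀ K κ q M') [hq : Fact q.Prime] (hN : ¬ q ∣ M')
    (s : ZMod q) (hs : s ≠ 1) (hs0 : s ≠ 0)

include hN hs hs0 in
theorem isRS_of (R : S.F →* S.F)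
    (h : ∀ u : S.F, ((bc S.cK (q ^ 2 * M') (R u) : FF K (q ^ 2 * M')) : LaurentSeries K) =
      RK s S.ζ S.sg (bc S.cK (q ^ 2 * M') u)) : IsRS S R := by
  haveI := S.charZeroK
  haveI : IsAlgClosed K := S.acK
  obtain ⟨w', hw'⟩ := S.exists_wK
  obtain ⟨b₀, hb, h0⟩ := exists_b0 hq.out S.hζ S.ι
  have hsg : ∀ i, ¬ q ∣ i → IsSig (S.ζ ^ i) (S.sg i) := fun i hi => S.sg_spec hi
  have hmem : ∀ u : FF K (q ^ 2 * M'), RK s S.ζ S.sg u ∈ FF K (q ^ 2 * M') := fun u =>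
    RK_mem s hs S.ζ S.sg hsg S.ι hb h0 u hN
  have e2 : ∀ u, bc S.cK (q ^ 2 * M') (R u) =
      ⟨RK s S.ζ S.sg (bc S.cK (q ^ 2 * M') u), hmem _⟩ := fun u => Subtype.ext (h u)
  refine ⟨fun u hu h0 => ?_, ⟨fun c => epsR q s c, fun u => ?_⟩, ?_, ?_⟩
  · have h1 := h u
    rw [h0, map_zero] at h1
    exact RK_ne s S.ζ S.sg ((map_ne_zero _).2 hu) h1.symm
  · exact (h u).trans rfl
  · obtain ⟨e, he⟩ := K_f2 hN s hs S.ζ S.sg hsg S.ι hb h0 hs0 hw'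
    refine ⟨e, fun u => ?_⟩
    have e1 : S.φ 2 (R u) = ((w' (bc S.cK (q ^ 2 * M') (R u)) : FF K (q ^ 2 * M')) :
        LaurentSeries K) := by
      rw [← S.hw.bc S.hq hw']; rfl
    rw [e1, e2, he]
  · obtain ⟨e, hh, a, b, c₁, c₂, hc, he⟩ := K_f1 hN s hs S.ζ S.sg hsg S.ι hb h0 hs0 hw' S.hs
    refine ⟨e, hh, a, b, c₁, c₂, hc, fun u => ?_⟩
    have e1 : S.φ 1 (R u) = S.s (bc S.cK (q ^ 2 * M') (R u)) := rfl
    have e3 : S.φ 2 u = ((w' (bc S.cK (q ^ 2 * M') u) : FF K (q ^ 2 * M')) :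
        LaurentSeries K) := by
      rw [← S.hw.bc S.hq hw']; rfl
    rw [e1, e2, he, e3]
    rfl

end Sit

/-- **assembly** -/
theorem rs_of (H1 : R1St) (H2 : R2St) (H4 : R4St) : RSSt := by
  intro q hq _ s hs hs0
  refine ⟨fun N _ _ hN => RQ q N hN s hs, fun N _ _ hN => ⟨map_mul _, fun u hu => RQ_ne q N hN s hs hu,
    RQ_gal q N hN s hs, H1 q s hs N hN⟩, H2 q s hs, fun N M _ _ _ _ hN hM h u =>
    RQ_inc q s hs N M hN hM h u, ?_⟩
  intro M' _ _ hM' A hA hM h4 h9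
  obtain ⟨R, hR⟩ := H4 q s hs M' hM' A
  refine ⟨R, isRS_of (mkSit hq.out hA hM h4 h9) hM' s hs hs0 R fun u => ?_, hR⟩
  have h1 := congrArg (fun x : FF Qb (q ^ 2 * M') => (x : LaurentSeries Qb)) (hR u)
  refine h1.trans ?_
  rw [RQ_coe]
  exact RK_congr s (zQ q) (fun i hi => sig_unique hq.out (sgQ_spec q M' hM' i hi)
    ((mkSit hq.out hA hM h4 h9).sg_spec hi)) _

end Fermat.Agent.RT6
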