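import Fermat.Agent.TWCoh.Eis

/-!
# (A3): statements of the algebraic pieces
-/

set_option autoImplicit false

noncomputable section

namespace Fermat.Agent.RT6

open Fermat.Agent.TWCoh
open scoped MatrixGroups
open CongruenceSubgroup

/-- the projective line over `𝔽_q` -/
abbrev Pq (q : ℕ) [Fact q.Prime] := OnePoint (ZMod q)

instance (q : ℕ) [Fact q.Prime] : Fintype (Pq q) := inferInstanceAs (Fintype (Option (ZMod q)))

instance (q : ℕ) [Fact q.Prime] : DecidableEq (Pq q) :=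
  inferInstanceAs (DecidableEq (Option (ZMod q)))

/-- reduction `SL₂(ℤ) → GL₂(𝔽_q)` -/
def red (q : ℕ) : SL(2, ℤ) →* GL (Fin 2) (ZMod q) :=
  (Matrix.SpecialLinearGroup.toGL).comp (Matrix.SpecialLinearGroup.map (Int.castRingHom (ZMod q)))

/-- **(ALG)** -/
def AlgSt : Prop :=
  ∀ (p q : ℕ) [Fact p.Prime] [Fact q.Prime] (V : Type) [AddCommGroup V] [Module (ZMod p) V]
    (R : GL (Fin 2) (ZMod q) →* Module.End (ZMod p) V) (φ : Pq q → Pq q → V),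
    (p = 3 ∨ p = 5) → q ≠ p →
    (∀ g a b, R g (φ a b) = φ (g • a) (g • b)) →
    (∀ a, φ a a = 0) →
    (∀ a, ∑ b, φ a b = 0) → (∀ b, ∑ a, φ a b = 0) →
    (∀ s t : ZMod q, s ≠ 0 → s ≠ 1 → t ≠ 0 → t ≠ 1 →
      ∑ c ∈ Finset.univ.erase 0, φ ((c : ZMod q) : Pq q) ((s * c : ZMod q) : Pq q) =
      ∑ c ∈ Finset.univ.erase 0, φ ((c : ZMod q) : Pq q) ((t * c : ZMod q) : Pq q)) →
    (∀ v : V, (∀ g : GL (Fin 2) (ZMod q), g • (OnePoint.infty : Pq q) = OnePoint.infty →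
      R g v = v) → v = 0) →
    (p ∣ q - 1 → ∀ a b, φ a b = 0) ∧
    (p ∣ q + 1 → ∀ a b c, φ a b + φ b c + φ c a = 0)

/-- **(EX)** -/
def ExSt : Prop :=
  ∀ (p q N : ℕ) [Fact p.Prime] [Fact q.Prime] [NeZero N], p ≠ 2 →
    (p ≠ 3 ∨ ∃ r : ℕ, r.Prime ∧ r % 3 = 2 ∧ r ∣ N) → ¬ q ∣ N →
    ∀ φ : Pq q → Pq q → P1 → P1 → ZMod p,
    (∀ a b c x y, φ a b x y + φ b c x y = φ a c x y) →
    (∀ a b x y z, φ a b x y + φ a b y z = φ a b x z) →
    (∀ γ ∈ Gamma0 N, ∀ a b x y,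
      φ (red q γ • a) (red q γ • b) (io γ • x) (io γ • y) = φ a b x y) →
    (∀ (a b : Pq q) (x y : P1), φ (a.map (-·)) (b.map (-·)) (x.map (-·)) (y.map (-·)) =
      φ a b x y) →
    ∃ z : Pq q → P1 → P1 → ZMod p,
      (∀ a x y w, z a x y + z a y w = z a x w) ∧
      (∀ γ ∈ Gamma0 N, ∀ a x y, z (red q γ • a) (io γ • x) (io γ • y) = z a x y) ∧
      ∀ a b x y, z a x y - z b x y = φ a b x y

end Fermat.Agent.RT6
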