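import Fermat.Agent.RT6.GeoSt

/-!
# (A3), (G4a): `R_s u / R_t u` is a unit at the three components
-/

set_option autoImplicit false
set_option linter.style.haveILetI false
set_option linter.unusedSectionVars false

noncomputable section

namespace Fermat.Agent.RT6.StA

open ModularCurve Fermat.Agent.GoodRed Fermat.Agent.ModFun Fermat.Agent.GenusX0
open Fermat.Agent.Models IsLocalRing Polynomial Fermat.Agent.Carayol Fermat.Agent.RT6

variable {k₀ K κ : Type} [Field k₀] [Field K] [Field κ] [Algebra k₀ K] {q M' : ℕ}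
  [NeZero q] [NeZero M'] (S : Sit k₀ K κ q M')

/-! ### valuations -/

include S in
theorem q_ne : (q : K) ≠ 0 := by
  haveI := Sit.charZeroK S
  exact Nat.cast_ne_zero.2 (NeZero.ne q)

theorem val_q_ne : S.A.valuation (q : K) ≠ 0 :=
  (Valuation.ne_zero_iff _).2 (q_ne S)

theorem val_k0 {x : k₀} (hx : x ≠ 0) :
    ∃ n : ℤ, S.A.valuation (algebraMap k₀ K x) = S.A.valuation (q : K) ^ n := by
  obtain ⟨n, u, h⟩ := S.dvr x hx
  refine ⟨n, ?_⟩
  have h1 : S.A.valuation (algebraMap k₀ K ((u : S.A₀) : k₀)) = 1 := by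
    rw [← S.hinc]
    have : IsUnit (S.incA u) := u.isUnit.map S.incA
    exact (S.A.valuation_eq_one_iff _).1 this
  rw [h, map_mul, map_zpow₀, map_natCast, map_mul, map_zpow₀, h1, mul_one]

theorem val_alg {x : K} (hx : x ≠ 0) :
    ∃ e : ℕ, 0 < e ∧ ∃ f : ℤ, S.A.valuation x ^ e = S.A.valuation (q : K) ^ f := by
  classical
  haveI := S.intK
  obtain ⟨p, hp0, hp⟩ : IsAlgebraic k₀ x := Algebra.IsAlgebraic.isAlgebraic x
  set v := S.A.valuation with hv
  set f : ℕ → K := fun i => algebraMap k₀ K (p.coeff i) * x ^ i with hf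
  have hsum : ∑ i ∈ p.support, f i = 0 := by
    rw [aeval_eq_sum_range] at hp
    rw [← hp]
    have : ∑ i ∈ p.support, f i = p.sum fun i a => algebraMap k₀ K a * x ^ i := rfl
    rw [this, Polynomial.sum_over_range _ (by simp)]
    simp [Algebra.smul_def]
  have hne : p.support.Nonempty := by
    rw [nonempty_support_iff]; exact hp0
  obtain ⟨j, hj, hmax⟩ := Finset.exists_max_image p.support (fun i => v (f i)) hne
  have hfj : f j ≠ 0 := by
    rw [mem_support_iff] at hj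
    simp only [hf]
    refine mul_ne_zero ?_ (pow_ne_zero _ hx)
    rwa [ne_eq, map_eq_zero]
  have hex : ∃ i ∈ p.support, i ≠ j ∧ v (f i) = v (f j) := by
    by_contra hcon
    push Not at hcon
    have : v (∑ i ∈ p.support, f i) = v (f j) := by
      apply Valuation.map_sum_eq_of_lt v hj
      intro i hi
      rw [Finset.mem_sdiff, Finset.mem_singleton] at hi
      exact lt_of_le_of_ne (hmax i hi.1) (hcon i hi.1 hi.2)
    rw [hsum, map_zero] at this
    exact hfj ((Valuation.zero_iff v).mp this.symm)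
  obtain ⟨i, hi, hij, hvv⟩ := hex
  rw [mem_support_iff] at hi hj
  obtain ⟨a, ha⟩ := val_k0 S hi
  obtain ⟨b, hb⟩ := val_k0 S hj
  simp only [hf, map_mul, map_pow, ← hv] at hvv ha hb
  rw [ha, hb] at hvv
  have hq0 : v (q : K) ≠ 0 := val_q_ne S
  have hx0 : v x ≠ 0 := (Valuation.ne_zero_iff v).mpr hx
  rcases lt_or_gt_of_ne hij with hlt | hlt
  · refine ⟨j - i, by omega, a - b, ?_⟩
    rw [zpow_sub₀ hq0, eq_div_iff (zpow_ne_zero _ hq0), pow_sub₀ _ hx0 hlt.le]
    rw [← mul_comm (v q ^ b), ← mul_assoc, ← hvv, mul_assoc, mul_inv_cancel₀ (pow_ne_zero _ hx0),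
      mul_one]
  · refine ⟨i - j, by omega, b - a, ?_⟩
    rw [zpow_sub₀ hq0, eq_div_iff (zpow_ne_zero _ hq0), pow_sub₀ _ hx0 hlt.le]
    rw [← mul_comm (v q ^ a), ← mul_assoc, hvv, mul_assoc, mul_inv_cancel₀ (pow_ne_zero _ hx0),
      mul_one]

/-- automorphisms acting trivially on the residue field preserve the valuation -/
theorem val_tau {τ : K →+* K} (hτ : ∀ a : S.A, ∃ h : τ a ∈ S.A, S.π ⟨τ a, h⟩ = S.π a) {c : K}
    (hc : c ≠ 0) : S.A.valuation (τ c) = S.A.valuation c := by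
  obtain ⟨e, he, f, hef⟩ := val_alg S hc
  have hq0 := q_ne S
  -- the unit
  have hw1 : S.A.valuation (c ^ e * ((q : K) ^ f)⁻¹) = 1 := by
    rw [map_mul, map_pow, map_inv₀, map_zpow₀, hef,
      mul_inv_cancel₀ (zpow_ne_zero _ (val_q_ne S))]
  have hwA : c ^ e * ((q : K) ^ f)⁻¹ ∈ S.A := (S.A.valuation_le_one_iff _).1 hw1.le
  have hwu : IsUnit (⟨_, hwA⟩ : S.A) := (S.A.valuation_eq_one_iff ⟨_, hwA⟩).2 hw1
  obtain ⟨h1, h2⟩ := hτ ⟨_, hwA⟩
  have h3 : IsUnit (⟨τ (c ^ e * ((q : K) ^ f)⁻¹), h1⟩ : S.A) := by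
    apply isUnit_of_map_unit S.π
    rw [h2]
    exact hwu.map S.π
  have h4 := (S.A.valuation_eq_one_iff _).1 h3
  change S.A.valuation (τ (c ^ e * ((q : K) ^ f)⁻¹)) = 1 at h4
  rw [map_mul, map_pow, map_inv₀, map_zpow₀, map_natCast, map_mul, map_pow, map_inv₀,
    map_zpow₀, mul_inv_eq_one₀ (zpow_ne_zero _ (val_q_ne S)), ← hef] at h4
  exact (pow_left_inj₀ zero_le zero_le he.ne').1 h4

/-! ### scaled reductions -/

/-- `c x` reduces to `y` -/
def SR (c : K) (x : LaurentSeries K) (y : LaurentSeries κ) : Prop :=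
  LR S.π (algebraMap K (LaurentSeries K) c * x) y

variable {S}

theorem SR.mul {c c' : K} {x x' : LaurentSeries K} {y y' : LaurentSeries κ} (h : SR S c x y)
    (h' : SR S c' x' y') : SR S (c * c') (x * x') (y * y') := by
  have := LR.mul h h'
  rwa [SR, map_mul, mul_mul_mul_comm]

theorem SR.prod {I : Type*} (s : Finset I) {c : I → K} {x : I → LaurentSeries K}
    {y : I → LaurentSeries κ} (h : ∀ i, SR S (c i) (x i) (y i)) :
    SR S (∏ i ∈ s, c i) (∏ i ∈ s, x i) (∏ i ∈ s, y i) := by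
  rw [SR, map_prod, ← Finset.prod_mul_distrib]
  exact LR_prod s h

theorem SR.tw {c : K} {x : LaurentSeries K} {y : LaurentSeries κ} (h : SR S c x y) (n : ℕ) :
    SR S c (twist (S.ζ ^ n) x) y := by
  have hpow : ∀ n : ℕ, LR S.π (twist (S.ζ ^ n) (algebraMap K (LaurentSeries K) c * x)) y := by
    intro n
    induction n with
    | zero => rw [pow_zero, twist_one]; exact h
    | succ n ih =>
      rw [pow_succ', ← twist_twist]
      exact S.R_twist ih
  have h1 := hpow n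
  rwa [map_mul, twist_const] at h1

theorem SR.tau {τ : K →+* K} (hτ : ∀ a : S.A, ∃ h : τ a ∈ S.A, S.π ⟨τ a, h⟩ = S.π a)
    {c : K} {x : LaurentSeries K} {y : LaurentSeries κ} (h : SR S c x y) :
    SR S (τ c) (coeffMap τ x) y := by
  have h1 := LR_galois hτ h
  rwa [map_mul, Carayol.coeffMap_algebraMap] at h1

/-- the quotient of two elements with the same reduction up to scaling -/
theorem SR.ratio {c c' : K} {x x' : LaurentSeries K} {y : LaurentSeries κ} (h : SR S c x y)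
    (h' : SR S c' x' y) (hy : y ≠ 0) (hc : c ≠ 0) (hc' : c' ≠ 0)
    (hv : S.A.valuation c = S.A.valuation c') :
    ∃ r : κ, r ≠ 0 ∧ LR S.π (x * x'⁻¹) (algebraMap κ (LaurentSeries κ) r) := by
  have hw1 : S.A.valuation (c' * c⁻¹) = 1 := by
    rw [map_mul, map_inv₀, hv, mul_inv_cancel₀ ((Valuation.ne_zero_iff _).2 hc')]
  have hwA : c' * c⁻¹ ∈ S.A := (S.A.valuation_le_one_iff _).1 hw1.le
  have hwu : IsUnit (⟨_, hwA⟩ : S.A) := (S.A.valuation_eq_one_iff ⟨_, hwA⟩).2 hw1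
  refine ⟨S.π ⟨_, hwA⟩, (hwu.map S.π).ne_zero, ?_⟩
  have h1 := (LR.const S.π ⟨_, hwA⟩).mul (LR.mul h (LR.inv h' hy))
  rw [mul_inv_cancel₀ hy, mul_one] at h1
  convert h1 using 1
  have e1 : algebraMap K (LaurentSeries K) c ≠ 0 := (_root_.map_ne_zero _).2 hc
  have e2 : algebraMap K (LaurentSeries K) c' ≠ 0 := (_root_.map_ne_zero _).2 hc'
  rw [mul_inv, map_mul, map_inv₀]
  field_simp

section Gal

variable (hG : S.HasGal)

include hG in
theorem SR_sg {i : ℕ} (hi : ¬ q ∣ i) {c : K} (hc : c ≠ 0) {x : S.F} {y : LaurentSeries κ}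
    (h : SR S c (S.φ 1 x) y) : ∃ c' : K, c' ≠ 0 ∧ S.A.valuation c' = S.A.valuation c ∧
      SR S c' (S.sg i (S.bK x)) y := by
  obtain ⟨τ, h1, h2, h3⟩ := hG i hi
  have h4 : Units.map (τ : K →* K) S.ζ = S.ζ ^ i := by
    ext
    push_cast
    exact h2
  have h5 := S.hs.galois S.hq τ S.cK h1 (s' := S.sg i) (by rw [h4]; exact S.sg_spec hi) x
  refine ⟨τ c, (_root_.map_ne_zero τ).2 hc, val_tau S h3 hc, ?_⟩
  have h6 := SR.tau h3 h
  have h7 : coeffMap τ (S.φ 1 x) = S.sg i (S.bK x) := h5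
  rwa [h7] at h6

include hG in
theorem exists_sgc {c : K} (hc : c ≠ 0) {x : S.F} {y : LaurentSeries κ}
    (h : SR S c (S.φ 1 x) y) (a : (ZMod q)ˣ) : ∃ c' : K, c' ≠ 0 ∧
      S.A.valuation c' = S.A.valuation c ∧
      SR S c' (S.sg (a : ZMod q).val (S.bK x)) y := by
  haveI : Fact q.Prime := ⟨S.hq⟩
  refine SR_sg hG (fun hd => ?_) hc h
  have h1 : ((a : ZMod q).val : ZMod q) = 0 := (ZMod.natCast_eq_zero_iff _ _).2 hd
  rw [ZMod.natCast_zmod_val] at h1
  exact a.ne_zero h1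

end Gal

/-- conclusion from a scaled reduction of both -/
theorem fin (i : Fin 3) {x x' : S.F} {c c' : K} {y : LaurentSeries κ}
    (h : SR S c (S.φ i x) y) (h' : SR S c' (S.φ i x') y) (hy : y ≠ 0) (hc : c ≠ 0)
    (hc' : c' ≠ 0) (hv : S.A.valuation c = S.A.valuation c') :
    (S.C i).r (x * x'⁻¹) ≠ 0 := by
  obtain ⟨r, hr, h1⟩ := SR.ratio h h' hy hc hc' hv
  intro h0
  have h2 : (S.P i).R (x * x'⁻¹) (algebraMap κ (LaurentSeries κ) r) := by
    rw [Sit.P_R, map_mul, map_inv₀]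
    exact h1
  have h3 := Sit.C_coe h2
  rw [h0] at h3
  exact ((_root_.map_ne_zero (algebraMap κ (LaurentSeries κ))).2 hr) h3.symm

end Fermat.Agent.RT6.StA

namespace Fermat.Agent.RT6

open ModularCurve Fermat.Agent.GoodRed Fermat.Agent.ModFun Fermat.Agent.GenusX0
open Fermat.Agent.Models IsLocalRing Polynomial Fermat.Agent.Carayol StA

theorem starA : StarA := by
  intro k₀ K κ _ _ _ _ q M' _ _ S hG hP R R' hR hR' u hu i
  haveI : Fact q.Prime := ⟨S.hq⟩
  obtain ⟨c0, hc0, y0, hy0, H0⟩ := S.φ_scale 0 u hu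
  obtain ⟨c1, hc1, y1, hy1, H1⟩ := S.φ_scale 1 u hu
  obtain ⟨c2, hc2, y2, hy2, H2⟩ := S.φ_scale 2 u hu
  have H1' : SR S c1 (S.φ 1 u) y1 := H1
  choose d hd hdv hdR using fun a => exists_sgc hG hc1 H1' a
  have hd' : ∀ a : (ZMod q)ˣ, d a ≠ 0 := hd
  -- the components `0` and `2`
  have key : ∀ (i : Fin 3) (R : S.F →* S.F), (∃ e : (ZMod q)ˣ → ℕ, ∀ u, S.φ i (R u) =
      ∏ c : (ZMod q)ˣ, twist (S.ζ ^ e c) (S.sg (c : ZMod q).val (S.bK u))) →
      SR S (∏ a : (ZMod q)ˣ, d a) (S.φ i (R u)) (∏ _a : (ZMod q)ˣ, y1) := by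
    intro i R ⟨e, he⟩
    rw [he u]
    exact SR.prod _ fun a => (hdR a).tw (e a)
  have hprod : (∏ a : (ZMod q)ˣ, d a) ≠ 0 := Finset.prod_ne_zero_iff.2 fun a _ => hd a
  have hyp : (∏ _a : (ZMod q)ˣ, y1) ≠ 0 := Finset.prod_ne_zero_iff.2 fun a _ => hy1
  fin_cases i
  · exact fin 0 (key 0 R hR.f0) (key 0 R' hR'.f0) hyp hprod hprod rfl
  · -- the middle component
    have key1 : ∀ (R : S.F →* S.F), IsRS S R → ∃ c : K, c ≠ 0 ∧
        S.A.valuation c = S.A.valuation c0 * S.A.valuation c2 *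
          S.A.valuation c1 ^ (Fintype.card (ZMod q)ˣ - 2) ∧
        SR S c (S.φ 1 (R u)) (y0 * y2 * y1 ^ (Fintype.card (ZMod q)ˣ - 2)) := by
      intro R hR
      obtain ⟨e, h, a, b, c₁, c₂, hne, he⟩ := hR.f1
      have hcard : ((Finset.univ.erase c₁).erase c₂).card = Fintype.card (ZMod q)ˣ - 2 := by
        rw [Finset.card_erase_of_mem (Finset.mem_erase.2 ⟨hne.symm, Finset.mem_univ _⟩),
          Finset.card_erase_of_mem (Finset.mem_univ _), Finset.card_univ]
        rfl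
      refine ⟨c0 * c2 * ∏ c ∈ (Finset.univ.erase c₁).erase c₂, d (h c), ?_, ?_, ?_⟩
      · exact mul_ne_zero (mul_ne_zero hc0 hc2) (Finset.prod_ne_zero_iff.2 fun a _ => hd _)
      · rw [map_mul, map_mul, map_prod, Finset.prod_congr rfl (fun c _ => hdv (h c)),
          Finset.prod_const, hcard]
      · rw [he u, ← hcard, ← Finset.prod_const]
        exact ((SR.tw (S := S) H0 a).mul (SR.tw (S := S) H2 b)).mul
          (SR.prod _ fun c => (hdR (h c)).tw (e c))
    obtain ⟨c, hc, hv, H⟩ := key1 R hR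
    obtain ⟨c', hc', hv', H'⟩ := key1 R' hR'
    exact fin 1 H H' (mul_ne_zero (mul_ne_zero hy0 hy2) (pow_ne_zero _ hy1)) hc hc'
      (hv.trans hv'.symm)
  · exact fin 2 (key 2 R hR.f2) (key 2 R' hR'.f2) hyp hprod hprod rfl

end Fermat.Agent.RT6
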